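import Mathlib
import Fermat.Agent.S29.ParOrbit

/-!
# S41, piece P3, part 1: coset families and their operators on `Hom(Γ, A)`

A *coset family* from `G` to `H` (subgroups of `SL₂(ℤ)`) is a finite family of matrices
`r x ∈ GL₂(ℝ)`, `x ∈ X`, together with a right action of `G` on `X` and a cocycle `κ : G → X → H`
with `r x * g = κ g x * r (x · g)`. It induces `op : Hom(H, A) → Hom(G, A)`,
`(op c)(g) = ∑ x, c (κ g x)`. Hecke operators, restriction, conjugation and transfer are all of
this form; composition of operators is composition of families, and the operator only depends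
on the cosets `H · r x`.
-/

set_option autoImplicit false
set_option linter.unusedSectionVars false
set_option linter.unusedVariables false

noncomputable section

open Matrix.SpecialLinearGroup CongruenceSubgroup
open scoped MatrixGroups
open ModularCurve.Period

namespace Fermat.Agent.S41.P3

/-- a family of representatives `r x` of right cosets `H · r x`, permuted by right
multiplication by `G`: `r x * g = κ g x * r (act g x)` -/
structure CosetFam (H G : Subgroup SL(2, ℤ)) (X : Type*) where
  /-- the representatives -/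
  r : X → GL (Fin 2) ℝ
  /-- the right action of `G` on the index set -/
  act : G → X → X
  /-- the cocycle -/
  κ : G → X → H
  spec : ∀ (g : G) (x : X), r x * mapGL ℝ (g : SL(2, ℤ))
    = mapGL ℝ ((κ g x : H) : SL(2, ℤ)) * r (act g x)
  act_one : ∀ x : X, act 1 x = x
  act_mul : ∀ (g h : G) (x : X), act (g * h) x = act h (act g x)

namespace CosetFam

variable {H G K : Subgroup SL(2, ℤ)} {X Y : Type*}

theorem mapGL_inj {g h : SL(2, ℤ)} (e : mapGL ℝ g = mapGL ℝ h) : g = h :=
  mapGL_injective (R := ℤ) (S := ℝ) e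

section basic

variable (F : CosetFam H G X)

theorem κ_unique (g : G) (x : X) {h : SL(2, ℤ)}
    (hh : F.r x * mapGL ℝ (g : SL(2, ℤ)) = mapGL ℝ h * F.r (F.act g x)) :
    h = ((F.κ g x : H) : SL(2, ℤ)) := by
  have h1 := F.spec g x
  rw [hh] at h1
  exact mapGL_inj (mul_right_cancel h1)

theorem κ_mul (g h : G) (x : X) : F.κ (g * h) x = F.κ g x * F.κ h (F.act g x) := by
  apply Subtype.ext
  symm
  have h1 : F.r x * mapGL ℝ ((g * h : G) : SL(2, ℤ))
      = mapGL ℝ (((F.κ g x * F.κ h (F.act g x) : H)) : SL(2, ℤ)) * F.r (F.act (g * h) x) := by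
    rw [Subgroup.coe_mul, Subgroup.coe_mul, map_mul, map_mul, ← mul_assoc, F.spec g x,
      mul_assoc, F.spec h, F.act_mul, mul_assoc]
  exact F.κ_unique (g * h) x h1

@[simp] theorem κ_one (x : X) : F.κ 1 x = 1 := by
  apply Subtype.ext
  symm
  have h1 : F.r x * mapGL ℝ ((1 : G) : SL(2, ℤ))
      = mapGL ℝ (((1 : H)) : SL(2, ℤ)) * F.r (F.act 1 x) := by
    rw [Subgroup.coe_one, Subgroup.coe_one, map_one, mul_one, one_mul, F.act_one]
  exact F.κ_unique 1 x h1

/-- the action of `g`, as a permutation -/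
def actEquiv (g : G) : Equiv.Perm X where
  toFun := F.act g
  invFun := F.act g⁻¹
  left_inv x := by rw [← F.act_mul, mul_inv_cancel, F.act_one]
  right_inv x := by rw [← F.act_mul, inv_mul_cancel, F.act_one]

@[simp] theorem actEquiv_apply (g : G) (x : X) : F.actEquiv g x = F.act g x := rfl

theorem act_inv_act (g : G) (x : X) : F.act g⁻¹ (F.act g x) = x :=
  (F.actEquiv g).left_inv x

theorem act_act_inv (g : G) (x : X) : F.act g (F.act g⁻¹ x) = x :=
  (F.actEquiv g).right_inv x

theorem act_pow (g : G) (m : ℕ) (x : X) : F.act (g ^ m) x = (F.act g)^[m] x := by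
  induction m generalizing x with
  | zero => simp [F.act_one]
  | succ m ih => rw [pow_succ', F.act_mul, ih, Function.iterate_succ_apply]

theorem κ_pow_succ (g : G) (m : ℕ) (x : X) :
    F.κ (g ^ (m + 1)) x = F.κ (g ^ m) x * F.κ g ((F.act g)^[m] x) := by
  rw [pow_succ, F.κ_mul, F.act_pow]

/-- if `g` fixes `x`, then `κ g x` is conjugate to `g` in `GL₂(ℝ)` -/
theorem mapGL_κ_of_act_eq (g : G) (x : X) (hx : F.act g x = x) :
    mapGL ℝ ((F.κ g x : H) : SL(2, ℤ)) = F.r x * mapGL ℝ (g : SL(2, ℤ)) * (F.r x)⁻¹ := by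
  have h := F.spec g x
  rw [hx] at h
  rw [h, mul_assoc, mul_inv_cancel, mul_one]

theorem trace_κ_of_act_eq (g : G) (x : X) (hx : F.act g x = x) :
    (((F.κ g x : H) : SL(2, ℤ)) : Matrix (Fin 2) (Fin 2) ℤ).trace
      = ((g : SL(2, ℤ)) : Matrix (Fin 2) (Fin 2) ℤ).trace := by
  have h1 := F.mapGL_κ_of_act_eq g x hx
  have h2 : ((mapGL ℝ ((F.κ g x : H) : SL(2, ℤ)) : GL (Fin 2) ℝ)
      : Matrix (Fin 2) (Fin 2) ℝ).trace
      = ((mapGL ℝ (g : SL(2, ℤ)) : GL (Fin 2) ℝ) : Matrix (Fin 2) (Fin 2) ℝ).trace := by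
    rw [h1, Matrix.GeneralLinearGroup.coe_mul, Matrix.GeneralLinearGroup.coe_mul,
      Matrix.trace_mul_cycle, ← Matrix.GeneralLinearGroup.coe_mul, inv_mul_cancel,
      Matrix.GeneralLinearGroup.coe_one, one_mul]
  rw [Matrix.trace_fin_two, Matrix.trace_fin_two] at h2
  rw [Matrix.trace_fin_two, Matrix.trace_fin_two]
  have e : ∀ (g : SL(2, ℤ)) (i j : Fin 2),
      ((mapGL ℝ g : GL (Fin 2) ℝ) : Matrix (Fin 2) (Fin 2) ℝ) i j = ((g i j : ℤ) : ℝ) := by
    intro g i j
    simp
  rw [e, e, e, e] at h2
  exact_mod_cast h2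

end basic

/-! ### the operator -/

section op

variable [Fintype X] (F : CosetFam H G X) (A : Type*) [AddCommGroup A]

/-- the value of `op c` at `g` -/
def opVal (c : Additive H →+ A) (g : G) : A := ∑ x : X, c (Additive.ofMul (F.κ g x))

theorem opVal_mul (c : Additive H →+ A) (g h : G) :
    F.opVal A c (g * h) = F.opVal A c g + F.opVal A c h := by
  unfold opVal
  have h1 : ∀ x : X, c (Additive.ofMul (F.κ (g * h) x))
      = c (Additive.ofMul (F.κ g x)) + c (Additive.ofMul (F.κ h (F.act g x))) := by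
    intro x
    rw [F.κ_mul, ofMul_mul, map_add]
  rw [Finset.sum_congr rfl (fun x _ => h1 x), Finset.sum_add_distrib]
  congr 1
  exact Equiv.sum_comp (F.actEquiv g) (fun x => c (Additive.ofMul (F.κ h x)))

/-- **the operator `Hom(H, A) → Hom(G, A)` of a coset family** -/
def op : (Additive H →+ A) →+ (Additive G →+ A) where
  toFun c :=
    { toFun := fun g => F.opVal A c (Additive.toMul g)
      map_zero' := by
        show F.opVal A c 1 = 0
        unfold opVal
        simp
      map_add' := fun g h => F.opVal_mul A c (Additive.toMul g) (Additive.toMul h) }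
  map_zero' := by
    refine AddMonoidHom.ext fun g => ?_
    show F.opVal A 0 (Additive.toMul g) = 0
    unfold opVal
    simp
  map_add' c c' := by
    refine AddMonoidHom.ext fun g => ?_
    show F.opVal A (c + c') (Additive.toMul g)
      = F.opVal A c (Additive.toMul g) + F.opVal A c' (Additive.toMul g)
    unfold opVal
    simp [Finset.sum_add_distrib]

theorem op_apply (c : Additive H →+ A) (g : G) :
    F.op A c (Additive.ofMul g) = ∑ x : X, c (Additive.ofMul (F.κ g x)) := rfl

variable {A}

/-- functoriality in the coefficient group -/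
theorem op_comp_hom {B : Type*} [AddCommGroup B] (τ : A →+ B) (c : Additive H →+ A) :
    F.op B (τ.comp c) = τ.comp (F.op A c) := by
  refine AddMonoidHom.ext fun g => ?_
  show F.opVal B (τ.comp c) (Additive.toMul g) = τ (F.opVal A c (Additive.toMul g))
  unfold opVal
  rw [map_sum]
  rfl

theorem op_smul {R : Type*} [Ring R] [Module R A] (a : R) (c : Additive H →+ A) :
    F.op A (a • c) = a • F.op A c := by
  refine AddMonoidHom.ext fun g => ?_
  show F.opVal A (a • c) (Additive.toMul g) = a • F.opVal A c (Additive.toMul g)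
  unfold opVal
  rw [Finset.smul_sum]
  rfl

theorem sum_range_κ (c : Additive H →+ A) (g : G) (m : ℕ) (x : X) :
    ∑ i ∈ Finset.range m, c (Additive.ofMul (F.κ g ((F.act g)^[i] x)))
      = c (Additive.ofMul (F.κ (g ^ m) x)) := by
  induction m with
  | zero => simp
  | succ m ih => rw [Finset.sum_range_succ, ih, F.κ_pow_succ, ofMul_mul, map_add]

/-- the value of `op c` at `g` vanishes as soon as `c` vanishes at all the elements
`κ (g ^ m) x` with `x · g ^ m = x` -/
theorem op_apply_eq_zero (c : Additive H →+ A) (g : G)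
    (h : ∀ (x : X) (m : ℕ), 0 < m → F.act (g ^ m) x = x →
      c (Additive.ofMul (F.κ (g ^ m) x)) = 0) :
    F.op A c (Additive.ofMul g) = 0 := by
  classical
  rw [op_apply]
  apply Fermat.Agent.S29.D1.sum_eq_zero_of_orbit_sums (F.actEquiv g)
    (fun x => c (Additive.ofMul (F.κ g x)))
  intro x m hm hx
  have hx' : F.act (g ^ m) x = x := by
    rw [F.act_pow]
    exact hx
  have := F.sum_range_κ c g m x
  rw [← h x m hm hx', ← this]
  rfl

/-- **the operator of a coset family preserves parabolic homomorphisms** -/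
theorem op_isParabolicHom {c : Additive H →+ A} (hc : IsParabolicHom H c) :
    IsParabolicHom G (F.op A c) := by
  intro g hg
  apply F.op_apply_eq_zero
  intro x m hm hx
  apply hc
  rw [F.trace_κ_of_act_eq (g ^ m) x hx, Subgroup.coe_pow]
  exact Fermat.Agent.S29.D1.trace_pow_sq_of_trace_sq _ hg m

theorem κ_pow_eq_one_of_act_eq (g : G) (x : X) (hx : F.act g x = x) (n : ℕ) (hn : g ^ n = 1) :
    F.κ g x ^ n = 1 := by
  apply Subtype.ext
  apply mapGL_inj
  rw [Subgroup.coe_pow, map_pow, F.mapGL_κ_of_act_eq g x hx, conj_pow, ← map_pow,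
    ← Subgroup.coe_pow, hn, Subgroup.coe_one, map_one, mul_one, mul_inv_cancel, Subgroup.coe_one,
    map_one]

/-- the operator of a coset family preserves homomorphisms killing the elements of finite
order -/
theorem op_isOfFinOrder {c : Additive H →+ A}
    (hc : ∀ h : H, IsOfFinOrder h → c (Additive.ofMul h) = 0)
    (g : G) (hg : IsOfFinOrder g) : F.op A c (Additive.ofMul g) = 0 := by
  apply F.op_apply_eq_zero
  intro x m hm hx
  apply hc
  obtain ⟨n, hn, hgn⟩ := isOfFinOrder_iff_pow_eq_one.mp hg
  rw [isOfFinOrder_iff_pow_eq_one]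
  refine ⟨n, hn, F.κ_pow_eq_one_of_act_eq (g ^ m) x hx n ?_⟩
  rw [← pow_mul, mul_comm, pow_mul, hgn, one_pow]

variable (R : Type*) [Ring R] (A) [Module R A]

/-- the operator of a coset family on parabolic homomorphisms, as a linear map -/
def opPar : parabolicHoms R H A →ₗ[R] parabolicHoms R G A where
  toFun c := ⟨F.op A c.1, F.op_isParabolicHom c.2⟩
  map_add' c c' := Subtype.ext (map_add (F.op A) c.1 c'.1)
  map_smul' a c := Subtype.ext (F.op_smul a c.1)

@[simp] theorem coe_opPar (c : parabolicHoms R H A) :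
    ((F.opPar A R c : parabolicHoms R G A) : Additive G →+ A) = F.op A c.1 := rfl

end op

/-! ### composition -/

section comp

/-- the composite of two coset families: representatives `F'.r y * F.r x` -/
def comp (F : CosetFam H G X) (F' : CosetFam K H Y) : CosetFam K G (X × Y) where
  r z := F'.r z.2 * F.r z.1
  act g z := (F.act g z.1, F'.act (F.κ g z.1) z.2)
  κ g z := F'.κ (F.κ g z.1) z.2
  spec g z := by
    rw [mul_assoc, F.spec g z.1, ← mul_assoc, F'.spec (F.κ g z.1) z.2, mul_assoc]
  act_one z := by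
    ext
    · exact F.act_one z.1
    · show F'.act (F.κ 1 z.1) z.2 = z.2
      rw [F.κ_one, F'.act_one]
  act_mul g h z := by
    ext
    · exact F.act_mul g h z.1
    · show F'.act (F.κ (g * h) z.1) z.2 = F'.act (F.κ h (F.act g z.1)) (F'.act (F.κ g z.1) z.2)
      rw [F.κ_mul, F'.act_mul]

variable [Fintype X] [Fintype Y]

theorem op_comp (F : CosetFam H G X) (F' : CosetFam K H Y) (A : Type*) [AddCommGroup A]
    (c : Additive K →+ A) : (F.comp F').op A c = F.op A (F'.op A c) := by
  refine AddMonoidHom.ext fun g' => ?_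
  obtain ⟨g, rfl⟩ : ∃ g : G, Additive.ofMul g = g' := ⟨Additive.toMul g', rfl⟩
  rw [op_apply, op_apply, Fintype.sum_prod_type]
  rfl

end comp

/-! ### the operator only depends on the cosets -/

section equiv

variable [Fintype X] [Fintype Y]

/-- two cohomologous cocycles give the same operator -/
theorem op_eq_of_coh (F : CosetFam H G X) (F' : CosetFam H G Y) (e : X ≃ Y) (u : X → H)
    (hact : ∀ (g : G) (x : X), e (F.act g x) = F'.act g (e x))
    (hκ : ∀ (g : G) (x : X), F.κ g x * u (F.act g x) = u x * F'.κ g (e x))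
    (A : Type*) [AddCommGroup A] (c : Additive H →+ A) : F.op A c = F'.op A c := by
  refine AddMonoidHom.ext fun g' => ?_
  obtain ⟨g, rfl⟩ : ∃ g : G, Additive.ofMul g = g' := ⟨Additive.toMul g', rfl⟩
  rw [op_apply, op_apply]
  have h1 : ∀ x : X, c (Additive.ofMul (F.κ g x))
      = c (Additive.ofMul (u x)) + c (Additive.ofMul (F'.κ g (e x)))
        - c (Additive.ofMul (u (F.act g x))) := by
    intro x
    have := congrArg (fun h : H => c (Additive.ofMul h)) (hκ g x)
    simp only [ofMul_mul, map_add] at this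
    rw [← this]
    abel
  rw [Finset.sum_congr rfl (fun x _ => h1 x), Finset.sum_sub_distrib, Finset.sum_add_distrib]
  have h2 : ∑ x : X, c (Additive.ofMul (u (F.act g x))) = ∑ x : X, c (Additive.ofMul (u x)) :=
    Equiv.sum_comp (F.actEquiv g) (fun x => c (Additive.ofMul (u x)))
  have h3 : ∑ x : X, c (Additive.ofMul (F'.κ g (e x))) = ∑ y : Y, c (Additive.ofMul (F'.κ g y)) :=
    Equiv.sum_comp e (fun y => c (Additive.ofMul (F'.κ g y)))
  rw [h2, h3]
  abel

/-- the representatives of a family lie in pairwise different cosets -/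
def Uniq (F : CosetFam H G X) : Prop :=
  ∀ (x y : X) (h : H), F.r x = mapGL ℝ (h : SL(2, ℤ)) * F.r y → x = y

/-- **two families with the same cosets give the same operator** -/
theorem op_eq_of_rel (F : CosetFam H G X) (F' : CosetFam H G Y) (hF' : F'.Uniq)
    (e : X ≃ Y) (u : X → H)
    (hr : ∀ x : X, F.r x = mapGL ℝ ((u x : H) : SL(2, ℤ)) * F'.r (e x))
    (A : Type*) [AddCommGroup A] (c : Additive H →+ A) : F.op A c = F'.op A c := by
  have key : ∀ (g : G) (x : X),
      F'.r (F'.act g (e x))
        = mapGL ℝ ((((F'.κ g (e x))⁻¹ * (u x)⁻¹ * F.κ g x * u (F.act g x) : H)) : SL(2, ℤ))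
          * F'.r (e (F.act g x)) := by
    intro g x
    have h1 := F.spec g x
    rw [hr x, hr (F.act g x), mul_assoc, F'.spec g (e x)] at h1
    -- h1 : u x * (κ' * r' (act' g (e x))) = κ * (u (act) * r' (e (act g x)))
    have h2 : F'.r (F'.act g (e x))
        = (mapGL ℝ ((F'.κ g (e x) : H) : SL(2, ℤ)))⁻¹ * ((mapGL ℝ ((u x : H) : SL(2, ℤ)))⁻¹
          * (mapGL ℝ ((F.κ g x : H) : SL(2, ℤ))
            * (mapGL ℝ ((u (F.act g x) : H) : SL(2, ℤ)) * F'.r (e (F.act g x))))) := by
      rw [← h1]
      group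
    rw [h2]
    simp only [Subgroup.coe_mul, Subgroup.coe_inv, map_mul, map_inv, mul_assoc]
  have hact : ∀ (g : G) (x : X), e (F.act g x) = F'.act g (e x) := fun g x =>
    (hF' _ _ _ (key g x)).symm
  refine F.op_eq_of_coh F' e u hact (fun g x => ?_) A c
  have h1 := F.spec g x
  rw [hr x, hr (F.act g x), mul_assoc, F'.spec g (e x), hact g x, ← mul_assoc, ← mul_assoc,
    ← map_mul, ← map_mul, ← Subgroup.coe_mul, ← Subgroup.coe_mul] at h1
  exact (Subtype.ext (mapGL_inj (mul_right_cancel h1))).symm

end equiv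

end CosetFam

end Fermat.Agent.S41.P3
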