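import Mathlib
import Fermat.Agent.S41.DegenAbs

/-!
# S41, piece P3, part 2: the concrete coset families

* `heckeFam ℓ N` : the Hecke operator `T_ℓ` on `Hom(Γ₀(N), A)`, `ℓ ∤ N`;
* `resFam` : restriction;
* `subFam` : a sub-family (used for the conjugations `β*` and for `U_q`);
* `transferFam` : the transfer (corestriction) from the stabiliser of a point.
-/

set_option autoImplicit false
set_option linter.unusedSectionVars false
set_option linter.unusedVariables false

noncomputable section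

open Matrix.SpecialLinearGroup CongruenceSubgroup
open scoped MatrixGroups OnePoint
open ModularCurve.Period
open Fermat.Agent.S29.D1
open P2MW.S_ModularForm_heckeT_slash_eq_self_of_mem_Gamma0.ModularForm.HeckeSlashInvariance

namespace Fermat.Agent.S41.P3

/-! ### the entries of the Hecke representatives -/

section entries

variable {ℓ : ℕ} [Fact ℓ.Prime]

/-- the upper left entry of `heckeRep ℓ x` -/
def hA (x : OnePoint (ZMod ℓ)) : ℤ := x.elim (ℓ : ℤ) (fun _ => 1)

/-- the upper right entry of `heckeRep ℓ x` -/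
def hB (x : OnePoint (ZMod ℓ)) : ℤ := x.elim 0 (fun j => (j.val : ℤ))

/-- the lower right entry of `heckeRep ℓ x` -/
def hD (x : OnePoint (ZMod ℓ)) : ℤ := x.elim 1 (fun _ => (ℓ : ℤ))

@[simp] theorem hA_infty : hA (∞ : OnePoint (ZMod ℓ)) = ℓ := rfl
@[simp] theorem hA_coe (j : ZMod ℓ) : hA (j : OnePoint (ZMod ℓ)) = 1 := rfl
@[simp] theorem hB_infty : hB (∞ : OnePoint (ZMod ℓ)) = 0 := rfl
@[simp] theorem hB_coe (j : ZMod ℓ) : hB (j : OnePoint (ZMod ℓ)) = (j.val : ℤ) := rfl
@[simp] theorem hD_infty : hD (∞ : OnePoint (ZMod ℓ)) = 1 := rfl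
@[simp] theorem hD_coe (j : ZMod ℓ) : hD (j : OnePoint (ZMod ℓ)) = ℓ := rfl

theorem prime_ne_zero : ℓ ≠ 0 := (Fact.out : ℓ.Prime).ne_zero

theorem heckeRep_val (x : OnePoint (ZMod ℓ)) :
    ((heckeRep ℓ x : GL (Fin 2) ℝ) : Matrix (Fin 2) (Fin 2) ℝ)
      = !![((hA x : ℤ) : ℝ), ((hB x : ℤ) : ℝ); 0, ((hD x : ℤ) : ℝ)] := by
  induction x using OnePoint.rec with
  | infty =>
    rw [heckeRep_infty, ModularForm.val_heckeDiagMatrix prime_ne_zero]
    simp
  | coe j =>
    rw [heckeRep_coe, ModularForm.val_heckeMatrix prime_ne_zero]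
    simp

theorem hA_pos (x : OnePoint (ZMod ℓ)) : 0 < hA x := by
  induction x using OnePoint.rec with
  | infty =>
    rw [hA_infty]
    exact_mod_cast (Fact.out : ℓ.Prime).pos
  | coe j => rw [hA_coe]; exact one_pos

theorem hD_pos (x : OnePoint (ZMod ℓ)) : 0 < hD x := by
  induction x using OnePoint.rec with
  | infty => rw [hD_infty]; exact one_pos
  | coe j =>
    rw [hD_coe]
    exact_mod_cast (Fact.out : ℓ.Prime).pos

theorem hA_eq (x : OnePoint (ZMod ℓ)) : hA x = 1 ∨ hA x = ℓ := by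
  induction x using OnePoint.rec with
  | infty => right; rfl
  | coe j => left; rfl

theorem hD_eq (x : OnePoint (ZMod ℓ)) : hD x = 1 ∨ hD x = ℓ := by
  induction x using OnePoint.rec with
  | infty => left; rfl
  | coe j => right; rfl

theorem hA_mul_hD (x : OnePoint (ZMod ℓ)) : hA x * hD x = ℓ := by
  induction x using OnePoint.rec with
  | infty => rw [hA_infty, hD_infty, mul_one]
  | coe j => rw [hA_coe, hD_coe, one_mul]

/-- the four entries of an equation `h_x g = k h_y` -/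
theorem entries_of_eq {x y : OnePoint (ZMod ℓ)} {g k : SL(2, ℤ)}
    (h : heckeRep ℓ x * mapGL ℝ g = mapGL ℝ k * heckeRep ℓ y) :
    hA x * g 0 0 + hB x * g 1 0 = k 0 0 * hA y ∧
    hA x * g 0 1 + hB x * g 1 1 = k 0 0 * hB y + k 0 1 * hD y ∧
    hD x * g 1 0 = k 1 0 * hA y ∧
    hD x * g 1 1 = k 1 0 * hB y + k 1 1 * hD y := by
  have h' := congrArg (fun M : GL (Fin 2) ℝ => (M : Matrix (Fin 2) (Fin 2) ℝ)) h
  simp only [Matrix.GeneralLinearGroup.coe_mul, heckeRep_val] at h'
  have e : ∀ (g : SL(2, ℤ)), ((mapGL ℝ g : GL (Fin 2) ℝ) : Matrix (Fin 2) (Fin 2) ℝ)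
      = !![((g 0 0 : ℤ) : ℝ), ((g 0 1 : ℤ) : ℝ); ((g 1 0 : ℤ) : ℝ), ((g 1 1 : ℤ) : ℝ)] := by
    intro g
    ext i j
    fin_cases i <;> fin_cases j <;> simp
  rw [e, e] at h'
  have h00 := congrFun (congrFun h' 0) 0
  have h01 := congrFun (congrFun h' 0) 1
  have h10 := congrFun (congrFun h' 1) 0
  have h11 := congrFun (congrFun h' 1) 1
  simp only [Matrix.mul_apply, Fin.sum_univ_two, Matrix.of_apply, Matrix.cons_val_zero,
    Matrix.cons_val_one, Matrix.cons_val', Matrix.cons_val_fin_one] at h00 h01 h10 h11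
  refine ⟨?_, ?_, ?_, ?_⟩
  · have : ((hA x * g 0 0 + hB x * g 1 0 : ℤ) : ℝ) = ((k 0 0 * hA y : ℤ) : ℝ) := by
      push_cast; linear_combination h00
    exact_mod_cast this
  · have : ((hA x * g 0 1 + hB x * g 1 1 : ℤ) : ℝ) = ((k 0 0 * hB y + k 0 1 * hD y : ℤ) : ℝ) := by
      push_cast; linear_combination h01
    exact_mod_cast this
  · have : ((hD x * g 1 0 : ℤ) : ℝ) = ((k 1 0 * hA y : ℤ) : ℝ) := by
      push_cast; linear_combination h10
    exact_mod_cast this
  · have : ((hD x * g 1 1 : ℤ) : ℝ) = ((k 1 0 * hB y + k 1 1 * hD y : ℤ) : ℝ) := by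
      push_cast; linear_combination h11
    exact_mod_cast this

/-- the Hecke representatives lie in different cosets of `SL₂(ℤ)` -/
theorem heckeRep_eq_mul {x y : OnePoint (ZMod ℓ)} {k : SL(2, ℤ)}
    (h : heckeRep ℓ x = mapGL ℝ k * heckeRep ℓ y) : x = y ∧ k = 1 := by
  have h' : heckeRep ℓ x * mapGL ℝ (1 : SL(2, ℤ)) = mapGL ℝ k * heckeRep ℓ y := by
    rw [map_one, mul_one, h]
  obtain ⟨e00, e01, e10, e11⟩ := entries_of_eq h'
  simp only [Matrix.SpecialLinearGroup.coe_one, Matrix.one_apply_eq, mul_one, mul_zero, add_zero,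
    zero_add, ne_eq, one_ne_zero, not_false_eq_true, Matrix.one_apply_ne, zero_ne_one] at e00 e01 e10 e11
  have hℓ : (2 : ℤ) ≤ ℓ := by exact_mod_cast (Fact.out : ℓ.Prime).two_le
  have k10 : k 1 0 = 0 := by
    rcases mul_eq_zero.mp e10.symm with h0 | h0
    · exact h0
    · exact absurd h0 (hA_pos y).ne'
  have hdet := det_eq k
  rw [k10, mul_zero, sub_zero] at hdet
  rw [k10, zero_mul, zero_add] at e11
  have k00 : k 0 0 = 1 := by
    rcases Int.eq_one_or_neg_one_of_mul_eq_one hdet with h1 | h1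
    · exact h1
    · exfalso
      rw [h1] at e00
      have := hA_pos x
      have := hA_pos y
      linarith
  have k11 : k 1 1 = 1 := by rw [k00, one_mul] at hdet; exact hdet
  rw [k00, one_mul] at e00 e01
  rw [k11, one_mul] at e11
  have hxy : x = y ∧ k 0 1 = 0 := by
    induction x using OnePoint.rec with
    | infty =>
      induction y using OnePoint.rec with
      | infty =>
        simp only [hB_infty, hD_infty, mul_one] at e01
        exact ⟨rfl, by linarith⟩
      | coe j =>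
        simp only [hA_infty, hA_coe] at e00
        omega
    | coe i =>
      induction y using OnePoint.rec with
      | infty =>
        simp only [hA_infty, hA_coe] at e00
        omega
      | coe j =>
        simp only [hB_coe, hD_coe] at e01
        have hi := ZMod.val_lt i
        have hj := ZMod.val_lt j
        have hk : k 0 1 = 0 := by
          by_contra hne
          have h1 : (ℓ : ℤ) ≤ |k 0 1 * ℓ| := by
            rw [abs_mul]
            have : (1 : ℤ) ≤ |k 0 1| := Int.one_le_abs hne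
            have h3 : |(ℓ : ℤ)| = ℓ := abs_of_nonneg (by positivity)
            rw [h3]
            nlinarith
          have h2 : |k 0 1 * ℓ| < ℓ := by
            have : k 0 1 * ℓ = (i.val : ℤ) - j.val := by linarith
            rw [this, abs_lt]
            constructor <;> omega
          omega
        refine ⟨?_, hk⟩
        rw [hk, zero_mul, add_zero] at e01
        have : i.val = j.val := by exact_mod_cast e01
        rw [ZMod.val_injective ℓ this]
  refine ⟨hxy.1, ?_⟩
  ext i j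
  fin_cases i <;> fin_cases j
  · simpa using k00
  · simpa using hxy.2
  · simpa using k10
  · simpa using k11

end entries

/-! ### the action on the projective line at `∞` and at `0` -/

section perm

variable {q : ℕ} [Fact q.Prime]

theorem perm_infty_eq (g : SL(2, ℤ)) :
    perm g (∞ : OnePoint (ZMod q)) = ∞ ↔ (q : ℤ) ∣ g 1 0 := by
  unfold perm
  rw [OnePoint.smul_infty_eq_ite, redMatrix_apply_one_zero, ← ZMod.intCast_zmod_eq_zero_iff_dvd]
  split_ifs with h
  · simp [h]
  · simp [h]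

theorem perm_zero_eq (g : SL(2, ℤ)) :
    perm g (((0 : ZMod q)) : OnePoint (ZMod q)) = ((0 : ZMod q) : OnePoint (ZMod q))
      ↔ (q : ℤ) ∣ g 0 1 := by
  unfold perm
  rw [OnePoint.smul_some_eq_ite, redMatrix_apply_one_zero, redMatrix_apply_one_one,
    redMatrix_apply_zero_zero, redMatrix_apply_zero_one, mul_zero, zero_add, mul_zero, zero_add,
    ← ZMod.intCast_zmod_eq_zero_iff_dvd]
  have hdet := congrArg (Int.cast : ℤ → ZMod q) (det_eq g)
  push_cast at hdet
  split_ifs with h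
  · constructor
    · intro h1
      exact absurd h1 (OnePoint.infty_ne_coe _)
    · intro h1
      rw [h, h1] at hdet
      simp at hdet
  · rw [OnePoint.coe_eq_coe, div_eq_zero_iff]
    constructor
    · rintro (h1 | h1)
      · exact h1
      · exact absurd h1 h
    · intro h1
      exact Or.inl h1

end perm

/-! ### the Hecke family -/

section hecke

variable (ℓ : ℕ) [Fact ℓ.Prime] (N : ℕ)

/-- **the coset family of the Hecke operator `T_ℓ`**, `ℓ ∤ N` -/
def heckeFam (hℓN : ¬ ℓ ∣ N) : CosetFam (Gamma0 N) (Gamma0 N) (OnePoint (ZMod ℓ)) where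
  r := heckeRep ℓ
  act g x := perm (g : SL(2, ℤ)) x
  κ g x := kap hℓN g x
  spec := kap_spec hℓN
  act_one := perm_one
  act_mul g h x := by rw [Subgroup.coe_mul, perm_mul]

variable {ℓ N}

@[simp] theorem heckeFam_r (hℓN : ¬ ℓ ∣ N) (x : OnePoint (ZMod ℓ)) :
    (heckeFam ℓ N hℓN).r x = heckeRep ℓ x := rfl

@[simp] theorem heckeFam_act (hℓN : ¬ ℓ ∣ N) (g : Gamma0 N) (x : OnePoint (ZMod ℓ)) :
    (heckeFam ℓ N hℓN).act g x = perm (g : SL(2, ℤ)) x := rfl

@[simp] theorem heckeFam_κ (hℓN : ¬ ℓ ∣ N) (g : Gamma0 N) (x : OnePoint (ZMod ℓ)) :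
    (heckeFam ℓ N hℓN).κ g x = kap hℓN g x := rfl

theorem heckeFam_op (hℓN : ¬ ℓ ∣ N) (A : Type*) [AddCommGroup A] :
    (heckeFam ℓ N hℓN).op A = heckeHom A hℓN := by
  refine AddMonoidHom.ext fun c => AddMonoidHom.ext fun g => ?_
  rfl

theorem heckeFam_uniq (hℓN : ¬ ℓ ∣ N) : (heckeFam ℓ N hℓN).Uniq := fun x y h e =>
  (heckeRep_eq_mul e).1

/-- the lower left entry of the cocycle -/
theorem kap_lower_left (hℓN : ¬ ℓ ∣ N) (g : Gamma0 N) (x : OnePoint (ZMod ℓ)) :
    hD x * (g : SL(2, ℤ)) 1 0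
      = ((kap hℓN g x : Gamma0 N) : SL(2, ℤ)) 1 0 * hA (perm (g : SL(2, ℤ)) x) :=
  (entries_of_eq (kap_spec hℓN g x)).2.2.1

/-- **(KF)** the cocycle of `T_ℓ` respects the divisibility of the lower left entry by an
integer prime to `ℓ` -/
theorem dvd_kap_iff (hℓN : ¬ ℓ ∣ N) (g : Gamma0 N) (x : OnePoint (ZMod ℓ)) {m : ℕ}
    (hm : Nat.Coprime m ℓ) :
    (m : ℤ) ∣ ((kap hℓN g x : Gamma0 N) : SL(2, ℤ)) 1 0 ↔ (m : ℤ) ∣ (g : SL(2, ℤ)) 1 0 := by
  have h := kap_lower_left hℓN g x
  have hcop : IsCoprime (m : ℤ) (ℓ : ℤ) := Nat.isCoprime_iff_coprime.mpr hm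
  have hcA : IsCoprime (m : ℤ) (hA (perm (g : SL(2, ℤ)) x)) := by
    rcases hA_eq (perm (g : SL(2, ℤ)) x) with h1 | h1 <;> rw [h1]
    · exact isCoprime_one_right
    · exact hcop
  have hcD : IsCoprime (m : ℤ) (hD x) := by
    rcases hD_eq x with h1 | h1 <;> rw [h1]
    · exact isCoprime_one_right
    · exact hcop
  constructor
  · intro hk
    have : (m : ℤ) ∣ hD x * (g : SL(2, ℤ)) 1 0 := by
      rw [h]
      exact Dvd.dvd.mul_right hk _
    exact hcD.dvd_of_dvd_mul_left this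
  · intro hg
    have : (m : ℤ) ∣ ((kap hℓN g x : Gamma0 N) : SL(2, ℤ)) 1 0 * hA (perm (g : SL(2, ℤ)) x) := by
      rw [← h]
      exact Dvd.dvd.mul_left hg _
    exact hcA.dvd_of_dvd_mul_right this

end hecke

/-! ### restriction, sub-families, transfer -/

section constructions

variable {H G : Subgroup SL(2, ℤ)} {X : Type*}

/-- the family of the restriction `Hom(H, A) → Hom(G, A)`, `G ≤ H` -/
def resFam (h : G ≤ H) : CosetFam H G Unit where
  r _ := 1
  act _ x := x
  κ g _ := ⟨g, h g.2⟩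
  spec g x := by rw [one_mul, mul_one]
  act_one _ := rfl
  act_mul _ _ _ := rfl

@[simp] theorem resFam_r (h : G ≤ H) (x : Unit) : (resFam h).r x = 1 := rfl

@[simp] theorem resFam_κ (h : G ≤ H) (g : G) (x : Unit) : (resFam h).κ g x = ⟨g, h g.2⟩ := rfl

theorem resFam_op_apply (h : G ≤ H) (A : Type*) [AddCommGroup A] (c : Additive H →+ A) (g : G) :
    (resFam h).op A c (Additive.ofMul g) = c (Additive.ofMul (⟨g, h g.2⟩ : H)) := by
  rw [CosetFam.op_apply]
  simp

/-- a sub-family: smaller groups and a stable subset of the index set -/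
def CosetFam.subFam (F : CosetFam H G X) {H' G' : Subgroup SL(2, ℤ)} (hG : G' ≤ G)
    {X' : Type*} (ι : X' → X) (hι : Function.Injective ι) (act' : G' → X' → X')
    (hact : ∀ (g : G') (x : X'), ι (act' g x) = F.act ⟨g, hG g.2⟩ (ι x))
    (hκ : ∀ (g : G') (x : X'), ((F.κ ⟨g, hG g.2⟩ (ι x) : H) : SL(2, ℤ)) ∈ H') :
    CosetFam H' G' X' where
  r x := F.r (ι x)
  act := act'
  κ g x := ⟨F.κ ⟨g, hG g.2⟩ (ι x), hκ g x⟩
  spec g x := by
    rw [hact]
    exact F.spec ⟨g, hG g.2⟩ (ι x)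
  act_one x := hι (by
    rw [hact]
    exact F.act_one (ι x))
  act_mul g h x := hι (by
    rw [hact, hact, hact]
    exact F.act_mul ⟨g, hG g.2⟩ ⟨h, hG h.2⟩ (ι x))

/-- the family of the transfer `Hom(H, A) → Hom(G, A)`, where `H` contains the stabiliser in `G`
of a point `x₀` of a transitive `G`-set: representatives `t x ∈ G` with `x₀ · t x = x` -/
def transferFam (G H : Subgroup SL(2, ℤ)) (act : SL(2, ℤ) → X → X) (act_one : ∀ x, act 1 x = x)
    (act_mul : ∀ g h x, act (g * h) x = act h (act g x)) (x₀ : X)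
    (hH : ∀ g : SL(2, ℤ), g ∈ G → act g x₀ = x₀ → g ∈ H) (t : X → G)
    (ht : ∀ x, act (t x : SL(2, ℤ)) x₀ = x) : CosetFam H G X where
  r x := mapGL ℝ (t x : SL(2, ℤ))
  act g x := act (g : SL(2, ℤ)) x
  κ g x := ⟨(t x : SL(2, ℤ)) * g * (t (act (g : SL(2, ℤ)) x) : SL(2, ℤ))⁻¹,
    hH _ (G.mul_mem (G.mul_mem (t x).2 g.2) (G.inv_mem (t _).2)) (by
      have key : ∀ y : X, act ((t y : SL(2, ℤ)))⁻¹ y = x₀ := by
        intro y
        calc act ((t y : SL(2, ℤ)))⁻¹ y = act ((t y : SL(2, ℤ)))⁻¹ (act (t y : SL(2, ℤ)) x₀) := by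
              rw [ht]
          _ = act ((t y : SL(2, ℤ)) * ((t y : SL(2, ℤ)))⁻¹) x₀ := (act_mul _ _ _).symm
          _ = x₀ := by rw [mul_inv_cancel, act_one]
      rw [act_mul, act_mul, ht]
      exact key _)⟩
  spec g x := by
    rw [← map_mul, ← map_mul]
    congr 1
    simp
  act_one x := by rw [Subgroup.coe_one, act_one]
  act_mul g h x := by rw [Subgroup.coe_mul, act_mul]

end constructions

section transferRes

variable {X : Type*} [Fintype X]

@[simp] theorem transferFam_r (G H : Subgroup SL(2, ℤ)) (act : SL(2, ℤ) → X → X)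
    (act_one : ∀ x, act 1 x = x) (act_mul : ∀ g h x, act (g * h) x = act h (act g x)) (x₀ : X)
    (hH : ∀ g : SL(2, ℤ), g ∈ G → act g x₀ = x₀ → g ∈ H) (t : X → G)
    (ht : ∀ x, act (t x : SL(2, ℤ)) x₀ = x) (x : X) :
    (transferFam G H act act_one act_mul x₀ hH t ht).r x = mapGL ℝ (t x : SL(2, ℤ)) := rfl

@[simp] theorem transferFam_act (G H : Subgroup SL(2, ℤ)) (act : SL(2, ℤ) → X → X)
    (act_one : ∀ x, act 1 x = x) (act_mul : ∀ g h x, act (g * h) x = act h (act g x)) (x₀ : X)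
    (hH : ∀ g : SL(2, ℤ), g ∈ G → act g x₀ = x₀ → g ∈ H) (t : X → G)
    (ht : ∀ x, act (t x : SL(2, ℤ)) x₀ = x) (g : G) (x : X) :
    (transferFam G H act act_one act_mul x₀ hH t ht).act g x = act (g : SL(2, ℤ)) x := rfl

theorem transferFam_κ_coe (G H : Subgroup SL(2, ℤ)) (act : SL(2, ℤ) → X → X)
    (act_one : ∀ x, act 1 x = x) (act_mul : ∀ g h x, act (g * h) x = act h (act g x)) (x₀ : X)
    (hH : ∀ g : SL(2, ℤ), g ∈ G → act g x₀ = x₀ → g ∈ H) (t : X → G)
    (ht : ∀ x, act (t x : SL(2, ℤ)) x₀ = x) (g : G) (x : X) :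
    (((transferFam G H act act_one act_mul x₀ hH t ht).κ g x : H) : SL(2, ℤ))
      = (t x : SL(2, ℤ)) * g * (t (act (g : SL(2, ℤ)) x) : SL(2, ℤ))⁻¹ := rfl

/-- **transfer after restriction is multiplication by the index** -/
theorem transferFam_op_res (G H : Subgroup SL(2, ℤ)) (hHG : H ≤ G) (act : SL(2, ℤ) → X → X)
    (act_one : ∀ x, act 1 x = x) (act_mul : ∀ g h x, act (g * h) x = act h (act g x)) (x₀ : X)
    (hH : ∀ g : SL(2, ℤ), g ∈ G → act g x₀ = x₀ → g ∈ H) (t : X → G)
    (ht : ∀ x, act (t x : SL(2, ℤ)) x₀ = x) (A : Type*) [AddCommGroup A]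
    (c : Additive G →+ A) :
    (transferFam G H act act_one act_mul x₀ hH t ht).op A ((resFam hHG).op A c)
      = Fintype.card X • c := by
  refine AddMonoidHom.ext fun g' => ?_
  obtain ⟨g, rfl⟩ : ∃ g : G, Additive.ofMul g = g' := ⟨Additive.toMul g', rfl⟩
  rw [CosetFam.op_apply]
  have h1 : ∀ x : X, (resFam hHG).op A c
      (Additive.ofMul ((transferFam G H act act_one act_mul x₀ hH t ht).κ g x))
      = c (Additive.ofMul (t x)) + c (Additive.ofMul g)
        - c (Additive.ofMul (t (act (g : SL(2, ℤ)) x))) := by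
    intro x
    rw [resFam_op_apply]
    have e : (⟨(((transferFam G H act act_one act_mul x₀ hH t ht).κ g x : H) : SL(2, ℤ)),
        hHG ((transferFam G H act act_one act_mul x₀ hH t ht).κ g x).2⟩ : G)
        = t x * g * (t (act (g : SL(2, ℤ)) x))⁻¹ := Subtype.ext rfl
    rw [e, ofMul_mul, ofMul_mul, map_add, map_add, ofMul_inv, map_neg]
    abel
  rw [Finset.sum_congr rfl (fun x _ => h1 x), Finset.sum_sub_distrib, Finset.sum_add_distrib]
  have h2 : ∑ x : X, c (Additive.ofMul (t (act (g : SL(2, ℤ)) x)))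
      = ∑ x : X, c (Additive.ofMul (t x)) :=
    Equiv.sum_comp ((transferFam G H act act_one act_mul x₀ hH t ht).actEquiv g)
      (fun x => c (Additive.ofMul (t x)))
  rw [h2, Finset.sum_const, Finset.card_univ]
  simp

end transferRes

/-- if the representative `r x` is central and `g` fixes `x`, then `κ g x = g` -/
theorem CosetFam.κ_eq_of_central {H G : Subgroup SL(2, ℤ)} {X : Type*} (F : CosetFam H G X)
    (g : G) (x : X) (hfix : F.act g x = x) (hc : ∀ M : GL (Fin 2) ℝ, F.r x * M = M * F.r x) :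
    ((F.κ g x : H) : SL(2, ℤ)) = g := by
  have h := F.spec g x
  rw [hfix, hc] at h
  exact (CosetFam.mapGL_inj (mul_right_cancel h)).symm

end Fermat.Agent.S41.P3
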