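import Mathlib
import Fermat.Agent.S41.DegenFam

/-!
# S41, piece P3, part 3: the four degeneracy maps between levels `N` and `N q`

`q` prime, `q ∤ N`. On `Hom(Γ₀(·), A)`:
* `alphaUp`  (`α*`, restriction) and `betaUp` (`β*`, `c ↦ c(δ · δ⁻¹)`, `δ = diag(q, 1)`) from level
  `N` to level `N q`;
* `alphaDown` (`α_*`, transfer) and `betaDown` (`β_*`) from level `N q` to level `N`;
* **(M)** `α_* α* = q + 1 = β_* β*`, `α_* β* = T_q = β_* α*`.
-/

set_option autoImplicit false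
set_option linter.unusedSectionVars false
set_option linter.unusedVariables false

noncomputable section

open Matrix.SpecialLinearGroup CongruenceSubgroup
open scoped MatrixGroups OnePoint
open ModularCurve.Period
open Fermat.Agent.S29.D1
open P2MW.S_ModularForm_heckeT_slash_eq_self_of_mem_Gamma0.ModularForm.HeckeSlashInvariance

namespace Fermat.Agent.S41.P3

variable {q : ℕ} [Fact q.Prime] {N : ℕ}

/-! ### the groups -/

theorem Gamma0_mul_le (N q : ℕ) : Gamma0 (N * q) ≤ Gamma0 N := by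
  intro g hg
  apply mem_Gamma0_of_dvd'
  have := dvd_of_mem_Gamma0 hg
  exact (Dvd.intro _ (by push_cast; rfl)).trans this

theorem coprime_of_not_dvd (hqN : ¬ q ∣ N) : IsCoprime (N : ℤ) (q : ℤ) :=
  Nat.isCoprime_iff_coprime.mpr ((Nat.Prime.coprime_iff_not_dvd Fact.out).mpr hqN).symm

theorem mem_Gamma0_mul_iff (hqN : ¬ q ∣ N) (g : SL(2, ℤ)) :
    g ∈ Gamma0 (N * q) ↔ g ∈ Gamma0 N ∧ perm g (∞ : OnePoint (ZMod q)) = ∞ := by
  rw [perm_infty_eq]
  constructor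
  · intro hg
    refine ⟨Gamma0_mul_le N q hg, ?_⟩
    have := dvd_of_mem_Gamma0 hg
    exact (Dvd.intro_left _ (by push_cast; rfl)).trans this
  · rintro ⟨h1, h2⟩
    apply mem_Gamma0_of_dvd'
    push_cast
    exact (coprime_of_not_dvd hqN).mul_dvd (dvd_of_mem_Gamma0 h1) h2

/-- the stabiliser of `0 ∈ ℙ¹(𝔽_q)` in `Γ₀(N)`, i.e. `Γ₀(N) ∩ Γ⁰(q)` -/
def stab0 (N q : ℕ) [Fact q.Prime] : Subgroup SL(2, ℤ) where
  carrier := {g | g ∈ Gamma0 N ∧ perm g ((0 : ZMod q) : OnePoint (ZMod q)) = (0 : ZMod q)}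
  one_mem' := ⟨(Gamma0 N).one_mem, perm_one _⟩
  mul_mem' := by
    rintro g h ⟨hg, hg0⟩ ⟨hh, hh0⟩
    exact ⟨(Gamma0 N).mul_mem hg hh, by rw [perm_mul, hg0, hh0]⟩
  inv_mem' := by
    rintro g ⟨hg, hg0⟩
    refine ⟨(Gamma0 N).inv_mem hg, ?_⟩
    conv_lhs => rw [← hg0]
    rw [← perm_mul, mul_inv_cancel, perm_one]

theorem mem_stab0 {g : SL(2, ℤ)} :
    g ∈ stab0 N q ↔ g ∈ Gamma0 N ∧ perm g ((0 : ZMod q) : OnePoint (ZMod q)) = (0 : ZMod q) :=
  Iff.rfl

theorem stab0_le (N q : ℕ) [Fact q.Prime] : stab0 N q ≤ Gamma0 N := fun g hg => hg.1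

/-! ### transitivity -/

theorem exists_perm_infty (hqN : ¬ q ∣ N) (x : OnePoint (ZMod q)) :
    ∃ t : Gamma0 N, perm (t : SL(2, ℤ)) (∞ : OnePoint (ZMod q)) = x := by
  induction x using OnePoint.rec with
  | infty => exact ⟨1, perm_one _⟩
  | coe j =>
    have hN : (N : ZMod q) ≠ 0 := by
      intro h
      exact hqN ((ZMod.natCast_eq_zero_iff N q).mp h)
    set k : ℤ := ((((j * (N : ZMod q) - 1) / (N : ZMod q) : ZMod q)).val : ℤ) with hk
    have hkc : ((k : ℤ) : ZMod q) = (j * (N : ZMod q) - 1) / (N : ZMod q) := by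
      rw [hk]
      push_cast
      rw [ZMod.natCast_zmod_val]
    let g : SL(2, ℤ) := ⟨!![1, k; (N : ℤ), 1 + N * k], by
      rw [Matrix.det_fin_two_of]; ring⟩
    have hg10 : g 1 0 = N := rfl
    have hg11 : g 1 1 = 1 + N * k := rfl
    refine ⟨⟨g, mem_Gamma0_of_dvd' (by rw [hg10])⟩, ?_⟩
    show perm g (∞ : OnePoint (ZMod q)) = (j : OnePoint (ZMod q))
    unfold perm
    rw [OnePoint.smul_infty_eq_ite, redMatrix_apply_one_zero, redMatrix_apply_zero_zero, hg10,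
      hg11]
    have e1 : (((N : ℤ)) : ZMod q) = (N : ZMod q) := Int.cast_natCast N
    have e2 : (((1 + (N : ℤ) * k : ℤ)) : ZMod q)
        = 1 + (N : ZMod q) * ((j * (N : ZMod q) - 1) / (N : ZMod q)) := by
      push_cast
      rw [hkc]
    rw [e1, e2, if_neg hN]
    congr 1
    field_simp
    ring

/-- representatives of `Γ₀(N q) \ Γ₀(N)`: `∞ · tInf x = x` -/
def tInf (hqN : ¬ q ∣ N) (x : OnePoint (ZMod q)) : Gamma0 N := (exists_perm_infty hqN x).choose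

theorem perm_tInf (hqN : ¬ q ∣ N) (x : OnePoint (ZMod q)) :
    perm ((tInf hqN x : Gamma0 N) : SL(2, ℤ)) (∞ : OnePoint (ZMod q)) = x :=
  (exists_perm_infty hqN x).choose_spec

/-- representatives of `(Γ₀(N) ∩ Γ⁰(q)) \ Γ₀(N)`: `0 · tZero y = y` -/
def tZero (hqN : ¬ q ∣ N) (y : OnePoint (ZMod q)) : Gamma0 N :=
  (tInf hqN ((0 : ZMod q) : OnePoint (ZMod q)))⁻¹ * tInf hqN y

theorem perm_tZero (hqN : ¬ q ∣ N) (y : OnePoint (ZMod q)) :
    perm ((tZero hqN y : Gamma0 N) : SL(2, ℤ)) ((0 : ZMod q) : OnePoint (ZMod q)) = y := by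
  unfold tZero
  rw [Subgroup.coe_mul, perm_mul, Subgroup.coe_inv]
  have h0 := perm_tInf hqN ((0 : ZMod q) : OnePoint (ZMod q))
  have h1 : perm ((tInf hqN ((0 : ZMod q) : OnePoint (ZMod q)) : SL(2, ℤ)))⁻¹
      ((0 : ZMod q) : OnePoint (ZMod q)) = ∞ := by
    calc perm ((tInf hqN ((0 : ZMod q) : OnePoint (ZMod q)) : SL(2, ℤ)))⁻¹
          ((0 : ZMod q) : OnePoint (ZMod q))
        = perm ((tInf hqN ((0 : ZMod q) : OnePoint (ZMod q)) : SL(2, ℤ)))⁻¹
          (perm ((tInf hqN ((0 : ZMod q) : OnePoint (ZMod q)) : SL(2, ℤ))) ∞) := by rw [h0]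
      _ = ∞ := by rw [← perm_mul, mul_inv_cancel, perm_one]
  rw [h1, perm_tInf]

/-! ### the four families -/

/-- `α*`: restriction from `Γ₀(N)` to `Γ₀(N q)` -/
def alphaUp (N q : ℕ) : CosetFam (Gamma0 N) (Gamma0 (N * q)) Unit := resFam (Gamma0_mul_le N q)

/-- `β*`: `c ↦ (γ ↦ c (δ γ δ⁻¹))`, `δ = diag(q, 1)` -/
def betaUp (hqN : ¬ q ∣ N) : CosetFam (Gamma0 N) (Gamma0 (N * q)) Unit :=
  (heckeFam q N hqN).subFam (Gamma0_mul_le N q) (fun _ => (∞ : OnePoint (ZMod q)))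
    (fun _ _ _ => rfl) (fun _ x => x)
    (fun g _ => (((mem_Gamma0_mul_iff hqN _).mp g.2).2).symm)
    (fun g _ => (kap hqN _ _).2)

/-- `α_*`: the transfer from `Γ₀(N q)` to `Γ₀(N)` -/
def alphaDown (hqN : ¬ q ∣ N) : CosetFam (Gamma0 (N * q)) (Gamma0 N) (OnePoint (ZMod q)) :=
  transferFam (Gamma0 N) (Gamma0 (N * q)) perm perm_one perm_mul (∞ : OnePoint (ZMod q))
    (fun g hg h => (mem_Gamma0_mul_iff hqN g).mpr ⟨hg, h⟩) (tInf hqN) (perm_tInf hqN)

/-- conjugation by `diag(1, q)` from `Γ₀(N) ∩ Γ⁰(q)` to `Γ₀(N q)` -/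
def conj0 (hqN : ¬ q ∣ N) : CosetFam (Gamma0 (N * q)) (stab0 N q) Unit :=
  (heckeFam q N hqN).subFam (stab0_le N q) (fun _ => ((0 : ZMod q) : OnePoint (ZMod q)))
    (fun _ _ _ => rfl) (fun _ x => x)
    (fun g _ => (g.2.2).symm)
    (fun g _ => by
      apply mem_Gamma0_of_dvd'
      have h := kap_lower_left hqN ⟨g, stab0_le N q g.2⟩ ((0 : ZMod q) : OnePoint (ZMod q))
      have h2 : perm ((⟨g, stab0_le N q g.2⟩ : Gamma0 N) : SL(2, ℤ))
          ((0 : ZMod q) : OnePoint (ZMod q)) = (0 : ZMod q) := g.2.2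
      rw [h2, hA_coe, hD_coe, mul_one] at h
      show ((N * q : ℕ) : ℤ) ∣ ((kap hqN ⟨g, stab0_le N q g.2⟩ _ : Gamma0 N) : SL(2, ℤ)) 1 0
      rw [← h]
      push_cast
      rw [mul_comm (N : ℤ)]
      exact mul_dvd_mul_left _ (dvd_of_mem_Gamma0 g.2.1))

/-- the transfer from `Γ₀(N) ∩ Γ⁰(q)` to `Γ₀(N)` -/
def tr0 (hqN : ¬ q ∣ N) : CosetFam (stab0 N q) (Gamma0 N) (OnePoint (ZMod q)) :=
  transferFam (Gamma0 N) (stab0 N q) perm perm_one perm_mul ((0 : ZMod q) : OnePoint (ZMod q))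
    (fun g hg h => mem_stab0.mpr ⟨hg, h⟩) (tZero hqN) (perm_tZero hqN)

/-- `β_*` -/
def betaDown (hqN : ¬ q ∣ N) :
    CosetFam (Gamma0 (N * q)) (Gamma0 N) (OnePoint (ZMod q) × Unit) :=
  (tr0 hqN).comp (conj0 hqN)

/-! ### the identities (M) -/

section M

variable (A : Type*) [AddCommGroup A]

theorem card_onePoint : Fintype.card (OnePoint (ZMod q)) = q + 1 := by
  have : Fintype.card (Option (ZMod q)) = q + 1 := by
    rw [Fintype.card_option, ZMod.card]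
  exact this

/-- **(M1)** `α_* α* = q + 1` -/
theorem alphaDown_alphaUp (hqN : ¬ q ∣ N) (c : Additive (Gamma0 N) →+ A) :
    (alphaDown hqN).op A ((alphaUp N q).op A c) = (q + 1) • c := by
  unfold alphaDown alphaUp
  rw [transferFam_op_res, card_onePoint]

/-- the product of the two diagonal representatives is a scalar matrix -/
theorem heckeRep_infty_mul_zero_comm (M : GL (Fin 2) ℝ) :
    (heckeRep q (∞ : OnePoint (ZMod q)) * heckeRep q ((0 : ZMod q) : OnePoint (ZMod q))) * M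
      = M * (heckeRep q (∞ : OnePoint (ZMod q)) * heckeRep q ((0 : ZMod q) : OnePoint (ZMod q))) := by
  apply Matrix.GeneralLinearGroup.ext
  intro i j
  simp only [Matrix.GeneralLinearGroup.coe_mul, heckeRep_val, hA_infty, hA_coe, hB_infty, hB_coe,
    hD_infty, hD_coe, ZMod.val_zero]
  fin_cases i <;> fin_cases j <;>
    simp [Matrix.mul_apply, Fin.sum_univ_two] <;> ring

/-- `β* ∘ (conjugation by diag(1, q))` is the restriction from `Γ₀(N)` to `Γ₀(N) ∩ Γ⁰(q)` -/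
theorem conj0_betaUp (hqN : ¬ q ∣ N) (c : Additive (Gamma0 N) →+ A) :
    (conj0 hqN).op A ((betaUp hqN).op A c) = (resFam (stab0_le N q)).op A c := by
  rw [← CosetFam.op_comp]
  refine AddMonoidHom.ext fun g' => ?_
  obtain ⟨g, rfl⟩ : ∃ g : stab0 N q, Additive.ofMul g = g' := ⟨Additive.toMul g', rfl⟩
  rw [CosetFam.op_apply, CosetFam.op_apply]
  refine Fintype.sum_equiv (Equiv.prodPUnit Unit) _ _ (fun z => ?_)
  have h1 : ((((conj0 hqN).comp (betaUp hqN)).κ g z : Gamma0 N) : SL(2, ℤ)) = g :=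
    ((conj0 hqN).comp (betaUp hqN)).κ_eq_of_central g z (Subsingleton.elim _ _)
      (fun M => heckeRep_infty_mul_zero_comm M)
  have h2 : ((conj0 hqN).comp (betaUp hqN)).κ g z
      = (resFam (stab0_le N q)).κ g ((Equiv.prodPUnit Unit) z) := Subtype.ext h1
  rw [h2]

/-- **(M2)** `β_* β* = q + 1` -/
theorem betaDown_betaUp (hqN : ¬ q ∣ N) (c : Additive (Gamma0 N) →+ A) :
    (betaDown hqN).op A ((betaUp hqN).op A c) = (q + 1) • c := by
  unfold betaDown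
  rw [CosetFam.op_comp, conj0_betaUp]
  unfold tr0
  rw [transferFam_op_res, card_onePoint]

/-- **(M3)** `α_* β* = T_q` -/
theorem alphaDown_betaUp (hqN : ¬ q ∣ N) (c : Additive (Gamma0 N) →+ A) :
    (alphaDown hqN).op A ((betaUp hqN).op A c) = heckeHom A hqN c := by
  rw [← CosetFam.op_comp, ← heckeFam_op]
  refine CosetFam.op_eq_of_rel _ _ (heckeFam_uniq hqN) (Equiv.prodPUnit _)
    (fun z => kap hqN (tInf hqN z.1) ∞) (fun z => ?_) A c
  have h := kap_spec hqN (tInf hqN z.1) (∞ : OnePoint (ZMod q))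
  rw [perm_tInf] at h
  exact h

/-- **(M4)** `β_* α* = T_q` -/
theorem betaDown_alphaUp (hqN : ¬ q ∣ N) (c : Additive (Gamma0 N) →+ A) :
    (betaDown hqN).op A ((alphaUp N q).op A c) = heckeHom A hqN c := by
  rw [← CosetFam.op_comp, ← heckeFam_op]
  refine CosetFam.op_eq_of_rel _ _ (heckeFam_uniq hqN)
    ((Equiv.prodPUnit _).trans (Equiv.prodPUnit _))
    (fun z => kap hqN (tZero hqN z.1.1) ((0 : ZMod q) : OnePoint (ZMod q))) (fun z => ?_) A c
  have h := kap_spec hqN (tZero hqN z.1.1) ((0 : ZMod q) : OnePoint (ZMod q))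
  rw [perm_tZero] at h
  show (1 : GL (Fin 2) ℝ) * (heckeRep q ((0 : ZMod q) : OnePoint (ZMod q))
    * mapGL ℝ ((tZero hqN z.1.1 : Gamma0 N) : SL(2, ℤ))) = _
  rw [one_mul]
  exact h

end M

end Fermat.Agent.S41.P3
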