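import Mathlib
import Fermat.Agent.S41.DegenQ

/-!
# S41, piece P3, part 4: the degeneracy maps commute with `T_ℓ`, `ℓ ∤ N q`
-/

set_option autoImplicit false
set_option linter.unusedSectionVars false
set_option linter.unusedVariables false

noncomputable section

open Matrix.SpecialLinearGroup CongruenceSubgroup
open scoped MatrixGroups OnePoint
open ModularCurve.Period
open Fermat.Agent.S29.D1
open P2MW.S_ModularForm_heckeT_slash_eq_self_of_mem_Gamma0.ModularForm.HeckeSlashInvariance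

namespace Fermat.Agent.S41.P3

/-! ### two families with the same cosets, without an explicit bijection -/

theorem CosetFam.op_eq_of_exists {H G : Subgroup SL(2, ℤ)} {X Y : Type*} [Fintype X] [Fintype Y]
    (F : CosetFam H G X) (F' : CosetFam H G Y) (hF : F.Uniq) (hF' : F'.Uniq)
    (hcard : Fintype.card X = Fintype.card Y)
    (h : ∀ x : X, ∃ (y : Y) (u : H), F.r x = mapGL ℝ ((u : H) : SL(2, ℤ)) * F'.r y)
    (A : Type*) [AddCommGroup A] (c : Additive H →+ A) : F.op A c = F'.op A c := by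
  choose e u hr using h
  have hinj : Function.Injective e := by
    intro x₁ x₂ h12
    have h1 := hr x₁
    have h2 := hr x₂
    rw [h12] at h1
    have h3 : F'.r (e x₂) = (mapGL ℝ ((u x₂ : H) : SL(2, ℤ)))⁻¹ * F.r x₂ := by
      rw [h2, ← mul_assoc, inv_mul_cancel, one_mul]
    rw [h3, ← mul_assoc, ← map_inv, ← map_mul, ← Subgroup.coe_inv, ← Subgroup.coe_mul] at h1
    exact hF _ _ _ h1
  have hbij : Function.Bijective e :=
    (Fintype.bijective_iff_injective_and_card e).mpr ⟨hinj, hcard⟩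
  exact F.op_eq_of_rel F' hF' (Equiv.ofBijective e hbij) u hr A c

/-! ### the commutation of the representatives -/

section comm

variable {q ℓ : ℕ} [Fact q.Prime] [Fact ℓ.Prime]

theorem mapGL_val (g : SL(2, ℤ)) : ((mapGL ℝ g : GL (Fin 2) ℝ) : Matrix (Fin 2) (Fin 2) ℝ)
    = !![((g 0 0 : ℤ) : ℝ), ((g 0 1 : ℤ) : ℝ); ((g 1 0 : ℤ) : ℝ), ((g 1 1 : ℤ) : ℝ)] := by
  ext i j
  fin_cases i <;> fin_cases j <;> simp

/-- multiplication by `q` on `ℙ¹(𝔽_ℓ)` -/
def mulq (hq : (q : ZMod ℓ) ≠ 0) (x : OnePoint (ZMod ℓ)) : OnePoint (ZMod ℓ) :=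
  x.elim ∞ (fun j => (((q : ZMod ℓ) * j : ZMod ℓ) : OnePoint (ZMod ℓ)))

@[simp] theorem mulq_infty (hq : (q : ZMod ℓ) ≠ 0) : mulq hq (∞ : OnePoint (ZMod ℓ)) = ∞ := rfl

@[simp] theorem mulq_coe (hq : (q : ZMod ℓ) ≠ 0) (j : ZMod ℓ) :
    mulq hq (j : OnePoint (ZMod ℓ)) = (((q : ZMod ℓ) * j : ZMod ℓ) : OnePoint (ZMod ℓ)) := rfl

theorem mulq_injective (hq : (q : ZMod ℓ) ≠ 0) : Function.Injective (mulq (ℓ := ℓ) hq) := by
  intro x y h
  induction x using OnePoint.rec with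
  | infty =>
    induction y using OnePoint.rec with
    | infty => rfl
    | coe j => exact absurd h (OnePoint.infty_ne_coe _)
  | coe i =>
    induction y using OnePoint.rec with
    | infty => exact absurd h (OnePoint.coe_ne_infty _)
    | coe j =>
      rw [mulq_coe, mulq_coe, OnePoint.coe_eq_coe] at h
      rw [mul_right_inj' hq] at h
      rw [h]

/-- **`δ h_x = u h_{q x} δ`**, `δ = diag(q, 1)`, `u` upper unipotent -/
theorem heckeRep_comm (hq : (q : ZMod ℓ) ≠ 0) (x : OnePoint (ZMod ℓ)) :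
    ∃ u : SL(2, ℤ), u 1 0 = 0 ∧
      heckeRep q (∞ : OnePoint (ZMod q)) * heckeRep ℓ x
        = mapGL ℝ u * (heckeRep ℓ (mulq hq x) * heckeRep q (∞ : OnePoint (ZMod q))) := by
  induction x using OnePoint.rec with
  | infty =>
    refine ⟨1, by simp, ?_⟩
    rw [map_one, one_mul, mulq_infty]
    apply Matrix.GeneralLinearGroup.ext
    intro i j
    simp only [Matrix.GeneralLinearGroup.coe_mul, heckeRep_val, hA_infty, hB_infty, hD_infty]
    fin_cases i <;> fin_cases j <;> simp [Matrix.mul_apply, Fin.sum_univ_two, mul_comm]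
  | coe j =>
    obtain ⟨m, hm⟩ : (ℓ : ℤ) ∣ (q : ℤ) * (j.val : ℤ) - ((((q : ZMod ℓ) * j : ZMod ℓ)).val : ℤ) := by
      rw [← ZMod.intCast_zmod_eq_zero_iff_dvd]
      push_cast
      rw [ZMod.natCast_zmod_val, ZMod.natCast_zmod_val, sub_self]
    let u : SL(2, ℤ) := ⟨!![1, m; 0, 1], by rw [Matrix.det_fin_two_of]; ring⟩
    have hu00 : u 0 0 = 1 := rfl
    have hu01 : u 0 1 = m := rfl
    have hu10 : u 1 0 = 0 := rfl
    have hu11 : u 1 1 = 1 := rfl
    refine ⟨u, hu10, ?_⟩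
    rw [mulq_coe]
    have hmR : ((q : ℤ) : ℝ) * (((j.val : ℕ) : ℤ) : ℝ)
        - ((((((q : ZMod ℓ) * j : ZMod ℓ)).val : ℕ) : ℤ) : ℝ) = ((ℓ : ℤ) : ℝ) * (m : ℝ) := by
      exact_mod_cast congrArg (Int.cast : ℤ → ℝ) hm
    apply Matrix.GeneralLinearGroup.ext
    intro i k
    simp only [Matrix.GeneralLinearGroup.coe_mul, heckeRep_val, mapGL_val, hu00, hu01, hu10, hu11,
      hA_infty, hB_infty, hD_infty, hA_coe, hB_coe, hD_coe]
    fin_cases i <;> fin_cases k <;>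
      simp [Matrix.mul_apply, Fin.sum_univ_two, -ZMod.natCast_val]
    push_cast at hmR
    linear_combination hmR

end comm

/-! ### uniqueness and completeness for the transfer families -/

section transfer

variable {X : Type*} [Fintype X]

theorem transferFam_uniq (G H : Subgroup SL(2, ℤ)) (act : SL(2, ℤ) → X → X)
    (act_one : ∀ x, act 1 x = x) (act_mul : ∀ g h x, act (g * h) x = act h (act g x)) (x₀ : X)
    (hH : ∀ g : SL(2, ℤ), g ∈ G → act g x₀ = x₀ → g ∈ H) (t : X → G)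
    (ht : ∀ x, act (t x : SL(2, ℤ)) x₀ = x) (hH' : ∀ h : H, act (h : SL(2, ℤ)) x₀ = x₀) :
    (transferFam G H act act_one act_mul x₀ hH t ht).Uniq := by
  intro x y h e
  rw [transferFam_r, transferFam_r, ← map_mul] at e
  have e' := CosetFam.mapGL_inj e
  rw [← ht x, e', act_mul, hH', ht]

theorem transferFam_complete (G H : Subgroup SL(2, ℤ)) (act : SL(2, ℤ) → X → X)
    (act_one : ∀ x, act 1 x = x) (act_mul : ∀ g h x, act (g * h) x = act h (act g x)) (x₀ : X)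
    (hH : ∀ g : SL(2, ℤ), g ∈ G → act g x₀ = x₀ → g ∈ H) (t : X → G)
    (ht : ∀ x, act (t x : SL(2, ℤ)) x₀ = x) (g : G) :
    ∃ (y : X) (s : H), mapGL ℝ (g : SL(2, ℤ))
      = mapGL ℝ ((s : H) : SL(2, ℤ)) * (transferFam G H act act_one act_mul x₀ hH t ht).r y := by
  have key : ∀ y : X, act ((t y : SL(2, ℤ)))⁻¹ y = x₀ := by
    intro y
    calc act ((t y : SL(2, ℤ)))⁻¹ y = act ((t y : SL(2, ℤ)))⁻¹ (act (t y : SL(2, ℤ)) x₀) := by
          rw [ht]
      _ = act ((t y : SL(2, ℤ)) * ((t y : SL(2, ℤ)))⁻¹) x₀ := (act_mul _ _ _).symm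
      _ = x₀ := by rw [mul_inv_cancel, act_one]
  refine ⟨act (g : SL(2, ℤ)) x₀, ⟨(g : SL(2, ℤ)) * ((t (act (g : SL(2, ℤ)) x₀) : SL(2, ℤ)))⁻¹,
    hH _ (G.mul_mem g.2 (G.inv_mem (t _).2)) (by rw [act_mul, key])⟩, ?_⟩
  rw [transferFam_r, ← map_mul]
  congr 1
  simp

end transfer

/-! ### `T_ℓ` commutes with `α*` and `β*` -/

section up

variable {q ℓ : ℕ} [Fact q.Prime] [Fact ℓ.Prime] {N : ℕ} (A : Type*) [AddCommGroup A]

theorem not_dvd_left (hℓ : ¬ ℓ ∣ N * q) : ¬ ℓ ∣ N := fun h => hℓ (h.mul_right q)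

theorem q_ne_zero_mod (hℓ : ¬ ℓ ∣ N * q) : (q : ZMod ℓ) ≠ 0 := by
  intro h
  exact hℓ (((ZMod.natCast_eq_zero_iff q ℓ).mp h).mul_left N)

theorem coprime_q_ℓ (hℓ : ¬ ℓ ∣ N * q) : Nat.Coprime q ℓ :=
  ((Nat.Prime.coprime_iff_not_dvd (Fact.out : ℓ.Prime)).mpr (fun h => hℓ (h.mul_left N))).symm

/-- **(E1)** `T_ℓ α* = α* T_ℓ` -/
theorem heckeHom_alphaUp (hℓ : ¬ ℓ ∣ N * q) (c : Additive (Gamma0 N) →+ A) :
    heckeHom A hℓ ((alphaUp N q).op A c)
      = (alphaUp N q).op A (heckeHom A (not_dvd_left hℓ) c) := by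
  refine AddMonoidHom.ext fun g' => ?_
  obtain ⟨g, rfl⟩ : ∃ g : Gamma0 (N * q), Additive.ofMul g = g' := ⟨Additive.toMul g', rfl⟩
  unfold alphaUp
  rw [heckeHom_apply, resFam_op_apply, heckeHom_apply]
  refine Finset.sum_congr rfl fun x _ => ?_
  rw [resFam_op_apply]
  congr 2
  apply Subtype.ext
  exact kap_unique (not_dvd_left hℓ) ⟨g, Gamma0_mul_le N q g.2⟩ x (kap_spec hℓ g x)

theorem betaUp_r (hqN : ¬ q ∣ N) (x : Unit) :
    (betaUp hqN).r x = heckeRep q (∞ : OnePoint (ZMod q)) := rfl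

/-- **(E2)** `T_ℓ β* = β* T_ℓ` -/
theorem heckeHom_betaUp (hqN : ¬ q ∣ N) (hℓ : ¬ ℓ ∣ N * q) (c : Additive (Gamma0 N) →+ A) :
    heckeHom A hℓ ((betaUp hqN).op A c)
      = (betaUp hqN).op A (heckeHom A (not_dvd_left hℓ) c) := by
  rw [← heckeFam_op, ← heckeFam_op, ← CosetFam.op_comp, ← CosetFam.op_comp]
  have hq := q_ne_zero_mod hℓ
  have hbij : Function.Bijective
      (fun z : OnePoint (ZMod ℓ) × Unit => (((), mulq hq z.1) : Unit × OnePoint (ZMod ℓ))) := by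
    rw [Fintype.bijective_iff_injective_and_card]
    refine ⟨?_, by rw [Fintype.card_prod, Fintype.card_prod, mul_comm]⟩
    intro z₁ z₂ h
    have := mulq_injective hq (congrArg Prod.snd h)
    exact Prod.ext this rfl
  refine CosetFam.op_eq_of_rel _ _ ?_ (Equiv.ofBijective _ hbij)
    (fun z => ⟨(heckeRep_comm (q := q) hq z.1).choose,
      mem_Gamma0_of_dvd' (by rw [(heckeRep_comm (q := q) hq z.1).choose_spec.1]; exact dvd_zero _)⟩)
    (fun z => (heckeRep_comm (q := q) hq z.1).choose_spec.2) A c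
  intro x y h e
  have e' : heckeRep ℓ x.2 * heckeRep q (∞ : OnePoint (ZMod q))
      = mapGL ℝ ((h : Gamma0 N) : SL(2, ℤ)) * (heckeRep ℓ y.2 * heckeRep q ∞) := e
  rw [← mul_assoc] at e'
  have := (heckeRep_eq_mul (mul_right_cancel e')).1
  exact Prod.ext rfl this

end up

/-! ### `T_ℓ` commutes with the transfers -/

section down

variable {q ℓ : ℕ} [Fact q.Prime] [Fact ℓ.Prime] {N : ℕ}

/-- the general statement: a transfer from a subgroup `S` of `Γ₀(N)`, followed by a conjugation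
from `S` to `Γ₀(N q)`, commutes with `T_ℓ` -/
theorem transfer_equivariant {Y : Type*} [Fintype Y] {S : Subgroup SL(2, ℤ)}
    (hℓ : ¬ ℓ ∣ N * q)
    (tr : CosetFam S (Gamma0 N) Y) (t : Y → Gamma0 N)
    (htr : ∀ y, tr.r y = mapGL ℝ ((t y : Gamma0 N) : SL(2, ℤ)))
    (htrU : tr.Uniq)
    (hcomplete : ∀ g : Gamma0 N, ∃ (y : Y) (s : S),
      mapGL ℝ (g : SL(2, ℤ)) = mapGL ℝ ((s : S) : SL(2, ℤ)) * tr.r y)
    (C : CosetFam (Gamma0 (N * q)) S Unit)
    (h1 : ∀ x : OnePoint (ZMod ℓ), ∃ (x₁ : OnePoint (ZMod ℓ)) (g₁ : Gamma0 N),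
      heckeRep ℓ x * C.r () = C.r () * mapGL ℝ ((g₁ : Gamma0 N) : SL(2, ℤ)) * heckeRep ℓ x₁)
    (h2 : ∀ (x x' : OnePoint (ZMod ℓ)) (σ : Gamma0 N) (k : Gamma0 (N * q)),
      heckeRep ℓ x * C.r () * mapGL ℝ ((σ : Gamma0 N) : SL(2, ℤ))
        = mapGL ℝ ((k : Gamma0 (N * q)) : SL(2, ℤ)) * (heckeRep ℓ x' * C.r ())
      → (σ : SL(2, ℤ)) ∈ S)
    (h3 : ∀ k : Gamma0 (N * q), ∃ k' : S,
      mapGL ℝ ((k : Gamma0 (N * q)) : SL(2, ℤ)) * C.r () = C.r () * mapGL ℝ ((k' : S) : SL(2, ℤ)))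
    (A : Type*) [AddCommGroup A] (c : Additive (Gamma0 (N * q)) →+ A) :
    heckeHom A (not_dvd_left hℓ) ((tr.comp C).op A c) = (tr.comp C).op A (heckeHom A hℓ c) := by
  rw [← heckeFam_op, ← heckeFam_op, ← CosetFam.op_comp, ← CosetFam.op_comp]
  symm
  have hr : ∀ z : (Y × Unit) × OnePoint (ZMod ℓ),
      ((tr.comp C).comp (heckeFam ℓ (N * q) hℓ)).r z
        = heckeRep ℓ z.2 * (C.r () * mapGL ℝ ((t z.1.1 : Gamma0 N) : SL(2, ℤ))) := by
    intro z
    rw [← htr]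
    rfl
  have hr' : ∀ z : OnePoint (ZMod ℓ) × (Y × Unit),
      ((heckeFam ℓ N (not_dvd_left hℓ)).comp (tr.comp C)).r z
        = (C.r () * mapGL ℝ ((t z.2.1 : Gamma0 N) : SL(2, ℤ))) * heckeRep ℓ z.1 := by
    intro z
    rw [← htr]
    rfl
  apply CosetFam.op_eq_of_exists
  · -- uniqueness for the first family
    intro z z' k e
    rw [hr, hr] at e
    set σ : Gamma0 N := t z.1.1 * (t z'.1.1)⁻¹ with hσ
    have e1 : heckeRep ℓ z.2 * C.r () * mapGL ℝ ((σ : Gamma0 N) : SL(2, ℤ))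
        = mapGL ℝ ((k : Gamma0 (N * q)) : SL(2, ℤ)) * (heckeRep ℓ z'.2 * C.r ()) := by
      have : mapGL ℝ ((σ : Gamma0 N) : SL(2, ℤ))
          = mapGL ℝ ((t z.1.1 : Gamma0 N) : SL(2, ℤ))
            * (mapGL ℝ ((t z'.1.1 : Gamma0 N) : SL(2, ℤ)))⁻¹ := by
        rw [hσ, Subgroup.coe_mul, Subgroup.coe_inv, map_mul, map_inv]
      rw [this, ← mul_assoc, mul_assoc (heckeRep ℓ z.2), e]
      simp only [mul_assoc, mul_inv_cancel, mul_one]
    have hσS := h2 _ _ _ _ e1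
    have hy : z.1.1 = z'.1.1 := by
      apply htrU _ _ ⟨σ, hσS⟩
      rw [htr, htr]
      show _ = mapGL ℝ ((σ : Gamma0 N) : SL(2, ℤ)) * _
      rw [hσ, Subgroup.coe_mul, Subgroup.coe_inv, map_mul, map_inv, mul_assoc, inv_mul_cancel,
        mul_one]
    rw [hy] at e
    have e'' : heckeRep ℓ z.2 * (C.r () * mapGL ℝ ((t z'.1.1 : Gamma0 N) : SL(2, ℤ)))
        = (mapGL ℝ ((k : Gamma0 (N * q)) : SL(2, ℤ)) * heckeRep ℓ z'.2)
          * (C.r () * mapGL ℝ ((t z'.1.1 : Gamma0 N) : SL(2, ℤ))) := by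
      rw [mul_assoc]
      exact e
    have hx := (heckeRep_eq_mul (mul_right_cancel e'')).1
    exact Prod.ext (Prod.ext hy rfl) hx
  · -- uniqueness for the second family
    intro z z' k e
    rw [hr', hr'] at e
    obtain ⟨k', hk'⟩ := h3 k
    rw [← mul_assoc, ← mul_assoc, hk', mul_assoc, mul_assoc, mul_assoc] at e
    have e1 := mul_left_cancel e
    have e2 : heckeRep ℓ z.1
        = mapGL ℝ ((((t z.2.1 : Gamma0 N) : SL(2, ℤ)))⁻¹ * ((k' : S) : SL(2, ℤ))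
            * ((t z'.2.1 : Gamma0 N) : SL(2, ℤ))) * heckeRep ℓ z'.1 := by
      rw [map_mul, map_mul, map_inv, mul_assoc, mul_assoc, ← e1, ← mul_assoc, inv_mul_cancel,
        one_mul]
    obtain ⟨hx, hk1⟩ := heckeRep_eq_mul e2
    have hy : z.2.1 = z'.2.1 := by
      apply htrU _ _ k'
      rw [htr, htr, ← map_mul]
      congr 1
      have := congrArg (fun g => ((t z.2.1 : Gamma0 N) : SL(2, ℤ)) * g) hk1
      simp only [mul_one] at this
      rw [← this]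
      group
    exact Prod.ext hx (Prod.ext hy rfl)
  · simp only [Fintype.card_prod]
    ring
  · intro z
    obtain ⟨x₁, g₁, hg₁⟩ := h1 z.2
    obtain ⟨y', s, hs⟩ := hcomplete (g₁ * kap (not_dvd_left hℓ) (t z.1.1) x₁)
    refine ⟨(perm ((t z.1.1 : Gamma0 N) : SL(2, ℤ)) x₁, (y', ())), C.κ s (), ?_⟩
    rw [hr, hr']
    have hspec := kap_spec (not_dvd_left hℓ) (t z.1.1) x₁
    have hC := C.spec s ()
    have hact : C.act s () = () := rfl
    rw [hact] at hC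
    calc heckeRep ℓ z.2 * (C.r () * mapGL ℝ ((t z.1.1 : Gamma0 N) : SL(2, ℤ)))
        = C.r () * mapGL ℝ ((g₁ : Gamma0 N) : SL(2, ℤ))
            * (heckeRep ℓ x₁ * mapGL ℝ ((t z.1.1 : Gamma0 N) : SL(2, ℤ))) := by
          rw [← mul_assoc, hg₁, mul_assoc]
      _ = C.r () * (mapGL ℝ (((g₁ * kap (not_dvd_left hℓ) (t z.1.1) x₁ : Gamma0 N)) : SL(2, ℤ)))
            * heckeRep ℓ (perm ((t z.1.1 : Gamma0 N) : SL(2, ℤ)) x₁) := by
          rw [hspec, Subgroup.coe_mul, map_mul]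
          simp only [mul_assoc]
      _ = mapGL ℝ ((C.κ s () : Gamma0 (N * q)) : SL(2, ℤ))
            * (C.r () * mapGL ℝ ((t y' : Gamma0 N) : SL(2, ℤ))
              * heckeRep ℓ (perm ((t z.1.1 : Gamma0 N) : SL(2, ℤ)) x₁)) := by
          rw [hs, htr, ← mul_assoc (C.r ()), hC]
          simp only [mul_assoc]

end down

section downQ

variable {q ℓ : ℕ} [Fact q.Prime] [Fact ℓ.Prime] {N : ℕ} (A : Type*) [AddCommGroup A]

theorem resFam_refl_op (H : Subgroup SL(2, ℤ)) (c : Additive H →+ A) :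
    (resFam (le_refl H)).op A c = c := by
  refine AddMonoidHom.ext fun g' => ?_
  obtain ⟨g, rfl⟩ : ∃ g : H, Additive.ofMul g = g' := ⟨Additive.toMul g', rfl⟩
  rw [resFam_op_apply]

theorem alphaDown_uniq (hqN : ¬ q ∣ N) : (alphaDown hqN).Uniq :=
  transferFam_uniq _ _ _ _ _ _ _ _ _ (fun h => ((mem_Gamma0_mul_iff hqN _).mp h.2).2)

theorem tr0_uniq (hqN : ¬ q ∣ N) : (tr0 hqN).Uniq :=
  transferFam_uniq _ _ _ _ _ _ _ _ _ (fun h => h.2.2)

/-- **(E3)** `T_ℓ α_* = α_* T_ℓ` -/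
theorem heckeHom_alphaDown (hqN : ¬ q ∣ N) (hℓ : ¬ ℓ ∣ N * q)
    (c : Additive (Gamma0 (N * q)) →+ A) :
    heckeHom A (not_dvd_left hℓ) ((alphaDown hqN).op A c)
      = (alphaDown hqN).op A (heckeHom A hℓ c) := by
  have key := transfer_equivariant (q := q) hℓ (alphaDown hqN) (tInf hqN) (fun y => rfl)
    (alphaDown_uniq hqN) (transferFam_complete _ _ _ _ _ _ _ _ _)
    (resFam (le_refl (Gamma0 (N * q))))
    (fun x => ⟨x, 1, by
      rw [resFam_r, Subgroup.coe_one, map_one, mul_one, mul_one, one_mul]⟩)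
    (fun x x' σ k e => by
      rw [resFam_r, mul_one, mul_one] at e
      have h10 := (entries_of_eq e).2.2.1
      rw [mem_Gamma0_mul_iff hqN]
      refine ⟨σ.2, (perm_infty_eq _).mpr ?_⟩
      have hk : (q : ℤ) ∣ (k : SL(2, ℤ)) 1 0 :=
        (perm_infty_eq _).mp ((mem_Gamma0_mul_iff hqN _).mp k.2).2
      have hcop : IsCoprime (q : ℤ) (hD x) := by
        rcases hD_eq x with h1 | h1 <;> rw [h1]
        · exact isCoprime_one_right
        · exact Nat.isCoprime_iff_coprime.mpr (coprime_q_ℓ hℓ)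
      have : (q : ℤ) ∣ hD x * (σ : SL(2, ℤ)) 1 0 := by
        rw [h10]
        exact Dvd.dvd.mul_right hk _
      exact hcop.dvd_of_dvd_mul_left this)
    (fun k => ⟨k, by rw [resFam_r, mul_one, one_mul]⟩) A c
  rw [CosetFam.op_comp, CosetFam.op_comp, resFam_refl_op, resFam_refl_op] at key
  exact key

theorem conj0_r (hqN : ¬ q ∣ N) (x : Unit) :
    (conj0 hqN).r x = heckeRep q ((0 : ZMod q) : OnePoint (ZMod q)) := rfl

theorem heckeRep_zero_mul_infty :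
    heckeRep q ((0 : ZMod q) : OnePoint (ZMod q)) * heckeRep q (∞ : OnePoint (ZMod q))
      = heckeRep q (∞ : OnePoint (ZMod q)) * heckeRep q ((0 : ZMod q) : OnePoint (ZMod q)) := by
  have h := heckeRep_infty_mul_zero_comm (q := q) (heckeRep q (∞ : OnePoint (ZMod q)))
  rw [mul_assoc] at h
  exact (mul_left_cancel h)

/-- `h_x · diag(1, q) = diag(1, q) · u · h_{q x}` -/
theorem heckeRep_comm_zero (hq : (q : ZMod ℓ) ≠ 0) (x : OnePoint (ZMod ℓ)) :
    ∃ u : SL(2, ℤ), u 1 0 = 0 ∧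
      heckeRep ℓ x * heckeRep q ((0 : ZMod q) : OnePoint (ZMod q))
        = heckeRep q ((0 : ZMod q) : OnePoint (ZMod q)) * mapGL ℝ u * heckeRep ℓ (mulq hq x) := by
  obtain ⟨u, hu, h⟩ := heckeRep_comm (q := q) hq x
  refine ⟨u, hu, ?_⟩
  apply mul_left_cancel (a := heckeRep q (∞ : OnePoint (ZMod q)))
  have hc := heckeRep_infty_mul_zero_comm (q := q)
  calc heckeRep q (∞ : OnePoint (ZMod q))
        * (heckeRep ℓ x * heckeRep q ((0 : ZMod q) : OnePoint (ZMod q)))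
      = mapGL ℝ u * heckeRep ℓ (mulq hq x) * (heckeRep q (∞ : OnePoint (ZMod q))
          * heckeRep q ((0 : ZMod q) : OnePoint (ZMod q))) := by
        rw [← mul_assoc, h]
        simp only [mul_assoc]
    _ = (heckeRep q (∞ : OnePoint (ZMod q)) * heckeRep q ((0 : ZMod q) : OnePoint (ZMod q)))
          * (mapGL ℝ u * heckeRep ℓ (mulq hq x)) := (hc _).symm
    _ = _ := by simp only [mul_assoc]

/-- **(E4)** `T_ℓ β_* = β_* T_ℓ` -/
theorem heckeHom_betaDown (hqN : ¬ q ∣ N) (hℓ : ¬ ℓ ∣ N * q)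
    (c : Additive (Gamma0 (N * q)) →+ A) :
    heckeHom A (not_dvd_left hℓ) ((betaDown hqN).op A c)
      = (betaDown hqN).op A (heckeHom A hℓ c) := by
  have hq := q_ne_zero_mod hℓ
  refine transfer_equivariant (q := q) hℓ (tr0 hqN) (tZero hqN) (fun y => rfl)
    (tr0_uniq hqN) (transferFam_complete _ _ _ _ _ _ _ _ _) (conj0 hqN) ?_ ?_ ?_ A c
  · intro x
    obtain ⟨u, hu, h⟩ := heckeRep_comm_zero (q := q) hq x
    exact ⟨mulq hq x, ⟨u, mem_Gamma0_of_dvd' (by rw [hu]; exact dvd_zero _)⟩, h⟩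
  · intro x x' σ k e
    rw [conj0_r] at e
    refine mem_stab0.mpr ⟨σ.2, (perm_zero_eq _).mpr ?_⟩
    have e' := congrArg (fun M : GL (Fin 2) ℝ => (M : Matrix (Fin 2) (Fin 2) ℝ) 0 1) e
    simp only [Matrix.GeneralLinearGroup.coe_mul, heckeRep_val, mapGL_val, hA_coe, hB_coe,
      hD_coe, ZMod.val_zero, Matrix.mul_apply, Fin.sum_univ_two, Matrix.of_apply,
      Matrix.cons_val_zero, Matrix.cons_val_one, Matrix.cons_val', Matrix.cons_val_fin_one] at e'
    have e2 : hA x * (σ : SL(2, ℤ)) 0 1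
        = (q : ℤ) * ((k : SL(2, ℤ)) 0 0 * hB x' + (k : SL(2, ℤ)) 0 1 * hD x'
          - hB x * (σ : SL(2, ℤ)) 1 1) := by
      have : ((hA x * (σ : SL(2, ℤ)) 0 1 : ℤ) : ℝ)
          = (((q : ℤ) * ((k : SL(2, ℤ)) 0 0 * hB x' + (k : SL(2, ℤ)) 0 1 * hD x'
            - hB x * (σ : SL(2, ℤ)) 1 1) : ℤ) : ℝ) := by
        push_cast
        push_cast at e'
        linear_combination e'
      exact_mod_cast this
    have hcop : IsCoprime (q : ℤ) (hA x) := by
      rcases hA_eq x with h1 | h1 <;> rw [h1]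
      · exact isCoprime_one_right
      · exact Nat.isCoprime_iff_coprime.mpr (coprime_q_ℓ hℓ)
    exact hcop.dvd_of_dvd_mul_left (Dvd.intro _ e2.symm)
  · intro k
    have hkinf : perm ((k : Gamma0 (N * q)) : SL(2, ℤ)) (∞ : OnePoint (ZMod q)) = ∞ :=
      ((mem_Gamma0_mul_iff hqN _).mp k.2).2
    have hspec := kap_spec hqN ⟨k, Gamma0_mul_le N q k.2⟩ (∞ : OnePoint (ZMod q))
    have hspec' : heckeRep q (∞ : OnePoint (ZMod q)) * mapGL ℝ ((k : Gamma0 (N * q)) : SL(2, ℤ))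
        = mapGL ℝ ((kap hqN ⟨k, Gamma0_mul_le N q k.2⟩ (∞ : OnePoint (ZMod q)) : Gamma0 N)
            : SL(2, ℤ)) * heckeRep q (∞ : OnePoint (ZMod q)) := by
      have := hspec
      rw [show perm ((⟨k, Gamma0_mul_le N q k.2⟩ : Gamma0 N) : SL(2, ℤ))
        (∞ : OnePoint (ZMod q)) = ∞ from hkinf] at this
      exact this
    have h01 := (entries_of_eq hspec').2.1
    simp only [hA_infty, hB_infty, hD_infty, zero_mul, add_zero, mul_zero, zero_add, mul_one]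
      at h01
    refine ⟨⟨kap hqN ⟨k, Gamma0_mul_le N q k.2⟩ (∞ : OnePoint (ZMod q)),
      mem_stab0.mpr ⟨(kap hqN _ _).2, (perm_zero_eq _).mpr (Dvd.intro _ h01)⟩⟩, ?_⟩
    rw [conj0_r]
    apply mul_left_cancel (a := heckeRep q ((0 : ZMod q) : OnePoint (ZMod q))
      * heckeRep q (∞ : OnePoint (ZMod q)))
    have hc := heckeRep_infty_mul_zero_comm (q := q)
    calc heckeRep q ((0 : ZMod q) : OnePoint (ZMod q)) * heckeRep q (∞ : OnePoint (ZMod q))
          * (mapGL ℝ ((k : Gamma0 (N * q)) : SL(2, ℤ))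
            * heckeRep q ((0 : ZMod q) : OnePoint (ZMod q)))
        = heckeRep q ((0 : ZMod q) : OnePoint (ZMod q))
          * (mapGL ℝ ((kap hqN ⟨k, Gamma0_mul_le N q k.2⟩ (∞ : OnePoint (ZMod q)) : Gamma0 N)
            : SL(2, ℤ)) * (heckeRep q (∞ : OnePoint (ZMod q))
              * heckeRep q ((0 : ZMod q) : OnePoint (ZMod q)))) := by
          rw [mul_assoc, ← mul_assoc (heckeRep q (∞ : OnePoint (ZMod q))), hspec']
          simp only [mul_assoc]
      _ = heckeRep q ((0 : ZMod q) : OnePoint (ZMod q))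
          * ((heckeRep q (∞ : OnePoint (ZMod q))
              * heckeRep q ((0 : ZMod q) : OnePoint (ZMod q)))
            * mapGL ℝ ((kap hqN ⟨k, Gamma0_mul_le N q k.2⟩ (∞ : OnePoint (ZMod q)) : Gamma0 N)
            : SL(2, ℤ))) := by rw [hc]
      _ = _ := by simp only [mul_assoc]

end downQ

end Fermat.Agent.S41.P3
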