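import Mathlib
import Fermat.Agent.S41.DegenEq
import Fermat.Agent.S31.Lat

/-!
# S41, piece P3, part 5: the degeneracy maps on parabolic homomorphisms and on the lattices

For `q` prime, `q ∤ N`, any ring `R` and `R`-module `A`, with `P_M := parabolicHoms R Γ₀(M) A`:
* `aUp, bUp : P_N → P_{N q}` (`α*`, `β*`), `aDown, bDown : P_{N q} → P_N` (`α_*`, `β_*`);
* `iUp : P_N × P_N → P_{N q}`, `(c₁, c₂) ↦ α* c₁ + β* c₂`; `iDown : P_{N q} → P_N × P_N`,
  `c ↦ (α_* c, β_* c)`;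
* **(M)** `iDown (iUp (c₁, c₂)) = ((q + 1) c₁ + T_q c₂, T_q c₁ + (q + 1) c₂)`;
* all maps commute with `T_ℓ = heckePar'`, `ℓ ∤ N q`;
* all maps are natural in the coefficient module.
The case `R = A = ℤ` is the case of the lattices `Lam N`, `Lam (N q)` with `Tpar`.
-/

set_option autoImplicit false
set_option linter.unusedSectionVars false
set_option linter.unusedVariables false

noncomputable section

open Matrix.SpecialLinearGroup CongruenceSubgroup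
open scoped MatrixGroups OnePoint
open ModularCurve.Period
open Fermat.Agent.S29.D1
open P2MW.S_ModularForm_heckeT_slash_eq_self_of_mem_Gamma0.ModularForm.HeckeSlashInvariance

namespace Fermat.Agent.S41.P3

variable {q : ℕ} [Fact q.Prime] {N : ℕ}

section par

variable (R : Type*) [Ring R] (A : Type*) [AddCommGroup A] [Module R A]

/-- `α*` on parabolic homomorphisms -/
def aUp (hqN : ¬ q ∣ N) :
    parabolicHoms R (Gamma0 N) A →ₗ[R] parabolicHoms R (Gamma0 (N * q)) A :=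
  (alphaUp N q).opPar A R

/-- `β*` on parabolic homomorphisms -/
def bUp (hqN : ¬ q ∣ N) :
    parabolicHoms R (Gamma0 N) A →ₗ[R] parabolicHoms R (Gamma0 (N * q)) A :=
  (betaUp hqN).opPar A R

/-- `α_*` on parabolic homomorphisms -/
def aDown (hqN : ¬ q ∣ N) :
    parabolicHoms R (Gamma0 (N * q)) A →ₗ[R] parabolicHoms R (Gamma0 N) A :=
  (alphaDown hqN).opPar A R

/-- `β_*` on parabolic homomorphisms -/
def bDown (hqN : ¬ q ∣ N) :
    parabolicHoms R (Gamma0 (N * q)) A →ₗ[R] parabolicHoms R (Gamma0 N) A :=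
  (betaDown hqN).opPar A R

@[simp] theorem coe_aUp (hqN : ¬ q ∣ N) (c : parabolicHoms R (Gamma0 N) A) :
    ((aUp R A hqN c : parabolicHoms R (Gamma0 (N * q)) A) : Additive (Gamma0 (N * q)) →+ A)
      = (alphaUp N q).op A c.1 := rfl

@[simp] theorem coe_bUp (hqN : ¬ q ∣ N) (c : parabolicHoms R (Gamma0 N) A) :
    ((bUp R A hqN c : parabolicHoms R (Gamma0 (N * q)) A) : Additive (Gamma0 (N * q)) →+ A)
      = (betaUp hqN).op A c.1 := rfl

@[simp] theorem coe_aDown (hqN : ¬ q ∣ N) (c : parabolicHoms R (Gamma0 (N * q)) A) :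
    ((aDown R A hqN c : parabolicHoms R (Gamma0 N) A) : Additive (Gamma0 N) →+ A)
      = (alphaDown hqN).op A c.1 := rfl

@[simp] theorem coe_bDown (hqN : ¬ q ∣ N) (c : parabolicHoms R (Gamma0 (N * q)) A) :
    ((bDown R A hqN c : parabolicHoms R (Gamma0 N) A) : Additive (Gamma0 N) →+ A)
      = (betaDown hqN).op A c.1 := rfl

/-- the value of `α* c`: restriction -/
theorem aUp_apply (hqN : ¬ q ∣ N) (c : parabolicHoms R (Gamma0 N) A) (g : Gamma0 (N * q)) :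
    (aUp R A hqN c).1 (Additive.ofMul g)
      = c.1 (Additive.ofMul (⟨g, Gamma0_mul_le N q g.2⟩ : Gamma0 N)) := by
  rw [coe_aUp]
  exact resFam_op_apply _ A c.1 g

/-- the value of `β* c`: `c (δ g δ⁻¹)`, where `δ g δ⁻¹ = kap g ∞` -/
theorem bUp_apply (hqN : ¬ q ∣ N) (c : parabolicHoms R (Gamma0 N) A) (g : Gamma0 (N * q)) :
    (bUp R A hqN c).1 (Additive.ofMul g)
      = c.1 (Additive.ofMul (kap hqN (⟨g, Gamma0_mul_le N q g.2⟩ : Gamma0 N)
          (∞ : OnePoint (ZMod q)))) := by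
  rw [coe_bUp, CosetFam.op_apply]
  simp
  rfl

/-! #### (M) -/

theorem aDown_aUp (hqN : ¬ q ∣ N) (c : parabolicHoms R (Gamma0 N) A) :
    aDown R A hqN (aUp R A hqN c) = (q + 1) • c :=
  Subtype.ext (alphaDown_alphaUp A hqN c.1)

theorem bDown_bUp (hqN : ¬ q ∣ N) (c : parabolicHoms R (Gamma0 N) A) :
    bDown R A hqN (bUp R A hqN c) = (q + 1) • c :=
  Subtype.ext (betaDown_betaUp A hqN c.1)

theorem aDown_bUp (hqN : ¬ q ∣ N) (c : parabolicHoms R (Gamma0 N) A) :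
    aDown R A hqN (bUp R A hqN c) = heckePar' hqN R A c :=
  Subtype.ext (alphaDown_betaUp A hqN c.1)

theorem bDown_aUp (hqN : ¬ q ∣ N) (c : parabolicHoms R (Gamma0 N) A) :
    bDown R A hqN (aUp R A hqN c) = heckePar' hqN R A c :=
  Subtype.ext (betaDown_alphaUp A hqN c.1)

/-- `i = α* + β*` -/
def iUp (hqN : ¬ q ∣ N) :
    (parabolicHoms R (Gamma0 N) A × parabolicHoms R (Gamma0 N) A)
      →ₗ[R] parabolicHoms R (Gamma0 (N * q)) A :=
  (aUp R A hqN).coprod (bUp R A hqN)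

/-- `i† = (α_*, β_*)` -/
def iDown (hqN : ¬ q ∣ N) :
    parabolicHoms R (Gamma0 (N * q)) A
      →ₗ[R] (parabolicHoms R (Gamma0 N) A × parabolicHoms R (Gamma0 N) A) :=
  (aDown R A hqN).prod (bDown R A hqN)

theorem iUp_apply (hqN : ¬ q ∣ N)
    (c : parabolicHoms R (Gamma0 N) A × parabolicHoms R (Gamma0 N) A) :
    iUp R A hqN c = aUp R A hqN c.1 + bUp R A hqN c.2 := rfl

theorem iDown_apply (hqN : ¬ q ∣ N) (c : parabolicHoms R (Gamma0 (N * q)) A) :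
    iDown R A hqN c = (aDown R A hqN c, bDown R A hqN c) := rfl

/-- **(M)** `i† i = [[q + 1, T_q], [T_q, q + 1]]` -/
theorem iDown_iUp (hqN : ¬ q ∣ N)
    (c : parabolicHoms R (Gamma0 N) A × parabolicHoms R (Gamma0 N) A) :
    iDown R A hqN (iUp R A hqN c)
      = ((q + 1) • c.1 + heckePar' hqN R A c.2, heckePar' hqN R A c.1 + (q + 1) • c.2) := by
  rw [iUp_apply, iDown_apply, map_add, map_add, aDown_aUp, aDown_bUp, bDown_aUp, bDown_bUp]

/-! #### equivariance -/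

variable {ℓ : ℕ} [Fact ℓ.Prime]

theorem heckePar_aUp (hqN : ¬ q ∣ N) (hℓ : ¬ ℓ ∣ N * q) (c : parabolicHoms R (Gamma0 N) A) :
    heckePar' hℓ R A (aUp R A hqN c) = aUp R A hqN (heckePar' (not_dvd_left hℓ) R A c) :=
  Subtype.ext (heckeHom_alphaUp A hℓ c.1)

theorem heckePar_bUp (hqN : ¬ q ∣ N) (hℓ : ¬ ℓ ∣ N * q) (c : parabolicHoms R (Gamma0 N) A) :
    heckePar' hℓ R A (bUp R A hqN c) = bUp R A hqN (heckePar' (not_dvd_left hℓ) R A c) :=
  Subtype.ext (heckeHom_betaUp A hqN hℓ c.1)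

theorem heckePar_aDown (hqN : ¬ q ∣ N) (hℓ : ¬ ℓ ∣ N * q)
    (c : parabolicHoms R (Gamma0 (N * q)) A) :
    heckePar' (not_dvd_left hℓ) R A (aDown R A hqN c) = aDown R A hqN (heckePar' hℓ R A c) :=
  Subtype.ext (heckeHom_alphaDown A hqN hℓ c.1)

theorem heckePar_bDown (hqN : ¬ q ∣ N) (hℓ : ¬ ℓ ∣ N * q)
    (c : parabolicHoms R (Gamma0 (N * q)) A) :
    heckePar' (not_dvd_left hℓ) R A (bDown R A hqN c) = bDown R A hqN (heckePar' hℓ R A c) :=
  Subtype.ext (heckeHom_betaDown A hqN hℓ c.1)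

theorem heckePar_iUp (hqN : ¬ q ∣ N) (hℓ : ¬ ℓ ∣ N * q)
    (c : parabolicHoms R (Gamma0 N) A × parabolicHoms R (Gamma0 N) A) :
    heckePar' hℓ R A (iUp R A hqN c)
      = iUp R A hqN (heckePar' (not_dvd_left hℓ) R A c.1, heckePar' (not_dvd_left hℓ) R A c.2) := by
  rw [iUp_apply, iUp_apply, map_add, heckePar_aUp, heckePar_bUp]

theorem iDown_heckePar (hqN : ¬ q ∣ N) (hℓ : ¬ ℓ ∣ N * q)
    (c : parabolicHoms R (Gamma0 (N * q)) A) :
    iDown R A hqN (heckePar' hℓ R A c)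
      = (heckePar' (not_dvd_left hℓ) R A (iDown R A hqN c).1,
          heckePar' (not_dvd_left hℓ) R A (iDown R A hqN c).2) := by
  rw [iDown_apply, iDown_apply, heckePar_aDown, heckePar_bDown]

end par

/-! ### naturality in the coefficients -/

section natural

variable {A B : Type*} [AddCommGroup A] [AddCommGroup B] (τ : A →+ B)

theorem alphaUp_comp_hom (c : Additive (Gamma0 N) →+ A) :
    (alphaUp N q).op B (τ.comp c) = τ.comp ((alphaUp N q).op A c) :=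
  CosetFam.op_comp_hom _ τ c

theorem betaUp_comp_hom (hqN : ¬ q ∣ N) (c : Additive (Gamma0 N) →+ A) :
    (betaUp hqN).op B (τ.comp c) = τ.comp ((betaUp hqN).op A c) :=
  CosetFam.op_comp_hom _ τ c

theorem alphaDown_comp_hom (hqN : ¬ q ∣ N) (c : Additive (Gamma0 (N * q)) →+ A) :
    (alphaDown hqN).op B (τ.comp c) = τ.comp ((alphaDown hqN).op A c) :=
  CosetFam.op_comp_hom _ τ c

theorem betaDown_comp_hom (hqN : ¬ q ∣ N) (c : Additive (Gamma0 (N * q)) →+ A) :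
    (betaDown hqN).op B (τ.comp c) = τ.comp ((betaDown hqN).op A c) :=
  CosetFam.op_comp_hom _ τ c

end natural

/-! ### the lattices -/

section lattice

open Fermat.Agent.S31.Lat

theorem not_dvd_of_not_dvd_mul {ℓ N q : ℕ} (h : ¬ ℓ ∣ N * q) : ¬ ℓ ∣ N :=
  fun h' => h (h'.mul_right q)

variable [NeZero N]

/-- `i : Λ_N × Λ_N → Λ_{N q}` -/
abbrev iLam (hqN : ¬ q ∣ N) : (Lam N × Lam N) →ₗ[ℤ] Lam (N * q) := iUp ℤ ℤ hqN

/-- `i† : Λ_{N q} → Λ_N × Λ_N` -/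
abbrev iLamDual (hqN : ¬ q ∣ N) : Lam (N * q) →ₗ[ℤ] (Lam N × Lam N) := iDown ℤ ℤ hqN

/-- **(M)** on the lattices -/
theorem iLamDual_iLam (hqN : ¬ q ∣ N) (c : Lam N × Lam N) :
    iLamDual hqN (iLam hqN c)
      = ((q + 1) • c.1 + Tpar (Fact.out : q.Prime) hqN c.2,
          Tpar (Fact.out : q.Prime) hqN c.1 + (q + 1) • c.2) :=
  iDown_iUp ℤ ℤ hqN c

variable {ℓ : ℕ}

theorem Tpar_iLam (hqN : ¬ q ∣ N) (hℓ : ℓ.Prime) (hℓN : ¬ ℓ ∣ N * q) (c : Lam N × Lam N) :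
    Tpar hℓ hℓN (iLam hqN c)
      = iLam hqN (Tpar hℓ (not_dvd_of_not_dvd_mul hℓN) c.1,
          Tpar hℓ (not_dvd_of_not_dvd_mul hℓN) c.2) :=
  haveI : Fact ℓ.Prime := ⟨hℓ⟩
  heckePar_iUp ℤ ℤ hqN hℓN c

theorem iLamDual_Tpar (hqN : ¬ q ∣ N) (hℓ : ℓ.Prime) (hℓN : ¬ ℓ ∣ N * q) (c : Lam (N * q)) :
    iLamDual hqN (Tpar hℓ hℓN c)
      = (Tpar hℓ (not_dvd_of_not_dvd_mul hℓN) (iLamDual hqN c).1,
          Tpar hℓ (not_dvd_of_not_dvd_mul hℓN) (iLamDual hqN c).2) :=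
  haveI : Fact ℓ.Prime := ⟨hℓ⟩
  iDown_heckePar ℤ ℤ hqN hℓN c

end lattice

end Fermat.Agent.S41.P3
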