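import Mathlib
import Fermat.Agent.S29.ParPeriod
import Fermat.Agent.S41.DegenFam

/-!
# S41, piece P7, part 1: the operator `U_ℓ` on `Hom(Γ₀(M), A)`, `ℓ ∣ M`

The coset family `uFam` with representatives `heckeMatrix ℓ j = [[1, j], [0, ℓ]]`, `j ∈ ℤ/ℓ`,
its operator `uHom = U_ℓ`, and the equivariance of the period map:
`periodMap M (U_ℓ f) = U_ℓ (periodMap M f)`.
-/

set_option autoImplicit false
set_option linter.unusedSectionVars false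
set_option linter.unusedVariables false
set_option linter.style.haveILetI false

noncomputable section

open Matrix.SpecialLinearGroup CongruenceSubgroup UpperHalfPlane
open scoped MatrixGroups
open P2MW.S_ModularForm_heckeT_slash_eq_self_of_mem_Gamma0.ModularForm.HeckeSlashInvariance
open Fermat.Agent.S21 Fermat.Agent.S22 ModularCurve ModularCurve.Period
open Fermat.Agent.S29.D1 Fermat.Agent.S41.P3

namespace Fermat.Agent.S41.P7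

variable {M : ℕ} {ℓ : ℕ} [Fact ℓ.Prime]

/-! ### the family -/

theorem dvd_lower_left (hℓM : ℓ ∣ M) (γ : Gamma0 M) : (ℓ : ℤ) ∣ (γ : SL(2, ℤ)) 1 0 :=
  (Int.natCast_dvd_natCast.mpr hℓM).trans (dvd_of_mem_Gamma0 γ.2)

theorem cast_lower_left (hℓM : ℓ ∣ M) (γ : Gamma0 M) :
    ((((γ : SL(2, ℤ)) 1 0 : ℤ)) : ZMod ℓ) = 0 :=
  (ZMod.intCast_zmod_eq_zero_iff_dvd _ _).mpr (dvd_lower_left hℓM γ)

/-- the permutation of `ℤ/ℓ` induced by `γ ∈ Γ₀(M)`, `ℓ ∣ M` -/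
def uAct (hℓM : ℓ ∣ M) (γ : Gamma0 M) (j : ZMod ℓ) : ZMod ℓ :=
  affinePerm (γ : SL(2, ℤ)) (cast_lower_left hℓM γ) j

theorem uAct_apply (hℓM : ℓ ∣ M) (γ : Gamma0 M) (j : ZMod ℓ) :
    uAct hℓM γ j = ((((γ : SL(2, ℤ)) 1 1 : ℤ)) : ZMod ℓ)
      * (((((γ : SL(2, ℤ)) 0 1 : ℤ)) : ZMod ℓ) + ((((γ : SL(2, ℤ)) 1 1 : ℤ)) : ZMod ℓ) * j) := rfl

/-- the cocycle of `U_ℓ` -/
def uKap (hℓM : ℓ ∣ M) (γ : Gamma0 M) (j : ZMod ℓ) : Gamma0 M :=
  ⟨(heckeMatrix_mul_of_dvd (γ : SL(2, ℤ)) (dvd_lower_left hℓM γ) j).choose, by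
    apply mem_Gamma0_of_dvd'
    rw [(heckeMatrix_mul_of_dvd (γ : SL(2, ℤ)) (dvd_lower_left hℓM γ) j).choose_spec.1]
    exact Dvd.dvd.mul_left (dvd_of_mem_Gamma0 γ.2) _⟩

theorem uKap_spec (hℓM : ℓ ∣ M) (γ : Gamma0 M) (j : ZMod ℓ) :
    ModularForm.heckeMatrix ℓ j.val * mapGL ℝ (γ : SL(2, ℤ))
      = mapGL ℝ ((uKap hℓM γ j : Gamma0 M) : SL(2, ℤ))
        * ModularForm.heckeMatrix ℓ (uAct hℓM γ j).val :=
  (heckeMatrix_mul_of_dvd (γ : SL(2, ℤ)) (dvd_lower_left hℓM γ) j).choose_spec.2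

theorem uAct_one (hℓM : ℓ ∣ M) (j : ZMod ℓ) : uAct hℓM (1 : Gamma0 M) j = j := by
  rw [uAct_apply]
  simp

theorem uAct_mul (hℓM : ℓ ∣ M) (γ δ : Gamma0 M) (j : ZMod ℓ) :
    uAct hℓM (γ * δ) j = uAct hℓM δ (uAct hℓM γ j) := by
  rw [uAct_apply, uAct_apply, uAct_apply]
  have hc := cast_lower_left hℓM γ
  have hu := unit_of_apply_one_zero_eq_zero (p := ℓ) (γ : SL(2, ℤ)) hc
  simp only [Subgroup.coe_mul, Matrix.SpecialLinearGroup.coe_mul, Matrix.mul_apply,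
    Fin.sum_univ_two]
  push_cast
  rw [hc]
  set a := ((((γ : SL(2, ℤ)) 0 0 : ℤ)) : ZMod ℓ)
  set b := ((((γ : SL(2, ℤ)) 0 1 : ℤ)) : ZMod ℓ)
  set d := ((((γ : SL(2, ℤ)) 1 1 : ℤ)) : ZMod ℓ)
  set b' := ((((δ : SL(2, ℤ)) 0 1 : ℤ)) : ZMod ℓ)
  set d' := ((((δ : SL(2, ℤ)) 1 1 : ℤ)) : ZMod ℓ)
  linear_combination (d' * b') * hu

/-- **the coset family of `U_ℓ`**, `ℓ ∣ M` -/
def uFam (ℓ : ℕ) [Fact ℓ.Prime] (M : ℕ) (hℓM : ℓ ∣ M) :
    CosetFam (Gamma0 M) (Gamma0 M) (ZMod ℓ) where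
  r j := ModularForm.heckeMatrix ℓ j.val
  act := uAct hℓM
  κ := uKap hℓM
  spec := uKap_spec hℓM
  act_one := uAct_one hℓM
  act_mul := uAct_mul hℓM

@[simp] theorem uFam_r (hℓM : ℓ ∣ M) (j : ZMod ℓ) :
    (uFam ℓ M hℓM).r j = ModularForm.heckeMatrix ℓ j.val := rfl

@[simp] theorem uFam_act (hℓM : ℓ ∣ M) (γ : Gamma0 M) (j : ZMod ℓ) :
    (uFam ℓ M hℓM).act γ j = uAct hℓM γ j := rfl

@[simp] theorem uFam_κ (hℓM : ℓ ∣ M) (γ : Gamma0 M) (j : ZMod ℓ) :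
    (uFam ℓ M hℓM).κ γ j = uKap hℓM γ j := rfl

theorem uFam_uniq (hℓM : ℓ ∣ M) : (uFam ℓ M hℓM).Uniq := by
  intro x y h e
  have e' : heckeRep ℓ (x : OnePoint (ZMod ℓ))
      = mapGL ℝ ((h : Gamma0 M) : SL(2, ℤ)) * heckeRep ℓ (y : OnePoint (ZMod ℓ)) := by
    rw [heckeRep_coe, heckeRep_coe]
    exact e
  exact OnePoint.coe_injective (heckeRep_eq_mul e').1

variable (A : Type*) [AddCommGroup A]

/-- **the operator `U_ℓ` on `Hom(Γ₀(M), A)`**, `ℓ ∣ M` -/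
def uHom (hℓM : ℓ ∣ M) : (Additive (Gamma0 M) →+ A) →+ (Additive (Gamma0 M) →+ A) :=
  (uFam ℓ M hℓM).op A

theorem uHom_apply (hℓM : ℓ ∣ M) (c : Additive (Gamma0 M) →+ A) (γ : Gamma0 M) :
    uHom A hℓM c (Additive.ofMul γ) = ∑ j : ZMod ℓ, c (Additive.ofMul (uKap hℓM γ j)) := rfl

variable {A}

theorem uHom_isParabolicHom (hℓM : ℓ ∣ M) {c : Additive (Gamma0 M) →+ A}
    (hc : IsParabolicHom (Gamma0 M) c) : IsParabolicHom (Gamma0 M) (uHom A hℓM c) :=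
  (uFam ℓ M hℓM).op_isParabolicHom hc

/-! ### the period map is `U_ℓ`-equivariant -/

variable [NeZero M]

/-- the sum of the `ℓ` translates of the normalized primitive -/
def primU (ℓ : ℕ) (f : CuspForm (Gamma0 M) 2) : ℂ → ℂ := fun z =>
  ∑ j ∈ Finset.range ℓ, primN f (aff 1 (j : ℤ) (ℓ : ℤ) z)

theorem isPrim_primU (hℓM : ℓ ∣ M) (f : CuspForm (Gamma0 M) 2) :
    IsPrim (primU ℓ f) (toC (CuspForm.heckeULin 2 hℓM f)) := by
  have hℓ : ℓ.Prime := Fact.out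
  have hpos : (0 : ℤ) < (ℓ : ℤ) := by exact_mod_cast hℓ.pos
  have h1 : ∀ j ∈ Finset.range ℓ, IsPrim (fun z => primN f (aff 1 (j : ℤ) (ℓ : ℤ) z))
      (fun z => toC f (aff 1 (j : ℤ) (ℓ : ℤ) z) * (((1 : ℤ) : ℂ) / ((ℓ : ℤ) : ℂ))) :=
    fun j _ => (isPrim_primN f).comp_aff one_pos hpos
  have h3 := IsPrim.sum (Finset.range ℓ) h1
  refine h3.congr (fun z hz => ?_)
  rw [toC_heckeU hℓM f hz, Finset.mul_sum]
  refine Finset.sum_congr rfl (fun j _ => ?_)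
  push_cast
  ring

theorem stripDecay_primU (f : CuspForm (Gamma0 M) 2) : StripDecay (primU ℓ f) := by
  have hℓ : ℓ.Prime := Fact.out
  have hpos : (0 : ℤ) < (ℓ : ℤ) := by exact_mod_cast hℓ.pos
  have h1 : ∀ j ∈ Finset.range ℓ, StripDecay (fun z => primN f (aff 1 (j : ℤ) (ℓ : ℤ) z)) :=
    fun j _ => (stripDecay_primN f).comp_aff one_pos hpos
  exact StripDecay.sum (Finset.range ℓ) h1

/-- the normalized primitive of `U_ℓ f` -/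
theorem primN_heckeU (hℓM : ℓ ∣ M) (f : CuspForm (Gamma0 M) 2) {z : ℂ} (hz : 0 < z.im) :
    primN (CuspForm.heckeULin 2 hℓM f) z = primU ℓ f z :=
  (primN_eq_of (isPrim_primU hℓM f) (stripDecay_primU f) hz).symm

theorem primU_eq_sum (f : CuspForm (Gamma0 M) 2) (τ : ℍ) :
    primU ℓ f (τ : ℂ) = ∑ j : ZMod ℓ, primH f (ModularForm.heckeMatrix ℓ j.val • τ) := by
  have hℓ : ℓ.Prime := Fact.out
  have hℓ0 : ℓ ≠ 0 := hℓ.ne_zero
  haveI : NeZero ℓ := ⟨hℓ0⟩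
  rw [primU, sum_range_eq_sum_zmod (p := ℓ)
    (fun j : ℕ => primN f (aff 1 (j : ℤ) (ℓ : ℤ) (τ : ℂ)))]
  refine Finset.sum_congr rfl (fun j _ => ?_)
  rw [primH, ModularForm.coe_heckeMatrix_smul hℓ0]
  simp [aff]

/-- **the period map is `U_ℓ`-equivariant** -/
theorem periodMap_heckeU (hℓM : ℓ ∣ M) (f : CuspForm (Gamma0 M) 2) :
    periodMap M (CuspForm.heckeULin 2 hℓM f) = uHom ℂ hℓM (periodMap M f) := by
  refine AddMonoidHom.ext fun γ' => ?_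
  obtain ⟨γ, rfl⟩ : ∃ γ : Gamma0 M, Additive.ofMul γ = γ' := ⟨Additive.toMul γ', rfl⟩
  rw [uHom_apply]
  have h1 := primH_smul_of_mem' (CuspForm.heckeULin 2 hℓM f) γ UpperHalfPlane.I
  have hT : ∀ τ : ℍ, primH (CuspForm.heckeULin 2 hℓM f) τ
      = ∑ j : ZMod ℓ, primH f (ModularForm.heckeMatrix ℓ j.val • τ) := by
    intro τ
    rw [← primU_eq_sum, ← primN_heckeU hℓM f τ.im_pos, primH]
  rw [hT, hT] at h1
  have h2 : ∀ j : ZMod ℓ,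
      primH f (ModularForm.heckeMatrix ℓ j.val • ((γ : SL(2, ℤ)) • UpperHalfPlane.I))
        = primH f (ModularForm.heckeMatrix ℓ (uAct hℓM γ j).val • UpperHalfPlane.I)
          + periodMap M f (Additive.ofMul (uKap hℓM γ j)) := by
    intro j
    rw [smul_smul_eq, uKap_spec hℓM γ j, mul_smul]
    have e : (mapGL ℝ ((uKap hℓM γ j : Gamma0 M) : SL(2, ℤ)))
        • (ModularForm.heckeMatrix ℓ (uAct hℓM γ j).val • UpperHalfPlane.I)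
        = ((uKap hℓM γ j : Gamma0 M) : SL(2, ℤ))
          • (ModularForm.heckeMatrix ℓ (uAct hℓM γ j).val • UpperHalfPlane.I) := rfl
    rw [e, primH_smul_of_mem']
  rw [Finset.sum_congr rfl (fun j _ => h2 j), Finset.sum_add_distrib] at h1
  have h3 : ∑ j : ZMod ℓ, primH f (ModularForm.heckeMatrix ℓ (uAct hℓM γ j).val • UpperHalfPlane.I)
      = ∑ j : ZMod ℓ, primH f (ModularForm.heckeMatrix ℓ j.val • UpperHalfPlane.I) :=
    Equiv.sum_comp ((uFam ℓ M hℓM).actEquiv γ)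
      (fun j => primH f (ModularForm.heckeMatrix ℓ j.val • UpperHalfPlane.I))
  rw [h3] at h1
  exact (add_left_cancel h1).symm

end Fermat.Agent.S41.P7
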