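import Mathlib
import Fermat.Agent.S41.UCoh
import Fermat.Agent.S41.DegenEq

/-!
# S41, piece P7, part 2: the involution `ι` commutes with `T_ℓ` and `U_ℓ`

`ι = charInvolution` is composition with `γ ↦ J γ J`, `J = diag(-1, 1)`. For a coset family `F` on
`Γ₀(M)` the conjugate family `jFam F` (representatives `J (F.r x) J`) has the operator `ι ∘ F.op ∘ ι`;
for the families of `T_ℓ` and `U_ℓ` it has the same cosets as `F`, hence `ι` commutes with
`T_ℓ` and `U_ℓ`.
-/

set_option autoImplicit false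
set_option linter.unusedSectionVars false
set_option linter.unusedVariables false
set_option linter.style.haveILetI false

noncomputable section

open Matrix.SpecialLinearGroup CongruenceSubgroup UpperHalfPlane
open scoped MatrixGroups OnePoint
open P2MW.S_ModularForm_heckeT_slash_eq_self_of_mem_Gamma0.ModularForm.HeckeSlashInvariance
open ModularCurve ModularCurve.Period
open Fermat.Agent.S29.D1 Fermat.Agent.S41.P3

namespace Fermat.Agent.S41.P7

/-! ### conjugation by `J` -/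

/-- `J = diag(-1, 1)` -/
def jG : GL (Fin 2) ℝ := UpperHalfPlane.J

theorem jG_val : ((jG : GL (Fin 2) ℝ) : Matrix (Fin 2) (Fin 2) ℝ) = !![-1, 0; 0, 1] := rfl

theorem jG_mul_jG : jG * jG = 1 := by
  apply Matrix.GeneralLinearGroup.ext
  intro i j
  rw [Matrix.GeneralLinearGroup.coe_mul, jG_val]
  fin_cases i <;> fin_cases j <;> simp

theorem jG_mapGL (g : SL(2, ℤ)) : jG * mapGL ℝ g * jG = mapGL ℝ (jConjSL g) := by
  apply Matrix.GeneralLinearGroup.ext
  intro i j
  rw [Matrix.GeneralLinearGroup.coe_mul, Matrix.GeneralLinearGroup.coe_mul, jG_val,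
    Fermat.Agent.S41.P3.mapGL_val, Fermat.Agent.S41.P3.mapGL_val]
  fin_cases i <;> fin_cases j <;> simp [jConjSL_coe]

theorem jG_mul_cancel_left (x : GL (Fin 2) ℝ) : jG * (jG * x) = x := by
  rw [← mul_assoc, jG_mul_jG, one_mul]

theorem mapGL_jG (g : SL(2, ℤ)) : mapGL ℝ g * jG = jG * mapGL ℝ (jConjSL g) := by
  rw [← jG_mapGL]
  simp only [mul_assoc, jG_mul_cancel_left]

/-! ### the conjugate family -/

variable {M : ℕ} {X : Type*}

/-- the family with representatives `J (F.r x) J` -/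
def jFam (F : CosetFam (Gamma0 M) (Gamma0 M) X) : CosetFam (Gamma0 M) (Gamma0 M) X where
  r x := jG * F.r x * jG
  act g x := F.act (jConjGamma0 M g) x
  κ g x := jConjGamma0 M (F.κ (jConjGamma0 M g) x)
  spec g x := by
    have h := F.spec (jConjGamma0 M g) x
    rw [jConjGamma0_coe] at h
    have e1 : jG * F.r x * jG * mapGL ℝ ((g : Gamma0 M) : SL(2, ℤ))
        = jG * (F.r x * mapGL ℝ (jConjSL ((g : Gamma0 M) : SL(2, ℤ)))) * jG := by
      rw [← jG_mapGL]
      simp only [mul_assoc, jG_mul_cancel_left, jG_mul_jG, mul_one]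
    rw [e1, h, jConjGamma0_coe, ← jG_mapGL]
    simp only [mul_assoc, jG_mul_cancel_left, jG_mul_jG, mul_one]
  act_one x := by rw [map_one, F.act_one]
  act_mul g h x := by rw [map_mul, F.act_mul]

@[simp] theorem jFam_r (F : CosetFam (Gamma0 M) (Gamma0 M) X) (x : X) :
    (jFam F).r x = jG * F.r x * jG := rfl

theorem jFam_op [Fintype X] (F : CosetFam (Gamma0 M) (Gamma0 M) X) (A : Type*) [AddCommGroup A]
    (c : Additive (Gamma0 M) →+ A) :
    (jFam F).op A c = charInvolution M ℤ A (F.op A (charInvolution M ℤ A c)) := by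
  refine AddMonoidHom.ext fun g' => ?_
  obtain ⟨g, rfl⟩ : ∃ g : Gamma0 M, Additive.ofMul g = g' := ⟨Additive.toMul g', rfl⟩
  rw [CosetFam.op_apply, charInvolution_apply, toMul_ofMul, CosetFam.op_apply]
  rfl

theorem jFam_uniq {F : CosetFam (Gamma0 M) (Gamma0 M) X} (hF : F.Uniq) : (jFam F).Uniq := by
  intro x y h e
  apply hF x y (jConjGamma0 M h)
  rw [jFam_r, jFam_r] at e
  have e2 : F.r x = jG * (jG * F.r x * jG) * jG := by
    simp only [mul_assoc, jG_mul_cancel_left, jG_mul_jG, mul_one]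
  rw [e2, e, jConjGamma0_coe, ← jG_mapGL]
  simp only [mul_assoc, jG_mul_cancel_left, jG_mul_jG, mul_one]

/-- if `J (F.r x) J` lies in the coset of some `F.r y`, for all `x`, then `ι` commutes with the
operator of `F` -/
theorem charInvolution_op [Fintype X] {F : CosetFam (Gamma0 M) (Gamma0 M) X} (hF : F.Uniq)
    (h : ∀ x : X, ∃ (y : X) (u : Gamma0 M),
      jG * F.r x * jG = mapGL ℝ ((u : Gamma0 M) : SL(2, ℤ)) * F.r y)
    (A : Type*) [AddCommGroup A] (c : Additive (Gamma0 M) →+ A) :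
    F.op A (charInvolution M ℤ A c) = charInvolution M ℤ A (F.op A c) := by
  have h1 : (jFam F).op A (charInvolution M ℤ A c) = F.op A (charInvolution M ℤ A c) :=
    CosetFam.op_eq_of_exists (jFam F) F (jFam_uniq hF) hF rfl h A _
  rw [← h1, jFam_op, charInvolution_charInvolution]

/-! ### the representatives -/

variable {ℓ : ℕ} [Fact ℓ.Prime]

/-- the translation `[[1, t], [0, 1]]` as an element of `Γ₀(M)` -/
def transl (M : ℕ) (t : ℤ) : Gamma0 M :=
  ⟨⟨!![1, t; 0, 1], by rw [Matrix.det_fin_two_of]; ring⟩, by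
    rw [Gamma0_mem]
    simp⟩

theorem jG_heckeDiag : jG * heckeRep ℓ (∞ : OnePoint (ZMod ℓ)) * jG
    = mapGL ℝ (((1 : Gamma0 M)) : SL(2, ℤ)) * heckeRep ℓ (∞ : OnePoint (ZMod ℓ)) := by
  have hℓ : ℓ ≠ 0 := (Fact.out : ℓ.Prime).ne_zero
  apply Matrix.GeneralLinearGroup.ext
  intro i j
  rw [Subgroup.coe_one, map_one, one_mul, Matrix.GeneralLinearGroup.coe_mul,
    Matrix.GeneralLinearGroup.coe_mul, jG_val, heckeRep_infty,
    ModularForm.val_heckeDiagMatrix hℓ]
  fin_cases i <;> fin_cases j <;> simp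

theorem exists_transl (j : ZMod ℓ) :
    ∃ t : ℤ, -(j.val : ℤ) = ((-j).val : ℤ) + t * ℓ := by
  have h : (ℓ : ℤ) ∣ -(j.val : ℤ) - ((-j).val : ℤ) := by
    rw [← ZMod.intCast_zmod_eq_zero_iff_dvd]
    push_cast
    rw [ZMod.natCast_zmod_val, ZMod.natCast_zmod_val]
    ring
  obtain ⟨t, ht⟩ := h
  exact ⟨t, by linarith [ht, mul_comm (ℓ : ℤ) t]⟩

theorem jG_heckeMatrix (j : ZMod ℓ) : ∃ u : Gamma0 M,
    jG * ModularForm.heckeMatrix ℓ j.val * jG
      = mapGL ℝ ((u : Gamma0 M) : SL(2, ℤ)) * ModularForm.heckeMatrix ℓ (-j).val := by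
  have hℓ : ℓ ≠ 0 := (Fact.out : ℓ.Prime).ne_zero
  obtain ⟨t, ht⟩ := exists_transl j
  refine ⟨transl M t, ?_⟩
  have ht' : -((j.val : ℕ) : ℝ) = (((-j).val : ℕ) : ℝ) + (t : ℝ) * (ℓ : ℝ) := by
    exact_mod_cast ht
  apply Matrix.GeneralLinearGroup.ext
  intro a b
  rw [Matrix.GeneralLinearGroup.coe_mul, Matrix.GeneralLinearGroup.coe_mul,
    Matrix.GeneralLinearGroup.coe_mul, jG_val, ModularForm.val_heckeMatrix hℓ,
    ModularForm.val_heckeMatrix hℓ, Fermat.Agent.S41.P3.mapGL_val]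
  fin_cases a <;> fin_cases b <;> simp [transl] <;>
    (simp only [← ZMod.natCast_val]; exact ht')

/-! ### `ι` commutes with `T_ℓ` and `U_ℓ` -/

variable (A : Type*) [AddCommGroup A]

/-- **`ι` commutes with `T_ℓ`** -/
theorem charInvolution_heckeHom (hℓM : ¬ ℓ ∣ M) (c : Additive (Gamma0 M) →+ A) :
    heckeHom A hℓM (charInvolution M ℤ A c) = charInvolution M ℤ A (heckeHom A hℓM c) := by
  rw [← heckeFam_op]
  apply charInvolution_op (heckeFam_uniq hℓM)
  intro x
  induction x using OnePoint.rec with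
  | infty => exact ⟨∞, 1, jG_heckeDiag⟩
  | coe j =>
    obtain ⟨u, hu⟩ := jG_heckeMatrix (M := M) j
    exact ⟨((-j : ZMod ℓ) : OnePoint (ZMod ℓ)), u, hu⟩

/-- **`ι` commutes with `U_ℓ`** -/
theorem charInvolution_uHom (hℓM : ℓ ∣ M) (c : Additive (Gamma0 M) →+ A) :
    uHom A hℓM (charInvolution M ℤ A c) = charInvolution M ℤ A (uHom A hℓM c) := by
  unfold uHom
  apply charInvolution_op (uFam_uniq hℓM)
  intro j
  obtain ⟨u, hu⟩ := jG_heckeMatrix (M := M) j
  exact ⟨-j, u, hu⟩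

end Fermat.Agent.S41.P7
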