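import Mathlib
import Fermat.Agent.S21
import Fermat.Agent.S41.JComm
import Fermat.Agent.S49.Eigen
import Fermat.Agent.S49.Formal
import Fermat.Agent.S49.QCoeff
import Fermat.Prelude.Thm_CuspForm_heckeTLin_comm
import Fermat.Prelude.Thm_CuspForm_heckeTLin_heckeULin_comm
import Fermat.Prelude.Thm_CuspForm_heckeULin_comm
import Fermat.Prelude.Def_FreyPackage_LevelRaising

/-!
# S41, piece P7, part 3: from a cohomological eigenvector to a normalised eigenform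

* `exists_form_of_coh` : a nonzero parabolic class `w ∈ Hom_par(Γ₀(M), ℂ)` that is an eigenvector of
  operators `Tc i` compatible with operators `Tf i` on cusp forms (period map equivariant,
  commuting with the involution `ι`) gives a nonzero cusp form with the same eigenvalues
  (Eichler–Shimura S21).
* `exists_normalizedEigenform` : a nonzero cusp form `h` with `T_ℓ h = λ_ℓ h` for the primes
  `ℓ ∤ M` outside `S` and `U_q² h = h` gives a normalised eigenform `g` with `a_ℓ(g) = λ_ℓ` and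
  `a_q(g)² = 1`.
* `exists_newAt_of_coh` : the combination.
-/

set_option autoImplicit false
set_option linter.unusedSectionVars false
set_option linter.unusedVariables false
set_option linter.style.haveILetI false

noncomputable section

open Matrix.SpecialLinearGroup CongruenceSubgroup UpperHalfPlane
open scoped MatrixGroups
open ModularCurve ModularCurve.Period ModularFormClass
open Fermat.Agent.S29.D1 Fermat.Agent.S41.P3 Fermat.Agent.S21 Fermat.Agent.S49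

namespace Fermat.Agent.S41.P7

variable {M : ℕ} [NeZero M]

/-! ### compatible pairs of operators -/

/-- an operator `Tf` on cusp forms and an operator `Tc` on `Hom(Γ₀(M), ℂ)` are compatible if the
period map intertwines them and `Tc` commutes with the involution `ι` -/
def Compat (Tf : Module.End ℂ (CuspForm (Gamma0 M) 2))
    (Tc : (Additive (Gamma0 M) →+ ℂ) →+ (Additive (Gamma0 M) →+ ℂ)) : Prop :=
  (∀ f, periodMap M (Tf f) = Tc (periodMap M f)) ∧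
    ∀ c, Tc (charInvolution M ℂ ℂ c) = charInvolution M ℂ ℂ (Tc c)

theorem Compat.comp {Tf Tf' : Module.End ℂ (CuspForm (Gamma0 M) 2)}
    {Tc Tc' : (Additive (Gamma0 M) →+ ℂ) →+ (Additive (Gamma0 M) →+ ℂ)}
    (h : Compat Tf Tc) (h' : Compat Tf' Tc') : Compat (Tf * Tf') (Tc.comp Tc') := by
  refine ⟨fun f => ?_, fun c => ?_⟩
  · rw [Module.End.mul_apply, h.1, h'.1]
    rfl
  · rw [AddMonoidHom.comp_apply, h'.2, h.2]
    rfl

theorem compat_heckeT {ℓ : ℕ} [Fact ℓ.Prime] (hℓM : ¬ ℓ ∣ M) :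
    Compat (CuspForm.heckeTLin 2 (Fact.out : ℓ.Prime) hℓM) (heckeHom ℂ hℓM) :=
  ⟨fun f => periodMap_heckeT hℓM f, fun c => charInvolution_heckeHom ℂ hℓM c⟩

theorem compat_heckeU {ℓ : ℕ} [Fact ℓ.Prime] (hℓM : ℓ ∣ M) :
    Compat (CuspForm.heckeULin 2 hℓM) (uHom ℂ hℓM) :=
  ⟨fun f => periodMap_heckeU hℓM f, fun c => charInvolution_uHom ℂ hℓM c⟩

theorem periodHomPair_apply (x : CuspForm (Gamma0 M) 2 × CuspForm (Gamma0 M) 2) :
    periodHomPair M x = (periodMap M x.1 + charInvolution M ℂ ℂ (periodMap M x.1))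
      + (periodMap M x.2 - charInvolution M ℂ ℂ (periodMap M x.2)) := by
  obtain ⟨pml, hpml, hdef⟩ := periodHomPair_def M (existsPeriodMapLinear M)
  rw [hdef, LinearMap.coprod_apply, LinearMap.comp_apply, LinearMap.comp_apply, hpml, hpml]
  rfl

theorem Compat.map_pair {Tf : Module.End ℂ (CuspForm (Gamma0 M) 2)}
    {Tc : (Additive (Gamma0 M) →+ ℂ) →+ (Additive (Gamma0 M) →+ ℂ)} (h : Compat Tf Tc)
    (x : CuspForm (Gamma0 M) 2 × CuspForm (Gamma0 M) 2) :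
    Tc (ModularCurve.periodHomPair M x) = ModularCurve.periodHomPair M (Tf x.1, Tf x.2) := by
  rw [periodHomPair_apply, periodHomPair_apply, map_add, map_add, map_sub, h.2, h.2, h.1, h.1]

/-- eigenvectors of `Tc` in the image of the period pair come from eigenvectors of `Tf` -/
theorem Compat.eigen {Tf : Module.End ℂ (CuspForm (Gamma0 M) 2)}
    {Tc : (Additive (Gamma0 M) →+ ℂ) →+ (Additive (Gamma0 M) →+ ℂ)} (h : Compat Tf Tc)
    (x : CuspForm (Gamma0 M) 2 × CuspForm (Gamma0 M) 2) (lam : ℂ)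
    (hx : Tc (ModularCurve.periodHomPair M x) = lam • ModularCurve.periodHomPair M x) :
    Tf x.1 = lam • x.1 ∧ Tf x.2 = lam • x.2 := by
  rw [h.map_pair, ← map_smul] at hx
  have := periodHomPair_injective M hx
  exact ⟨congrArg Prod.fst this, congrArg Prod.snd this⟩

/-- **cohomological eigenvectors come from cusp forms** -/
theorem exists_form_of_coh {I : Type*} (Tf : I → Module.End ℂ (CuspForm (Gamma0 M) 2))
    (Tc : I → (Additive (Gamma0 M) →+ ℂ) →+ (Additive (Gamma0 M) →+ ℂ))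
    (hcompat : ∀ i, Compat (Tf i) (Tc i)) (lam : I → ℂ)
    (w : Additive (Gamma0 M) →+ ℂ) (hw : w ∈ parabolicHoms ℂ (Gamma0 M) ℂ) (hw0 : w ≠ 0)
    (heig : ∀ i, Tc i w = lam i • w) :
    ∃ h : CuspForm (Gamma0 M) 2, h ≠ 0 ∧ ∀ i, Tf i h = lam i • h := by
  have hrange := (Fermat.Agent.S21.result M).2
  rw [← hrange] at hw
  obtain ⟨x, rfl⟩ := hw
  have hx : ∀ i, Tf i x.1 = lam i • x.1 ∧ Tf i x.2 = lam i • x.2 :=
    fun i => Compat.eigen (hcompat i) x (lam i) (heig i)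
  by_cases h1 : x.1 = 0
  · refine ⟨x.2, ?_, fun i => (hx i).2⟩
    intro h2
    apply hw0
    have : x = 0 := Prod.ext h1 h2
    rw [this, map_zero]
  · exact ⟨x.1, h1, fun i => (hx i).1⟩

/-! ### from an eigenvector on forms to a normalised eigenform -/

/-- the set of all Hecke operators `T_ℓ` (`ℓ ∤ M`) and `U_ℓ` (`ℓ ∣ M`) -/
def heckeSet (M : ℕ) [NeZero M] : Set (Module.End ℂ (CuspForm (Gamma0 M) 2)) :=
  {a | (∃ (ℓ : ℕ) (hℓ : ℓ.Prime) (hℓM : ¬ ℓ ∣ M), a = CuspForm.heckeTLin 2 hℓ hℓM) ∨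
    (∃ (ℓ : ℕ) (_ : ℓ.Prime) (hℓM : ℓ ∣ M), a = CuspForm.heckeULin 2 hℓM)}

theorem heckeSet_commute : ∀ a ∈ heckeSet M, ∀ b ∈ heckeSet M, Commute a b := by
  rintro a (⟨ℓ, hℓ, hℓM, rfl⟩ | ⟨ℓ, hℓ, hℓM, rfl⟩) b (⟨p, hp, hpM, rfl⟩ | ⟨p, hp, hpM, rfl⟩)
  · exact CuspForm.heckeTLin_comm 2 hℓ hℓM hp hpM
  · exact CuspForm.heckeTLin_heckeULin_comm 2 hℓ hℓM hpM
  · exact (CuspForm.heckeTLin_heckeULin_comm 2 hp hpM hℓM).symm
  · exact CuspForm.heckeULin_comm 2 hℓM hpM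

/-- the Hecke relations for a common eigenvector -/
theorem heckeRel_of_common_eigen (v : CuspForm (Gamma0 M) 2)
    (hv : ∀ a ∈ heckeSet M, ∃ c : ℂ, a v = c • v) :
    HeckeRel (fun ℓ => if ℓ ∣ M then 0 else (ℓ : ℂ)) (fun n => qCoeff (⇑v) n) := by
  intro ℓ hℓ
  by_cases hℓM : ℓ ∣ M
  · obtain ⟨c, hc⟩ := hv (CuspForm.heckeULin 2 hℓM) (Or.inr ⟨ℓ, hℓ, hℓM, rfl⟩)
    refine ⟨c, fun n => ?_⟩
    have := congrArg (fun f : CuspForm (Gamma0 M) 2 => qCoeff (⇑f) n) hc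
    simp only [qCoeff_heckeULin hℓ, qCoeff_smul] at this
    simp only [if_pos hℓM, zero_mul, ite_self, add_zero]
    exact this
  · obtain ⟨c, hc⟩ := hv (CuspForm.heckeTLin 2 hℓ hℓM) (Or.inl ⟨ℓ, hℓ, hℓM, rfl⟩)
    refine ⟨c, fun n => ?_⟩
    have := congrArg (fun f : CuspForm (Gamma0 M) 2 => qCoeff (⇑f) n) hc
    simp only [qCoeff_heckeTLin, qCoeff_smul] at this
    simp only [if_neg hℓM]
    exact this

/-- a common eigenvector of all Hecke operators is a multiple of a normalised eigenform -/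
theorem exists_normalized_of_common_eigen (v : CuspForm (Gamma0 M) 2) (hv0 : v ≠ 0)
    (hv : ∀ a ∈ heckeSet M, ∃ c : ℂ, a v = c • v) :
    ∃ g : CuspForm (Gamma0 M) 2, g.IsNormalizedEigenform ∧ ∃ b : ℂ, b ≠ 0 ∧ g = b • v := by
  have hrel := heckeRel_of_common_eigen v hv
  have hb1 : qCoeff (⇑v) 1 ≠ 0 := by
    intro h1
    apply hv0
    apply eq_zero_of_qCoeff
    intro n
    rcases Nat.eq_zero_or_pos n with rfl | hn
    · exact qCoeff_zero_eq v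
    · exact hrel.eq_zero h1 n hn
  set g : CuspForm (Gamma0 M) 2 := (qCoeff (⇑v) 1)⁻¹ • v with hgdef
  have hg : ∀ n, qCoeff (⇑g) n = (qCoeff (⇑v) 1)⁻¹ * qCoeff (⇑v) n := fun n => qCoeff_smul _ _ _
  have hrelg : HeckeRel (fun ℓ => if ℓ ∣ M then 0 else (ℓ : ℂ)) (fun n => qCoeff (⇑g) n) := by
    have := hrel.smul (qCoeff (⇑v) 1)⁻¹
    simpa only [hg] using this
  have hg1 : qCoeff (⇑g) 1 = 1 := by
    rw [hg]
    exact inv_mul_cancel₀ hb1
  refine ⟨g, ⟨hg1, hrelg.mul_coprime hg1, ?_, ?_⟩, (qCoeff (⇑v) 1)⁻¹, inv_ne_zero hb1, rfl⟩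
  · intro p r hp hpN
    have := hrelg.prime_pow hg1 hp r
    simp only [if_neg hpN] at this
    exact this
  · intro p r hp hpN
    have := hrelg.prime_pow hg1 hp r
    simp only [if_pos hpN, zero_mul, sub_zero] at this
    exact this

/-- the eigenvalue of `T_ℓ` on a normalised eigenform is `a_ℓ` -/
theorem qCoeff_of_heckeT_eq {g : CuspForm (Gamma0 M) 2} (hg1 : qCoeff (⇑g) 1 = 1)
    {ℓ : ℕ} (hℓ : ℓ.Prime) (hℓM : ¬ ℓ ∣ M) {c : ℂ}
    (h : CuspForm.heckeTLin 2 hℓ hℓM g = c • g) : qCoeff (⇑g) ℓ = c := by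
  have := congrArg (fun f : CuspForm (Gamma0 M) 2 => qCoeff (⇑f) 1) h
  simp only [qCoeff_heckeTLin, qCoeff_smul, one_mul] at this
  have hnd : ¬ ℓ ∣ 1 := fun hd => hℓ.one_lt.ne' (Nat.dvd_one.mp hd)
  rw [if_neg hnd, add_zero, hg1, mul_one] at this
  exact this

/-- the eigenvalue of `U_ℓ` on a normalised eigenform is `a_ℓ` -/
theorem qCoeff_of_heckeU_eq {g : CuspForm (Gamma0 M) 2} (hg1 : qCoeff (⇑g) 1 = 1)
    {ℓ : ℕ} (hℓ : ℓ.Prime) (hℓM : ℓ ∣ M) {c : ℂ}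
    (h : CuspForm.heckeULin 2 hℓM g = c • g) : qCoeff (⇑g) ℓ = c := by
  have := congrArg (fun f : CuspForm (Gamma0 M) 2 => qCoeff (⇑f) 1) h
  simp only [qCoeff_heckeULin hℓ, qCoeff_smul, one_mul] at this
  rw [hg1, mul_one] at this
  exact this

/-- **from an eigenvector on forms to a normalised eigenform, new at `q`** -/
theorem exists_normalizedEigenform (S : Set ℕ) (lam : ℕ → ℂ) {q : ℕ} (hq : q.Prime)
    (hqM : q ∣ M) (h : CuspForm (Gamma0 M) 2) (h0 : h ≠ 0)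
    (hT : ∀ (ℓ : ℕ) (hℓ : ℓ.Prime) (hℓM : ¬ ℓ ∣ M), ℓ ∉ S →
      CuspForm.heckeTLin 2 hℓ hℓM h = lam ℓ • h)
    (hU : CuspForm.heckeULin 2 hqM (CuspForm.heckeULin 2 hqM h) = h) :
    ∃ g : CuspForm (Gamma0 M) 2, g.IsNormalizedEigenform ∧
      (∀ (ℓ : ℕ), ℓ.Prime → ¬ ℓ ∣ M → ℓ ∉ S → qCoeff (⇑g) ℓ = lam ℓ) ∧ g.IsNewAt q := by
  classical
  haveI : FiniteDimensional ℂ (CuspForm (Gamma0 M) 2) := finiteDimensional_cuspForm_wt2 M
  -- the subspace
  let W : Submodule ℂ (CuspForm (Gamma0 M) 2) :=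
    { carrier := {v | (∀ (ℓ : ℕ) (hℓ : ℓ.Prime) (hℓM : ¬ ℓ ∣ M), ℓ ∉ S →
          CuspForm.heckeTLin 2 hℓ hℓM v = lam ℓ • v) ∧
          CuspForm.heckeULin 2 hqM (CuspForm.heckeULin 2 hqM v) = v}
      zero_mem' := ⟨fun ℓ hℓ hℓM _ => by rw [map_zero, smul_zero], by rw [map_zero, map_zero]⟩
      add_mem' := by
        rintro a b ⟨ha1, ha2⟩ ⟨hb1, hb2⟩
        refine ⟨fun ℓ hℓ hℓM hS => ?_, ?_⟩
        · rw [map_add, ha1 ℓ hℓ hℓM hS, hb1 ℓ hℓ hℓM hS, smul_add]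
        · rw [map_add, map_add, ha2, hb2]
      smul_mem' := by
        rintro c a ⟨ha1, ha2⟩
        refine ⟨fun ℓ hℓ hℓM hS => ?_, ?_⟩
        · rw [map_smul, ha1 ℓ hℓ hℓM hS, smul_comm]
        · rw [map_smul, map_smul, ha2] }
  have hW : W ≠ ⊥ := by
    intro hbot
    have hm : h ∈ W := ⟨hT, hU⟩
    rw [hbot, Submodule.mem_bot] at hm
    exact h0 hm
  have hUmem : CuspForm.heckeULin 2 hqM ∈ heckeSet M := Or.inr ⟨q, hq, hqM, rfl⟩
  have hinv : ∀ a ∈ heckeSet M, ∀ w ∈ W, a w ∈ W := by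
    intro a ha w hw
    refine ⟨fun ℓ hℓ hℓM hS => ?_, ?_⟩
    · have hc : Commute (CuspForm.heckeTLin 2 hℓ hℓM) a :=
        heckeSet_commute _ (Or.inl ⟨ℓ, hℓ, hℓM, rfl⟩) a ha
      have e : CuspForm.heckeTLin 2 hℓ hℓM (a w) = a (CuspForm.heckeTLin 2 hℓ hℓM w) :=
        congrArg (fun f : Module.End ℂ (CuspForm (Gamma0 M) 2) => f w) hc.eq
      rw [e, hw.1 ℓ hℓ hℓM hS, map_smul]
    · have hc : Commute (CuspForm.heckeULin 2 hqM) a := heckeSet_commute _ hUmem a ha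
      have e : ∀ x, CuspForm.heckeULin 2 hqM (a x) = a (CuspForm.heckeULin 2 hqM x) :=
        fun x => congrArg (fun f : Module.End ℂ (CuspForm (Gamma0 M) 2) => f x) hc.eq
      rw [e, e, hw.2]
  obtain ⟨v, hvW, hv0, hv⟩ := exists_common_eigenvector (heckeSet M) heckeSet_commute W hW hinv
  obtain ⟨g, hg, b, hb0, hgb⟩ := exists_normalized_of_common_eigen v hv0 hv
  have hgW : g ∈ W := by
    rw [hgb]
    exact W.smul_mem b hvW
  have hg0 : g ≠ 0 := by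
    rw [hgb]
    exact smul_ne_zero hb0 hv0
  refine ⟨g, hg, fun ℓ hℓ hℓM hS => ?_, ?_⟩
  · exact qCoeff_of_heckeT_eq hg.qCoeff_one hℓ hℓM (hgW.1 ℓ hℓ hℓM hS)
  · -- `U_q g = c g` with `c² = 1`
    obtain ⟨c, hc⟩ := hv _ hUmem
    have hcg : CuspForm.heckeULin 2 hqM g = c • g := by
      rw [hgb, map_smul, hc, smul_comm]
    have h2 := hgW.2
    rw [hcg, map_smul, hcg, smul_smul] at h2
    have hc2 : c * c = 1 := by
      have h3 : (c * c - 1) • g = 0 := by rw [sub_smul, h2, one_smul, sub_self]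
      rcases smul_eq_zero.mp h3 with h4 | h4
      · exact sub_eq_zero.mp h4
      · exact absurd h4 hg0
    show qCoeff (⇑g) q ^ 2 = 1
    rw [qCoeff_of_heckeU_eq hg.qCoeff_one hq hqM hcg, pow_two, hc2]

/-! ### the combination -/

/-- **P7**: a nonzero parabolic class `w ∈ Hom_par(Γ₀(M), ℂ)` with `T_ℓ w = λ_ℓ w` for the primes
`ℓ ∤ M` outside `S` and `U_q² w = w` gives a normalised eigenform `g` of level `M` with
`a_ℓ(g) = λ_ℓ` for these `ℓ` and `a_q(g)² = 1`. -/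
theorem exists_newAt_of_coh (S : Set ℕ) (lam : ℕ → ℂ) {q : ℕ} [Fact q.Prime] (hqM : q ∣ M)
    (w : Additive (Gamma0 M) →+ ℂ) (hw : w ∈ parabolicHoms ℂ (Gamma0 M) ℂ) (hw0 : w ≠ 0)
    (hT : ∀ (ℓ : ℕ) [Fact ℓ.Prime] (hℓM : ¬ ℓ ∣ M), ℓ ∉ S → heckeHom ℂ hℓM w = lam ℓ • w)
    (hU : uHom ℂ hqM (uHom ℂ hqM w) = w) :
    ∃ g : CuspForm (Gamma0 M) 2, g.IsNormalizedEigenform ∧
      (∀ (ℓ : ℕ), ℓ.Prime → ¬ ℓ ∣ M → ℓ ∉ S → qCoeff (⇑g) ℓ = lam ℓ) ∧ g.IsNewAt q := by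
  classical
  -- the index type: `none` for `U_q²`, `some ℓ` for `T_ℓ`
  let J := {ℓ : ℕ // ℓ.Prime ∧ ¬ ℓ ∣ M ∧ ℓ ∉ S}
  let Tf : Option J → Module.End ℂ (CuspForm (Gamma0 M) 2) := fun i =>
    i.elim (CuspForm.heckeULin 2 hqM * CuspForm.heckeULin 2 hqM)
      (fun ℓ => CuspForm.heckeTLin 2 ℓ.2.1 ℓ.2.2.1)
  let Tc : Option J → (Additive (Gamma0 M) →+ ℂ) →+ (Additive (Gamma0 M) →+ ℂ) := fun i =>
    i.elim ((uHom ℂ hqM).comp (uHom ℂ hqM))
      (fun ℓ => haveI : Fact ℓ.1.Prime := ⟨ℓ.2.1⟩; heckeHom ℂ ℓ.2.2.1)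
  let lam' : Option J → ℂ := fun i => i.elim 1 (fun ℓ => lam ℓ.1)
  have hcompat : ∀ i, Compat (Tf i) (Tc i) := by
    intro i
    cases i with
    | none => exact (compat_heckeU hqM).comp (compat_heckeU hqM)
    | some ℓ =>
      haveI : Fact ℓ.1.Prime := ⟨ℓ.2.1⟩
      exact compat_heckeT ℓ.2.2.1
  have heig : ∀ i, Tc i w = lam' i • w := by
    intro i
    cases i with
    | none =>
      show uHom ℂ hqM (uHom ℂ hqM w) = (1 : ℂ) • w
      rw [hU, one_smul]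
    | some ℓ =>
      haveI : Fact ℓ.1.Prime := ⟨ℓ.2.1⟩
      exact hT ℓ.1 ℓ.2.2.1 ℓ.2.2.2
  obtain ⟨h, h0, hh⟩ := exists_form_of_coh Tf Tc hcompat lam' w hw hw0 heig
  refine exists_normalizedEigenform S lam (Fact.out : q.Prime) hqM h h0 ?_ ?_
  · intro ℓ hℓ hℓM hS
    exact hh (some ⟨ℓ, hℓ, hℓM, hS⟩)
  · have := hh none
    show CuspForm.heckeULin 2 hqM (CuspForm.heckeULin 2 hqM h) = h
    have e : Tf none h = CuspForm.heckeULin 2 hqM (CuspForm.heckeULin 2 hqM h) := rfl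
    rw [← e, this]
    exact one_smul ℂ h

end Fermat.Agent.S41.P7
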