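import Mathlib

/-!
# C81 (S41, level raising), piece P5, part 1: the local algebra

`P` a commutative ring, `𝔫` a prime ideal, `p` a positive integer. For a `P`-module `M` and a
submodule `Q` we say that `x` is *locally in `Q`* if `s • x ∈ Q` for some `s ∉ 𝔫`.

Main result `exists_not_locally_zero`: for `P`-modules `L`, `L'` (finitely generated over `ℤ`),
maps `i : L × L → L'`, `i† : L' → L × L` with `i† i = [[c, T], [T, c]]`, if
* (A) `i` is locally injective modulo `p`,
* (B) `i†` is locally surjective,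
* (C) `c² - T²` is not locally surjective modulo `p`,
then the kernel of `i†` is not locally zero.
-/

set_option autoImplicit false
set_option linter.unusedSectionVars false
set_option linter.unusedVariables false
set_option linter.style.haveILetI false

namespace Fermat.Agent.S41.Abs

variable {P : Type*} [CommRing P] (𝔫 : Ideal P) [h𝔫 : 𝔫.IsPrime]

section Loc

variable {M : Type*} [AddCommGroup M] [Module P M]

/-- the elements that are locally in `Q` -/
def locSub (Q : Submodule P M) : Submodule P M where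
  carrier := {x | ∃ s : P, s ∉ 𝔫 ∧ s • x ∈ Q}
  zero_mem' := ⟨1, fun h => h𝔫.ne_top ((Ideal.eq_top_iff_one 𝔫).mpr h), by
    rw [smul_zero]; exact Q.zero_mem⟩
  add_mem' := by
    rintro x y ⟨s, hs, hx⟩ ⟨t, ht, hy⟩
    refine ⟨s * t, fun h => (h𝔫.mem_or_mem h).elim hs ht, ?_⟩
    rw [smul_add]
    refine Q.add_mem ?_ ?_
    · rw [mul_comm, mul_smul]
      exact Q.smul_mem t hx
    · rw [mul_smul]
      exact Q.smul_mem s hy
  smul_mem' := by
    rintro a x ⟨s, hs, hx⟩
    refine ⟨s, hs, ?_⟩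
    rw [smul_comm]
    exact Q.smul_mem a hx

theorem mem_locSub {Q : Submodule P M} {x : M} :
    x ∈ locSub 𝔫 Q ↔ ∃ s : P, s ∉ 𝔫 ∧ s • x ∈ Q := Iff.rfl

theorem le_locSub (Q : Submodule P M) : Q ≤ locSub 𝔫 Q := fun x hx =>
  ⟨1, fun h => h𝔫.ne_top ((Ideal.eq_top_iff_one 𝔫).mpr h), by rw [one_smul]; exact hx⟩

theorem one_notMem : (1 : P) ∉ 𝔫 := fun h => h𝔫.ne_top ((Ideal.eq_top_iff_one 𝔫).mpr h)

theorem mul_notMem {s t : P} (hs : s ∉ 𝔫) (ht : t ∉ 𝔫) : s * t ∉ 𝔫 :=
  fun h => (h𝔫.mem_or_mem h).elim hs ht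

/-- `locSub` is idempotent -/
theorem mem_locSub_of_smul_mem {Q : Submodule P M} {x : M} {s : P} (hs : s ∉ 𝔫)
    (hx : s • x ∈ locSub 𝔫 Q) : x ∈ locSub 𝔫 Q := by
  obtain ⟨t, ht, h⟩ := hx
  refine ⟨t * s, mul_notMem 𝔫 ht hs, ?_⟩
  rw [mul_smul]
  exact h

/-- a common multiplier for a submodule that is finitely generated over `ℤ` -/
theorem exists_common_smul_mem (Q : Submodule P M) (N : Submodule P M)
    (hfg : (N.restrictScalars ℤ).FG) (h : N ≤ locSub 𝔫 Q) :
    ∃ s : P, s ∉ 𝔫 ∧ ∀ y ∈ N, s • y ∈ Q := by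
  classical
  obtain ⟨F, hF⟩ := hfg
  have h1 : ∀ G : Finset M, (∀ y ∈ G, y ∈ N) → ∃ s : P, s ∉ 𝔫 ∧ ∀ y ∈ G, s • y ∈ Q := by
    intro G
    induction G using Finset.induction_on with
    | empty => intro _; exact ⟨1, one_notMem 𝔫, fun y hy => absurd hy (Finset.notMem_empty y)⟩
    | insert a G ha ih =>
      intro hG
      obtain ⟨s, hs, hsG⟩ := ih (fun y hy => hG y (Finset.mem_insert_of_mem hy))
      obtain ⟨t, ht, hta⟩ := h (hG a (Finset.mem_insert_self a G))
      refine ⟨s * t, mul_notMem 𝔫 hs ht, fun y hy => ?_⟩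
      rcases Finset.mem_insert.mp hy with rfl | hy
      · rw [mul_smul]
        exact Q.smul_mem s hta
      · rw [mul_comm, mul_smul]
        exact Q.smul_mem t (hsG y hy)
  have hFN : ∀ y ∈ F, y ∈ N := by
    intro y hy
    have : y ∈ Submodule.span ℤ (F : Set M) := Submodule.subset_span hy
    rw [hF] at this
    exact this
  obtain ⟨s, hs, hsF⟩ := h1 F hFN
  refine ⟨s, hs, fun y hy => ?_⟩
  have hy' : y ∈ Submodule.span ℤ (F : Set M) := by
    rw [hF]
    exact hy
  refine Submodule.span_induction (p := fun y _ => s • y ∈ Q) ?_ ?_ ?_ ?_ hy'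
  · intro x hx
    exact hsF x hx
  · rw [smul_zero]
    exact Q.zero_mem
  · intro x y _ _ hx hy
    rw [smul_add]
    exact Q.add_mem hx hy
  · intro n x _ hx
    rw [smul_comm]
    exact (Q.restrictScalars ℤ).smul_mem n hx

/-- the multiples of `p` -/
def pMul (p : ℕ) (M : Type*) [AddCommGroup M] [Module P M] : Submodule P M where
  carrier := {x | ∃ x₁ : M, x = p • x₁}
  zero_mem' := ⟨0, (smul_zero p).symm⟩
  add_mem' := by
    rintro x y ⟨x₁, rfl⟩ ⟨y₁, rfl⟩
    exact ⟨x₁ + y₁, (smul_add p x₁ y₁).symm⟩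
  smul_mem' := by
    rintro a x ⟨x₁, rfl⟩
    exact ⟨a • x₁, smul_comm a p x₁⟩

theorem mem_pMul {p : ℕ} {x : M} : x ∈ pMul (P := P) p M ↔ ∃ x₁ : M, x = p • x₁ := Iff.rfl

theorem smul_mem_pMul (p : ℕ) (x : M) : p • x ∈ pMul (P := P) p M := ⟨x, rfl⟩

end Loc

section Main

variable (p : ℕ)
variable {L L' : Type*} [AddCommGroup L] [AddCommGroup L'] [Module P L] [Module P L']

/-- a finitely generated abelian group killed by `p > 0` is finite -/
theorem finite_of_fg_of_smul_eq_zero {G : Type*} [AddCommGroup G] [Module.Finite ℤ G]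
    (hp : 0 < p) (h : ∀ x : G, p • x = 0) : Finite G := by
  haveI : AddGroup.FG G := Module.Finite.iff_addGroup_fg.mp inferInstance
  refine AddCommGroup.finite_of_fg_isAddTorsion G ?_
  intro x
  rw [isOfFinAddOrder_iff_nsmul_eq_zero]
  exact ⟨p, hp, h x⟩

/-- **injective implies surjective, locally modulo `p`** -/
theorem locally_surjective_of_locally_injective [Module.Finite ℤ L] (hp : 0 < p)
    (D : L →ₗ[P] L)
    (hD : ∀ u : L, D u ∈ locSub 𝔫 (pMul (P := P) p L) → u ∈ locSub 𝔫 (pMul (P := P) p L))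
    (z : L) : ∃ u : L, z - D u ∈ locSub 𝔫 (pMul (P := P) p L) := by
  set N₁ : Submodule P L := locSub 𝔫 (pMul (P := P) p L) with hN₁
  have hcomap : N₁ ≤ N₁.comap D := by
    intro x hx
    rw [Submodule.mem_comap]
    obtain ⟨s, hs, x₁, hx₁⟩ := hx
    refine ⟨s, hs, D x₁, ?_⟩
    rw [← map_smul, hx₁, map_nsmul]
  let Dq : (L ⧸ N₁) →ₗ[P] (L ⧸ N₁) := N₁.mapQ N₁ D hcomap
  haveI : Module.Finite ℤ (L ⧸ N₁) :=
    Module.Finite.of_surjective ((N₁.mkQ).restrictScalars ℤ) (Submodule.mkQ_surjective N₁)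
  haveI : Finite (L ⧸ N₁) := by
    refine finite_of_fg_of_smul_eq_zero p hp ?_
    intro x
    obtain ⟨y, rfl⟩ := Submodule.mkQ_surjective N₁ x
    rw [← map_nsmul, Submodule.mkQ_apply, Submodule.Quotient.mk_eq_zero]
    exact le_locSub 𝔫 _ (smul_mem_pMul p y)
  have hinj : Function.Injective Dq := by
    rw [← LinearMap.ker_eq_bot, LinearMap.ker_eq_bot']
    intro x hx
    obtain ⟨y, rfl⟩ := Submodule.mkQ_surjective N₁ x
    rw [Submodule.mkQ_apply] at hx ⊢
    have h1 : Dq (Submodule.Quotient.mk y) = Submodule.Quotient.mk (D y) :=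
      Submodule.mapQ_apply N₁ N₁ D y
    rw [h1, Submodule.Quotient.mk_eq_zero] at hx
    rw [Submodule.Quotient.mk_eq_zero]
    exact hD y hx
  have hsurj : Function.Surjective Dq := Finite.injective_iff_surjective.mp hinj
  obtain ⟨x, hx⟩ := hsurj (Submodule.Quotient.mk z)
  obtain ⟨u, rfl⟩ := Submodule.mkQ_surjective N₁ x
  refine ⟨u, ?_⟩
  rw [Submodule.mkQ_apply] at hx
  have h1 : Dq (Submodule.Quotient.mk u) = Submodule.Quotient.mk (D u) :=
    Submodule.mapQ_apply N₁ N₁ D u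
  rw [h1] at hx
  have h2 := (Submodule.Quotient.eq N₁).mp hx
  have h3 : z - D u = -(D u - z) := by abel
  rw [h3]
  exact N₁.neg_mem h2

theorem prod_mem_pMul {x : L × L} :
    x ∈ pMul (P := P) p (L × L) ↔ x.1 ∈ pMul (P := P) p L ∧ x.2 ∈ pMul (P := P) p L := by
  constructor
  · rintro ⟨x₁, rfl⟩
    exact ⟨⟨x₁.1, rfl⟩, ⟨x₁.2, rfl⟩⟩
  · rintro ⟨⟨a, ha⟩, ⟨b, hb⟩⟩
    exact ⟨(a, b), Prod.ext ha hb⟩

/-- **the local algebra of level raising** -/
theorem exists_not_locally_zero [Module.Finite ℤ L] [Module.Finite ℤ L'] (hp : 0 < p)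
    (i : L × L →ₗ[P] L') (it : L' →ₗ[P] L × L) (T : L →ₗ[P] L) (c : P)
    (hM : ∀ x : L × L, it (i x) = (c • x.1 + T x.2, T x.1 + c • x.2))
    (hA : ∀ x : L × L, i x ∈ pMul (P := P) p L' → x ∈ locSub 𝔫 (pMul (P := P) p (L × L)))
    (hB : ∀ y : L × L, y ∈ locSub 𝔫 (LinearMap.range it))
    (hC : ∃ z : L, ∀ u : L, z - (c • c • u - T (T u)) ∉ locSub 𝔫 (pMul (P := P) p L)) :
    ∃ y : L', it y = 0 ∧ ∀ s : P, s ∉ 𝔫 → s • y ≠ 0 := by
  by_contra hcon
  push Not at hcon
  -- a common annihilator of the kernel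
  have hker : LinearMap.ker it ≤ locSub 𝔫 (⊥ : Submodule P L') := by
    intro y hy
    obtain ⟨s, hs, hsy⟩ := hcon y hy
    exact ⟨s, hs, by rw [hsy]; exact Submodule.zero_mem _⟩
  haveI : IsNoetherian ℤ L' := isNoetherian_of_isNoetherianRing_of_finite ℤ L'
  obtain ⟨s₀, hs₀, hs₀ker⟩ := exists_common_smul_mem 𝔫 ⊥ (LinearMap.ker it)
    (IsNoetherian.noetherian _) hker
  -- step a
  have ha : ∀ y : L', it y ∈ pMul (P := P) p (L × L) → y ∈ locSub 𝔫 (pMul (P := P) p L') := by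
    rintro y ⟨c', hc'⟩
    obtain ⟨s₁, hs₁, y₁, hy₁⟩ := hB c'
    have h1 : it (s₁ • y - p • y₁) = 0 := by
      rw [map_sub, map_smul, map_nsmul, hy₁, hc', smul_comm]
      exact sub_self _
    have h2 := hs₀ker _ (LinearMap.mem_ker.mpr h1)
    rw [Submodule.mem_bot, smul_sub, sub_eq_zero] at h2
    refine ⟨s₀ * s₁, mul_notMem 𝔫 hs₀ hs₁, s₀ • y₁, ?_⟩
    rw [mul_smul, h2, smul_comm]
  -- step b
  have hb : ∀ x : L × L, it (i x) ∈ pMul (P := P) p (L × L) →
      x ∈ locSub 𝔫 (pMul (P := P) p (L × L)) := by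
    intro x hx
    obtain ⟨s₁, hs₁, h1⟩ := ha (i x) hx
    rw [← map_smul] at h1
    exact mem_locSub_of_smul_mem 𝔫 hs₁ (hA _ h1)
  -- step c
  have hc : ∀ u : L, (c • c • u - T (T u)) ∈ locSub 𝔫 (pMul (P := P) p L) →
      u ∈ locSub 𝔫 (pMul (P := P) p L) := by
    rintro u ⟨s, hs, hu⟩
    have h1 : it (i (s • (c • u, -T u))) ∈ pMul (P := P) p (L × L) := by
      rw [map_smul, map_smul, hM, prod_mem_pMul]
      constructor
      · have e : (s • ((c • (c • u, -T u).1 + T (c • u, -T u).2,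
            T (c • u, -T u).1 + c • (c • u, -T u).2) : L × L)).1
            = s • (c • c • u - T (T u)) := by
          show s • (c • c • u + T (-T u)) = _
          rw [map_neg, sub_eq_add_neg]
        rw [e]
        exact hu
      · have e : (s • ((c • (c • u, -T u).1 + T (c • u, -T u).2,
            T (c • u, -T u).1 + c • (c • u, -T u).2) : L × L)).2 = 0 := by
          show s • (T (c • u) + c • (-T u)) = 0
          rw [map_smul, smul_neg, add_neg_cancel, smul_zero]
        rw [e]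
        exact Submodule.zero_mem _
    have h2 := hb _ h1
    obtain ⟨t, ht, h3⟩ := h2
    rw [prod_mem_pMul] at h3
    obtain ⟨h4, h5⟩ := h3
    have h4' : (t * s) • (c • u) ∈ pMul (P := P) p L := by
      rw [mul_smul]
      exact h4
    have h5' : (t * s) • T u ∈ pMul (P := P) p L := by
      have : (t • s • ((c • u, -T u) : L × L)).2 = -((t * s) • T u) := by
        show t • s • (-T u) = _
        rw [smul_neg, smul_neg, mul_smul]
      rw [this] at h5
      have h6 := (pMul (P := P) p L).neg_mem h5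
      rwa [neg_neg] at h6
    have h7 : it (i ((t * s) • (u, (0 : L)))) ∈ pMul (P := P) p (L × L) := by
      rw [map_smul, map_smul, hM, prod_mem_pMul]
      constructor
      · show (t * s) • (c • u + T 0) ∈ _
        rw [map_zero, add_zero]
        exact h4'
      · show (t * s) • (T u + c • (0 : L)) ∈ _
        rw [smul_zero, add_zero]
        exact h5'
    have h8 := hb _ h7
    have h9 := mem_locSub_of_smul_mem 𝔫 (mul_notMem 𝔫 ht hs) h8
    obtain ⟨r, hr, h10⟩ := h9
    rw [prod_mem_pMul] at h10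
    exact ⟨r, hr, h10.1⟩
  -- step d
  obtain ⟨z, hz⟩ := hC
  let D : L →ₗ[P] L := c • c • LinearMap.id - T.comp T
  have hDu : ∀ u, D u = c • c • u - T (T u) := fun u => rfl
  obtain ⟨u, hu⟩ := locally_surjective_of_locally_injective 𝔫 p hp D
    (fun u hu => hc u (by rw [← hDu]; exact hu)) z
  exact hz u (by rw [← hDu]; exact hu)

end Main

end Fermat.Agent.S41.Abs
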