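import Mathlib

/-!
# C81 (S41), assembly, part 0: the action of a polynomial ring through a commuting family

`t : ι → End_ℤ L` a commuting family. `polyAct t hc : ℤ[X_i] → End_ℤ L`, `X_i ↦ t i`, and the type
synonym `PMod t hc` (= `L` as a module over `ℤ[X_i]`).
-/

set_option autoImplicit false
set_option linter.unusedSectionVars false
set_option linter.unusedVariables false
set_option linter.style.haveILetI false
set_option linter.deprecated false

noncomputable section

namespace Fermat.Agent.S41.Asm

open TensorProduct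

section PolyAct

variable {ι : Type*} {L : Type*} [AddCommGroup L]

/-- the subalgebra generated by a family -/
abbrev famAlg (t : ι → Module.End ℤ L) : Subalgebra ℤ (Module.End ℤ L) :=
  Algebra.adjoin ℤ (Set.range t)

theorem famAlg_comm (t : ι → Module.End ℤ L) (hc : ∀ i j, t i * t j = t j * t i) :
    ∀ a ∈ Set.range t, ∀ b ∈ Set.range t, a * b = b * a := by
  rintro _ ⟨i, rfl⟩ _ ⟨j, rfl⟩
  exact hc i j

/-- the action of the polynomial ring -/
def polyAct (t : ι → Module.End ℤ L) (hc : ∀ i j, t i * t j = t j * t i) :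
    MvPolynomial ι ℤ →+* Module.End ℤ L :=
  letI : CommRing (famAlg t) := Algebra.adjoinCommRingOfComm ℤ (famAlg_comm t hc)
  (famAlg t).val.toRingHom.comp
    (MvPolynomial.aeval (R := ℤ) (S₁ := famAlg t)
      (fun i => (⟨t i, Algebra.subset_adjoin ⟨i, rfl⟩⟩ : famAlg t))).toRingHom

theorem polyAct_X (t : ι → Module.End ℤ L) (hc : ∀ i j, t i * t j = t j * t i) (i : ι) :
    polyAct t hc (MvPolynomial.X i) = t i := by
  letI : CommRing (famAlg t) := Algebra.adjoinCommRingOfComm ℤ (famAlg_comm t hc)
  show ((famAlg t).val ((MvPolynomial.aeval (R := ℤ) (S₁ := famAlg t)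
      (fun i => (⟨t i, Algebra.subset_adjoin ⟨i, rfl⟩⟩ : famAlg t))) (MvPolynomial.X i))) = t i
  rw [MvPolynomial.aeval_X]
  rfl

theorem polyAct_C (t : ι → Module.End ℤ L) (hc : ∀ i j, t i * t j = t j * t i) (n : ℤ) :
    polyAct t hc (MvPolynomial.C n) = (n : Module.End ℤ L) := by
  rw [eq_intCast (MvPolynomial.C : ℤ →+* MvPolynomial ι ℤ) n, map_intCast]

theorem polyAct_C_apply (t : ι → Module.End ℤ L) (hc : ∀ i j, t i * t j = t j * t i) (n : ℤ)
    (x : L) : polyAct t hc (MvPolynomial.C n) x = n • x := by
  rw [polyAct_C]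
  simp

/-- induction principle for statements about `polyAct` -/
theorem polyAct_induction (t : ι → Module.End ℤ L) (hc : ∀ i j, t i * t j = t j * t i)
    (Q : Module.End ℤ L → Prop) (hC : ∀ n : ℤ, Q (n : Module.End ℤ L))
    (hadd : ∀ a b, Q a → Q b → Q (a + b)) (hmul : ∀ a i, Q a → Q (a * t i))
    (s : MvPolynomial ι ℤ) : Q (polyAct t hc s) := by
  induction s using MvPolynomial.induction_on with
  | C n => rw [polyAct_C]; exact hC n
  | add a b ha hb => rw [map_add]; exact hadd _ _ ha hb
  | mul_X a i ha => rw [map_mul, polyAct_X]; exact hmul _ i ha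

/-- intertwining maps intertwine the polynomial actions -/
theorem polyAct_map {L' : Type*} [AddCommGroup L'] (t : ι → Module.End ℤ L)
    (hc : ∀ i j, t i * t j = t j * t i) (t' : ι → Module.End ℤ L')
    (hc' : ∀ i j, t' i * t' j = t' j * t' i) (f : L →+ L')
    (hf : ∀ i x, f (t i x) = t' i (f x)) (s : MvPolynomial ι ℤ) (x : L) :
    f (polyAct t hc s x) = polyAct t' hc' s (f x) := by
  induction s using MvPolynomial.induction_on generalizing x with
  | C n => rw [polyAct_C_apply, polyAct_C_apply, map_zsmul]
  | add a b ha hb =>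
    rw [map_add, map_add, LinearMap.add_apply, LinearMap.add_apply, map_add, ha, hb]
  | mul_X a i ha =>
    rw [map_mul, map_mul, polyAct_X, polyAct_X, Module.End.mul_apply, Module.End.mul_apply, ha, hf]

/-- an operator commuting with the family commutes with the polynomial action -/
theorem polyAct_commute (t : ι → Module.End ℤ L) (hc : ∀ i j, t i * t j = t j * t i)
    (T : Module.End ℤ L) (hT : ∀ i, T * t i = t i * T) (s : MvPolynomial ι ℤ) (x : L) :
    T (polyAct t hc s x) = polyAct t hc s (T x) :=
  polyAct_map t hc t hc T.toAddMonoidHom (fun i x => by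
    have := congrArg (fun e : Module.End ℤ L => e x) (hT i)
    simpa using this) s x

/-- self-adjoint families give self-adjoint polynomial actions -/
theorem polyAct_adjoint {L₂ : Type*} [AddCommGroup L₂] (t : ι → Module.End ℤ L)
    (hc : ∀ i j, t i * t j = t j * t i) (B : L →+ L →+ ℤ)
    (hB : ∀ i x y, B (t i x) y = B x (t i y)) (s : MvPolynomial ι ℤ) (x y : L) :
    B (polyAct t hc s x) y = B x (polyAct t hc s y) := by
  induction s using MvPolynomial.induction_on generalizing x y with
  | C n =>
    rw [polyAct_C_apply, polyAct_C_apply, map_zsmul, map_zsmul, AddMonoidHom.smul_apply]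
  | add a b ha hb =>
    rw [map_add, LinearMap.add_apply, LinearMap.add_apply, map_add, map_add,
      AddMonoidHom.add_apply, ha, hb]
  | mul_X a i ha =>
    rw [map_mul, polyAct_X, Module.End.mul_apply, Module.End.mul_apply, ha, hB]
    congr 1
    have h := congrArg (fun e : Module.End ℤ L => e y)
      (show t i * polyAct t hc a = polyAct t hc a * t i from by
        rw [← polyAct_X t hc i, ← map_mul, ← map_mul, mul_comm])
    simpa using h

/-- eigenvectors of the family (after base change to `ℂ`) are eigenvectors of the polynomial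
action, with eigenvalue given by evaluation -/
theorem polyAct_baseChange_eigen (t : ι → Module.End ℤ L) (hc : ∀ i j, t i * t j = t j * t i)
    (θ : ι → integralClosure ℤ ℂ) (v : ℂ ⊗[ℤ] L)
    (hv : ∀ i, (t i).baseChange ℂ v = ((θ i : integralClosure ℤ ℂ) : ℂ) • v)
    (s : MvPolynomial ι ℤ) :
    (polyAct t hc s).baseChange ℂ v
      = ((MvPolynomial.eval₂Hom (Int.castRingHom (integralClosure ℤ ℂ)) θ s :
          integralClosure ℤ ℂ) : ℂ) • v := by
  induction s using MvPolynomial.induction_on with
  | C n =>
    rw [polyAct_C]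
    have h1 : (MvPolynomial.eval₂Hom (Int.castRingHom (integralClosure ℤ ℂ)) θ
        (MvPolynomial.C n) : integralClosure ℤ ℂ) = (n : integralClosure ℤ ℂ) := by
      simp
    rw [h1]
    have h2 : ((n : Module.End ℤ L)).baseChange ℂ = (n : Module.End ℂ (ℂ ⊗[ℤ] L)) := by
      apply TensorProduct.AlgebraTensorModule.curry_injective
      ext x
      simp [LinearMap.baseChange_tmul, TensorProduct.tmul_smul]
    rw [h2]
    simp only [Module.End.intCast_apply]
    rw [← Int.cast_smul_eq_zsmul ℂ n v]
    simp
  | add a b ha hb =>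
    rw [map_add, LinearMap.baseChange_add, LinearMap.add_apply, ha, hb, map_add]
    push_cast
    rw [add_smul]
  | mul_X a i ha =>
    rw [map_mul, polyAct_X, Module.End.mul_eq_comp, LinearMap.baseChange_comp,
      LinearMap.comp_apply, hv, map_smul, ha, map_mul]
    have h3 : (MvPolynomial.eval₂Hom (Int.castRingHom (integralClosure ℤ ℂ)) θ
        (MvPolynomial.X i) : integralClosure ℤ ℂ) = θ i := by simp
    rw [h3, smul_smul, mul_comm]
    push_cast
    rfl

end PolyAct

/-! ### the type synonym -/

section PMod

variable {ι : Type*} {L : Type*} [AddCommGroup L]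

/-- `L` as a module over the polynomial ring -/
def PMod (t : ι → Module.End ℤ L) (hc : ∀ i j, t i * t j = t j * t i) : Type _ := L

variable (t : ι → Module.End ℤ L) (hc : ∀ i j, t i * t j = t j * t i)

instance : AddCommGroup (PMod t hc) := inferInstanceAs (AddCommGroup L)

instance : Module (MvPolynomial ι ℤ) (PMod t hc) := Module.compHom L (polyAct t hc)

/-- the identification -/
def PMod.of : L ≃+ PMod t hc := AddEquiv.refl L

theorem PMod.smul_def (s : MvPolynomial ι ℤ) (x : PMod t hc) :
    s • x = PMod.of t hc (polyAct t hc s ((PMod.of t hc).symm x)) := rfl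

instance [Module.Finite ℤ L] : Module.Finite ℤ (PMod t hc) :=
  Module.Finite.equiv (PMod.of t hc).toIntLinearEquiv

instance [Module.Free ℤ L] : Module.Free ℤ (PMod t hc) :=
  Module.Free.of_equiv (PMod.of t hc).toIntLinearEquiv

end PMod

end Fermat.Agent.S41.Asm
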