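import Mathlib
import Fermat.Agent.S41.AsmPoly
import Fermat.Agent.S41.AbsLocal
import Fermat.Agent.S41.DegenLam

/-!
# C81 (S41), assembly, part 1: the concrete data

* `Idx N q p W`: the good primes `ℓ ∤ N q`, `ℓ ≠ p`;
* `HP = ℤ[X_ℓ : ℓ ∈ Idx]`, acting on `Lam N` and `Lam (N q)` through `Tpar ℓ`
  (given that these operators commute: hypotheses `hcN`, `hcNq`, `hcq`);
* `psi0 : HP → ZMod p`, `X_ℓ ↦ a_ℓ(W)`, `nIdeal = ker psi0`;
* the `HP`-linear maps `iP`, `itP`, `TqP`.
-/

set_option autoImplicit false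
set_option linter.unusedSectionVars false
set_option linter.unusedVariables false
set_option linter.style.haveILetI false

noncomputable section

open Matrix.SpecialLinearGroup CongruenceSubgroup
open scoped MatrixGroups
open ModularCurve.Period
open Fermat.Agent.S29.D1 Fermat.Agent.S31.Lat Fermat.Agent.S41.P3 Fermat.Agent.S41.Abs

namespace Fermat.Agent.S41.Asm

variable (N q p : ℕ) (W : WeierstrassCurve ℤ)

/-- the index set: good primes not dividing `N q`, different from `p` -/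
abbrev Idx : Type := {ℓ : ℕ // ℓ.Prime ∧ W.IsGoodPrimeFor ℓ ∧ ¬ ℓ ∣ N * q ∧ ℓ ≠ p}

/-- the polynomial ring on the good primes -/
abbrev HP : Type := MvPolynomial (Idx N q p W) ℤ

variable {N q p W}

theorem Idx.prime (i : Idx N q p W) : (i.1).Prime := i.2.1
theorem Idx.good (i : Idx N q p W) : W.IsGoodPrimeFor i.1 := i.2.2.1
theorem Idx.not_dvd (i : Idx N q p W) : ¬ i.1 ∣ N * q := i.2.2.2.1
theorem Idx.ne (i : Idx N q p W) : i.1 ≠ p := i.2.2.2.2
theorem Idx.not_dvd_left (i : Idx N q p W) : ¬ i.1 ∣ N := fun h => i.not_dvd (h.mul_right q)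

variable (N q p W)

/-- the residual character `X_ℓ ↦ a_ℓ(W) mod p` -/
def psi0 : HP N q p W →+* ZMod p :=
  MvPolynomial.eval₂Hom (Int.castRingHom (ZMod p)) (fun i => ((W.apOfModel i.1 : ℤ) : ZMod p))

@[simp] theorem psi0_X (i : Idx N q p W) :
    psi0 N q p W (MvPolynomial.X i) = ((W.apOfModel i.1 : ℤ) : ZMod p) := by
  simp [psi0]

@[simp] theorem psi0_C (n : ℤ) : psi0 N q p W (MvPolynomial.C n) = (n : ZMod p) := by
  simp [psi0]

theorem psi0_surjective : Function.Surjective (psi0 N q p W) := by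
  intro x
  obtain ⟨n, rfl⟩ := ZMod.intCast_surjective x
  exact ⟨MvPolynomial.C n, psi0_C N q p W n⟩

/-- the maximal ideal of the residual eigensystem -/
def nIdeal : Ideal (HP N q p W) := RingHom.ker (psi0 N q p W)

instance nIdeal_isMaximal [Fact p.Prime] : (nIdeal N q p W).IsMaximal :=
  RingHom.ker_isMaximal_of_surjective _ (psi0_surjective N q p W)

instance nIdeal_isPrime [Fact p.Prime] : (nIdeal N q p W).IsPrime :=
  (nIdeal_isMaximal N q p W).isPrime

theorem natCast_mem_nIdeal : ((p : ℕ) : HP N q p W) ∈ nIdeal N q p W := by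
  show psi0 N q p W ((p : ℕ) : HP N q p W) = 0
  rw [map_natCast]
  exact ZMod.natCast_self p

theorem X_sub_C_mem_nIdeal (i : Idx N q p W) :
    (MvPolynomial.X i - MvPolynomial.C (W.apOfModel i.1 : ℤ) : HP N q p W) ∈ nIdeal N q p W := by
  show psi0 N q p W _ = 0
  rw [map_sub, psi0_X, psi0_C, sub_self]

/-! ### the operators -/

variable [NeZero N] [Fact q.Prime]

/-- the family `T_ℓ` on `Lam N` -/
def tN (i : Idx N q p W) : Module.End ℤ (Lam N) := Tpar i.prime i.not_dvd_left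

/-- the family `T_ℓ` on `Lam (N q)` -/
def tNq (i : Idx N q p W) : Module.End ℤ (Lam (N * q)) := Tpar i.prime i.not_dvd

/-- `T_q` on `Lam N` -/
def tq (hqN : ¬ q ∣ N) : Module.End ℤ (Lam N) := Tpar (Fact.out : q.Prime) hqN

/-- the commutativity hypotheses (they hold: piece TC) -/
structure Comm (hqN : ¬ q ∣ N) : Prop where
  hcN : ∀ i j : Idx N q p W, tN N q p W i * tN N q p W j = tN N q p W j * tN N q p W i
  hcNq : ∀ i j : Idx N q p W, tNq N q p W i * tNq N q p W j = tNq N q p W j * tNq N q p W i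
  hcq : ∀ i : Idx N q p W, tq N q hqN * tN N q p W i = tN N q p W i * tq N q hqN

variable {N q p W}
variable {hqN : ¬ q ∣ N} (hC : Comm N q p W hqN)

/-- `Lam N` as an `HP`-module -/
abbrev LN : Type := PMod (tN N q p W) hC.hcN

/-- `Lam (N q)` as an `HP`-module -/
abbrev LNq : Type := PMod (tNq N q p W) hC.hcNq

theorem smul_LN (s : HP N q p W) (x : LN hC) :
    s • x = polyAct (tN N q p W) hC.hcN s (show Lam N from x) := rfl

theorem smul_LNq (s : HP N q p W) (x : LNq hC) :
    s • x = polyAct (tNq N q p W) hC.hcNq s (show Lam (N * q) from x) := rfl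

theorem tNq_aUp (i : Idx N q p W) (c : Lam N) :
    tNq N q p W i (aUp ℤ ℤ hqN c) = aUp ℤ ℤ hqN (tN N q p W i c) :=
  haveI : Fact (i.1).Prime := ⟨i.prime⟩
  heckePar_aUp ℤ ℤ hqN i.not_dvd c

theorem tNq_bUp (i : Idx N q p W) (c : Lam N) :
    tNq N q p W i (bUp ℤ ℤ hqN c) = bUp ℤ ℤ hqN (tN N q p W i c) :=
  haveI : Fact (i.1).Prime := ⟨i.prime⟩
  heckePar_bUp ℤ ℤ hqN i.not_dvd c

theorem tN_aDown (i : Idx N q p W) (c : Lam (N * q)) :
    tN N q p W i (aDown ℤ ℤ hqN c) = aDown ℤ ℤ hqN (tNq N q p W i c) :=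
  haveI : Fact (i.1).Prime := ⟨i.prime⟩
  heckePar_aDown ℤ ℤ hqN i.not_dvd c

theorem tN_bDown (i : Idx N q p W) (c : Lam (N * q)) :
    tN N q p W i (bDown ℤ ℤ hqN c) = bDown ℤ ℤ hqN (tNq N q p W i c) :=
  haveI : Fact (i.1).Prime := ⟨i.prime⟩
  heckePar_bDown ℤ ℤ hqN i.not_dvd c

/-- `i` as an `HP`-linear map -/
def iP : (LN hC × LN hC) →ₗ[HP N q p W] LNq hC where
  toFun x := iLam hqN (show Lam N × Lam N from x)
  map_add' x y := (iLam hqN).map_add _ _
  map_smul' s x := by
    show iLam hqN (polyAct (tN N q p W) hC.hcN s x.1, polyAct (tN N q p W) hC.hcN s x.2)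
      = polyAct (tNq N q p W) hC.hcNq s (iLam hqN (show Lam N × Lam N from x))
    rw [iUp_apply, iUp_apply, map_add]
    congr 1
    · exact polyAct_map _ hC.hcN _ hC.hcNq (aUp ℤ ℤ hqN).toAddMonoidHom
        (fun i c => (tNq_aUp (hqN := hqN) i c).symm) s x.1
    · exact polyAct_map _ hC.hcN _ hC.hcNq (bUp ℤ ℤ hqN).toAddMonoidHom
        (fun i c => (tNq_bUp (hqN := hqN) i c).symm) s x.2

/-- `i†` as an `HP`-linear map -/
def itP : LNq hC →ₗ[HP N q p W] (LN hC × LN hC) where
  toFun y := iLamDual hqN (show Lam (N * q) from y)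
  map_add' x y := (iLamDual hqN).map_add _ _
  map_smul' s y := by
    show iLamDual hqN (polyAct (tNq N q p W) hC.hcNq s y)
      = (polyAct (tN N q p W) hC.hcN s (iLamDual hqN y).1,
          polyAct (tN N q p W) hC.hcN s (iLamDual hqN y).2)
    refine Prod.ext ?_ ?_
    · exact polyAct_map _ hC.hcNq _ hC.hcN (aDown ℤ ℤ hqN).toAddMonoidHom
        (fun i c => (tN_aDown (hqN := hqN) i c).symm) s y
    · exact polyAct_map _ hC.hcNq _ hC.hcN (bDown ℤ ℤ hqN).toAddMonoidHom
        (fun i c => (tN_bDown (hqN := hqN) i c).symm) s y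

/-- `T_q` as an `HP`-linear map -/
def TqP : LN hC →ₗ[HP N q p W] LN hC where
  toFun x := tq N q hqN (show Lam N from x)
  map_add' x y := (tq N q hqN).map_add _ _
  map_smul' s x := polyAct_commute _ hC.hcN (tq N q hqN) hC.hcq s x

theorem iP_apply (x : LN hC × LN hC) : iP hC x = iLam hqN (show Lam N × Lam N from x) := rfl

theorem itP_apply (y : LNq hC) : itP hC y = iLamDual hqN (show Lam (N * q) from y) := rfl

theorem TqP_apply (x : LN hC) : TqP hC x = tq N q hqN (show Lam N from x) := rfl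

/-- **(M)** -/
theorem itP_iP (x : LN hC × LN hC) :
    itP hC (iP hC x)
      = (((q : HP N q p W) + 1) • x.1 + TqP hC x.2, TqP hC x.1 + ((q : HP N q p W) + 1) • x.2) := by
  have h := iLamDual_iLam hqN (show Lam N × Lam N from x)
  have hs : ∀ z : LN hC, ((q : HP N q p W) + 1) • z = (q + 1) • z := by
    intro z
    have e : ((q : HP N q p W) + 1) = ((q + 1 : ℕ) : HP N q p W) := by
      push_cast
      rfl
    rw [e, Nat.cast_smul_eq_nsmul]
  rw [itP_apply, iP_apply, hs, hs]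
  exact h

end Fermat.Agent.S41.Asm
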