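import Mathlib
import Fermat.Agent.S41.EigForm
import Fermat.Agent.S41.AsmDefs

/-!
# C81 (S41), piece TC: the Hecke operators `T_ℓ` (`ℓ ∤ M`) on `Lam M` commute

Route: `Lam M ↪ Hom_par(Γ₀(M), ℂ)`, which is the image of the period pair (`S21`); the period map
intertwines `heckeTLin` and `heckeHom` (`periodMap_heckeT`), `heckeHom` commutes with the
involution (`charInvolution_heckeHom`), and the `heckeTLin` commute (`CuspForm.heckeTLin_comm`).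
-/

set_option autoImplicit false
set_option linter.unusedSectionVars false
set_option linter.unusedVariables false
set_option linter.style.haveILetI false

noncomputable section

open Matrix.SpecialLinearGroup CongruenceSubgroup
open scoped MatrixGroups
open ModularCurve ModularCurve.Period
open Fermat.Agent.S29.D1 Fermat.Agent.S31.Lat Fermat.Agent.S41.P7

namespace Fermat.Agent.S41.TC

variable {M : ℕ} [NeZero M]

/-- the Hecke operators commute on the parabolic homomorphisms with complex values -/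
theorem heckeHom_comm_complex {ℓ ℓ' : ℕ} [Fact ℓ.Prime] [Fact ℓ'.Prime]
    (hℓM : ¬ ℓ ∣ M) (hℓ'M : ¬ ℓ' ∣ M) (w : Additive (Gamma0 M) →+ ℂ)
    (hw : w ∈ parabolicHoms ℂ (Gamma0 M) ℂ) :
    heckeHom ℂ hℓM (heckeHom ℂ hℓ'M w) = heckeHom ℂ hℓ'M (heckeHom ℂ hℓM w) := by
  have hrange := (Fermat.Agent.S21.result M).2
  rw [← hrange] at hw
  obtain ⟨x, rfl⟩ := hw
  have h1 := (compat_heckeT (M := M) hℓM).map_pair
  have h2 := (compat_heckeT (M := M) hℓ'M).map_pair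
  rw [h2, h1, h1, h2]
  have hc := CuspForm.heckeTLin_comm (N := M) 2 (Fact.out : ℓ.Prime) hℓM
    (Fact.out : ℓ'.Prime) hℓ'M
  have e : ∀ f : CuspForm (Gamma0 M) 2,
      CuspForm.heckeTLin 2 (Fact.out : ℓ.Prime) hℓM
          (CuspForm.heckeTLin 2 (Fact.out : ℓ'.Prime) hℓ'M f)
        = CuspForm.heckeTLin 2 (Fact.out : ℓ'.Prime) hℓ'M
          (CuspForm.heckeTLin 2 (Fact.out : ℓ.Prime) hℓM f) := by
    intro f
    have := congrArg (fun T => T f) hc.eq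
    exact this
  show periodHomPair M (_, _) = periodHomPair M (_, _)
  rw [e, e]

/-- the Hecke operators commute on the parabolic homomorphisms with integral values -/
theorem heckeHom_comm_int {ℓ ℓ' : ℕ} [Fact ℓ.Prime] [Fact ℓ'.Prime]
    (hℓM : ¬ ℓ ∣ M) (hℓ'M : ¬ ℓ' ∣ M) (c : Additive (Gamma0 M) →+ ℤ)
    (hc : c ∈ parabolicHoms ℤ (Gamma0 M) ℤ) :
    heckeHom ℤ hℓM (heckeHom ℤ hℓ'M c) = heckeHom ℤ hℓ'M (heckeHom ℤ hℓM c) := by
  have hw : (Int.castAddHom ℂ).comp c ∈ parabolicHoms ℂ (Gamma0 M) ℂ := by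
    intro γ hγ
    show ((c (Additive.ofMul γ) : ℤ) : ℂ) = 0
    rw [hc γ hγ, Int.cast_zero]
  have h := heckeHom_comm_complex hℓM hℓ'M _ hw
  rw [heckeHom_comp, heckeHom_comp, heckeHom_comp, heckeHom_comp] at h
  refine AddMonoidHom.ext fun γ => ?_
  have h' := DFunLike.congr_fun h γ
  have h'' : ((heckeHom ℤ hℓM (heckeHom ℤ hℓ'M c) γ : ℤ) : ℂ)
      = ((heckeHom ℤ hℓ'M (heckeHom ℤ hℓM c) γ : ℤ) : ℂ) := h'
  exact_mod_cast h''

/-- **TC**: the operators `T_ℓ`, `ℓ ∤ M`, on `Lam M` commute -/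
theorem Tpar_comm {ℓ ℓ' : ℕ} (hℓ : ℓ.Prime) (hℓM : ¬ ℓ ∣ M) (hℓ' : ℓ'.Prime) (hℓ'M : ¬ ℓ' ∣ M)
    (c : Lam M) :
    Tpar hℓ hℓM (Tpar hℓ' hℓ'M c) = Tpar hℓ' hℓ'M (Tpar hℓ hℓM c) := by
  haveI : Fact ℓ.Prime := ⟨hℓ⟩
  haveI : Fact ℓ'.Prime := ⟨hℓ'⟩
  apply Subtype.ext
  rw [coe_Tpar, coe_Tpar, coe_Tpar, coe_Tpar]
  exact heckeHom_comm_int hℓM hℓ'M c.1 c.2

/-- `Tpar_comm` as an identity of endomorphisms -/
theorem Tpar_mul_comm {ℓ ℓ' : ℕ} (hℓ : ℓ.Prime) (hℓM : ¬ ℓ ∣ M) (hℓ' : ℓ'.Prime)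
    (hℓ'M : ¬ ℓ' ∣ M) :
    Tpar hℓ hℓM * Tpar hℓ' hℓ'M = Tpar hℓ' hℓ'M * Tpar hℓ hℓM :=
  LinearMap.ext fun c => Tpar_comm hℓ hℓM hℓ' hℓ'M c

theorem Tpar_commute {ℓ ℓ' : ℕ} (hℓ : ℓ.Prime) (hℓM : ¬ ℓ ∣ M) (hℓ' : ℓ'.Prime)
    (hℓ'M : ¬ ℓ' ∣ M) :
    Commute (Tpar hℓ hℓM) (Tpar hℓ' hℓ'M) :=
  Tpar_mul_comm hℓ hℓM hℓ' hℓ'M

open Fermat.Agent.S41.Asm in
/-- **the commutativity hypotheses of the assembly hold** -/
theorem comm_concrete (N q p : ℕ) (W : WeierstrassCurve ℤ) [NeZero N] [Fact q.Prime]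
    (hqN : ¬ q ∣ N) : Comm N q p W hqN :=
  haveI : NeZero (N * q) := ⟨Nat.mul_ne_zero (NeZero.ne N) (Fact.out : q.Prime).ne_zero⟩
  { hcN := fun i j => Tpar_mul_comm i.prime i.not_dvd_left j.prime j.not_dvd_left
    hcNq := fun i j => Tpar_mul_comm i.prime i.not_dvd j.prime j.not_dvd
    hcq := fun i => Tpar_mul_comm (Fact.out : q.Prime) hqN i.prime i.not_dvd_left }

end Fermat.Agent.S41.TC
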