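import Mathlib
import Fermat.Agent.S41.AbsLocal

/-!
# C81 (S41, level raising), piece P5c: hypothesis (C) from an eigenvector

`P` a commutative ring acting on `L` (finitely generated over `ℤ`), `T : L →ₗ[P] L`, `c : P`.
If the pair `(P, T)` has an eigenvector (in a complex vector space generated by `L`) with
eigenvalues `χ s`, `a` in `ℤ̄`, and `𝔪` is a maximal ideal of `ℤ̄` with `p ∈ 𝔪`,
`(χ c)² - a² ∈ 𝔪`, and `𝔫 ⊇ χ⁻¹(𝔪)`, then `c² - T²` is not locally surjective modulo `p`:
hypothesis (C) of `Abs.exists_not_locally_zero`.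

* `exists_notMem_locSub_ker_smul` : Nakayama (Cayley–Hamilton form) at a character `ψ : R → k`
  through which the action of `R` on `L` is "seen" (`r L = 0 → ψ r = 0`).
* `hC_of_hom` : the core form, with a ring homomorphism `ψ : P[X] → k`, `X ↦ T`.
* `hC_of_eigenvector` : the eigenvector form.
-/

set_option autoImplicit false
set_option linter.unusedSectionVars false
set_option linter.unusedVariables false
set_option linter.style.haveILetI false

namespace Fermat.Agent.S41.Abs

open Polynomial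

/-- Nakayama at a character `ψ` that sees the action on `L` -/
theorem exists_notMem_locSub_ker_smul {R : Type*} [CommRing R] {L : Type*} [AddCommGroup L]
    [Module R L] [Module.Finite ℤ L] {k : Type*} [Field k] (ψ : R →+* k)
    (hfaith : ∀ r : R, (∀ x : L, r • x = 0) → ψ r = 0) :
    haveI : (RingHom.ker ψ).IsPrime := RingHom.ker_isPrime ψ
    ∃ z : L, z ∉ locSub (RingHom.ker ψ) ((RingHom.ker ψ) • (⊤ : Submodule R L)) := by
  haveI : (RingHom.ker ψ).IsPrime := RingHom.ker_isPrime ψ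
  by_contra hcon
  push Not at hcon
  have hfg : ((⊤ : Submodule R L).restrictScalars ℤ).FG := by
    have h1 : (⊤ : Submodule R L).restrictScalars ℤ = ⊤ := by
      ext x; simp
    rw [h1]
    exact Module.Finite.fg_top
  obtain ⟨r, hr, hrL⟩ := exists_common_smul_mem (RingHom.ker ψ)
    ((RingHom.ker ψ) • (⊤ : Submodule R L)) ⊤ hfg (fun x _ => hcon x)
  haveI : Module.Finite R L := Module.Finite.of_restrictScalars_finite ℤ R L
  obtain ⟨f, hmonic, -, hcoeff, hzero⟩ :=
    LinearMap.exists_monic_and_natDegree_eq_and_coeff_mem_pow_and_aeval_eq_zero R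
      (algebraMap R (Module.End R L) r) (RingHom.ker ψ) (by
        rintro _ ⟨x, rfl⟩
        rw [Module.algebraMap_end_apply]
        exact hrL x trivial)
  have hy : ∀ x : L, (f.eval r) • x = 0 := by
    intro x
    rw [Polynomial.aeval_algebraMap_apply] at hzero
    have h2 := congrArg (fun g : Module.End R L => g x) hzero
    simp only [Module.algebraMap_end_apply, LinearMap.zero_apply] at h2
    rw [← h2]
    rfl
  have h0 := hfaith _ hy
  have h3 : f.map ψ = X ^ f.natDegree := by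
    ext n
    rw [Polynomial.coeff_map, Polynomial.coeff_X_pow]
    rcases lt_trichotomy n f.natDegree with hn | hn | hn
    · rw [if_neg hn.ne]
      have h4 : f.coeff n ∈ RingHom.ker ψ := by
        have h5 := hcoeff n
        have h6 : f.natDegree - n ≠ 0 := by omega
        exact Ideal.pow_le_self h6 h5
      exact h4
    · rw [if_pos hn, hn]
      have : f.coeff f.natDegree = 1 := hmonic
      rw [this, map_one]
    · rw [if_neg hn.ne', Polynomial.coeff_eq_zero_of_natDegree_lt hn, map_zero]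
  have h4 : ψ (f.eval r) = (ψ r) ^ f.natDegree := by
    have h5 : ψ (f.eval r) = (f.map ψ).eval (ψ r) := by
      rw [Polynomial.eval_map, Polynomial.eval₂_at_apply]
    rw [h5, h3, Polynomial.eval_pow, Polynomial.eval_X]
  rw [h4] at h0
  have h7 : ψ r = 0 := by
    by_cases hd : f.natDegree = 0
    · rw [hd, pow_zero] at h0
      exact absurd h0 one_ne_zero
    · exact (pow_eq_zero_iff hd).mp h0
  exact hr h7

section Core

variable {P : Type*} [CommRing P] (𝔫 : Ideal P) [h𝔫 : 𝔫.IsPrime] (p : ℕ)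
variable {L : Type*} [AddCommGroup L] [Module P L]

/-- **(C), core form**: a ring homomorphism `ψ : P[X] → k` to a field, with `ψ (C s) ≠ 0` for
`s ∉ 𝔫`, `ψ p = 0`, `ψ (C c)² = ψ X²`, which sees the action of `P[X]` on `L` (`X ↦ T`). -/
theorem hC_of_hom [Module.Finite ℤ L] (T : L →ₗ[P] L) (c : P) {k : Type*} [Field k]
    (ψ : P[X] →+* k) (hψ𝔫 : ∀ s : P, s ∉ 𝔫 → ψ (C s) ≠ 0) (hψp : ψ (p : P[X]) = 0)
    (hψc : ψ (C c) ^ 2 = ψ X ^ 2)
    (hfaith : ∀ f : P[X], (∀ x : L, Polynomial.aeval T f x = 0) → ψ f = 0) :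
    ∃ z : L, ∀ u : L, z - (c • c • u - T (T u)) ∉ locSub 𝔫 (pMul (P := P) p L) := by
  letI inst : Module P[X] L :=
    Module.compHom L ((Polynomial.aeval T : P[X] →ₐ[P] Module.End P L) : P[X] →+* Module.End P L)
  have hsmul : ∀ (f : P[X]) (x : L), f • x = Polynomial.aeval T f x := fun f x => rfl
  haveI : (RingHom.ker ψ).IsPrime := RingHom.ker_isPrime ψ
  obtain ⟨z, hz⟩ := exists_notMem_locSub_ker_smul (R := P[X]) (L := L) ψ (by
    intro f hf
    exact hfaith f (fun x => by rw [← hsmul]; exact hf x))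
  refine ⟨z, fun u hu => hz ?_⟩
  obtain ⟨s, hs, w, hw⟩ := hu
  refine ⟨C s, fun h => hψ𝔫 s hs h, ?_⟩
  -- `C s • z = (C s * (C c * C c - X * X)) • u + p • w`
  have h1 : (C s : P[X]) • z = (C s * (C c * C c - X * X)) • u + ((p : ℕ) : P[X]) • w := by
    have h2 : ∀ x : L, (C s : P[X]) • x = s • x := by
      intro x
      rw [hsmul, Polynomial.aeval_C, Module.algebraMap_end_apply]
    have h3 : (C s * (C c * C c - X * X) : P[X]) • u = s • (c • c • u - T (T u)) := by
      rw [hsmul, map_mul, map_sub, map_mul, map_mul, Polynomial.aeval_C, Polynomial.aeval_C,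
        Polynomial.aeval_X]
      simp only [Module.End.mul_apply, LinearMap.sub_apply, Module.algebraMap_end_apply]
    have h4 : ((p : ℕ) : P[X]) • w = p • w := by
      rw [hsmul, map_natCast]
      simp
    rw [h2, h3, h4, ← hw, ← smul_add]
    congr 1
    abel
  rw [h1]
  refine Submodule.add_mem _ ?_ ?_
  · refine Submodule.smul_mem_smul ?_ Submodule.mem_top
    rw [RingHom.mem_ker, map_mul, map_sub, map_mul, map_mul, ← pow_two, ← pow_two, hψc, sub_self,
      mul_zero]
  · exact Submodule.smul_mem_smul (by rw [RingHom.mem_ker]; exact hψp) Submodule.mem_top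

/-- **(C), eigenvector form**: `v ≠ 0` in the `ℂ`-span of the image of `L`, eigenvector of the
extensions `sV s` (`s : P`) and `TV` with eigenvalues `χ s`, `a ∈ ℤ̄`; `𝔪` maximal in `ℤ̄` with
`p ∈ 𝔪`, `(χ c)² - a² ∈ 𝔪`, and `χ s ∉ 𝔪` for `s ∉ 𝔫`. -/
theorem hC_of_eigenvector [Module.Finite ℤ L] (T : L →ₗ[P] L) (c : P)
    {V : Type*} [AddCommGroup V] [Module ℂ V] (j : L →+ V)
    (sV : P → V →ₗ[ℂ] V) (hsV : ∀ (s : P) (x : L), sV s (j x) = j (s • x))
    (TV : V →ₗ[ℂ] V) (hTV : ∀ x : L, TV (j x) = j (T x))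
    (v : V) (hv : v ≠ 0) (hvspan : v ∈ Submodule.span ℂ (Set.range j))
    (χ : P →+* integralClosure ℤ ℂ) (a : integralClosure ℤ ℂ)
    (hχ : ∀ s : P, sV s v = ((χ s : integralClosure ℤ ℂ) : ℂ) • v)
    (ha : TV v = ((a : integralClosure ℤ ℂ) : ℂ) • v)
    (𝔪 : Ideal (integralClosure ℤ ℂ)) [h𝔪 : 𝔪.IsMaximal]
    (hp𝔪 : ((p : ℕ) : integralClosure ℤ ℂ) ∈ 𝔪)
    (h𝔫𝔪 : ∀ s : P, s ∉ 𝔫 → χ s ∉ 𝔪)
    (hca : (χ c) ^ 2 - a ^ 2 ∈ 𝔪) :
    ∃ z : L, ∀ u : L, z - (c • c • u - T (T u)) ∉ locSub 𝔫 (pMul (P := P) p L) := by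
  letI : Field (integralClosure ℤ ℂ ⧸ 𝔪) := Ideal.Quotient.field 𝔪
  let ψ : P[X] →+* (integralClosure ℤ ℂ ⧸ 𝔪) :=
    (Ideal.Quotient.mk 𝔪).comp (Polynomial.eval₂RingHom χ a)
  have hψ : ∀ f : P[X], ψ f = Ideal.Quotient.mk 𝔪 (Polynomial.eval₂ χ a f) := fun f => rfl
  -- the extension of `f(T)` to `V`
  have hext : ∀ f : P[X], ∃ F : V →ₗ[ℂ] V, (∀ x : L, F (j x) = j (Polynomial.aeval T f x)) ∧
      F v = ((Polynomial.eval₂ χ a f : integralClosure ℤ ℂ) : ℂ) • v := by
    intro f
    induction f using Polynomial.induction_on with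
    | C s =>
      refine ⟨sV s, fun x => ?_, ?_⟩
      · rw [hsV, Polynomial.aeval_C, Module.algebraMap_end_apply]
      · rw [hχ, Polynomial.eval₂_C]
    | add f g hf hg =>
      obtain ⟨F, hF1, hF2⟩ := hf
      obtain ⟨G, hG1, hG2⟩ := hg
      refine ⟨F + G, fun x => ?_, ?_⟩
      · rw [LinearMap.add_apply, hF1, hG1, map_add, LinearMap.add_apply, map_add]
      · rw [LinearMap.add_apply, hF2, hG2, Polynomial.eval₂_add, ← add_smul]
        rfl
    | monomial n s hf =>
      obtain ⟨F, hF1, hF2⟩ := hf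
      have e1 : Polynomial.aeval T (C s * X ^ (n + 1))
          = Polynomial.aeval T (C s * X ^ n) * T := by
        rw [pow_succ, ← mul_assoc, map_mul, Polynomial.aeval_X]
      have e2 : Polynomial.eval₂ χ a (C s * X ^ (n + 1))
          = Polynomial.eval₂ χ a (C s * X ^ n) * a := by
        rw [pow_succ, ← mul_assoc, Polynomial.eval₂_mul, Polynomial.eval₂_X]
      refine ⟨F.comp TV, fun x => ?_, ?_⟩
      · rw [LinearMap.comp_apply, hTV, hF1, e1]
        rfl
      · rw [LinearMap.comp_apply, ha, map_smul, hF2, smul_smul, e2]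
        congr 1
        push_cast
        ring
  refine hC_of_hom 𝔫 p T c ψ ?_ ?_ ?_ ?_
  · intro s hs h
    rw [hψ, Polynomial.eval₂_C, Ideal.Quotient.eq_zero_iff_mem] at h
    exact h𝔫𝔪 s hs h
  · rw [hψ, Polynomial.eval₂_natCast, Ideal.Quotient.eq_zero_iff_mem]
    exact hp𝔪
  · rw [hψ, hψ, Polynomial.eval₂_C, Polynomial.eval₂_X, ← sub_eq_zero]
    have h1 : (Ideal.Quotient.mk 𝔪) (χ c) ^ 2 - (Ideal.Quotient.mk 𝔪) a ^ 2
        = Ideal.Quotient.mk 𝔪 ((χ c) ^ 2 - a ^ 2) := by
      rw [map_sub, map_pow, map_pow]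
    rw [h1, Ideal.Quotient.eq_zero_iff_mem]
    exact hca
  · intro f hf
    obtain ⟨F, hF1, hF2⟩ := hext f
    have h1 : ∀ y ∈ Submodule.span ℂ (Set.range j), F y = 0 := by
      intro y hy
      refine Submodule.span_induction (p := fun y _ => F y = 0) ?_ ?_ ?_ ?_ hy
      · rintro _ ⟨x, rfl⟩
        rw [hF1, hf, map_zero]
      · exact map_zero F
      · intro x y _ _ hx hy
        rw [map_add, hx, hy, add_zero]
      · intro r x _ hx
        rw [map_smul, hx, smul_zero]
    have h2 := h1 v hvspan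
    rw [hF2] at h2
    have h3 : ((Polynomial.eval₂ χ a f : integralClosure ℤ ℂ) : ℂ) = 0 := by
      rcases smul_eq_zero.mp h2 with h | h
      · exact h
      · exact absurd h hv
    have h4 : Polynomial.eval₂ χ a f = 0 := by
      apply Subtype.ext
      exact h3
    rw [hψ, h4, map_zero]

end Core

end Fermat.Agent.S41.Abs
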