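import Mathlib
import Fermat.Agent.S41.AsmDefs
import Fermat.Agent.S41.AbsEigen
import Fermat.Agent.S31.LatEigT
import Fermat.Agent.S29.ParPeriod

/-!
# C81 (S41), assembly piece A2 = (C): the concrete hypothesis (C)

From a normalised eigenform `f` of level `N` congruent to `W` modulo `𝔪` (at the good primes)
with `a_q(f)² ≡ (q + 1)²` modulo `𝔪`, hypothesis (C) of `Abs.exists_not_locally_zero` for the
`HP`-module `LN hC = Lam N`, the operator `TqP hC = T_q` and `c = q + 1`.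
-/

set_option autoImplicit false
set_option linter.unusedSectionVars false
set_option linter.unusedVariables false
set_option linter.style.haveILetI false

noncomputable section

open Matrix.SpecialLinearGroup CongruenceSubgroup TensorProduct
open scoped MatrixGroups
open ModularCurve ModularCurve.Period
open Fermat.Agent.S29.D1 Fermat.Agent.S31.Lat Fermat.Agent.S41.P3 Fermat.Agent.S41.Abs
open Fermat.Agent.S41.Asm

namespace Fermat.Agent.S41.AsmC

variable {N q p : ℕ} {W : WeierstrassCurve ℤ} [NeZero N] [Fact q.Prime] [Fact p.Prime]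
variable {hqN : ¬ q ∣ N} (hC : Comm N q p W hqN)

/-- the eigenclass in `ℂ ⊗ Lam N` of a normalised eigenform -/
theorem exists_eigenclass (f : CuspForm (Gamma0 N) 2) (hf : f.IsNormalizedEigenform) :
    ∃ v : ℂ ⊗[ℤ] Lam N, v ≠ 0 ∧
      ∀ (ℓ : ℕ) (hℓ : ℓ.Prime) (hℓN : ¬ ℓ ∣ N),
        (Tpar hℓ hℓN).baseChange ℂ v = ModularFormClass.qCoeff f ℓ • v := by
  obtain ⟨v, hv⟩ := exists_tensor_of_hom (N := N) (periodMap N f)
    (mem_parabolicHoms_iff.mp (Fermat.Agent.S21.periodMap_mem_parabolicHoms (N := N) f))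
  refine ⟨v, ?_, fun ℓ hℓ hℓN => ?_⟩
  · rintro rfl
    rw [map_zero] at hv
    exact periodMap_ne_zero (eigenform_ne_zero hf) hv.symm
  · apply tensorToHomO_injective ℂ
    rw [tensorToHomO_baseChange, map_smul, hv]
    haveI : Fact ℓ.Prime := ⟨hℓ⟩
    exact periodMap_eigen hf hℓN

/-- every element of `ℂ ⊗ L` lies in the span of the pure tensors `1 ⊗ x` -/
theorem mem_span_one_tmul {L : Type*} [AddCommGroup L] (v : ℂ ⊗[ℤ] L) :
    v ∈ Submodule.span ℂ (Set.range (fun x : L => (1 : ℂ) ⊗ₜ[ℤ] x)) := by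
  induction v using TensorProduct.induction_on with
  | zero => exact Submodule.zero_mem _
  | tmul e x =>
    have h : e ⊗ₜ[ℤ] x = e • ((1 : ℂ) ⊗ₜ[ℤ] x) := by
      rw [TensorProduct.smul_tmul', smul_eq_mul, mul_one]
    rw [h]
    exact Submodule.smul_mem _ _ (Submodule.subset_span ⟨x, rfl⟩)
  | add x y hx hy => exact Submodule.add_mem _ hx hy

/-- **A2 = (C)**. -/
theorem hC_concrete (f : CuspForm (Gamma0 N) 2) (hf : f.IsNormalizedEigenform)
    (𝔪 : Ideal (integralClosure ℤ ℂ)) (hmax : 𝔪.IsMaximal)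
    (hpm : (p : integralClosure ℤ ℂ) ∈ 𝔪)
    (hcong : ∀ i : Idx N q p W, ∃ a : integralClosure ℤ ℂ,
        (a : ℂ) = ModularFormClass.qCoeff f i.1 ∧
        a - ((W.apOfModel i.1 : ℤ) : integralClosure ℤ ℂ) ∈ 𝔪)
    (hLR : ∃ a : integralClosure ℤ ℂ, (a : ℂ) = ModularFormClass.qCoeff f q ∧
        a ^ 2 - ((q : integralClosure ℤ ℂ) + 1) ^ 2 ∈ 𝔪) :
    ∃ z : LN hC, ∀ u : LN hC,
      z - (((q : HP N q p W) + 1) • ((q : HP N q p W) + 1) • u - TqP hC (TqP hC u))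
        ∉ locSub (nIdeal N q p W) (pMul (P := HP N q p W) p (LN hC)) := by
  classical
  haveI := hmax
  obtain ⟨v, hv0, hveig⟩ := exists_eigenclass f hf
  obtain ⟨a, haq, haLR⟩ := hLR
  choose θ hθ1 hθ2 using hcong
  -- the data
  let j : LN hC →+ ℂ ⊗[ℤ] Lam N :=
    { toFun := fun x => (1 : ℂ) ⊗ₜ[ℤ] (show Lam N from x)
      map_zero' := TensorProduct.tmul_zero _ _
      map_add' := fun x y => TensorProduct.tmul_add _ _ _ }
  let sV : HP N q p W → (ℂ ⊗[ℤ] Lam N) →ₗ[ℂ] (ℂ ⊗[ℤ] Lam N) :=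
    fun s => (polyAct (tN N q p W) hC.hcN s).baseChange ℂ
  let TV : (ℂ ⊗[ℤ] Lam N) →ₗ[ℂ] (ℂ ⊗[ℤ] Lam N) := (tq N q hqN).baseChange ℂ
  let χ : HP N q p W →+* integralClosure ℤ ℂ :=
    MvPolynomial.eval₂Hom (Int.castRingHom (integralClosure ℤ ℂ)) θ
  have hvi : ∀ i : Idx N q p W,
      (tN N q p W i).baseChange ℂ v = ((θ i : integralClosure ℤ ℂ) : ℂ) • v := by
    intro i
    rw [hθ1 i]
    exact hveig i.1 i.prime i.not_dvd_left
  -- the residue field
  letI : Field (integralClosure ℤ ℂ ⧸ 𝔪) := Ideal.Quotient.field 𝔪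
  have hp0 : ((p : ℕ) : integralClosure ℤ ℂ ⧸ 𝔪) = 0 := by
    have h := Ideal.Quotient.eq_zero_iff_mem.mpr hpm
    rwa [map_natCast] at h
  haveI : CharP (integralClosure ℤ ℂ ⧸ 𝔪) p :=
    (CharP.charP_iff_prime_eq_zero (Fact.out : p.Prime)).mpr hp0
  let ι : ZMod p →+* (integralClosure ℤ ℂ ⧸ 𝔪) := ZMod.castHom (dvd_refl p) _
  have hcomp : (Ideal.Quotient.mk 𝔪).comp χ = ι.comp (psi0 N q p W) := by
    apply MvPolynomial.ringHom_ext
    · intro n
      simp [χ]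
    · intro i
      have h1 : (Ideal.Quotient.mk 𝔪) (θ i)
          = (Ideal.Quotient.mk 𝔪) ((W.apOfModel i.1 : ℤ) : integralClosure ℤ ℂ) :=
        Ideal.Quotient.eq.mpr (hθ2 i)
      simp only [RingHom.comp_apply, psi0_X, χ, MvPolynomial.eval₂Hom_X', h1, map_intCast]
  refine hC_of_eigenvector (nIdeal N q p W) p (TqP hC) ((q : HP N q p W) + 1) j sV ?_ TV ?_ v hv0
    ?_ χ a ?_ ?_ 𝔪 hpm ?_ ?_
  · -- hsV
    intro s x
    show (polyAct (tN N q p W) hC.hcN s).baseChange ℂ ((1 : ℂ) ⊗ₜ[ℤ] (show Lam N from x))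
      = (1 : ℂ) ⊗ₜ[ℤ] (polyAct (tN N q p W) hC.hcN s (show Lam N from x))
    rw [LinearMap.baseChange_tmul]
  · -- hTV
    intro x
    show (tq N q hqN).baseChange ℂ ((1 : ℂ) ⊗ₜ[ℤ] (show Lam N from x))
      = (1 : ℂ) ⊗ₜ[ℤ] (tq N q hqN (show Lam N from x))
    rw [LinearMap.baseChange_tmul]
  · -- span
    exact mem_span_one_tmul v
  · -- hχ
    intro s
    exact polyAct_baseChange_eigen (tN N q p W) hC.hcN θ v hvi s
  · -- ha
    show (Tpar (Fact.out : q.Prime) hqN).baseChange ℂ v = ((a : integralClosure ℤ ℂ) : ℂ) • v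
    rw [haq]
    exact hveig q (Fact.out : q.Prime) hqN
  · -- h𝔫𝔪
    intro s hs hχs
    apply hs
    show psi0 N q p W s = 0
    have h1 : (Ideal.Quotient.mk 𝔪) (χ s) = 0 := Ideal.Quotient.eq_zero_iff_mem.mpr hχs
    have h2 : ι (psi0 N q p W s) = 0 := by
      rw [← RingHom.comp_apply, ← hcomp, RingHom.comp_apply, h1]
    exact (map_eq_zero_iff ι ι.injective).mp h2
  · -- hca
    have h1 : χ ((q : HP N q p W) + 1) = (q : integralClosure ℤ ℂ) + 1 := by
      rw [map_add, map_natCast, map_one]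
    rw [h1]
    have h2 : ((q : integralClosure ℤ ℂ) + 1) ^ 2 - a ^ 2
        = - (a ^ 2 - ((q : integralClosure ℤ ℂ) + 1) ^ 2) := by ring
    rw [h2]
    exact 𝔪.neg_mem haLR

end Fermat.Agent.S41.AsmC
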