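import Mathlib
import Fermat.Agent.S49.Abstract

/-!
# C81 (S41, level raising), piece P5d: the eigen-lift

`K` a finitely generated free `ℤ`-module with commuting endomorphisms `t i`.  If `K` is not
generated by `p K` and the `(t i - a i) K` (`i ∈ J`), then there is a common eigenvector of the
`t i` in `ℂ ⊗ K` whose eigenvalues `θ i` are algebraic integers with `θ i ≡ a i` (`i ∈ J`) modulo a
maximal ideal of `ℤ̄` containing `p`.
-/

set_option autoImplicit false
set_option linter.unusedSectionVars false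
set_option linter.unusedVariables false
set_option linter.style.haveILetI false

namespace Fermat.Agent.S41.Abs

open TensorProduct

section Lift

variable {K : Type*} [AddCommGroup K] [Module.Finite ℤ K] [Module.Free ℤ K]

omit [Module.Finite ℤ K] in
/-- `K → ℂ ⊗ K` is injective for a free `ℤ`-module `K` -/
lemma one_tmul_injective : Function.Injective (fun y : K => (1 : ℂ) ⊗ₜ[ℤ] y) := by
  intro x y hxy
  let b := Module.Free.chooseBasis ℤ K
  have h := congrArg (Algebra.TensorProduct.basis ℂ b).repr hxy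
  simp only [Algebra.TensorProduct.basis_repr_tmul, one_smul] at h
  have h2 := Finsupp.mapRange_injective (algebraMap ℤ ℂ) (map_zero _)
    (by exact Int.cast_injective) h
  exact b.repr.injective h2

/-- the abstract form: a commutative ring `A` of endomorphisms of `K` and an ideal `I` with
`I K ≠ K` -/
theorem exists_eigen_lift_abs {A : Type*} [CommRing A] [IsNoetherianRing A]
    [Algebra.IsIntegral ℤ A] (φ : A →+* Module.End ℤ K) (hφ : Function.Injective φ)
    (I : Ideal A) (Sp : Submodule ℤ K) (hI : ∀ x ∈ I, ∀ y : K, φ x y ∈ Sp)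
    (hy : ∃ y : K, y ∉ Sp) :
    ∃ (v : ℂ ⊗[ℤ] K) (θ : A →+* integralClosure ℤ ℂ) (𝔪' : Ideal (integralClosure ℤ ℂ)),
      v ≠ 0 ∧ 𝔪'.IsMaximal ∧ (∀ x, (φ x).baseChange ℂ v = (θ x : ℂ) • v) ∧
      ∀ x ∈ I, θ x ∈ 𝔪' := by
  have hItop : I ≠ ⊤ := by
    intro h
    obtain ⟨y, hy⟩ := hy
    apply hy
    have := hI 1 (by rw [h]; exact Submodule.mem_top) y
    rwa [map_one] at this
  obtain ⟨m, hm, hIm⟩ := Ideal.exists_le_maximal I hItop
  let ρ : A →+* Module.End ℂ (ℂ ⊗[ℤ] K) :=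
    (Module.End.baseChangeHom ℤ ℂ K).toRingHom.comp φ
  have hρ : ∀ x, ρ x = (φ x).baseChange ℂ := fun x => rfl
  have hρinj : Function.Injective ρ := by
    intro x x' hxx
    apply hφ
    ext y
    apply one_tmul_injective
    have := congrArg (fun f : Module.End ℂ (ℂ ⊗[ℤ] K) => f ((1 : ℂ) ⊗ₜ[ℤ] y)) hxx
    simpa [hρ] using this
  obtain ⟨v, θ₀, hv, hθ₀, hker⟩ := Fermat.Agent.S49.exists_eigenvector_ker_le ρ hρinj m
  obtain ⟨θ', 𝔪', h𝔪', hθ', hm'⟩ := Fermat.Agent.S49.exists_maximal_over θ₀ m hker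
  refine ⟨v, θ', 𝔪', hv, h𝔪', fun x => ?_, fun x hx => hm' x (hIm hx)⟩
  rw [hθ', ← hθ₀, hρ]

open scoped IsMulCommutative in
/-- **P5d**: the eigen-lift -/
theorem exists_eigen_lift {ι : Type*} (t : ι → Module.End ℤ K)
    (hcomm : ∀ i j, t i * t j = t j * t i) (a : ι → ℤ) (J : Set ι) (p : ℕ)
    (Sp : Submodule ℤ K) (hpS : ∀ z : K, p • z ∈ Sp)
    (hJS : ∀ i ∈ J, ∀ z : K, t i z - a i • z ∈ Sp) (hy : ∃ y : K, y ∉ Sp) :
    ∃ (v : ℂ ⊗[ℤ] K) (θ : ι → integralClosure ℤ ℂ) (𝔪' : Ideal (integralClosure ℤ ℂ)),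
      v ≠ 0 ∧ 𝔪'.IsMaximal ∧ (p : integralClosure ℤ ℂ) ∈ 𝔪' ∧
      (∀ i, (t i).baseChange ℂ v = (θ i : ℂ) • v) ∧
      ∀ i ∈ J, θ i - (a i : integralClosure ℤ ℂ) ∈ 𝔪' := by
  classical
  have hcomm' : ∀ x ∈ Set.range t, ∀ y ∈ Set.range t, x * y = y * x := by
    rintro _ ⟨i, rfl⟩ _ ⟨j, rfl⟩
    exact hcomm i j
  haveI := Algebra.isMulCommutative_adjoin ℤ hcomm'
  haveI : IsNoetherian ℤ (Module.End ℤ K) := isNoetherian_of_isNoetherianRing_of_finite ℤ _
  haveI : Module.Finite ℤ (Algebra.adjoin ℤ (Set.range t)) :=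
    Module.Finite.of_injective (Algebra.adjoin ℤ (Set.range t)).val.toLinearMap
      Subtype.val_injective
  haveI : Algebra.IsIntegral ℤ (Algebra.adjoin ℤ (Set.range t)) := Algebra.IsIntegral.of_finite ℤ _
  haveI : IsNoetherianRing (Algebra.adjoin ℤ (Set.range t)) :=
    isNoetherian_of_tower ℤ (isNoetherian_of_isNoetherianRing_of_finite ℤ _)
  let τ : ι → Algebra.adjoin ℤ (Set.range t) := fun i =>
    ⟨t i, Algebra.subset_adjoin (Set.mem_range_self i)⟩
  let φ : Algebra.adjoin ℤ (Set.range t) →+* Module.End ℤ K :=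
    (Algebra.adjoin ℤ (Set.range t)).val.toRingHom
  have hφ : Function.Injective φ := Subtype.val_injective
  have hφτ : ∀ i, φ (τ i) = t i := fun i => rfl
  let gens : Set (Algebra.adjoin ℤ (Set.range t)) :=
    insert (p : Algebra.adjoin ℤ (Set.range t)) {x | ∃ i ∈ J, x = τ i - (a i : _)}
  have hgens : ∀ g ∈ gens, ∀ y : K, φ g y ∈ Sp := by
    intro g hg y
    rcases hg with rfl | ⟨i, hi, rfl⟩
    · rw [map_natCast]
      have : ((p : Module.End ℤ K)) y = p • y := by
        rw [← nsmul_one, LinearMap.smul_apply, Module.End.one_apply]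
      rw [this]
      exact hpS y
    · rw [map_sub, map_intCast, hφτ, LinearMap.sub_apply]
      have : ((a i : Module.End ℤ K)) y = a i • y := by
        rw [← zsmul_one, LinearMap.smul_apply, Module.End.one_apply]
      rw [this]
      exact hJS i hi y
  have hI : ∀ x ∈ Ideal.span gens, ∀ y : K, φ x y ∈ Sp := by
    intro x hx
    refine Submodule.span_induction (p := fun x _ => ∀ y : K, φ x y ∈ Sp) ?_ ?_ ?_ ?_ hx
    · intro g hg y
      exact hgens g hg y
    · intro y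
      rw [map_zero]
      exact Sp.zero_mem
    · intro x₁ x₂ _ _ h₁ h₂ y
      rw [map_add, LinearMap.add_apply]
      exact Sp.add_mem (h₁ y) (h₂ y)
    · intro c x₁ _ h₁ y
      rw [smul_eq_mul, mul_comm, map_mul, Module.End.mul_apply]
      exact h₁ _
  obtain ⟨v, θ', 𝔪', hv, h𝔪', hθ', hm'⟩ :=
    exists_eigen_lift_abs φ hφ (Ideal.span gens) Sp hI hy
  refine ⟨v, fun i => θ' (τ i), 𝔪', hv, h𝔪', ?_, fun i => ?_, fun i hi => ?_⟩
  · have := hm' (p : _) (Ideal.subset_span (Set.mem_insert _ _))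
    rwa [map_natCast] at this
  · rw [← hθ', hφτ]
  · have := hm' (τ i - (a i : _)) (Ideal.subset_span (Set.mem_insert_of_mem _ ⟨i, hi, rfl⟩))
    rwa [map_sub, map_intCast] at this

end Lift

end Fermat.Agent.S41.Abs
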