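import Mathlib
import Fermat.Agent.S41.DegenLam

/-!
# S41, piece P3, part 6 (P3b): the operator `U_q` on the kernel of `i† = (α_*, β_*)`

On `Hom(Γ₀(N q), A)`: `W` (Atkin–Lehner, the coset of `β_*` fixed by `Γ₀(N q)`) and `U_q` (the `q`
other cosets) satisfy `α* β_* = U_q + W`, `β_* W = α_*`, `W² = 1`. Hence on
`ker α_* ∩ ker β_*`: `U_q = - W`, the kernel is stable under `U_q` and `W`, and `U_q² = 1`.
-/

set_option autoImplicit false
set_option linter.unusedSectionVars false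
set_option linter.unusedVariables false

noncomputable section

open Matrix.SpecialLinearGroup CongruenceSubgroup
open scoped MatrixGroups OnePoint
open ModularCurve.Period
open Fermat.Agent.S29.D1
open P2MW.S_ModularForm_heckeT_slash_eq_self_of_mem_Gamma0.ModularForm.HeckeSlashInvariance

namespace Fermat.Agent.S41.P3

/-! ### a central factor in the representatives does not matter -/

section central

variable {H G : Subgroup SL(2, ℤ)} {X Y : Type*}

/-- multiply all representatives by a central element -/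
def CosetFam.scale (F : CosetFam H G X) (Z : GL (Fin 2) ℝ) (hZ : ∀ M : GL (Fin 2) ℝ, Z * M = M * Z) :
    CosetFam H G X where
  r x := Z * F.r x
  act := F.act
  κ := F.κ
  spec g x := by rw [mul_assoc, F.spec g x, ← mul_assoc, hZ, mul_assoc]
  act_one := F.act_one
  act_mul := F.act_mul

theorem CosetFam.scale_uniq (F : CosetFam H G X) (Z : GL (Fin 2) ℝ)
    (hZ : ∀ M : GL (Fin 2) ℝ, Z * M = M * Z) (hF : F.Uniq) : (F.scale Z hZ).Uniq := by
  intro x y h e
  have e' : Z * F.r x = mapGL ℝ ((h : H) : SL(2, ℤ)) * (Z * F.r y) := e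
  rw [← mul_assoc, ← hZ, mul_assoc] at e'
  exact hF x y h (mul_left_cancel e')

theorem CosetFam.scale_op [Fintype X] (F : CosetFam H G X) (Z : GL (Fin 2) ℝ)
    (hZ : ∀ M : GL (Fin 2) ℝ, Z * M = M * Z) (A : Type*) [AddCommGroup A]
    (c : Additive H →+ A) : (F.scale Z hZ).op A c = F.op A c := rfl

/-- two families with the same cosets up to a central factor give the same operator -/
theorem CosetFam.op_eq_of_rel_central [Fintype X] [Fintype Y] (F : CosetFam H G X)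
    (F' : CosetFam H G Y) (hF' : F'.Uniq) (Z : GL (Fin 2) ℝ)
    (hZ : ∀ M : GL (Fin 2) ℝ, Z * M = M * Z) (e : X ≃ Y) (u : X → H)
    (hr : ∀ x : X, F.r x = Z * (mapGL ℝ ((u x : H) : SL(2, ℤ)) * F'.r (e x)))
    (A : Type*) [AddCommGroup A] (c : Additive H →+ A) : F.op A c = F'.op A c := by
  rw [← F'.scale_op Z hZ A c]
  refine F.op_eq_of_rel (F'.scale Z hZ) (F'.scale_uniq Z hZ hF') e u (fun x => ?_) A c
  rw [hr x]
  show _ = mapGL ℝ ((u x : H) : SL(2, ℤ)) * (Z * F'.r (e x))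
  rw [← mul_assoc, hZ, mul_assoc]

end central

variable {q : ℕ} [Fact q.Prime] {N : ℕ}

/-! ### more on the action on `ℙ¹(𝔽_q)` -/

theorem perm_zero_eq_infty (g : SL(2, ℤ)) :
    perm g (((0 : ZMod q)) : OnePoint (ZMod q)) = ∞ ↔ (q : ℤ) ∣ g 0 0 := by
  unfold perm
  rw [OnePoint.smul_some_eq_ite, redMatrix_apply_one_zero, redMatrix_apply_one_one,
    redMatrix_apply_zero_zero, redMatrix_apply_zero_one, mul_zero, zero_add, mul_zero, zero_add,
    ← ZMod.intCast_zmod_eq_zero_iff_dvd]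
  split_ifs with h
  · simp [h]
  · simp [h]

theorem perm_infty_eq_zero (g : SL(2, ℤ)) :
    perm g (∞ : OnePoint (ZMod q)) = ((0 : ZMod q) : OnePoint (ZMod q))
      ↔ (q : ℤ) ∣ g 1 1 := by
  unfold perm
  rw [OnePoint.smul_infty_eq_ite, redMatrix_apply_one_zero, redMatrix_apply_zero_zero,
    ← ZMod.intCast_zmod_eq_zero_iff_dvd]
  have hdet := congrArg (Int.cast : ℤ → ZMod q) (det_eq g)
  push_cast at hdet
  split_ifs with h
  · constructor
    · intro h1
      exact absurd h1 (OnePoint.infty_ne_coe _)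
    · intro h1
      rw [h, h1] at hdet
      simp at hdet
  · rw [OnePoint.coe_eq_coe, div_eq_zero_iff]
    constructor
    · rintro (h1 | h1)
      · exact h1
      · exact absurd h1 h
    · intro h1
      exact Or.inl h1

/-- an element of `Γ₀(N q)` maps finite points to finite points -/
theorem perm_coe_ne_infty (hqN : ¬ q ∣ N) (g : Gamma0 (N * q)) (j : ZMod q) :
    perm (g : SL(2, ℤ)) (j : OnePoint (ZMod q)) ≠ ∞ := by
  intro h
  have h1 : perm (g : SL(2, ℤ)) (∞ : OnePoint (ZMod q)) = ∞ :=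
    ((mem_Gamma0_mul_iff hqN _).mp g.2).2
  have h2 := (permEquiv (g : SL(2, ℤ))).injective
    (show permEquiv (g : SL(2, ℤ)) (j : OnePoint (ZMod q)) = permEquiv (g : SL(2, ℤ)) ∞ by
      rw [permEquiv_apply, permEquiv_apply, h, h1])
  exact OnePoint.coe_ne_infty _ h2

/-- the action of `Γ₀(N q)` on the finite points -/
def finAct (hqN : ¬ q ∣ N) (g : Gamma0 (N * q)) (j : ZMod q) : ZMod q :=
  (perm (g : SL(2, ℤ)) (j : OnePoint (ZMod q))).elim 0 id

theorem coe_finAct (hqN : ¬ q ∣ N) (g : Gamma0 (N * q)) (j : ZMod q) :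
    ((finAct hqN g j : ZMod q) : OnePoint (ZMod q)) = perm (g : SL(2, ℤ)) (j : OnePoint (ZMod q)) := by
  unfold finAct
  have h := perm_coe_ne_infty hqN g j
  generalize perm (g : SL(2, ℤ)) (j : OnePoint (ZMod q)) = x at h
  induction x using OnePoint.rec with
  | infty => exact absurd rfl h
  | coe k => rfl

/-! ### the families `W` and `U_q` -/

/-- **the Atkin–Lehner family `W`**: the coset of `β_*` fixed by `Γ₀(N q)` -/
def wFam (hqN : ¬ q ∣ N) : CosetFam (Gamma0 (N * q)) (Gamma0 (N * q)) Unit :=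
  (betaDown hqN).subFam (Gamma0_mul_le N q)
    (fun _ => ((∞ : OnePoint (ZMod q)), ())) (fun _ _ _ => rfl) (fun _ x => x)
    (fun g _ => Prod.ext (((mem_Gamma0_mul_iff hqN _).mp g.2).2).symm rfl)
    (fun g _ => (((betaDown hqN).κ _ _)).2)

/-- the other `q` cosets of `β_*` -/
def uFin (hqN : ¬ q ∣ N) : CosetFam (Gamma0 (N * q)) (Gamma0 (N * q)) (ZMod q) :=
  (betaDown hqN).subFam (Gamma0_mul_le N q)
    (fun j => (((j : ZMod q) : OnePoint (ZMod q)), ()))
    (fun i j h => OnePoint.coe_injective (congrArg Prod.fst h)) (finAct hqN)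
    (fun g j => Prod.ext (coe_finAct hqN g j) rfl)
    (fun g _ => (((betaDown hqN).κ _ _)).2)

/-- **the family of `U_q`** on `Hom(Γ₀(N q), A)`: representatives `heckeRep q j = [[1, j], [0, q]]`,
`j ∈ 𝔽_q` -/
def uQ (hqN : ¬ q ∣ N) : CosetFam (Gamma0 (N * q)) (Gamma0 (N * q)) (ZMod q) :=
  (heckeFam q N hqN).subFam (Gamma0_mul_le N q)
    (fun j => ((j : ZMod q) : OnePoint (ZMod q)))
    (fun i j h => OnePoint.coe_injective h) (finAct hqN)
    (fun g j => coe_finAct hqN g j)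
    (fun g j => by
      apply mem_Gamma0_of_dvd'
      have h := kap_lower_left hqN ⟨g, Gamma0_mul_le N q g.2⟩ ((j : ZMod q) : OnePoint (ZMod q))
      have h2 : perm ((⟨g, Gamma0_mul_le N q g.2⟩ : Gamma0 N) : SL(2, ℤ))
          ((j : ZMod q) : OnePoint (ZMod q)) = ((finAct hqN g j : ZMod q) : OnePoint (ZMod q)) :=
        (coe_finAct hqN g j).symm
      rw [h2, hA_coe, hD_coe, mul_one] at h
      show ((N * q : ℕ) : ℤ) ∣ ((kap hqN ⟨g, Gamma0_mul_le N q g.2⟩ _ : Gamma0 N) : SL(2, ℤ)) 1 0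
      rw [← h]
      push_cast
      rw [mul_comm (N : ℤ)]
      exact mul_dvd_mul_left _ (dvd_of_mem_Gamma0 (Gamma0_mul_le N q g.2)))

@[simp] theorem uQ_r (hqN : ¬ q ∣ N) (j : ZMod q) :
    (uQ hqN).r j = heckeRep q ((j : ZMod q) : OnePoint (ZMod q)) := rfl

theorem uQ_uniq (hqN : ¬ q ∣ N) : (uQ hqN).Uniq := by
  intro i j h e
  have e' : heckeRep q ((i : ZMod q) : OnePoint (ZMod q))
      = mapGL ℝ ((h : Gamma0 (N * q)) : SL(2, ℤ))
        * heckeRep q ((j : ZMod q) : OnePoint (ZMod q)) := e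
  exact OnePoint.coe_injective (heckeRep_eq_mul e').1

/-- any family with the representatives of `U_q` has the operator of `uQ` -/
theorem op_eq_uQ (hqN : ¬ q ∣ N) (U : CosetFam (Gamma0 (N * q)) (Gamma0 (N * q)) (ZMod q))
    (hU : ∀ j, U.r j = heckeRep q ((j : ZMod q) : OnePoint (ZMod q)))
    (A : Type*) [AddCommGroup A] (c : Additive (Gamma0 (N * q)) →+ A) :
    U.op A c = (uQ hqN).op A c :=
  U.op_eq_of_rel (uQ hqN) (uQ_uniq hqN) (Equiv.refl _) (fun _ => 1)
    (fun j => by rw [hU, Subgroup.coe_one, map_one, one_mul]; rfl) A c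

section identities

variable (A : Type*) [AddCommGroup A]

/-- the two sub-families of `β_*` have the same operator as `U_q` … -/
theorem uFin_op (hqN : ¬ q ∣ N) (c : Additive (Gamma0 (N * q)) →+ A) :
    (uFin hqN).op A c = (uQ hqN).op A c := by
  refine (uFin hqN).op_eq_of_rel (uQ hqN) (uQ_uniq hqN) (Equiv.refl _)
    (fun j => ⟨kap hqN (tZero hqN ((j : ZMod q) : OnePoint (ZMod q)))
      ((0 : ZMod q) : OnePoint (ZMod q)), ?_⟩) (fun j => ?_) A c
  · apply mem_Gamma0_of_dvd'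
    have h := kap_lower_left hqN (tZero hqN ((j : ZMod q) : OnePoint (ZMod q)))
      ((0 : ZMod q) : OnePoint (ZMod q))
    rw [perm_tZero, hA_coe, hD_coe, mul_one] at h
    rw [← h]
    push_cast
    rw [mul_comm (N : ℤ)]
    exact mul_dvd_mul_left _ (dvd_of_mem_Gamma0 (tZero hqN _).2)
  · have h := kap_spec hqN (tZero hqN ((j : ZMod q) : OnePoint (ZMod q)))
      ((0 : ZMod q) : OnePoint (ZMod q))
    rw [perm_tZero] at h
    exact h

/-- **(U1)** `α* β_* = U_q + W` -/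
theorem alphaUp_betaDown (hqN : ¬ q ∣ N) (c : Additive (Gamma0 (N * q)) →+ A) :
    (alphaUp N q).op A ((betaDown hqN).op A c) = (uQ hqN).op A c + (wFam hqN).op A c := by
  rw [← uFin_op]
  refine AddMonoidHom.ext fun g' => ?_
  obtain ⟨g, rfl⟩ : ∃ g : Gamma0 (N * q), Additive.ofMul g = g' := ⟨Additive.toMul g', rfl⟩
  unfold alphaUp
  rw [resFam_op_apply, AddMonoidHom.add_apply, CosetFam.op_apply, CosetFam.op_apply,
    CosetFam.op_apply, Fintype.sum_prod_type]
  have e : ∑ x : OnePoint (ZMod q), ∑ y : Unit,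
      c (Additive.ofMul ((betaDown hqN).κ ⟨g, Gamma0_mul_le N q g.2⟩ (x, y)))
      = ∑ y : Unit, c (Additive.ofMul ((betaDown hqN).κ ⟨g, Gamma0_mul_le N q g.2⟩ (∞, y)))
        + ∑ j : ZMod q, ∑ y : Unit,
          c (Additive.ofMul ((betaDown hqN).κ ⟨g, Gamma0_mul_le N q g.2⟩
            (((j : ZMod q) : OnePoint (ZMod q)), y))) :=
    Fintype.sum_option (fun x : OnePoint (ZMod q) => ∑ y : Unit,
      c (Additive.ofMul ((betaDown hqN).κ ⟨g, Gamma0_mul_le N q g.2⟩ (x, y))))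
  rw [e, add_comm]
  congr 1
  refine Finset.sum_congr rfl fun j _ => ?_
  simp
  rfl

end identities

section atkinLehner

variable (A : Type*) [AddCommGroup A]

/-- the scalar matrix `diag(q, q)` -/
def zQ (q : ℕ) [Fact q.Prime] : GL (Fin 2) ℝ :=
  heckeRep q (∞ : OnePoint (ZMod q)) * heckeRep q ((0 : ZMod q) : OnePoint (ZMod q))

theorem zQ_central (M : GL (Fin 2) ℝ) : zQ q * M = M * zQ q :=
  heckeRep_infty_mul_zero_comm M

/-- `k₁ = kap (tZero ∞) 0`, with `diag(1, q) · tZero ∞ = k₁ · diag(q, 1)` -/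
def kOne (hqN : ¬ q ∣ N) : Gamma0 N :=
  kap hqN (tZero hqN (∞ : OnePoint (ZMod q))) ((0 : ZMod q) : OnePoint (ZMod q))

theorem kOne_spec (hqN : ¬ q ∣ N) :
    heckeRep q ((0 : ZMod q) : OnePoint (ZMod q))
        * mapGL ℝ ((tZero hqN (∞ : OnePoint (ZMod q)) : Gamma0 N) : SL(2, ℤ))
      = mapGL ℝ ((kOne hqN : Gamma0 N) : SL(2, ℤ)) * heckeRep q (∞ : OnePoint (ZMod q)) := by
  have h := kap_spec hqN (tZero hqN (∞ : OnePoint (ZMod q))) ((0 : ZMod q) : OnePoint (ZMod q))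
  rw [perm_tZero] at h
  exact h

theorem perm_kOne (hqN : ¬ q ∣ N) :
    perm ((kOne hqN : Gamma0 N) : SL(2, ℤ)) (∞ : OnePoint (ZMod q))
      = ((0 : ZMod q) : OnePoint (ZMod q)) := by
  rw [perm_infty_eq_zero]
  have h := (entries_of_eq (kOne_spec hqN)).2.2.2
  simp only [hD_coe, hB_infty, hD_infty, mul_zero, zero_add, mul_one] at h
  exact Dvd.intro _ h

theorem perm_tInf_inv (hqN : ¬ q ∣ N) (y : OnePoint (ZMod q)) :
    perm (((tInf hqN y : Gamma0 N) : SL(2, ℤ)))⁻¹ y = ∞ := by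
  calc perm (((tInf hqN y : Gamma0 N) : SL(2, ℤ)))⁻¹ y
      = perm (((tInf hqN y : Gamma0 N) : SL(2, ℤ)))⁻¹
          (perm ((tInf hqN y : Gamma0 N) : SL(2, ℤ)) ∞) := by rw [perm_tInf]
    _ = ∞ := by rw [← perm_mul, mul_inv_cancel, perm_one]

theorem wFam_r (hqN : ¬ q ∣ N) (x : Unit) :
    (wFam hqN).r x = heckeRep q ((0 : ZMod q) : OnePoint (ZMod q))
        * mapGL ℝ ((tZero hqN (∞ : OnePoint (ZMod q)) : Gamma0 N) : SL(2, ℤ)) := rfl

theorem betaDown_r (hqN : ¬ q ∣ N) (z : OnePoint (ZMod q) × Unit) :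
    (betaDown hqN).r z = heckeRep q ((0 : ZMod q) : OnePoint (ZMod q))
        * mapGL ℝ ((tZero hqN z.1 : Gamma0 N) : SL(2, ℤ)) := rfl

/-- the product of the representative of `W` with a representative of `β_*` -/
theorem wFam_r_mul (hqN : ¬ q ∣ N) (y : OnePoint (ZMod q)) :
    (wFam hqN).r () * (betaDown hqN).r (y, ())
      = zQ q * mapGL ℝ (((kOne hqN * tZero hqN y : Gamma0 N)) : SL(2, ℤ)) := by
  rw [wFam_r, betaDown_r, kOne_spec, Subgroup.coe_mul, map_mul, zQ]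
  have hc := zQ_central (q := q) (mapGL ℝ ((kOne hqN : Gamma0 N) : SL(2, ℤ)))
  unfold zQ at hc
  calc mapGL ℝ ((kOne hqN : Gamma0 N) : SL(2, ℤ)) * heckeRep q (∞ : OnePoint (ZMod q))
        * (heckeRep q ((0 : ZMod q) : OnePoint (ZMod q))
          * mapGL ℝ ((tZero hqN y : Gamma0 N) : SL(2, ℤ)))
      = (mapGL ℝ ((kOne hqN : Gamma0 N) : SL(2, ℤ)) * (heckeRep q (∞ : OnePoint (ZMod q))
        * heckeRep q ((0 : ZMod q) : OnePoint (ZMod q))))
          * mapGL ℝ ((tZero hqN y : Gamma0 N) : SL(2, ℤ)) := by simp only [mul_assoc]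
    _ = _ := by rw [← hc]; simp only [mul_assoc]

/-- **(U2)** `β_* W = α_*` -/
theorem betaDown_wFam (hqN : ¬ q ∣ N) (c : Additive (Gamma0 (N * q)) →+ A) :
    (betaDown hqN).op A ((wFam hqN).op A c) = (alphaDown hqN).op A c := by
  rw [← CosetFam.op_comp]
  refine CosetFam.op_eq_of_rel_central _ _ (alphaDown_uniq hqN) (zQ q) zQ_central
    ((Equiv.prodPUnit _).trans (Equiv.prodPUnit _))
    (fun z => ⟨(kOne hqN : SL(2, ℤ)) * (tZero hqN z.1.1 : SL(2, ℤ))
      * ((tInf hqN z.1.1 : Gamma0 N) : SL(2, ℤ))⁻¹, ?_⟩) (fun z => ?_) A c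
  · rw [mem_Gamma0_mul_iff hqN]
    refine ⟨(Gamma0 N).mul_mem ((Gamma0 N).mul_mem (kOne hqN).2 (tZero hqN _).2)
      ((Gamma0 N).inv_mem (tInf hqN _).2), ?_⟩
    rw [perm_mul, perm_mul, perm_kOne, perm_tZero, perm_tInf_inv]
  · have h := wFam_r_mul hqN z.1.1
    show (wFam hqN).r () * (betaDown hqN).r (z.1.1, ()) = _
    rw [h]
    congr 1
    show _ = mapGL ℝ ((kOne hqN : SL(2, ℤ)) * (tZero hqN z.1.1 : SL(2, ℤ))
      * ((tInf hqN z.1.1 : Gamma0 N) : SL(2, ℤ))⁻¹) * mapGL ℝ ((tInf hqN z.1.1 : Gamma0 N) : SL(2, ℤ))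
    rw [← map_mul, Subgroup.coe_mul]
    congr 1
    group

/-- **(U3)** `W² = 1` -/
theorem wFam_wFam (hqN : ¬ q ∣ N) (c : Additive (Gamma0 (N * q)) →+ A) :
    (wFam hqN).op A ((wFam hqN).op A c) = c := by
  rw [← CosetFam.op_comp]
  have key : ((wFam hqN).comp (wFam hqN)).op A c = (resFam (le_refl (Gamma0 (N * q)))).op A c := by
    refine CosetFam.op_eq_of_rel_central _ _ (fun _ _ _ _ => rfl) (zQ q) zQ_central
      (Equiv.prodPUnit _)
      (fun z => ⟨(kOne hqN : SL(2, ℤ)) * (tZero hqN (∞ : OnePoint (ZMod q)) : SL(2, ℤ)), ?_⟩)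
      (fun z => ?_) A c
    · rw [mem_Gamma0_mul_iff hqN]
      refine ⟨(Gamma0 N).mul_mem (kOne hqN).2 (tZero hqN _).2, ?_⟩
      rw [perm_mul, perm_kOne, perm_tZero]
    · have h := wFam_r_mul hqN (∞ : OnePoint (ZMod q))
      show (wFam hqN).r () * (betaDown hqN).r ((∞ : OnePoint (ZMod q)), ()) = _
      rw [h, resFam_r, mul_one, Subgroup.coe_mul]
  rw [key, resFam_refl_op]

/-- **`U_q = - W` on the kernel of `β_*`** -/
theorem uQ_eq_neg_wFam (hqN : ¬ q ∣ N) (c : Additive (Gamma0 (N * q)) →+ A)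
    (hb : (betaDown hqN).op A c = 0) : (uQ hqN).op A c = - (wFam hqN).op A c := by
  have h := alphaUp_betaDown A hqN c
  rw [hb, map_zero] at h
  exact eq_neg_of_add_eq_zero_left h.symm

/-- **`W` preserves the kernel of `i† = (α_*, β_*)`** -/
theorem wFam_ker (hqN : ¬ q ∣ N) (c : Additive (Gamma0 (N * q)) →+ A)
    (ha : (alphaDown hqN).op A c = 0) (hb : (betaDown hqN).op A c = 0) :
    (alphaDown hqN).op A ((wFam hqN).op A c) = 0
      ∧ (betaDown hqN).op A ((wFam hqN).op A c) = 0 := by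
  refine ⟨?_, by rw [betaDown_wFam, ha]⟩
  rw [← betaDown_wFam, wFam_wFam, hb]

/-- **(U)** the kernel of `i† = (α_*, β_*)` is stable under `U_q`, and `U_q² = 1` on it -/
theorem uQ_ker (hqN : ¬ q ∣ N) (c : Additive (Gamma0 (N * q)) →+ A)
    (ha : (alphaDown hqN).op A c = 0) (hb : (betaDown hqN).op A c = 0) :
    (alphaDown hqN).op A ((uQ hqN).op A c) = 0
      ∧ (betaDown hqN).op A ((uQ hqN).op A c) = 0
      ∧ (uQ hqN).op A ((uQ hqN).op A c) = c := by
  obtain ⟨hwa, hwb⟩ := wFam_ker A hqN c ha hb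
  have h1 := uQ_eq_neg_wFam A hqN c hb
  have h2 := uQ_eq_neg_wFam A hqN _ hwb
  rw [wFam_wFam] at h2
  refine ⟨?_, ?_, ?_⟩
  · rw [h1, map_neg, hwa, neg_zero]
  · rw [h1, map_neg, hwb, neg_zero]
  · rw [h1, map_neg, h2, neg_neg]

end atkinLehner

/-! ### on parabolic homomorphisms and on the lattice -/

section par

variable (R : Type*) [Ring R] (A : Type*) [AddCommGroup A] [Module R A]

/-- `U_q` on parabolic homomorphisms of level `N q` -/
def uPar (hqN : ¬ q ∣ N) :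
    parabolicHoms R (Gamma0 (N * q)) A →ₗ[R] parabolicHoms R (Gamma0 (N * q)) A :=
  (uQ hqN).opPar A R

/-- the Atkin–Lehner involution on parabolic homomorphisms of level `N q` -/
def wPar (hqN : ¬ q ∣ N) :
    parabolicHoms R (Gamma0 (N * q)) A →ₗ[R] parabolicHoms R (Gamma0 (N * q)) A :=
  (wFam hqN).opPar A R

@[simp] theorem coe_uPar (hqN : ¬ q ∣ N) (c : parabolicHoms R (Gamma0 (N * q)) A) :
    ((uPar R A hqN c : parabolicHoms R (Gamma0 (N * q)) A) : Additive (Gamma0 (N * q)) →+ A)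
      = (uQ hqN).op A c.1 := rfl

@[simp] theorem coe_wPar (hqN : ¬ q ∣ N) (c : parabolicHoms R (Gamma0 (N * q)) A) :
    ((wPar R A hqN c : parabolicHoms R (Gamma0 (N * q)) A) : Additive (Gamma0 (N * q)) →+ A)
      = (wFam hqN).op A c.1 := rfl

theorem iDown_eq_zero_iff (hqN : ¬ q ∣ N) (c : parabolicHoms R (Gamma0 (N * q)) A) :
    iDown R A hqN c = 0 ↔ (alphaDown hqN).op A c.1 = 0 ∧ (betaDown hqN).op A c.1 = 0 := by
  rw [iDown_apply, Prod.mk_eq_zero]
  constructor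
  · rintro ⟨h1, h2⟩
    exact ⟨congrArg Subtype.val h1, congrArg Subtype.val h2⟩
  · rintro ⟨h1, h2⟩
    exact ⟨Subtype.ext h1, Subtype.ext h2⟩

/-- **(U)** `ker i†` is stable under `U_q` -/
theorem iDown_uPar (hqN : ¬ q ∣ N) (c : parabolicHoms R (Gamma0 (N * q)) A)
    (hc : iDown R A hqN c = 0) : iDown R A hqN (uPar R A hqN c) = 0 := by
  rw [iDown_eq_zero_iff] at hc ⊢
  exact ⟨(uQ_ker A hqN c.1 hc.1 hc.2).1, (uQ_ker A hqN c.1 hc.1 hc.2).2.1⟩

/-- **(U)** `U_q² = 1` on `ker i†` -/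
theorem uPar_uPar (hqN : ¬ q ∣ N) (c : parabolicHoms R (Gamma0 (N * q)) A)
    (hc : iDown R A hqN c = 0) : uPar R A hqN (uPar R A hqN c) = c := by
  rw [iDown_eq_zero_iff] at hc
  exact Subtype.ext (uQ_ker A hqN c.1 hc.1 hc.2).2.2

/-- `U_q = - W` on `ker i†` -/
theorem uPar_eq_neg_wPar (hqN : ¬ q ∣ N) (c : parabolicHoms R (Gamma0 (N * q)) A)
    (hc : iDown R A hqN c = 0) : uPar R A hqN c = - wPar R A hqN c := by
  rw [iDown_eq_zero_iff] at hc
  exact Subtype.ext (uQ_eq_neg_wFam A hqN c.1 hc.2)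

end par

end Fermat.Agent.S41.P3
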