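import Mathlib
import Fermat.Agent.S41.EigForm
import Fermat.Agent.S41.DegenU

/-!
# S41, piece P7, part 4: an eigenvector in `ker i† ⊗ ℂ` gives a normalised eigenform, new at `q`

Combination of `P7.exists_newAt_of_coh` with helper4's `(U)`: `U_q² = 1` on `ker i†`.
-/

set_option autoImplicit false
set_option linter.unusedSectionVars false
set_option linter.unusedVariables false
set_option linter.style.haveILetI false

noncomputable section

open Matrix.SpecialLinearGroup CongruenceSubgroup UpperHalfPlane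
open scoped MatrixGroups
open ModularCurve ModularCurve.Period ModularFormClass
open Fermat.Agent.S29.D1 Fermat.Agent.S41.P3

namespace Fermat.Agent.S41.P7

variable {N q : ℕ} [Fact q.Prime]

/-- the operator of `uFam` is the operator `U_q` of `P3.uQ` -/
theorem uHom_eq_uQ (hqN : ¬ q ∣ N) (A : Type*) [AddCommGroup A]
    (c : Additive (Gamma0 (N * q)) →+ A) :
    uHom A (Dvd.intro_left N rfl : q ∣ N * q) c = (uQ hqN).op A c :=
  op_eq_uQ hqN (uFam q (N * q) (Dvd.intro_left N rfl)) (fun j => rfl) A c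

/-- **P7, final form**: a nonzero class `w ∈ ker i† ⊂ Hom_par(Γ₀(N q), ℂ)` with `T_ℓ w = λ_ℓ w` for
the primes `ℓ ∤ N q` outside `S` gives a normalised eigenform `g` of level `N q` with
`a_ℓ(g) = λ_ℓ` for these `ℓ` and `a_q(g)² = 1`. -/
theorem exists_newAt_of_ker [NeZero N] (hqN : ¬ q ∣ N) (S : Set ℕ) (lam : ℕ → ℂ)
    (w : parabolicHoms ℂ (Gamma0 (N * q)) ℂ) (hw0 : w ≠ 0)
    (hker : iDown ℂ ℂ hqN w = 0)
    (hT : ∀ (ℓ : ℕ) [Fact ℓ.Prime] (hℓ : ¬ ℓ ∣ N * q), ℓ ∉ S →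
      heckeHom ℂ hℓ (w : Additive (Gamma0 (N * q)) →+ ℂ)
        = lam ℓ • (w : Additive (Gamma0 (N * q)) →+ ℂ)) :
    ∃ g : CuspForm (Gamma0 (N * q)) 2, g.IsNormalizedEigenform ∧
      (∀ (ℓ : ℕ), ℓ.Prime → ¬ ℓ ∣ N * q → ℓ ∉ S → qCoeff (⇑g) ℓ = lam ℓ) ∧ g.IsNewAt q := by
  haveI : NeZero (N * q) :=
    ⟨Nat.mul_ne_zero (NeZero.ne N) (Fact.out : q.Prime).ne_zero⟩
  refine exists_newAt_of_coh S lam (Dvd.intro_left N rfl : q ∣ N * q) w.1 w.2 ?_ hT ?_
  · intro h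
    exact hw0 (Subtype.ext h)
  · rw [uHom_eq_uQ hqN, uHom_eq_uQ hqN]
    have := uPar_uPar ℂ ℂ hqN w hker
    exact congrArg Subtype.val this

end Fermat.Agent.S41.P7
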