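import Mathlib
import Fermat.Agent.S41.AsmDefs
import Fermat.Agent.S41.AbsLift
import Fermat.Agent.S41.EigNew
import Fermat.Agent.S31.LatEigT

/-!
# C81 (S41), assembly, piece A5: the endgame

A class `y ∈ ker i† ⊂ Lam (N q)` that is not locally zero at the maximal ideal `𝔫` of the
residual eigensystem of `W` gives a normalised eigenform `g` of level `N q`, new at `q`, that
is congruent to `W` modulo a maximal ideal of `ℤ̄` over `p`.
-/

set_option autoImplicit false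
set_option linter.unusedSectionVars false
set_option linter.unusedVariables false
set_option linter.style.haveILetI false

noncomputable section

open Matrix.SpecialLinearGroup CongruenceSubgroup TensorProduct
open scoped MatrixGroups
open ModularCurve ModularCurve.Period
open Fermat.Agent.S29.D1 Fermat.Agent.S31.Lat Fermat.Agent.S41.P3 Fermat.Agent.S41.Abs

namespace Fermat.Agent.S41.Asm

section general

variable {M : ℕ} [NeZero M]

/-- the image of `tensorToHomO` consists of parabolic homomorphisms -/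
theorem tensorToHomO_isParabolic (u : ℂ ⊗[ℤ] Lam M) :
    IsParabolicHom (Gamma0 M) (tensorToHomO ℂ u) := by
  induction u using TensorProduct.induction_on with
  | zero =>
    rw [map_zero]
    exact fun _ _ => rfl
  | tmul e c =>
    rw [tensorToHomO_tmul]
    intro γ hγ
    rw [smulLam_apply, c.2 γ hγ, zero_smul]
  | add x y hx hy =>
    rw [map_add]
    intro γ hγ
    rw [AddMonoidHom.add_apply, hx γ hγ, hy γ hγ, add_zero]

/-- `ℂ ⊗ K → ℂ ⊗ Lam M` is injective -/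
theorem baseChange_subtype_injective (K : Submodule ℤ (Lam M)) :
    Function.Injective (K.subtype.baseChange ℂ) := by
  have h := Module.Flat.lTensor_preserves_injective_linearMap (M := ℂ) K.subtype
    K.injective_subtype
  intro x y hxy
  apply h
  exact hxy

end general

section main

variable {N q p : ℕ} {W : WeierstrassCurve ℤ} [NeZero N] [Fact q.Prime] [Fact p.Prime]
  {hqN : ¬ q ∣ N}

/-- the kernel of `i†`, as a subgroup of `Lam (N q)` -/
abbrev Kq (hqN : ¬ q ∣ N) : Submodule ℤ (Lam (N * q)) := LinearMap.ker (iLamDual hqN)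

theorem tNq_mem_Kq (i : Idx N q p W) (x : Lam (N * q)) (hx : x ∈ Kq hqN) :
    tNq N q p W i x ∈ Kq hqN := by
  rw [LinearMap.mem_ker] at hx ⊢
  show iLamDual hqN (Tpar i.prime i.not_dvd x) = 0
  rw [iLamDual_Tpar, hx]
  exact Prod.ext (map_zero _) (map_zero _)

/-- the Hecke operators on the kernel of `i†` -/
def tK (hqN : ¬ q ∣ N) (i : Idx N q p W) : Module.End ℤ (Kq hqN) :=
  (tNq N q p W i).restrict (tNq_mem_Kq i)

theorem tK_apply (i : Idx N q p W) (x : Kq hqN) :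
    ((tK hqN i x : Kq hqN) : Lam (N * q)) = tNq N q p W i x := rfl

theorem tK_comm (hC : Comm N q p W hqN) (i j : Idx N q p W) :
    tK hqN i * tK hqN j = tK hqN j * tK hqN i := by
  apply LinearMap.ext
  intro x
  apply Subtype.ext
  show tNq N q p W i (tNq N q p W j x) = tNq N q p W j (tNq N q p W i x)
  have := congrArg (fun e : Module.End ℤ (Lam (N * q)) => e x) (hC.hcNq i j)
  exact this

/-- the class in `Hom_par(Γ₀(N q), ℂ)` of an element of `ℂ ⊗ ker i†` -/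
def wOf (hqN : ¬ q ∣ N) (v : ℂ ⊗[ℤ] Kq hqN) : parabolicHoms ℂ (Gamma0 (N * q)) ℂ :=
  haveI : NeZero (N * q) := ⟨Nat.mul_ne_zero (NeZero.ne N) (Fact.out : q.Prime).ne_zero⟩
  ⟨tensorToHomO ℂ ((Kq hqN).subtype.baseChange ℂ v), tensorToHomO_isParabolic _⟩

theorem coe_wOf (v : ℂ ⊗[ℤ] Kq hqN) :
    haveI : NeZero (N * q) := ⟨Nat.mul_ne_zero (NeZero.ne N) (Fact.out : q.Prime).ne_zero⟩
    ((wOf hqN v : parabolicHoms ℂ (Gamma0 (N * q)) ℂ) : Additive (Gamma0 (N * q)) →+ ℂ)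
      = tensorToHomO ℂ ((Kq hqN).subtype.baseChange ℂ v) := rfl

theorem wOf_ne_zero {v : ℂ ⊗[ℤ] Kq hqN} (hv : v ≠ 0) : wOf hqN v ≠ 0 := by
  haveI : NeZero (N * q) := ⟨Nat.mul_ne_zero (NeZero.ne N) (Fact.out : q.Prime).ne_zero⟩
  intro h
  apply hv
  have h1 : tensorToHomO ℂ ((Kq hqN).subtype.baseChange ℂ v) = 0 :=
    congrArg Subtype.val h
  have h2 : (Kq hqN).subtype.baseChange ℂ v = 0 := by
    apply tensorToHomO_injective (N := N * q) ℂ
    rw [h1, map_zero]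
  apply baseChange_subtype_injective (Kq hqN)
  rw [h2, map_zero]

theorem alphaDown_wOf (v : ℂ ⊗[ℤ] Kq hqN) :
    (alphaDown hqN).op ℂ (wOf hqN v).1 = 0 := by
  haveI : NeZero (N * q) := ⟨Nat.mul_ne_zero (NeZero.ne N) (Fact.out : q.Prime).ne_zero⟩
  rw [coe_wOf]
  induction v using TensorProduct.induction_on with
  | zero => rw [map_zero, map_zero, map_zero]
  | tmul e k =>
    rw [LinearMap.baseChange_tmul, tensorToHomO_tmul]
    show (alphaDown hqN).op ℂ ((zmultiplesHom ℂ e).comp (k : Lam (N * q)).1) = 0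
    rw [alphaDown_comp_hom]
    have hk : iLamDual hqN (k : Lam (N * q)) = 0 := k.2
    have h1 : aDown ℤ ℤ hqN (k : Lam (N * q)) = 0 := congrArg Prod.fst hk
    have h2 : (alphaDown hqN).op ℤ (k : Lam (N * q)).1 = 0 := congrArg Subtype.val h1
    rw [h2, AddMonoidHom.comp_zero]
  | add x y hx hy => rw [map_add, map_add, map_add, hx, hy, add_zero]

theorem betaDown_wOf (v : ℂ ⊗[ℤ] Kq hqN) :
    (betaDown hqN).op ℂ (wOf hqN v).1 = 0 := by
  haveI : NeZero (N * q) := ⟨Nat.mul_ne_zero (NeZero.ne N) (Fact.out : q.Prime).ne_zero⟩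
  rw [coe_wOf]
  induction v using TensorProduct.induction_on with
  | zero => rw [map_zero, map_zero, map_zero]
  | tmul e k =>
    rw [LinearMap.baseChange_tmul, tensorToHomO_tmul]
    show (betaDown hqN).op ℂ ((zmultiplesHom ℂ e).comp (k : Lam (N * q)).1) = 0
    rw [betaDown_comp_hom]
    have hk : iLamDual hqN (k : Lam (N * q)) = 0 := k.2
    have h1 : bDown ℤ ℤ hqN (k : Lam (N * q)) = 0 := congrArg Prod.snd hk
    have h2 : (betaDown hqN).op ℤ (k : Lam (N * q)).1 = 0 := congrArg Subtype.val h1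
    rw [h2, AddMonoidHom.comp_zero]
  | add x y hx hy => rw [map_add, map_add, map_add, hx, hy, add_zero]

theorem iDown_wOf (v : ℂ ⊗[ℤ] Kq hqN) : iDown ℂ ℂ hqN (wOf hqN v) = 0 := by
  rw [iDown_apply]
  refine Prod.ext (Subtype.ext ?_) (Subtype.ext ?_)
  · exact alphaDown_wOf v
  · exact betaDown_wOf v

theorem heckeHom_wOf (i : Idx N q p W) (v : ℂ ⊗[ℤ] Kq hqN) (θ : ℂ)
    (hv : (tK hqN i).baseChange ℂ v = θ • v) :
    @heckeHom (N * q) i.1 ⟨i.prime⟩ ℂ _ i.not_dvd (wOf hqN v).1 = θ • (wOf hqN v).1 := by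
  haveI : NeZero (N * q) := ⟨Nat.mul_ne_zero (NeZero.ne N) (Fact.out : q.Prime).ne_zero⟩
  rw [coe_wOf, ← tensorToHomO_baseChange ℂ i.prime i.not_dvd, ← map_smul, ← map_smul, ← hv]
  congr 1
  have hcomp : (Tpar i.prime i.not_dvd).comp (Kq hqN).subtype
      = (Kq hqN).subtype.comp (tK hqN i) := rfl
  have := congrArg (fun f => (LinearMap.baseChange ℂ f) v) hcomp
  simpa [LinearMap.baseChange_comp] using this

variable (hC : Comm N q p W hqN)

/-- the kernel of `i†`, as an `HP`-submodule -/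
abbrev KP : Submodule (HP N q p W) (LNq hC) := LinearMap.ker (itP hC)

/-- the subgroup `𝔫 • ker i†` of `ker i†` -/
def SpK : Submodule ℤ (Kq hqN) :=
  AddSubgroup.toIntSubmodule
    { carrier := {k | (show LNq hC from (k : Lam (N * q))) ∈ nIdeal N q p W • KP hC}
      zero_mem' := (nIdeal N q p W • KP hC).zero_mem
      add_mem' := fun {a b} ha hb => (nIdeal N q p W • KP hC).add_mem ha hb
      neg_mem' := fun {a} ha => (nIdeal N q p W • KP hC).neg_mem ha }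

theorem mem_SpK (k : Kq hqN) :
    k ∈ SpK hC ↔ (show LNq hC from (k : Lam (N * q))) ∈ nIdeal N q p W • KP hC := Iff.rfl

theorem mem_KP (k : Kq hqN) : (show LNq hC from (k : Lam (N * q))) ∈ KP hC := k.2

theorem smul_mem_SpK (s : HP N q p W) (hs : s ∈ nIdeal N q p W) (k k' : Kq hqN)
    (h : (show LNq hC from (k' : Lam (N * q))) = s • (show LNq hC from (k : Lam (N * q)))) :
    k' ∈ SpK hC := by
  rw [mem_SpK, h]
  exact Submodule.smul_mem_smul hs (mem_KP hC k)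

theorem nsmul_mem_SpK (z : Kq hqN) : p • z ∈ SpK hC := by
  refine smul_mem_SpK hC _ (natCast_mem_nIdeal N q p W) z _ ?_
  rw [Nat.cast_smul_eq_nsmul]
  rfl

theorem tK_sub_mem_SpK (i : Idx N q p W) (z : Kq hqN) :
    tK hqN i z - (W.apOfModel i.1 : ℤ) • z ∈ SpK hC := by
  refine smul_mem_SpK hC _ (X_sub_C_mem_nIdeal N q p W i) z _ ?_
  rw [smul_LNq, map_sub, LinearMap.sub_apply, polyAct_X, polyAct_C_apply]
  rfl

theorem exists_notMem_SpK (y : LNq hC) (hy : itP hC y = 0)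
    (hy' : ∀ s : HP N q p W, s ∉ nIdeal N q p W → s • y ≠ 0) : ∃ k : Kq hqN, k ∉ SpK hC := by
  haveI : NeZero (N * q) := ⟨Nat.mul_ne_zero (NeZero.ne N) (Fact.out : q.Prime).ne_zero⟩
  by_contra hcon
  push Not at hcon
  have hle : KP hC ≤ nIdeal N q p W • KP hC := by
    intro x hx
    exact hcon ⟨(show Lam (N * q) from x), hx⟩
  haveI : IsNoetherian ℤ (LNq hC) := isNoetherian_of_isNoetherianRing_of_finite ℤ _
  haveI : IsNoetherian (HP N q p W) (LNq hC) := isNoetherian_of_tower ℤ inferInstance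
  obtain ⟨s, hs1, hs0⟩ := Submodule.exists_sub_one_mem_and_smul_eq_zero_of_fg_of_le_smul
    (nIdeal N q p W) (KP hC) (IsNoetherian.noetherian _) hle
  have hs : s ∉ nIdeal N q p W := by
    intro hs
    have h1 : (1 : HP N q p W) ∈ nIdeal N q p W := by
      have := (nIdeal N q p W).sub_mem hs hs1
      simpa using this
    exact (nIdeal_isMaximal N q p W).ne_top ((Ideal.eq_top_iff_one _).mpr h1)
  exact hy' s hs (hs0 y hy)

/-- **A5, the endgame.** -/
theorem exists_form_of_ker (y : LNq hC) (hy : itP hC y = 0)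
    (hy' : ∀ s : HP N q p W, s ∉ nIdeal N q p W → s • y ≠ 0) :
    ∃ (g : CuspForm (Gamma0 (N * q)) 2) (𝔪' : Ideal (integralClosure ℤ ℂ)),
      g.IsNormalizedEigenform ∧ 𝔪'.IsMaximal ∧ (p : integralClosure ℤ ℂ) ∈ 𝔪' ∧
      (∀ ℓ : ℕ, ℓ.Prime → W.IsGoodPrimeFor ℓ → ¬ ℓ ∣ N * q → ℓ ≠ p →
        ∃ a : integralClosure ℤ ℂ, (a : ℂ) = ModularFormClass.qCoeff g ℓ ∧
          a - ((W.apOfModel ℓ : ℤ) : integralClosure ℤ ℂ) ∈ 𝔪') ∧
      g.IsNewAt q := by
  classical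
  haveI : NeZero (N * q) := ⟨Nat.mul_ne_zero (NeZero.ne N) (Fact.out : q.Prime).ne_zero⟩
  obtain ⟨v, θ, 𝔪', hv0, h𝔪', hp𝔪', hθ, hcong⟩ :=
    exists_eigen_lift (K := Kq hqN) (tK hqN) (tK_comm hC) (fun i => (W.apOfModel i.1 : ℤ))
      Set.univ p (SpK hC) (nsmul_mem_SpK hC) (fun i _ z => tK_sub_mem_SpK hC i z)
      (exists_notMem_SpK hC y hy hy')
  set S : Set ℕ := {ℓ | ¬ W.IsGoodPrimeFor ℓ ∨ ℓ = p} with hS
  set lam : ℕ → ℂ := fun ℓ =>
    if h : ℓ.Prime ∧ W.IsGoodPrimeFor ℓ ∧ ¬ ℓ ∣ N * q ∧ ℓ ≠ p then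
      ((θ ⟨ℓ, h⟩ : integralClosure ℤ ℂ) : ℂ) else 0 with hlam
  have hT : ∀ (ℓ : ℕ) [Fact ℓ.Prime] (hℓ : ¬ ℓ ∣ N * q), ℓ ∉ S →
      heckeHom ℂ hℓ ((wOf hqN v : parabolicHoms ℂ (Gamma0 (N * q)) ℂ) :
          Additive (Gamma0 (N * q)) →+ ℂ)
        = lam ℓ • ((wOf hqN v : parabolicHoms ℂ (Gamma0 (N * q)) ℂ) :
          Additive (Gamma0 (N * q)) →+ ℂ) := by
    intro ℓ hFℓ hℓ hℓS
    have hgood : W.IsGoodPrimeFor ℓ := by
      by_contra h
      exact hℓS (Or.inl h)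
    have hne : ℓ ≠ p := fun h => hℓS (Or.inr h)
    have hidx : ℓ.Prime ∧ W.IsGoodPrimeFor ℓ ∧ ¬ ℓ ∣ N * q ∧ ℓ ≠ p :=
      ⟨hFℓ.out, hgood, hℓ, hne⟩
    have hl : lam ℓ = ((θ ⟨ℓ, hidx⟩ : integralClosure ℤ ℂ) : ℂ) := by
      rw [hlam]
      exact dif_pos hidx
    rw [hl]
    exact heckeHom_wOf (⟨ℓ, hidx⟩ : Idx N q p W) v _ (hθ ⟨ℓ, hidx⟩)
  obtain ⟨g, hg, hcoef, hnew⟩ :=
    Fermat.Agent.S41.P7.exists_newAt_of_ker hqN S lam (wOf hqN v) (wOf_ne_zero hv0)
      (iDown_wOf v) hT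
  refine ⟨g, 𝔪', hg, h𝔪', hp𝔪', ?_, hnew⟩
  intro ℓ hℓ hgood hℓN hℓp
  have hidx : ℓ.Prime ∧ W.IsGoodPrimeFor ℓ ∧ ¬ ℓ ∣ N * q ∧ ℓ ≠ p := ⟨hℓ, hgood, hℓN, hℓp⟩
  have hℓS : ℓ ∉ S := by
    rintro (h | h)
    · exact h hgood
    · exact hℓp h
  refine ⟨θ ⟨ℓ, hidx⟩, ?_, hcong ⟨ℓ, hidx⟩ (Set.mem_univ _)⟩
  rw [hcoef ℓ hℓ hℓN hℓS]
  show _ = dite _ _ _
  rw [dif_pos hidx]

end main

end Fermat.Agent.S41.Asm
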