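import Mathlib
import Fermat.Agent.S41.AbsLocal

/-!
# Route H, piece H3: abstract eigenvector extraction

`P` a commutative ring, `𝔫` a maximal ideal, `M` a `P`-module, `Sp` a submodule with `M ⧸ Sp`
finite. If `x` is not locally in `Sp` (no `s ∉ 𝔫` has `s • x ∈ Sp`) then some multiple `y • x`
is still not in `Sp` but is killed by `𝔫` modulo `Sp`: it is an eigenvector modulo `Sp` for the
character `P → P ⧸ 𝔫`.
-/

set_option autoImplicit false
set_option linter.unusedSectionVars false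
set_option linter.unusedVariables false
set_option linter.style.haveILetI false

namespace Fermat.Agent.S41.Abs

open Pointwise

/-- **Eigenvector extraction.** -/
theorem exists_eigen_of_not_locSub {P : Type*} [CommRing P] (𝔫 : Ideal P) [h𝔫 : 𝔫.IsMaximal]
    {M : Type*} [AddCommGroup M] [Module P M]
    (Sp : Submodule P M) (hfin : Finite (M ⧸ Sp)) (x : M) (hx : x ∉ locSub 𝔫 Sp) :
    ∃ y : P, y • x ∉ Sp ∧ ∀ t ∈ 𝔫, t • (y • x) ∈ Sp := by
  classical
  have hx' : ∀ s : P, s ∉ 𝔫 → s • x ∉ Sp := fun s hs h => hx ⟨s, hs, h⟩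
  set xb : M ⧸ Sp := Sp.mkQ x with hxb
  have hmk : ∀ a : P, a • xb = 0 ↔ a • x ∈ Sp := by
    intro a
    rw [hxb, ← map_smul, Submodule.mkQ_apply, Submodule.Quotient.mk_eq_zero]
  set C : Submodule P (M ⧸ Sp) := Submodule.span P {xb} with hC
  haveI : IsArtinian P (M ⧸ Sp) := inferInstance
  -- the chain `𝔫 ^ j • C` stabilises
  let f : ℕ →o (Submodule P (M ⧸ Sp))ᵒᵈ :=
    ⟨fun j => OrderDual.toDual (𝔫 ^ j • C), by
      intro i j hij
      show 𝔫 ^ j • C ≤ 𝔫 ^ i • C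
      exact Submodule.smul_mono_left (Ideal.pow_le_pow_right hij)⟩
  obtain ⟨j, hj⟩ := IsArtinian.monotone_stabilizes f
  have hst : 𝔫 ^ j • C = 𝔫 ^ (j + 1) • C := by
    have := hj (j + 1) (Nat.le_succ j)
    exact congrArg OrderDual.ofDual this
  have hle : 𝔫 ^ j • C ≤ 𝔫 • (𝔫 ^ j • C) := by
    rw [← Submodule.mul_smul, ← pow_succ', ← hst]
  have hfg : (𝔫 ^ j • C).FG := IsNoetherian.noetherian _
  obtain ⟨s, hs1, hs0⟩ :=
    Submodule.exists_sub_one_mem_and_smul_eq_zero_of_fg_of_le_smul 𝔫 (𝔫 ^ j • C) hfg hle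
  have hs𝔫 : s ∉ 𝔫 := by
    intro hs
    have h1 : (1 : P) ∈ 𝔫 := by
      have := 𝔫.sub_mem hs hs1
      simpa using this
    exact h𝔫.ne_top ((Ideal.eq_top_iff_one 𝔫).mpr h1)
  have hsx : s • x ∉ Sp := hx' s hs𝔫
  -- `𝔫 ^ j` kills `s • xb`
  have hkill : ∀ t ∈ 𝔫 ^ j, (t * s) • x ∈ Sp := by
    intro t ht
    rw [← hmk, mul_comm, mul_smul]
    have hmem : t • xb ∈ 𝔫 ^ j • C :=
      Submodule.smul_mem_smul ht (Submodule.mem_span_singleton_self xb)
    exact hs0 (t • xb) hmem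
  -- the minimal such exponent
  have hex : ∃ k : ℕ, ∀ t ∈ 𝔫 ^ k, (t * s) • x ∈ Sp := ⟨j, hkill⟩
  set k := Nat.find hex with hk
  have hkspec : ∀ t ∈ 𝔫 ^ k, (t * s) • x ∈ Sp := Nat.find_spec hex
  have hk0 : k ≠ 0 := by
    intro h0
    have h1 : (1 : P) ∈ 𝔫 ^ k := by
      rw [h0, pow_zero, Ideal.one_eq_top]
      exact Submodule.mem_top
    have := hkspec 1 h1
    rw [one_mul] at this
    exact hsx this
  obtain ⟨k', hk'⟩ := Nat.exists_eq_succ_of_ne_zero hk0
  have hmin : ¬ ∀ t ∈ 𝔫 ^ k', (t * s) • x ∈ Sp :=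
    Nat.find_min hex (by rw [← hk, hk']; exact Nat.lt_succ_self k')
  rw [not_forall] at hmin
  obtain ⟨y', hy'⟩ := hmin
  rw [Classical.not_imp] at hy'
  obtain ⟨hy'mem, hy'x⟩ := hy'
  refine ⟨y' * s, hy'x, ?_⟩
  intro t ht
  rw [← mul_smul, ← mul_assoc]
  apply hkspec
  rw [hk', pow_succ']
  exact Ideal.mul_mem_mul ht hy'mem

/-- **Eigenvector extraction, with a side condition**: as `exists_eigen_of_not_locSub`, and any
`P`-linear condition `I x ∈ Sp'` satisfied by `x` is inherited by the eigenvector. -/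
theorem exists_eigen_of_not_locSub_of_map {P : Type*} [CommRing P] (𝔫 : Ideal P)
    [h𝔫 : 𝔫.IsMaximal] {M : Type*} [AddCommGroup M] [Module P M]
    {M' : Type*} [AddCommGroup M'] [Module P M']
    (Sp : Submodule P M) (hfin : Finite (M ⧸ Sp)) (I : M →ₗ[P] M') (Sp' : Submodule P M')
    (x : M) (hx : x ∉ locSub 𝔫 Sp) (hI : I x ∈ Sp') :
    ∃ z : M, z ∉ Sp ∧ (∀ t ∈ 𝔫, t • z ∈ Sp) ∧ I z ∈ Sp' ∧ ∃ y : P, z = y • x := by
  obtain ⟨y, hy1, hy2⟩ := exists_eigen_of_not_locSub 𝔫 Sp hfin x hx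
  refine ⟨y • x, hy1, hy2, ?_, y, rfl⟩
  rw [map_smul]
  exact Sp'.smul_mem y hI

/-- the eigenvector property in the form `(t - a) • z ∈ Sp` for a character `χ` with kernel
`𝔫`: if `χ t = χ a` then `(t - a) • z ∈ Sp`. -/
theorem sub_smul_mem_of_forall_mem {P : Type*} [CommRing P] (𝔫 : Ideal P)
    {M : Type*} [AddCommGroup M] [Module P M] (Sp : Submodule P M) {z : M}
    (hz : ∀ t ∈ 𝔫, t • z ∈ Sp) {t a : P} (h : t - a ∈ 𝔫) : t • z - a • z ∈ Sp := by
  rw [← sub_smul]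
  exact hz _ h

/-- the quotient of a finitely generated abelian group by the multiples of `p > 0` is finite -/
theorem finite_quotient_pMul {P : Type*} [CommRing P] (p : ℕ) (hp : 0 < p)
    (M : Type*) [AddCommGroup M] [Module P M] [Module.Finite ℤ M] :
    Finite (M ⧸ pMul (P := P) p M) := by
  set N₁ : Submodule P M := pMul (P := P) p M with hN₁
  haveI : Module.Finite ℤ (M ⧸ N₁) :=
    Module.Finite.of_surjective ((N₁.mkQ).restrictScalars ℤ) (Submodule.mkQ_surjective N₁)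
  refine finite_of_fg_of_smul_eq_zero p hp ?_
  intro x
  obtain ⟨y, rfl⟩ := Submodule.mkQ_surjective N₁ x
  rw [← map_nsmul, Submodule.mkQ_apply, Submodule.Quotient.mk_eq_zero]
  exact smul_mem_pMul p y

/-- **Hypothesis (A) of `exists_not_locally_zero` from the absence of eigenvectors in the
kernel modulo `p`**: if every `z` with `i z ∈ p L'` that is killed by `𝔫` modulo `p` is
itself a multiple of `p`, then `i` is locally injective modulo `p`. -/
theorem hA_of_forall_eigen {P : Type*} [CommRing P] (𝔫 : Ideal P) [h𝔫 : 𝔫.IsMaximal] (p : ℕ)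
    {M M' : Type*} [AddCommGroup M] [AddCommGroup M'] [Module P M] [Module P M']
    [Module.Finite ℤ M] (hp : 0 < p) (i : M →ₗ[P] M')
    (h : ∀ z : M, i z ∈ pMul (P := P) p M' → (∀ t ∈ 𝔫, t • z ∈ pMul (P := P) p M) →
      z ∈ pMul (P := P) p M) :
    ∀ x : M, i x ∈ pMul (P := P) p M' → x ∈ locSub 𝔫 (pMul (P := P) p M) := by
  intro x hix
  by_contra hx
  obtain ⟨z, hz1, hz2, hz3, -⟩ := exists_eigen_of_not_locSub_of_map 𝔫 (pMul (P := P) p M)
    (finite_quotient_pMul p hp M) i (pMul (P := P) p M') x hx hix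
  exact hz1 (h z hz3 hz2)

end Fermat.Agent.S41.Abs
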