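import Mathlib

/-!
# S41, piece P1a: the amalgam `Γ₀(N)[1/q] = Γ₀(N) *_{Γ₀(N q)} δ⁻¹ Γ₀(N) δ`

`q` a prime not dividing `N`, `δ = diag(q, 1)`. We prove the universal property of the amalgam
for homomorphisms to abelian groups, in the concrete group `Delta N q ≤ SL₂(ℚ)`:

* `Delta N q` : the matrices `g ∈ SL₂(ℚ)` such that `q ^ k • g` is an integer matrix with lower
  left entry divisible by `N`, for some `k` (= `Γ₀(N)[1/q]`).
* `exists_word` : every element of `Delta N q` is a product of elements of `ι Γ₀(N)` and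
  `δ⁻¹ (ι Γ₀(N)) δ` (induction on `k`).
* `eq_nil_of_val_eq` : ping-pong with integer matrices modulo `q`: a reduced word with value in
  `Γ₀(N q)` is empty.
* `exists_hom` : a pair `(c₁, c₂)` of homomorphisms `Γ₀(N) → A` with
  `c₁(g) + c₂(δ g δ⁻¹) = 0` for `g ∈ Γ₀(N q)` defines one homomorphism `Φ : Delta N q → A` with
  `Φ ∘ ι = c₁` and `Φ(δ⁻¹ (ι γ) δ) = - c₂ γ`.
-/

set_option autoImplicit false

noncomputable section

open Matrix Matrix.SpecialLinearGroup CongruenceSubgroup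
open scoped MatrixGroups

namespace Fermat.Agent.S41.P1a

/-- the inclusion `SL₂(ℤ) → SL₂(ℚ)` -/
def iota : SL(2, ℤ) →* SL(2, ℚ) := Matrix.SpecialLinearGroup.map (Int.castRingHom ℚ)

theorem iota_apply (g : SL(2, ℤ)) (i j : Fin 2) : (iota g) i j = ((g i j : ℤ) : ℚ) := rfl

theorem iota_injective : Function.Injective iota := by
  intro g h e
  ext i j
  have := congrArg (fun x : SL(2, ℚ) => x i j) e
  simpa [iota_apply] using this

variable (q : ℕ)

/-- the matrix `diag(q, 1)` -/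
def dq : Matrix (Fin 2) (Fin 2) ℚ := !![(q : ℚ), 0; 0, 1]

/-- the matrix `diag(1/q, 1)` -/
def dqInv : Matrix (Fin 2) (Fin 2) ℚ := !![(q : ℚ)⁻¹, 0; 0, 1]

variable {q}

theorem dq_mul_dqInv (hq : q ≠ 0) : dq q * dqInv q = 1 := by
  have : (q : ℚ) ≠ 0 := by exact_mod_cast hq
  ext i j
  fin_cases i <;> fin_cases j <;> simp [dq, dqInv, Matrix.mul_apply, Fin.sum_univ_two, this]

theorem dqInv_mul_dq (hq : q ≠ 0) : dqInv q * dq q = 1 := by
  have : (q : ℚ) ≠ 0 := by exact_mod_cast hq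
  ext i j
  fin_cases i <;> fin_cases j <;> simp [dq, dqInv, Matrix.mul_apply, Fin.sum_univ_two, this]

theorem det_dq : (dq q).det = q := by simp [dq, Matrix.det_fin_two]

theorem det_dqInv : (dqInv q).det = (q : ℚ)⁻¹ := by simp [dqInv, Matrix.det_fin_two]

variable (q)

/-- conjugation `g ↦ δ⁻¹ g δ`, `δ = diag(q, 1)`, on `SL₂(ℚ)`:
`[[a, b], [c, d]] ↦ [[a, b / q], [q c, d]]` -/
def conjD (hq : q ≠ 0) : SL(2, ℚ) →* SL(2, ℚ) where
  toFun g := ⟨dqInv q * g.1 * dq q, by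
    have : (q : ℚ) ≠ 0 := by exact_mod_cast hq
    rw [Matrix.det_mul, Matrix.det_mul, det_dq, det_dqInv, g.2]
    field_simp⟩
  map_one' := by
    apply Subtype.ext
    simp [dqInv_mul_dq hq]
  map_mul' g h := by
    apply Subtype.ext
    show dqInv q * (g.1 * h.1) * dq q = (dqInv q * g.1 * dq q) * (dqInv q * h.1 * dq q)
    calc dqInv q * (g.1 * h.1) * dq q = dqInv q * g.1 * 1 * h.1 * dq q := by
          simp [Matrix.mul_assoc]
      _ = dqInv q * g.1 * (dq q * dqInv q) * h.1 * dq q := by rw [dq_mul_dqInv hq]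
      _ = _ := by simp only [Matrix.mul_assoc]

theorem conjD_val (hq : q ≠ 0) (g : SL(2, ℚ)) :
    (conjD q hq g).1 = !![g 0 0, g 0 1 / q; q * g 1 0, g 1 1] := by
  have : (q : ℚ) ≠ 0 := by exact_mod_cast hq
  show dqInv q * g.1 * dq q = _
  conv_lhs => rw [Matrix.eta_fin_two g.1]
  simp only [dq, dqInv, Matrix.mul_fin_two]
  ext i j
  fin_cases i <;> fin_cases j <;> simp <;> field_simp

theorem conjD_00 (hq : q ≠ 0) (g : SL(2, ℚ)) : (conjD q hq g) 0 0 = g 0 0 := by
  have := congrFun (congrFun (conjD_val q hq g) 0) 0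
  simpa using this

theorem conjD_01 (hq : q ≠ 0) (g : SL(2, ℚ)) : (conjD q hq g) 0 1 = g 0 1 / q := by
  have := congrFun (congrFun (conjD_val q hq g) 0) 1
  simpa using this

theorem conjD_10 (hq : q ≠ 0) (g : SL(2, ℚ)) : (conjD q hq g) 1 0 = q * g 1 0 := by
  have := congrFun (congrFun (conjD_val q hq g) 1) 0
  simpa using this

theorem conjD_11 (hq : q ≠ 0) (g : SL(2, ℚ)) : (conjD q hq g) 1 1 = g 1 1 := by
  have := congrFun (congrFun (conjD_val q hq g) 1) 1
  simpa using this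

theorem sl2Q_ext {g h : SL(2, ℚ)} (h00 : g 0 0 = h 0 0) (h01 : g 0 1 = h 0 1)
    (h10 : g 1 0 = h 1 0) (h11 : g 1 1 = h 1 1) : g = h := by
  ext i j
  fin_cases i <;> fin_cases j <;> assumption

theorem sl2Z_ext {g h : SL(2, ℤ)} (h00 : g 0 0 = h 0 0) (h01 : g 0 1 = h 0 1)
    (h10 : g 1 0 = h 1 0) (h11 : g 1 1 = h 1 1) : g = h := by
  ext i j
  fin_cases i <;> fin_cases j <;> assumption

theorem det_eq_one (g : SL(2, ℤ)) : g 0 0 * g 1 1 - g 0 1 * g 1 0 = 1 := by
  have := g.2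
  rwa [Matrix.det_fin_two] at this

/-- an element of `SL₂(ℤ)` from its entries -/
def mk4 (a b c d : ℤ) (h : a * d - b * c = 1) : SL(2, ℤ) :=
  ⟨!![a, b; c, d], by rw [Matrix.det_fin_two_of]; exact h⟩

@[simp] theorem mk4_00 (a b c d : ℤ) (h : a * d - b * c = 1) : (mk4 a b c d h) 0 0 = a := rfl
@[simp] theorem mk4_01 (a b c d : ℤ) (h : a * d - b * c = 1) : (mk4 a b c d h) 0 1 = b := rfl
@[simp] theorem mk4_10 (a b c d : ℤ) (h : a * d - b * c = 1) : (mk4 a b c d h) 1 0 = c := rfl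
@[simp] theorem mk4_11 (a b c d : ℤ) (h : a * d - b * c = 1) : (mk4 a b c d h) 1 1 = d := rfl

theorem mem_Gamma0_iff_dvd {N : ℕ} {g : SL(2, ℤ)} : g ∈ Gamma0 N ↔ (N : ℤ) ∣ g 1 0 := by
  rw [Gamma0_mem, ZMod.intCast_zmod_eq_zero_iff_dvd]

/-- `δ h δ⁻¹ = [[a, q b], [c / q, d]]` for `q ∣ c` -/
def up (h : SL(2, ℤ)) (hh : (q : ℤ) ∣ h 1 0) : SL(2, ℤ) :=
  mk4 (h 0 0) (q * h 0 1) (h 1 0 / q) (h 1 1) (by
    have h1 := det_eq_one h
    obtain ⟨c, hc⟩ := hh
    rcases eq_or_ne (q : ℤ) 0 with h0 | h0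
    · rw [h0] at hc ⊢
      simp at hc
      rw [hc] at h1
      simp at h1 ⊢
      exact h1
    · rw [hc, Int.mul_ediv_cancel_left _ h0]
      rw [hc] at h1
      linarith)

/-- `δ⁻¹ g δ = [[a, b / q], [q c, d]]` for `q ∣ b` -/
def down (g : SL(2, ℤ)) (hg : (q : ℤ) ∣ g 0 1) : SL(2, ℤ) :=
  mk4 (g 0 0) (g 0 1 / q) (q * g 1 0) (g 1 1) (by
    have h1 := det_eq_one g
    obtain ⟨c, hc⟩ := hg
    rcases eq_or_ne (q : ℤ) 0 with h0 | h0
    · rw [h0] at hc ⊢
      simp at hc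
      rw [hc] at h1
      simp at h1 ⊢
      exact h1
    · rw [hc, Int.mul_ediv_cancel_left _ h0]
      rw [hc] at h1
      linarith)

theorem conjD_iota_up (hq : q ≠ 0) (h : SL(2, ℤ)) (hh : (q : ℤ) ∣ h 1 0) :
    conjD q hq (iota (up q h hh)) = iota h := by
  have hq' : (q : ℚ) ≠ 0 := by exact_mod_cast hq
  obtain ⟨c, hc⟩ := hh
  have h0 : (q : ℤ) ≠ 0 := by exact_mod_cast hq
  apply sl2Q_ext
  · rw [conjD_00]; rfl
  · rw [conjD_01, iota_apply, iota_apply]
    show (((q : ℤ) * h 0 1 : ℤ) : ℚ) / q = _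
    push_cast
    field_simp
  · rw [conjD_10, iota_apply, iota_apply]
    show (q : ℚ) * ((h 1 0 / (q : ℤ) : ℤ) : ℚ) = _
    rw [hc, Int.mul_ediv_cancel_left _ h0]
    push_cast
    ring
  · rw [conjD_11]; rfl

theorem iota_down (hq : q ≠ 0) (g : SL(2, ℤ)) (hg : (q : ℤ) ∣ g 0 1) :
    iota (down q g hg) = conjD q hq (iota g) := by
  have hq' : (q : ℚ) ≠ 0 := by exact_mod_cast hq
  obtain ⟨c, hc⟩ := hg
  have h0 : (q : ℤ) ≠ 0 := by exact_mod_cast hq
  apply sl2Q_ext
  · rw [conjD_00]; rfl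
  · rw [conjD_01, iota_apply, iota_apply]
    show ((g 0 1 / (q : ℤ) : ℤ) : ℚ) = _
    rw [hc, Int.mul_ediv_cancel_left _ h0]
    push_cast
    field_simp
  · rw [conjD_10, iota_apply, iota_apply]
    show (((q : ℤ) * g 1 0 : ℤ) : ℚ) = _
    push_cast
    ring
  · rw [conjD_11]; rfl

variable (N : ℕ)

theorem up_mem (hqN : Nat.Coprime N q) (h : SL(2, ℤ)) (hh : (q : ℤ) ∣ h 1 0) (hN : h ∈ Gamma0 N) :
    up q h hh ∈ Gamma0 N := by
  rw [mem_Gamma0_iff_dvd] at hN ⊢
  show (N : ℤ) ∣ h 1 0 / q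
  obtain ⟨c, hc⟩ := hh
  rcases eq_or_ne (q : ℤ) 0 with h0 | h0
  · rw [h0]; simp
  · rw [hc, Int.mul_ediv_cancel_left _ h0]
    rw [hc] at hN
    have hcop : IsCoprime (N : ℤ) (q : ℤ) := by
      exact_mod_cast (Nat.isCoprime_iff_coprime.mpr hqN)
    exact hcop.dvd_of_dvd_mul_left hN

theorem down_mem (g : SL(2, ℤ)) (hg : (q : ℤ) ∣ g 0 1) (hN : g ∈ Gamma0 N) :
    down q g hg ∈ Gamma0 N := by
  rw [mem_Gamma0_iff_dvd] at hN ⊢
  show (N : ℤ) ∣ q * g 1 0
  exact Dvd.dvd.mul_left hN _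

theorem down_10 (g : SL(2, ℤ)) (hg : (q : ℤ) ∣ g 0 1) : (q : ℤ) ∣ (down q g hg) 1 0 := by
  show (q : ℤ) ∣ q * g 1 0
  exact dvd_mul_right _ _


/-! ## Words -/

/-- letters: `(false, γ)` stands for `ι γ`, `(true, γ)` for `δ⁻¹ (ι γ) δ`, `γ ∈ Γ₀(N)` -/
abbrev Letter := Bool × Gamma0 N

variable {N}

/-- the value of a letter -/
def ev (hq : q ≠ 0) (a : Letter N) : SL(2, ℚ) :=
  if a.1 then conjD q hq (iota a.2) else iota a.2

/-- the value of a word -/
def val (hq : q ≠ 0) (w : List (Letter N)) : SL(2, ℚ) := (w.map (ev q hq)).prod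

@[simp] theorem val_nil (hq : q ≠ 0) : val q hq ([] : List (Letter N)) = 1 := rfl

@[simp] theorem val_cons (hq : q ≠ 0) (a : Letter N) (w : List (Letter N)) :
    val q hq (a :: w) = ev q hq a * val q hq w := by
  simp [val]

theorem val_append (hq : q ≠ 0) (w w' : List (Letter N)) :
    val q hq (w ++ w') = val q hq w * val q hq w' := by
  simp [val]

variable {A : Type*} [AddCommGroup A] (c₁ c₂ : Additive (Gamma0 N) →+ A)

/-- the value of the pair `(c₁, -c₂)` on a letter -/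
def sg (a : Letter N) : A :=
  if a.1 then - c₂ (Additive.ofMul a.2) else c₁ (Additive.ofMul a.2)

/-- the value of the pair `(c₁, -c₂)` on a word -/
def sig (w : List (Letter N)) : A := (w.map (sg c₁ c₂)).sum

@[simp] theorem sig_nil : sig c₁ c₂ ([] : List (Letter N)) = 0 := rfl

@[simp] theorem sig_cons (a : Letter N) (w : List (Letter N)) :
    sig c₁ c₂ (a :: w) = sg c₁ c₂ a + sig c₁ c₂ w := by
  simp [sig]

theorem sig_append (w w' : List (Letter N)) :
    sig c₁ c₂ (w ++ w') = sig c₁ c₂ w + sig c₁ c₂ w' := by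
  simp [sig]

/-- a letter lies in the base group `Γ₀(N q)` -/
def InBase (a : Letter N) : Prop :=
  if a.1 then (q : ℤ) ∣ (a.2 : SL(2, ℤ)) 0 1 else (q : ℤ) ∣ (a.2 : SL(2, ℤ)) 1 0

/-- the kernel condition `α^* c₁ + β^* c₂ = 0` -/
def KerCond (hq : q ≠ 0) : Prop :=
  ∀ g g' : Gamma0 N, conjD q hq (iota g') = iota g →
    c₁ (Additive.ofMul g) + c₂ (Additive.ofMul g') = 0

variable {q c₁ c₂}

theorem c₁_mul (g h : Gamma0 N) :
    c₁ (Additive.ofMul (g * h)) = c₁ (Additive.ofMul g) + c₁ (Additive.ofMul h) := by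
  rw [ofMul_mul, map_add]

/-- a letter of the base group -/
theorem inBase_spec (hq : q ≠ 0) (hker : KerCond q c₁ c₂ hq) (a : Letter N)
    (ha : InBase q a) :
    ∃ h : Gamma0 N, (q : ℤ) ∣ (h : SL(2, ℤ)) 1 0 ∧ ev q hq a = iota h ∧
      sg c₁ c₂ a = c₁ (Additive.ofMul h) := by
  obtain ⟨i, γ⟩ := a
  cases i
  · exact ⟨γ, by simpa [InBase] using ha, by simp [ev], by simp [sg]⟩
  · have hb : (q : ℤ) ∣ (γ : SL(2, ℤ)) 0 1 := by simpa [InBase] using ha
    refine ⟨⟨down q γ hb, down_mem q N γ hb γ.2⟩, down_10 q γ hb, ?_, ?_⟩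
    · simp only [ev, if_true]
      exact (iota_down q hq γ hb).symm
    · simp only [sg, if_true]
      have := hker ⟨down q γ hb, down_mem q N γ hb γ.2⟩ γ (iota_down q hq γ hb).symm
      rw [neg_eq_iff_add_eq_zero, add_comm]
      exact this

/-- absorbing a base element into a letter, from the right -/
theorem absorb (hq : q ≠ 0) (hqN : Nat.Coprime N q) (hker : KerCond q c₁ c₂ hq)
    (a : Letter N) (h : Gamma0 N) (hh : (q : ℤ) ∣ (h : SL(2, ℤ)) 1 0) :
    ∃ a' : Letter N, a'.1 = a.1 ∧ ev q hq a' = ev q hq a * iota h ∧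
      sg c₁ c₂ a' = sg c₁ c₂ a + c₁ (Additive.ofMul h) := by
  obtain ⟨i, γ⟩ := a
  cases i
  · refine ⟨(false, γ * h), rfl, ?_, ?_⟩
    · simp [ev]
    · simp only [sg]
      simp [ofMul_mul]
  · refine ⟨(true, γ * ⟨up q h hh, up_mem q N hqN h hh h.2⟩), rfl, ?_, ?_⟩
    · simp only [ev, if_true]
      rw [Subgroup.coe_mul, map_mul, map_mul, conjD_iota_up]
    · simp only [sg, if_true]
      have := hker h ⟨up q h hh, up_mem q N hqN h hh h.2⟩ (conjD_iota_up q hq h hh)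
      rw [ofMul_mul, map_add, neg_add]
      congr 1
      rw [neg_eq_iff_add_eq_zero, add_comm]
      exact this

/-- merging two letters of the same type -/
theorem merge (hq : q ≠ 0) (a b : Letter N) (hab : a.1 = b.1) :
    ∃ m : Letter N, m.1 = a.1 ∧ ev q hq m = ev q hq a * ev q hq b ∧
      sg c₁ c₂ m = sg c₁ c₂ a + sg c₁ c₂ b := by
  obtain ⟨i, γ⟩ := a
  obtain ⟨j, γ'⟩ := b
  simp only at hab
  subst hab
  refine ⟨(i, γ * γ'), rfl, ?_, ?_⟩
  · cases i <;> simp [ev]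
  · cases i
    · simp [sg, ofMul_mul]
    · simp only [sg, if_true]
      rw [ofMul_mul, map_add, neg_add]

variable (q)

/-- reduced words: alternating types, no letter in the base group -/
def Reduced (w : List (Letter N)) : Prop :=
  w.IsChain (fun a b => a.1 ≠ b.1) ∧ ∀ a ∈ w, ¬ InBase q a

variable {q}

theorem reduced_nil : Reduced q ([] : List (Letter N)) := ⟨List.isChain_nil, by simp⟩

theorem Reduced.tail {a : Letter N} {w : List (Letter N)} (h : Reduced q (a :: w)) :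
    Reduced q w :=
  ⟨h.1.tail, fun b hb => h.2 b (List.mem_cons_of_mem _ hb)⟩

theorem reduced_singleton {a : Letter N} (ha : ¬ InBase q a) : Reduced q [a] :=
  ⟨List.isChain_singleton _, by simpa using ha⟩

theorem reduced_cons {a : Letter N} {w : List (Letter N)} (ha : ¬ InBase q a)
    (hw : Reduced q w) (hne : ∀ b ∈ w.head?, a.1 ≠ b.1) : Reduced q (a :: w) := by
  refine ⟨?_, ?_⟩
  · cases w with
    | nil => exact List.isChain_singleton _
    | cons b t =>
      rw [List.isChain_cons_cons]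
      exact ⟨hne b (by simp), hw.1⟩
  · intro b hb
    rcases List.mem_cons.mp hb with rfl | hb
    · exact ha
    · exact hw.2 b hb

/-- normal form: every word is a base element times a reduced word -/
theorem exists_normal_form (hq : q ≠ 0) (hqN : Nat.Coprime N q) (hker : KerCond q c₁ c₂ hq)
    (w : List (Letter N)) :
    ∃ (h : Gamma0 N) (w' : List (Letter N)), (q : ℤ) ∣ (h : SL(2, ℤ)) 1 0 ∧ Reduced q w' ∧
      val q hq w = iota h * val q hq w' ∧ sig c₁ c₂ w = c₁ (Additive.ofMul h) + sig c₁ c₂ w' := by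
  classical
  induction w with
  | nil => exact ⟨1, [], by simp, reduced_nil, by simp, by simp⟩
  | cons a t ih =>
    obtain ⟨h, t', hh, ht', hv, hs⟩ := ih
    obtain ⟨a', ha'1, ha'v, ha's⟩ := absorb hq hqN hker a h hh
    have hv' : val q hq (a :: t) = ev q hq a' * val q hq t' := by
      rw [val_cons, hv, ha'v, mul_assoc]
    have hs' : sig c₁ c₂ (a :: t) = sg c₁ c₂ a' + sig c₁ c₂ t' := by
      rw [sig_cons, hs, ha's, add_assoc]
    -- now put `a' :: t'` in normal form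
    cases t' with
    | nil =>
      by_cases hb : InBase q a'
      · obtain ⟨h', hh', e1, e2⟩ := inBase_spec hq hker a' hb
        exact ⟨h', [], hh', reduced_nil, by rw [hv', e1], by rw [hs', e2]⟩
      · refine ⟨1, [a'], by simp, reduced_singleton hb, ?_, ?_⟩
        · rw [hv']; simp
        · rw [hs']; simp
    | cons b t'' =>
      by_cases hab : a'.1 = b.1
      · obtain ⟨m, hm1, hmv, hms⟩ := merge (c₁ := c₁) (c₂ := c₂) hq a' b hab
        have hv'' : val q hq (a :: t) = ev q hq m * val q hq t'' := by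
          rw [hv', val_cons, hmv, mul_assoc]
        have hs'' : sig c₁ c₂ (a :: t) = sg c₁ c₂ m + sig c₁ c₂ t'' := by
          rw [hs', sig_cons, hms, add_assoc]
        by_cases hb : InBase q m
        · obtain ⟨h', hh', e1, e2⟩ := inBase_spec hq hker m hb
          exact ⟨h', t'', hh', ht'.tail, by rw [hv'', e1], by rw [hs'', e2]⟩
        · refine ⟨1, m :: t'', by simp, ?_, ?_, ?_⟩
          · apply reduced_cons hb ht'.tail
            intro c hc
            cases t'' with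
            | nil => simp at hc
            | cons c' t3 =>
              simp only [List.head?_cons, Option.mem_def, Option.some.injEq] at hc
              subst hc
              have := ht'.1
              rw [List.isChain_cons_cons] at this
              rw [hm1, hab]
              exact this.1
          · rw [hv'']; simp
          · rw [hs'']; simp
      · by_cases hb : InBase q a'
        · obtain ⟨h', hh', e1, e2⟩ := inBase_spec hq hker a' hb
          exact ⟨h', b :: t'', hh', ht', by rw [hv', e1], by rw [hs', e2]⟩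
        · refine ⟨1, a' :: b :: t'', by simp, ?_, ?_, ?_⟩
          · apply reduced_cons hb ht'
            intro c hc
            simp only [List.head?_cons, Option.mem_def, Option.some.injEq] at hc
            subst hc
            exact hab
          · rw [hv']; simp
          · rw [hs']; simp


/-! ## Ping-pong with integer matrices -/

variable (q)

/-- the integer matrix of a letter: `γ`, resp. `q · δ⁻¹ γ δ = [[q a, b], [q² c, q d]]` -/
def im (a : Letter N) : Matrix (Fin 2) (Fin 2) ℤ :=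
  if a.1 then !![(q : ℤ) * (a.2 : SL(2, ℤ)) 0 0, (a.2 : SL(2, ℤ)) 0 1;
      (q : ℤ) ^ 2 * (a.2 : SL(2, ℤ)) 1 0, (q : ℤ) * (a.2 : SL(2, ℤ)) 1 1]
  else (a.2 : SL(2, ℤ)).1

/-- the number of factors `q` -/
def cnt (a : Letter N) : ℕ := if a.1 then 1 else 0

/-- the cast of integer matrices -/
def cst : Matrix (Fin 2) (Fin 2) ℤ →+* Matrix (Fin 2) (Fin 2) ℚ := (Int.castRingHom ℚ).mapMatrix

theorem cst_apply (M : Matrix (Fin 2) (Fin 2) ℤ) (i j : Fin 2) : cst M i j = (M i j : ℚ) := rfl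

theorem cst_injective : Function.Injective cst := by
  intro M M' e
  ext i j
  have := congrFun (congrFun e i) j
  simpa [cst_apply] using this

theorem cst_im (hq : q ≠ 0) (a : Letter N) :
    cst (im q a) = (q : ℚ) ^ (cnt a) • (ev q hq a).1 := by
  have hq' : (q : ℚ) ≠ 0 := by exact_mod_cast hq
  obtain ⟨i, γ⟩ := a
  cases i
  · simp only [im, cnt, ev, Bool.false_eq_true, if_false, pow_zero, one_smul]
    rfl
  · simp only [im, cnt, ev, if_true, pow_one]
    rw [conjD_val]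
    ext i j
    fin_cases i <;> fin_cases j <;> simp [cst_apply, iota_apply] <;> field_simp

/-- the integer matrix of a word -/
def imW (w : List (Letter N)) : Matrix (Fin 2) (Fin 2) ℤ := (w.map (im q)).prod

/-- the number of factors `q` of a word -/
def cntW (w : List (Letter N)) : ℕ := (w.map cnt).sum

theorem cst_imW (hq : q ≠ 0) (w : List (Letter N)) :
    cst (imW q w) = (q : ℚ) ^ (cntW w) • (val q hq w).1 := by
  induction w with
  | nil => simp [imW, cntW]
  | cons a t ih =>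
    have h1 : imW q (a :: t) = im q a * imW q t := by simp [imW]
    have h2 : cntW (a :: t) = cnt a + cntW t := by simp [cntW]
    rw [h1, h2, map_mul, ih, cst_im q hq, val_cons, pow_add]
    rw [Matrix.smul_mul, Matrix.mul_smul, smul_smul]
    rfl

/-- the ping-pong sets -/
def ZZ (i : Bool) (v : Fin 2 → ℤ) : Prop :=
  if i then (¬ (q : ℤ) ∣ v 0 ∧ (q : ℤ) ∣ v 1) else ¬ (q : ℤ) ∣ v 1

variable {q}

theorem ZZ_im (hq : q.Prime) (a : Letter N) (ha : ¬ InBase q a) (v : Fin 2 → ℤ)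
    (hv : ZZ q (!a.1) v) : ZZ q a.1 ((im q a).mulVec v) := by
  have hp : Prime (q : ℤ) := Nat.prime_iff_prime_int.mp hq
  obtain ⟨i, γ⟩ := a
  cases i
  · simp only [InBase, Bool.false_eq_true, if_false] at ha
    simp only [ZZ, Bool.not_false, if_true] at hv
    simp only [ZZ, Bool.false_eq_true, if_false, im, Matrix.mulVec, dotProduct,
      Fin.sum_univ_two]
    intro hdvd
    have h1 : (q : ℤ) ∣ (γ : SL(2, ℤ)) 1 0 * v 0 := by
      have h2 : (q : ℤ) ∣ (γ : SL(2, ℤ)) 1 1 * v 1 := Dvd.dvd.mul_left hv.2 _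
      exact (dvd_add_left h2).mp hdvd
    rcases hp.dvd_or_dvd h1 with h | h
    · exact ha h
    · exact hv.1 h
  · simp only [InBase, if_true] at ha
    simp only [ZZ, Bool.not_true, Bool.false_eq_true, if_false] at hv
    simp only [ZZ, if_true, im, Matrix.mulVec, dotProduct, Fin.sum_univ_two]
    constructor
    · intro hdvd
      simp only [Matrix.of_apply, Matrix.cons_val_zero, Matrix.cons_val_one] at hdvd
      have h2 : (q : ℤ) ∣ (q : ℤ) * (γ : SL(2, ℤ)) 0 0 * v 0 :=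
        Dvd.dvd.mul_right (dvd_mul_right _ _) _
      have h1 : (q : ℤ) ∣ (γ : SL(2, ℤ)) 0 1 * v 1 := (dvd_add_right h2).mp hdvd
      rcases hp.dvd_or_dvd h1 with h | h
      · exact ha h
      · exact hv h
    · simp only [Matrix.of_apply, Matrix.cons_val_zero, Matrix.cons_val_one]
      apply dvd_add
      · rw [pow_two, mul_assoc, mul_assoc]
        exact dvd_mul_right _ _
      · rw [mul_assoc]
        exact dvd_mul_right _ _

theorem not_dvd_one (hq : q.Prime) : ¬ (q : ℤ) ∣ 1 := by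
  intro h
  have h1 : (q : ℤ) ∣ ((1 : ℕ) : ℤ) := by simpa using h
  have h2 : q ∣ 1 := Int.natCast_dvd_natCast.mp h1
  exact hq.one_lt.ne' (Nat.dvd_one.mp h2)

theorem exists_ZZ (hq : q.Prime) (i : Bool) : ∃ v : Fin 2 → ℤ, ZZ q i v := by
  cases i
  · exact ⟨![0, 1], by simpa [ZZ] using not_dvd_one hq⟩
  · exact ⟨![1, 0], by simpa [ZZ] using not_dvd_one hq⟩

theorem ZZ_not_dvd {i : Bool} {v : Fin 2 → ℤ} (h : ZZ q i v) : ∃ j : Fin 2, ¬ (q : ℤ) ∣ v j := by
  cases i
  · exact ⟨1, by simpa [ZZ] using h⟩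
  · exact ⟨0, by simpa [ZZ] using h.1⟩

/-- ping-pong: a nonempty reduced word maps some vector into the set of its first letter -/
theorem exists_ZZ_imW (hq : q.Prime) (w : List (Letter N)) (hw : Reduced q w) (a : Letter N)
    (ha : a ∈ w.head?) : ∃ v : Fin 2 → ℤ, ZZ q a.1 ((imW q w).mulVec v) := by
  induction w generalizing a with
  | nil => simp at ha
  | cons b t ih =>
    simp only [List.head?_cons, Option.mem_def, Option.some.injEq] at ha
    subst ha
    have hb : ¬ InBase q b := hw.2 b (by simp)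
    have h1 : imW q (b :: t) = im q b * imW q t := by simp [imW]
    cases t with
    | nil =>
      obtain ⟨v, hv⟩ := exists_ZZ hq (!b.1)
      refine ⟨v, ?_⟩
      rw [h1]
      simp only [imW, List.map_nil, List.prod_nil, mul_one]
      exact ZZ_im hq b hb v hv
    | cons c t' =>
      obtain ⟨v, hv⟩ := ih hw.tail c (by simp)
      refine ⟨v, ?_⟩
      rw [h1, ← Matrix.mulVec_mulVec]
      apply ZZ_im hq b hb
      have hbc : b.1 ≠ c.1 := by
        have := hw.1
        rw [List.isChain_cons_cons] at this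
        exact this.1
      have : (!b.1) = c.1 := by
        cases hb1 : b.1 <;> cases hc1 : c.1 <;> simp_all
      rw [this]
      exact hv

theorem cntW_eq_zero_iff (w : List (Letter N)) : cntW w = 0 ↔ ∀ a ∈ w, a.1 = false := by
  induction w with
  | nil => simp [cntW]
  | cons a t ih =>
    have h2 : cntW (a :: t) = cnt a + cntW t := by simp [cntW]
    rw [h2, Nat.add_eq_zero_iff, ih]
    simp only [List.mem_cons, forall_eq_or_imp]
    constructor
    · rintro ⟨h1, h3⟩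
      refine ⟨?_, h3⟩
      by_contra hne
      simp [cnt, hne] at h1
    · rintro ⟨h1, h3⟩
      exact ⟨by simp [cnt, h1], h3⟩

/-- ping-pong: a reduced word with value in `Γ₀(N q)` is empty -/
theorem eq_nil_of_val_eq (hq : q.Prime) (w : List (Letter N)) (hw : Reduced q w)
    (h : SL(2, ℤ)) (hh : (q : ℤ) ∣ h 1 0) (e : val q hq.ne_zero w = iota h) : w = [] := by
  by_contra hne
  obtain ⟨a, t, rfl⟩ := List.exists_cons_of_ne_nil hne
  obtain ⟨v, hv⟩ := exists_ZZ_imW hq (a :: t) hw a (by simp)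
  obtain ⟨j, hj⟩ := ZZ_not_dvd hv
  have h1 := cst_imW q hq.ne_zero (a :: t)
  rw [e] at h1
  have h2 : ∀ i j, imW q (a :: t) i j = (q : ℤ) ^ cntW (a :: t) * h i j := by
    intro i j
    have h3 := congrFun (congrFun h1 i) j
    simp only [cst_apply, Matrix.smul_apply, smul_eq_mul] at h3
    have h4 : (iota h).1 i j = ((h i j : ℤ) : ℚ) := rfl
    rw [h4] at h3
    exact_mod_cast h3
  by_cases hc : cntW (a :: t) = 0
  · rw [cntW_eq_zero_iff] at hc
    have ha1 : a.1 = false := hc a (by simp)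
    cases t with
    | nil =>
      have e' : iota a.2 = iota h := by
        have := e
        simpa [val, ev, ha1] using this
      have e'' := iota_injective e'
      apply hw.2 a (by simp)
      simp only [InBase, ha1, Bool.false_eq_true, if_false]
      rw [e'']
      exact hh
    | cons b t' =>
      have hb1 : b.1 = false := hc b (by simp)
      have := hw.1
      rw [List.isChain_cons_cons] at this
      exact this.1 (by rw [ha1, hb1])
  · apply hj
    obtain ⟨k, hk⟩ := Nat.exists_eq_succ_of_ne_zero hc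
    simp only [Matrix.mulVec, dotProduct, Fin.sum_univ_two]
    rw [h2, h2, hk, pow_succ]
    apply dvd_add
    · rw [mul_comm ((q : ℤ) ^ k), mul_assoc, mul_assoc]
      exact dvd_mul_right _ _
    · rw [mul_comm ((q : ℤ) ^ k), mul_assoc, mul_assoc]
      exact dvd_mul_right _ _


/-! ## Well-definedness -/

section wd

variable {A : Type*} [AddCommGroup A] {c₁ c₂ : Additive (Gamma0 N) →+ A}

theorem sig_eq_zero_of_val_eq_one (hq : q.Prime) (hqN : Nat.Coprime N q)
    (hker : KerCond q c₁ c₂ hq.ne_zero) (w : List (Letter N)) (e : val q hq.ne_zero w = 1) :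
    sig c₁ c₂ w = 0 := by
  obtain ⟨h, w', hh, hred, hv, hs⟩ := exists_normal_form hq.ne_zero hqN hker w
  rw [e] at hv
  have h1 : val q hq.ne_zero w' = iota ((h : SL(2, ℤ))⁻¹) := by
    rw [map_inv]
    exact eq_inv_of_mul_eq_one_right hv.symm
  have h2 : (q : ℤ) ∣ ((h : SL(2, ℤ))⁻¹) 1 0 := by
    rw [Matrix.SpecialLinearGroup.coe_inv, Matrix.adjugate_fin_two]
    simpa using hh
  have h3 := eq_nil_of_val_eq hq w' hred _ h2 h1
  subst h3
  have h4 : iota (h : SL(2, ℤ)) = iota 1 := by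
    rw [map_one]
    simpa using hv.symm
  have h5 : (h : SL(2, ℤ)) = 1 := iota_injective h4
  have h6 : h = 1 := Subtype.ext h5
  rw [hs, h6]
  simp

/-- the inverse word -/
def invW (w : List (Letter N)) : List (Letter N) := (w.reverse).map (fun a => (a.1, a.2⁻¹))

theorem ev_inv (hq : q ≠ 0) (a : Letter N) : ev q hq (a.1, a.2⁻¹) = (ev q hq a)⁻¹ := by
  obtain ⟨i, γ⟩ := a
  cases i <;> simp [ev]

theorem sg_inv (a : Letter N) : sg c₁ c₂ (a.1, a.2⁻¹) = - sg c₁ c₂ a := by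
  obtain ⟨i, γ⟩ := a
  cases i <;> simp [sg]

theorem val_invW (hq : q ≠ 0) (w : List (Letter N)) : val q hq (invW w) = (val q hq w)⁻¹ := by
  induction w with
  | nil => simp [invW]
  | cons a t ih =>
    have h1 : invW (a :: t) = invW t ++ [(a.1, a.2⁻¹)] := by simp [invW]
    rw [h1, val_append, ih, val_cons, val_cons, val_nil, mul_one, ev_inv, _root_.mul_inv_rev]

theorem sig_invW (w : List (Letter N)) : sig c₁ c₂ (invW w) = - sig c₁ c₂ w := by
  induction w with
  | nil => simp [invW]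
  | cons a t ih =>
    have h1 : invW (a :: t) = invW t ++ [(a.1, a.2⁻¹)] := by simp [invW]
    rw [h1, sig_append, ih, sig_cons, sig_cons, sig_nil, add_zero, sg_inv, neg_add, add_comm]

theorem sig_eq_of_val_eq (hq : q.Prime) (hqN : Nat.Coprime N q)
    (hker : KerCond q c₁ c₂ hq.ne_zero) (w w' : List (Letter N))
    (e : val q hq.ne_zero w = val q hq.ne_zero w') : sig c₁ c₂ w = sig c₁ c₂ w' := by
  have h1 : val q hq.ne_zero (w ++ invW w') = 1 := by
    rw [val_append, val_invW, e, mul_inv_cancel]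
  have h2 := sig_eq_zero_of_val_eq_one hq hqN hker _ h1
  rw [sig_append, sig_invW] at h2
  exact sub_eq_zero.mp (by rw [sub_eq_add_neg]; exact h2)

end wd

/-! ## The group `Γ₀(N)[1/q]` -/

/-- `Γ₀(N)[1/q]`: the matrices in `SL₂(ℤ[1/q])` whose lower left entry is in `N ℤ[1/q]`,
in the form: `q ^ k • g` is an integer matrix with lower left entry divisible by `N`. -/
def Delta (N q : ℕ) : Subgroup SL(2, ℚ) where
  carrier := {g | ∃ (k : ℕ) (M : Matrix (Fin 2) (Fin 2) ℤ),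
    cst M = (q : ℚ) ^ k • g.1 ∧ (N : ℤ) ∣ M 1 0}
  one_mem' := ⟨0, 1, by simp, by simp⟩
  mul_mem' := by
    rintro g g' ⟨k, M, hM, hN⟩ ⟨k', M', hM', hN'⟩
    refine ⟨k + k', M * M', ?_, ?_⟩
    · rw [map_mul, hM, hM', Matrix.SpecialLinearGroup.coe_mul, Matrix.smul_mul, Matrix.mul_smul,
        smul_smul, pow_add]
    · rw [Matrix.mul_apply, Fin.sum_univ_two]
      exact dvd_add (Dvd.dvd.mul_right hN _) (Dvd.dvd.mul_left hN' _)
  inv_mem' := by
    rintro g ⟨k, M, hM, hN⟩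
    refine ⟨k, !![M 1 1, - M 0 1; - M 1 0, M 0 0], ?_, ?_⟩
    · rw [Matrix.SpecialLinearGroup.coe_inv, Matrix.adjugate_fin_two]
      have h := fun i j => congrFun (congrFun hM i) j
      simp only [cst_apply, Matrix.smul_apply, smul_eq_mul] at h
      ext i j
      fin_cases i <;> fin_cases j <;> simp [cst_apply, h]
    · simpa using hN

theorem mem_Delta_iff {g : SL(2, ℚ)} : g ∈ Delta N q ↔
    ∃ (k : ℕ) (M : Matrix (Fin 2) (Fin 2) ℤ), cst M = (q : ℚ) ^ k • g.1 ∧ (N : ℤ) ∣ M 1 0 :=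
  Iff.rfl

theorem iota_mem_Delta (γ : Gamma0 N) : iota (γ : SL(2, ℤ)) ∈ Delta N q :=
  ⟨0, (γ : SL(2, ℤ)).1, by simp; rfl, mem_Gamma0_iff_dvd.mp γ.2⟩

theorem conjD_iota_mem_Delta (hq : q ≠ 0) (γ : Gamma0 N) :
    conjD q hq (iota (γ : SL(2, ℤ))) ∈ Delta N q := by
  refine ⟨1, im q (true, γ), ?_, ?_⟩
  · rw [cst_im q hq]
    simp [cnt, ev]
  · simp only [im, if_true]
    show (N : ℤ) ∣ (q : ℤ) ^ 2 * (γ : SL(2, ℤ)) 1 0
    exact Dvd.dvd.mul_left (mem_Gamma0_iff_dvd.mp γ.2) _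

theorem ev_mem_Delta (hq : q ≠ 0) (a : Letter N) : ev q hq a ∈ Delta N q := by
  obtain ⟨i, γ⟩ := a
  cases i
  · simp only [ev, Bool.false_eq_true, if_false]
    exact iota_mem_Delta (q := q) γ
  · simp only [ev, if_true]
    exact conjD_iota_mem_Delta hq γ

theorem val_mem_Delta (hq : q ≠ 0) (w : List (Letter N)) : val q hq w ∈ Delta N q := by
  induction w with
  | nil => simpa using (Delta N q).one_mem
  | cons a t ih =>
    rw [val_cons]
    exact (Delta N q).mul_mem (ev_mem_Delta hq a) ih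


/-! ## Generation -/

theorem exists_c {p : ℤ} (hp : Prime p) {n : ℤ} (hn : IsCoprime n p) (A B C D : ℤ)
    (hdet : p ∣ A * D - B * C) (hBD : ¬ (p ∣ B ∧ p ∣ D)) :
    ∃ c : ℤ, n ∣ c ∧ p ∣ A + B * c ∧ p ∣ C + D * c := by
  by_cases hB : p ∣ B
  · have hD : ¬ p ∣ D := fun h => hBD ⟨hB, h⟩
    have hcop : IsCoprime (n * D) p :=
      IsCoprime.mul_left hn ((Prime.coprime_iff_not_dvd hp).mpr hD).symm
    obtain ⟨x, y, hxy⟩ := hcop
    refine ⟨- n * x * C, ⟨- x * C, by ring⟩, ?_, ?_⟩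
    · have hA : p ∣ A := by
        have h1 : p ∣ A * D := by
          have : A * D = (A * D - B * C) + B * C := by ring
          rw [this]
          exact dvd_add hdet (Dvd.dvd.mul_right hB _)
        rcases hp.dvd_or_dvd h1 with h | h
        · exact h
        · exact absurd h hD
      exact dvd_add hA (Dvd.dvd.mul_right hB _)
    · have : C + D * (- n * x * C) = p * (y * C) := by
        linear_combination (-C) * hxy
      rw [this]
      exact dvd_mul_right _ _
  · have hcop : IsCoprime (n * B) p :=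
      IsCoprime.mul_left hn ((Prime.coprime_iff_not_dvd hp).mpr hB).symm
    obtain ⟨x, y, hxy⟩ := hcop
    refine ⟨- n * x * A, ⟨- x * A, by ring⟩, ?_, ?_⟩
    · have : A + B * (- n * x * A) = p * (y * A) := by
        linear_combination (-A) * hxy
      rw [this]
      exact dvd_mul_right _ _
    · have h1 : p ∣ B * (C + D * (- n * x * A)) := by
        have : B * (C + D * (- n * x * A)) = - (A * D - B * C) + p * (A * D * y) := by
          linear_combination (-(A * D)) * hxy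
        rw [this]
        exact dvd_add ((dvd_neg).mpr hdet) (dvd_mul_right _ _)
      rcases hp.dvd_or_dvd h1 with h | h
      · exact absurd h hB
      · exact h

/-- `diag(q, 1)` as an integer matrix -/
def Dq0 (q : ℕ) : Matrix (Fin 2) (Fin 2) ℤ := !![(q : ℤ), 0; 0, 1]

/-- `diag(1, q)` as an integer matrix -/
def Dq1 (q : ℕ) : Matrix (Fin 2) (Fin 2) ℤ := !![1, 0; 0, (q : ℤ)]

theorem cst_Dq0 : cst (Dq0 q) = dq q := by
  ext i j
  fin_cases i <;> fin_cases j <;> simp [cst_apply, Dq0, dq]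

theorem cst_Dq1_mul_dq : cst (Dq1 q) * dq q = (q : ℚ) • (1 : Matrix (Fin 2) (Fin 2) ℚ) := by
  ext i j
  fin_cases i <;> fin_cases j <;>
    simp [cst_apply, Dq1, dq, Matrix.mul_apply, Fin.sum_univ_two]

theorem exists_col0 (hq : q.Prime) (hqN : Nat.Coprime N q) (M : Matrix (Fin 2) (Fin 2) ℤ)
    (hdet : (q : ℤ) ∣ M.det) :
    ∃ (γ : Gamma0 N) (M' : Matrix (Fin 2) (Fin 2) ℤ), M * (γ : SL(2, ℤ)).1 = M' * Dq0 q := by
  have hp : Prime (q : ℤ) := Nat.prime_iff_prime_int.mp hq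
  have hcop : IsCoprime (N : ℤ) (q : ℤ) := by
    exact_mod_cast (Nat.isCoprime_iff_coprime.mpr hqN)
  rw [Matrix.det_fin_two] at hdet
  -- it suffices to find `γ` with first column of `M γ` divisible by `q`
  suffices h : ∃ γ : Gamma0 N, (q : ℤ) ∣ (M * (γ : SL(2, ℤ)).1) 0 0 ∧
      (q : ℤ) ∣ (M * (γ : SL(2, ℤ)).1) 1 0 by
    obtain ⟨γ, ⟨x, hx⟩, ⟨z, hz⟩⟩ := h
    refine ⟨γ, !![x, (M * (γ : SL(2, ℤ)).1) 0 1; z, (M * (γ : SL(2, ℤ)).1) 1 1], ?_⟩
    ext i j
    fin_cases i <;> fin_cases j <;>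
      simp [Dq0, Matrix.mul_apply, Fin.sum_univ_two] <;>
      simp [Matrix.mul_apply, Fin.sum_univ_two] at hx hz <;> linarith
  by_cases hBD : (q : ℤ) ∣ M 0 1 ∧ (q : ℤ) ∣ M 1 1
  · obtain ⟨x, y, hxy⟩ := hcop
    -- `x N + y q = 1`: take `γ = [[q, -x], [N, y]]`
    refine ⟨⟨mk4 q (-x) N y (by linarith), by rw [mem_Gamma0_iff_dvd]; simp⟩, ?_, ?_⟩
    · simp only [Matrix.mul_apply, Fin.sum_univ_two]
      show (q : ℤ) ∣ M 0 0 * q + M 0 1 * N
      exact dvd_add (dvd_mul_left _ _) (Dvd.dvd.mul_right hBD.1 _)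
    · simp only [Matrix.mul_apply, Fin.sum_univ_two]
      show (q : ℤ) ∣ M 1 0 * q + M 1 1 * N
      exact dvd_add (dvd_mul_left _ _) (Dvd.dvd.mul_right hBD.2 _)
  · obtain ⟨c, hNc, h1, h2⟩ := exists_c hp hcop (M 0 0) (M 0 1) (M 1 0) (M 1 1) hdet hBD
    refine ⟨⟨mk4 1 0 c 1 (by ring), by rw [mem_Gamma0_iff_dvd]; simpa using hNc⟩, ?_, ?_⟩
    · simp only [Matrix.mul_apply, Fin.sum_univ_two]
      show (q : ℤ) ∣ M 0 0 * 1 + M 0 1 * c
      simpa using h1
    · simp only [Matrix.mul_apply, Fin.sum_univ_two]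
      show (q : ℤ) ∣ M 1 0 * 1 + M 1 1 * c
      simpa using h2

theorem exists_col1 (hq : q.Prime) (hqN : Nat.Coprime N q) (M : Matrix (Fin 2) (Fin 2) ℤ)
    (hdet : (q : ℤ) ∣ M.det) :
    ∃ (γ : Gamma0 N) (M' : Matrix (Fin 2) (Fin 2) ℤ), M * (γ : SL(2, ℤ)).1 = M' * Dq1 q := by
  have hp : Prime (q : ℤ) := Nat.prime_iff_prime_int.mp hq
  have hcop : IsCoprime (N : ℤ) (q : ℤ) := by
    exact_mod_cast (Nat.isCoprime_iff_coprime.mpr hqN)
  rw [Matrix.det_fin_two] at hdet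
  suffices h : ∃ γ : Gamma0 N, (q : ℤ) ∣ (M * (γ : SL(2, ℤ)).1) 0 1 ∧
      (q : ℤ) ∣ (M * (γ : SL(2, ℤ)).1) 1 1 by
    obtain ⟨γ, ⟨x, hx⟩, ⟨z, hz⟩⟩ := h
    refine ⟨γ, !![(M * (γ : SL(2, ℤ)).1) 0 0, x; (M * (γ : SL(2, ℤ)).1) 1 0, z], ?_⟩
    ext i j
    fin_cases i <;> fin_cases j <;>
      simp [Dq1, Matrix.mul_apply, Fin.sum_univ_two] <;>
      simp [Matrix.mul_apply, Fin.sum_univ_two] at hx hz <;> linarith
  by_cases hAC : (q : ℤ) ∣ M 0 0 ∧ (q : ℤ) ∣ M 1 0
  · obtain ⟨x, y, hxy⟩ := hcop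
    -- `x N + y q = 1`: take `γ = [[y, -x], [N, q]]`
    refine ⟨⟨mk4 y (-x) N q (by linarith), by rw [mem_Gamma0_iff_dvd]; simp⟩, ?_, ?_⟩
    · simp only [Matrix.mul_apply, Fin.sum_univ_two]
      show (q : ℤ) ∣ M 0 0 * (-x) + M 0 1 * q
      exact dvd_add (Dvd.dvd.mul_right hAC.1 _) (dvd_mul_left _ _)
    · simp only [Matrix.mul_apply, Fin.sum_univ_two]
      show (q : ℤ) ∣ M 1 0 * (-x) + M 1 1 * q
      exact dvd_add (Dvd.dvd.mul_right hAC.2 _) (dvd_mul_left _ _)
  · have hdet' : (q : ℤ) ∣ M 0 1 * M 1 0 - M 0 0 * M 1 1 := by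
      have : M 0 1 * M 1 0 - M 0 0 * M 1 1 = - (M 0 0 * M 1 1 - M 0 1 * M 1 0) := by ring
      rw [this]
      exact (dvd_neg).mpr hdet
    obtain ⟨c, -, h1, h2⟩ := exists_c hp (isCoprime_one_left : IsCoprime (1 : ℤ) (q : ℤ))
      (M 0 1) (M 0 0) (M 1 1) (M 1 0) hdet' hAC
    refine ⟨⟨mk4 1 c 0 1 (by ring), by rw [mem_Gamma0_iff_dvd]; simp⟩, ?_, ?_⟩
    · simp only [Matrix.mul_apply, Fin.sum_univ_two]
      show (q : ℤ) ∣ M 0 0 * c + M 0 1 * 1
      rw [add_comm, mul_one]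
      exact h1
    · simp only [Matrix.mul_apply, Fin.sum_univ_two]
      show (q : ℤ) ∣ M 1 0 * c + M 1 1 * 1
      rw [add_comm, mul_one]
      exact h2


theorem cst_det (M : Matrix (Fin 2) (Fin 2) ℤ) : (cst M).det = ((M.det : ℤ) : ℚ) := by
  have := (RingHom.map_det (Int.castRingHom ℚ) M).symm
  simpa [cst] using this

theorem cst_coe (γ : SL(2, ℤ)) : cst γ.1 = (iota γ).1 := rfl

theorem dvd_10_of_mul_Dq0 (hqN : Nat.Coprime N q) {X M' : Matrix (Fin 2) (Fin 2) ℤ}
    (h : X = M' * Dq0 q) (hX : (N : ℤ) ∣ X 1 0) : (N : ℤ) ∣ M' 1 0 := by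
  have hcop : IsCoprime (N : ℤ) (q : ℤ) := by
    exact_mod_cast (Nat.isCoprime_iff_coprime.mpr hqN)
  have h1 : X 1 0 = M' 1 0 * q := by
    rw [h]
    simp [Dq0, Matrix.mul_apply, Fin.sum_univ_two]
  rw [h1] at hX
  exact hcop.dvd_of_dvd_mul_right hX

theorem dvd_10_of_mul_Dq1 {X M' : Matrix (Fin 2) (Fin 2) ℤ}
    (h : X = M' * Dq1 q) (hX : (N : ℤ) ∣ X 1 0) : (N : ℤ) ∣ M' 1 0 := by
  have h1 : X 1 0 = M' 1 0 := by
    rw [h]
    simp [Dq1, Matrix.mul_apply, Fin.sum_univ_two]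
  rwa [h1] at hX

theorem dvd_10_mul {M : Matrix (Fin 2) (Fin 2) ℤ} (hM : (N : ℤ) ∣ M 1 0) (γ : Gamma0 N) :
    (N : ℤ) ∣ (M * (γ : SL(2, ℤ)).1) 1 0 := by
  rw [Matrix.mul_apply, Fin.sum_univ_two]
  exact dvd_add (Dvd.dvd.mul_right hM _) (Dvd.dvd.mul_left (mem_Gamma0_iff_dvd.mp γ.2) _)

theorem det_Dq0 : (Dq0 q).det = q := by simp [Dq0, Matrix.det_fin_two]

/-- generation: every element of `Γ₀(N)[1/q]` is the value of a word -/
theorem exists_word (hq : q.Prime) (hqN : Nat.Coprime N q) :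
    ∀ (k : ℕ) (g : SL(2, ℚ)) (M : Matrix (Fin 2) (Fin 2) ℤ),
      cst M = (q : ℚ) ^ k • g.1 → (N : ℤ) ∣ M 1 0 →
      ∃ w : List (Letter N), val q hq.ne_zero w = g := by
  have hq0 : (q : ℚ) ≠ 0 := by exact_mod_cast hq.ne_zero
  have hqz : (q : ℤ) ≠ 0 := by exact_mod_cast hq.ne_zero
  intro k
  induction k with
  | zero =>
    intro g M hM hN
    rw [pow_zero, one_smul] at hM
    have hdet : M.det = 1 := by
      have h1 := cst_det M
      rw [hM, g.2] at h1
      exact_mod_cast h1.symm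
    let γ : SL(2, ℤ) := ⟨M, hdet⟩
    have hγ : γ ∈ Gamma0 N := mem_Gamma0_iff_dvd.mpr hN
    refine ⟨[(false, ⟨γ, hγ⟩)], ?_⟩
    simp only [val_cons, val_nil, mul_one, ev, Bool.false_eq_true, if_false]
    apply Subtype.ext
    exact hM
  | succ k ih =>
    intro g M hM hN
    have hdet : M.det = (q : ℤ) ^ (2 * k + 1) * q := by
      have h1 := cst_det M
      rw [hM, Matrix.det_smul, g.2, Fintype.card_fin] at h1
      have h2 : ((M.det : ℤ) : ℚ) = (((q : ℤ) ^ (2 * k + 1) * q : ℤ) : ℚ) := by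
        rw [← h1]
        push_cast
        ring
      exact_mod_cast h2
    obtain ⟨γ, M', h1⟩ := exists_col0 hq hqN M (by rw [hdet]; exact dvd_mul_left _ _)
    have hdet' : M'.det = (q : ℤ) ^ (2 * k + 1) := by
      have h2 := congrArg Matrix.det h1
      rw [Matrix.det_mul, Matrix.det_mul, (γ : SL(2, ℤ)).2, mul_one, det_Dq0, hdet] at h2
      exact (mul_right_cancel₀ hqz h2).symm
    obtain ⟨γ', M'', h2⟩ := exists_col1 hq hqN M'
      (by rw [hdet', pow_succ]; exact dvd_mul_left _ _)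
    have hN' : (N : ℤ) ∣ M' 1 0 := dvd_10_of_mul_Dq0 hqN h1 (dvd_10_mul hN γ)
    have hN'' : (N : ℤ) ∣ M'' 1 0 := dvd_10_of_mul_Dq1 h2 (dvd_10_mul hN' γ')
    set g₂ : SL(2, ℚ) := g * iota γ * conjD q hq.ne_zero (iota γ') with hg₂
    have key : cst M'' = (q : ℚ) ^ k • g₂.1 := by
      have e1 : cst M' = (q : ℚ) ^ (k + 1) • (g.1 * (iota γ).1 * dqInv q) := by
        calc cst M' = cst M' * (dq q * dqInv q) := by rw [dq_mul_dqInv hq.ne_zero, mul_one]
          _ = cst (M' * Dq0 q) * dqInv q := by rw [map_mul, cst_Dq0, Matrix.mul_assoc]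
          _ = cst M * (iota γ).1 * dqInv q := by rw [← h1, map_mul, cst_coe]
          _ = _ := by rw [hM, Matrix.smul_mul, Matrix.smul_mul]
      have e2 : (q : ℚ) • cst M'' = (q : ℚ) ^ (k + 1) • g₂.1 := by
        calc (q : ℚ) • cst M'' = cst M'' * ((q : ℚ) • (1 : Matrix (Fin 2) (Fin 2) ℚ)) := by
              rw [Matrix.mul_smul, mul_one]
          _ = cst (M'' * Dq1 q) * dq q := by
              rw [← cst_Dq1_mul_dq, map_mul, Matrix.mul_assoc]
          _ = cst M' * (iota γ').1 * dq q := by rw [← h2, map_mul, cst_coe]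
          _ = (q : ℚ) ^ (k + 1) • (g.1 * (iota γ).1 * (dqInv q * (iota γ').1 * dq q)) := by
              rw [e1, Matrix.smul_mul, Matrix.smul_mul]
              simp only [Matrix.mul_assoc]
          _ = _ := rfl
      have e3 : (q : ℚ) • cst M'' = (q : ℚ) • ((q : ℚ) ^ k • g₂.1) := by
        rw [e2, smul_smul, pow_succ, mul_comm]
      exact smul_right_injective _ hq0 e3
    obtain ⟨w, hw⟩ := ih g₂ M'' key hN''
    refine ⟨w ++ [(true, γ'⁻¹), (false, γ⁻¹)], ?_⟩
    rw [val_append, hw, hg₂]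
    simp [ev]

theorem exists_word_of_mem (hq : q.Prime) (hqN : Nat.Coprime N q) {g : SL(2, ℚ)}
    (hg : g ∈ Delta N q) : ∃ w : List (Letter N), val q hq.ne_zero w = g := by
  obtain ⟨k, M, hM, hN⟩ := hg
  exact exists_word hq hqN k g M hM hN

/-! ## The homomorphism on `Γ₀(N)[1/q]` -/

/-- **P1a (amalgam)**: a pair `(c₁, c₂)` of homomorphisms on `Γ₀(N)` with
`c₁(g) + c₂(δ g δ⁻¹) = 0` on `Γ₀(N q)` (`δ = diag(q, 1)`) glues to one homomorphism `Φ` on
`Γ₀(N)[1/q]`, with `Φ = c₁` on `Γ₀(N)` and `Φ(δ⁻¹ γ δ) = - c₂(γ)` for `γ ∈ Γ₀(N)`. -/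
theorem exists_hom (hq : q.Prime) (hqN : Nat.Coprime N q) {A : Type*} [AddCommGroup A]
    (c₁ c₂ : Additive (Gamma0 N) →+ A) (hker : KerCond q c₁ c₂ hq.ne_zero) :
    ∃ Φ : Additive (Delta N q) →+ A,
      (∀ γ : Gamma0 N, Φ (Additive.ofMul ⟨iota (γ : SL(2, ℤ)), iota_mem_Delta γ⟩)
        = c₁ (Additive.ofMul γ)) ∧
      (∀ γ : Gamma0 N, Φ (Additive.ofMul ⟨conjD q hq.ne_zero (iota (γ : SL(2, ℤ))),
          conjD_iota_mem_Delta hq.ne_zero γ⟩) = - c₂ (Additive.ofMul γ)) := by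
  classical
  have hex : ∀ g : Delta N q, ∃ w : List (Letter N), val q hq.ne_zero w = g.1 :=
    fun g => exists_word_of_mem hq hqN g.2
  choose W hW using hex
  have hwd : ∀ (g : Delta N q) (w : List (Letter N)), val q hq.ne_zero w = g.1 →
      sig c₁ c₂ (W g) = sig c₁ c₂ w := fun g w hw =>
    sig_eq_of_val_eq hq hqN hker _ _ (by rw [hW, hw])
  refine ⟨{ toFun := fun g => sig c₁ c₂ (W (Additive.toMul g))
            map_zero' := ?_
            map_add' := ?_ }, ?_, ?_⟩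
  · rw [hwd _ [] (by simp)]
    simp
  · intro g g'
    rw [hwd _ (W (Additive.toMul g) ++ W (Additive.toMul g'))
      (by rw [val_append, hW, hW]; rfl), sig_append]
  · intro γ
    show sig c₁ c₂ (W _) = _
    rw [hwd _ [(false, γ)] (by simp [ev])]
    simp [sg]
  · intro γ
    show sig c₁ c₂ (W _) = _
    rw [hwd _ [(true, γ)] (by simp [ev])]
    simp [sg]

end Fermat.Agent.S41.P1a
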