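import Mathlib
import Fermat.Agent.S41.DegenLam
import Fermat.Agent.S41.Amalgam

/-!
# S41, piece P3, part 7: bridge to the amalgam (P1a)

`α* c₁ + β* c₂ = 0` is the kernel condition `KerCond` of `S41/Amalgam.lean`.
-/

set_option autoImplicit false
set_option linter.unusedSectionVars false
set_option linter.unusedVariables false

noncomputable section

open Matrix.SpecialLinearGroup CongruenceSubgroup
open scoped MatrixGroups OnePoint
open ModularCurve.Period
open Fermat.Agent.S29.D1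
open P2MW.S_ModularForm_heckeT_slash_eq_self_of_mem_Gamma0.ModularForm.HeckeSlashInvariance

namespace Fermat.Agent.S41.P3

variable {q : ℕ} [Fact q.Prime] {N : ℕ}

/-- the cocycle of `β*` from the entries: if `g' = δ g δ⁻¹` then `kap g ∞ = g'` -/
theorem kap_infty_eq_of_entries (hqN : ¬ q ∣ N) (g : Gamma0 (N * q)) (g' : SL(2, ℤ))
    (h00 : g' 0 0 = (g : SL(2, ℤ)) 0 0) (h01 : g' 0 1 = q * (g : SL(2, ℤ)) 0 1)
    (h10 : (g : SL(2, ℤ)) 1 0 = q * g' 1 0) (h11 : g' 1 1 = (g : SL(2, ℤ)) 1 1) :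
    ((kap hqN (⟨g, Gamma0_mul_le N q g.2⟩ : Gamma0 N) (∞ : OnePoint (ZMod q)) : Gamma0 N)
      : SL(2, ℤ)) = g' := by
  symm
  apply kap_unique
  have hperm : perm ((⟨g, Gamma0_mul_le N q g.2⟩ : Gamma0 N) : SL(2, ℤ))
      (∞ : OnePoint (ZMod q)) = ∞ := ((mem_Gamma0_mul_iff hqN _).mp g.2).2
  rw [hperm]
  apply Matrix.GeneralLinearGroup.ext
  intro i j
  simp only [Matrix.GeneralLinearGroup.coe_mul, heckeRep_val, mapGL_val, hA_infty, hB_infty,
    hD_infty]
  have e00 := congrArg (Int.cast : ℤ → ℝ) h00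
  have e01 := congrArg (Int.cast : ℤ → ℝ) h01
  have e10 := congrArg (Int.cast : ℤ → ℝ) h10
  have e11 := congrArg (Int.cast : ℤ → ℝ) h11
  push_cast at e00 e01 e10 e11
  fin_cases i <;> fin_cases j <;>
    simp [Matrix.mul_apply, Fin.sum_univ_two]
  · linear_combination (-(q : ℝ)) * e00
  · linear_combination (-1 : ℝ) * e01
  · linear_combination e10
  · exact h11.symm

/-- **`α* c₁ + β* c₂ = 0` implies the kernel condition of the amalgam** -/
theorem kerCond_of_add_eq_zero (hqN : ¬ q ∣ N) {A : Type*} [AddCommGroup A]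
    (c₁ c₂ : Additive (Gamma0 N) →+ A)
    (h : (alphaUp N q).op A c₁ + (betaUp hqN).op A c₂ = 0) :
    Fermat.Agent.S41.P1a.KerCond q c₁ c₂ (Fact.out : q.Prime).ne_zero := by
  intro g g' e
  have hq0 : (q : ℚ) ≠ 0 := by exact_mod_cast (Fact.out : q.Prime).ne_zero
  have e00 := congrArg (fun M : SL(2, ℚ) => M 0 0) e
  have e01 := congrArg (fun M : SL(2, ℚ) => M 0 1) e
  have e10 := congrArg (fun M : SL(2, ℚ) => M 1 0) e
  have e11 := congrArg (fun M : SL(2, ℚ) => M 1 1) e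
  simp only [P1a.conjD_00, P1a.conjD_01, P1a.conjD_10, P1a.conjD_11, P1a.iota_apply] at e00 e01 e10 e11
  have h00 : (g' : SL(2, ℤ)) 0 0 = (g : SL(2, ℤ)) 0 0 := by exact_mod_cast e00
  have h01 : (g' : SL(2, ℤ)) 0 1 = q * (g : SL(2, ℤ)) 0 1 := by
    have : (((g' : SL(2, ℤ)) 0 1 : ℤ) : ℚ) = ((q * (g : SL(2, ℤ)) 0 1 : ℤ) : ℚ) := by
      push_cast
      rw [← e01]
      field_simp
    exact_mod_cast this
  have h10 : (g : SL(2, ℤ)) 1 0 = q * (g' : SL(2, ℤ)) 1 0 := by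
    have : (((g : SL(2, ℤ)) 1 0 : ℤ) : ℚ) = ((q * (g' : SL(2, ℤ)) 1 0 : ℤ) : ℚ) := by
      push_cast
      rw [← e10]
    exact_mod_cast this
  have h11 : (g' : SL(2, ℤ)) 1 1 = (g : SL(2, ℤ)) 1 1 := by exact_mod_cast e11
  have hg : (g : SL(2, ℤ)) ∈ Gamma0 (N * q) := by
    apply mem_Gamma0_of_dvd'
    rw [h10]
    push_cast
    rw [mul_comm (N : ℤ)]
    exact mul_dvd_mul_left _ (dvd_of_mem_Gamma0 g'.2)
  have h1 := congrArg (fun c : Additive (Gamma0 (N * q)) →+ A =>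
    c (Additive.ofMul (⟨g, hg⟩ : Gamma0 (N * q)))) h
  simp only [AddMonoidHom.add_apply, AddMonoidHom.zero_apply] at h1
  have ha : (alphaUp N q).op A c₁ (Additive.ofMul (⟨g, hg⟩ : Gamma0 (N * q)))
      = c₁ (Additive.ofMul g) := by
    unfold alphaUp
    rw [resFam_op_apply]
  have hb : (betaUp hqN).op A c₂ (Additive.ofMul (⟨g, hg⟩ : Gamma0 (N * q)))
      = c₂ (Additive.ofMul g') := by
    rw [CosetFam.op_apply]
    simp only [Finset.univ_unique, Finset.sum_singleton]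
    congr 2
    apply Subtype.ext
    exact kap_infty_eq_of_entries hqN ⟨g, hg⟩ g' h00 h01 h10 h11
  rw [ha, hb] at h1
  exact h1

end Fermat.Agent.S41.P3
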