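import Mathlib
import Fermat.Agent.S41.Amalgam
import Fermat.Prelude.Def_ModularCurve_PeriodMap

/-!
# S41, Route H, piece H1a: the first-column symbol of a parabolic homomorphism on `Γ₀(N)`

For a parabolic homomorphism `c₁ : Γ₀(N) → A` the value `c₁ γ` only depends on the first column
`(a, c)` of `γ`; this defines the symbol `S c₁ a c`.

* `c1_eq_of_col` : same first column, same value.
* `exists_col` : every coprime pair `(a, c)` with `N ∣ c` is a first column.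
* `S_eq` : `S c₁ (γ 0 0) (γ 1 0) = c₁ γ`.
* (M1) `S_add_mul_left` : `S (a + z c) c = S a c`.
* (M2) `S_add_mul_right` : `S a (c + N y a) = S a c`.
* (Q) is in `S41/RHSymQ.lean`.
-/

set_option autoImplicit false

noncomputable section

open Matrix Matrix.SpecialLinearGroup CongruenceSubgroup
open scoped MatrixGroups
open ModularCurve.Period

namespace Fermat.Agent.S41.RH

open Fermat.Agent.S41.P1a

variable {N : ℕ} {A : Type*} [AddCommGroup A]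

/-- the trace of an element of `SL₂(ℤ)` -/
theorem trace_eq (g : SL(2, ℤ)) : (g : Matrix (Fin 2) (Fin 2) ℤ).trace = g 0 0 + g 1 1 := by
  rw [Matrix.trace_fin_two]

/-- a parabolic homomorphism kills the elements with first column `(1, 0)` -/
theorem c1_eq_zero_of_col {c₁ : Additive (Gamma0 N) →+ A} (hpar : IsParabolicHom (Gamma0 N) c₁)
    (δ : Gamma0 N) (h00 : (δ : SL(2, ℤ)) 0 0 = 1) (h10 : (δ : SL(2, ℤ)) 1 0 = 0) :
    c₁ (Additive.ofMul δ) = 0 := by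
  apply hpar
  have h1 := det_eq_one (δ : SL(2, ℤ))
  rw [h00, h10] at h1
  have h11 : (δ : SL(2, ℤ)) 1 1 = 1 := by linarith
  rw [trace_eq, h00, h11]
  norm_num

/-- a parabolic homomorphism kills the elements with first row `(1, 0)` -/
theorem c1_eq_zero_of_row {c₁ : Additive (Gamma0 N) →+ A} (hpar : IsParabolicHom (Gamma0 N) c₁)
    (δ : Gamma0 N) (h00 : (δ : SL(2, ℤ)) 0 0 = 1) (h01 : (δ : SL(2, ℤ)) 0 1 = 0) :
    c₁ (Additive.ofMul δ) = 0 := by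
  apply hpar
  have h1 := det_eq_one (δ : SL(2, ℤ))
  rw [h00, h01] at h1
  have h11 : (δ : SL(2, ℤ)) 1 1 = 1 := by linarith
  rw [trace_eq, h00, h11]
  norm_num

theorem c1_mul' (c₁ : Additive (Gamma0 N) →+ A) (g h : Gamma0 N) :
    c₁ (Additive.ofMul (g * h)) = c₁ (Additive.ofMul g) + c₁ (Additive.ofMul h) := by
  rw [ofMul_mul, map_add]

theorem c1_inv' (c₁ : Additive (Gamma0 N) →+ A) (g : Gamma0 N) :
    c₁ (Additive.ofMul g⁻¹) = - c₁ (Additive.ofMul g) := by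
  rw [ofMul_inv, map_neg]

theorem inv_00 (g : SL(2, ℤ)) : (g⁻¹ : SL(2, ℤ)) 0 0 = g 1 1 := by
  rw [Matrix.SpecialLinearGroup.coe_inv, Matrix.adjugate_fin_two]; rfl

theorem inv_01 (g : SL(2, ℤ)) : (g⁻¹ : SL(2, ℤ)) 0 1 = - g 0 1 := by
  rw [Matrix.SpecialLinearGroup.coe_inv, Matrix.adjugate_fin_two]; rfl

theorem inv_10 (g : SL(2, ℤ)) : (g⁻¹ : SL(2, ℤ)) 1 0 = - g 1 0 := by
  rw [Matrix.SpecialLinearGroup.coe_inv, Matrix.adjugate_fin_two]; rfl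

theorem inv_11 (g : SL(2, ℤ)) : (g⁻¹ : SL(2, ℤ)) 1 1 = g 0 0 := by
  rw [Matrix.SpecialLinearGroup.coe_inv, Matrix.adjugate_fin_two]; rfl

theorem mul_00 (g h : SL(2, ℤ)) : (g * h : SL(2, ℤ)) 0 0 = g 0 0 * h 0 0 + g 0 1 * h 1 0 := by
  rw [Matrix.SpecialLinearGroup.coe_mul, Matrix.mul_apply, Fin.sum_univ_two]

theorem mul_01 (g h : SL(2, ℤ)) : (g * h : SL(2, ℤ)) 0 1 = g 0 0 * h 0 1 + g 0 1 * h 1 1 := by
  rw [Matrix.SpecialLinearGroup.coe_mul, Matrix.mul_apply, Fin.sum_univ_two]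

theorem mul_10 (g h : SL(2, ℤ)) : (g * h : SL(2, ℤ)) 1 0 = g 1 0 * h 0 0 + g 1 1 * h 1 0 := by
  rw [Matrix.SpecialLinearGroup.coe_mul, Matrix.mul_apply, Fin.sum_univ_two]

theorem mul_11 (g h : SL(2, ℤ)) : (g * h : SL(2, ℤ)) 1 1 = g 1 0 * h 0 1 + g 1 1 * h 1 1 := by
  rw [Matrix.SpecialLinearGroup.coe_mul, Matrix.mul_apply, Fin.sum_univ_two]

/-- **well-definedness**: two elements of `Γ₀(N)` with the same first column have the same value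
under a parabolic homomorphism -/
theorem c1_eq_of_col {c₁ : Additive (Gamma0 N) →+ A} (hpar : IsParabolicHom (Gamma0 N) c₁)
    (γ γ' : Gamma0 N) (h00 : (γ' : SL(2, ℤ)) 0 0 = (γ : SL(2, ℤ)) 0 0)
    (h10 : (γ' : SL(2, ℤ)) 1 0 = (γ : SL(2, ℤ)) 1 0) :
    c₁ (Additive.ofMul γ') = c₁ (Additive.ofMul γ) := by
  have h : γ' = γ * (γ⁻¹ * γ') := by group
  have hz : c₁ (Additive.ofMul (γ⁻¹ * γ')) = 0 := by
    apply c1_eq_zero_of_col hpar
    · show ((γ : SL(2, ℤ))⁻¹ * (γ' : SL(2, ℤ))) 0 0 = 1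
      rw [mul_00, inv_00, inv_01, h00, h10]
      have := det_eq_one (γ : SL(2, ℤ))
      linarith
    · show ((γ : SL(2, ℤ))⁻¹ * (γ' : SL(2, ℤ))) 1 0 = 0
      rw [mul_10, inv_10, inv_11, h00, h10]
      ring
  rw [h, c1_mul', hz, add_zero]

/-- the translation `[[1, z], [0, 1]]` in `Γ₀(N)` -/
def Tz (N : ℕ) (z : ℤ) : Gamma0 N :=
  ⟨mk4 1 z 0 1 (by ring), mem_Gamma0_iff_dvd.mpr (by simp)⟩

/-- the lower unipotent `[[1, 0], [N y, 1]]` in `Γ₀(N)` -/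
def Ly (N : ℕ) (y : ℤ) : Gamma0 N :=
  ⟨mk4 1 0 (N * y) 1 (by ring), mem_Gamma0_iff_dvd.mpr (by simp)⟩

@[simp] theorem Tz_00 (z : ℤ) : ((Tz N z : Gamma0 N) : SL(2, ℤ)) 0 0 = 1 := rfl
@[simp] theorem Tz_01 (z : ℤ) : ((Tz N z : Gamma0 N) : SL(2, ℤ)) 0 1 = z := rfl
@[simp] theorem Tz_10 (z : ℤ) : ((Tz N z : Gamma0 N) : SL(2, ℤ)) 1 0 = 0 := rfl
@[simp] theorem Tz_11 (z : ℤ) : ((Tz N z : Gamma0 N) : SL(2, ℤ)) 1 1 = 1 := rfl
@[simp] theorem Ly_00 (y : ℤ) : ((Ly N y : Gamma0 N) : SL(2, ℤ)) 0 0 = 1 := rfl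
@[simp] theorem Ly_01 (y : ℤ) : ((Ly N y : Gamma0 N) : SL(2, ℤ)) 0 1 = 0 := rfl
@[simp] theorem Ly_10 (y : ℤ) : ((Ly N y : Gamma0 N) : SL(2, ℤ)) 1 0 = N * y := rfl
@[simp] theorem Ly_11 (y : ℤ) : ((Ly N y : Gamma0 N) : SL(2, ℤ)) 1 1 = 1 := rfl

theorem c1_Tz {c₁ : Additive (Gamma0 N) →+ A} (hpar : IsParabolicHom (Gamma0 N) c₁) (z : ℤ) :
    c₁ (Additive.ofMul (Tz N z)) = 0 :=
  c1_eq_zero_of_col hpar _ rfl rfl

theorem c1_Ly {c₁ : Additive (Gamma0 N) →+ A} (hpar : IsParabolicHom (Gamma0 N) c₁) (y : ℤ) :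
    c₁ (Additive.ofMul (Ly N y)) = 0 :=
  c1_eq_zero_of_row hpar _ rfl rfl

/-- every coprime pair `(a, c)` with `N ∣ c` is the first column of an element of `Γ₀(N)` -/
theorem exists_col {a c : ℤ} (h : IsCoprime a c) (hN : (N : ℤ) ∣ c) :
    ∃ γ : Gamma0 N, (γ : SL(2, ℤ)) 0 0 = a ∧ (γ : SL(2, ℤ)) 1 0 = c := by
  obtain ⟨u, v, huv⟩ := h
  exact ⟨⟨mk4 a (-v) c u (by linarith), mem_Gamma0_iff_dvd.mpr (by simpa using hN)⟩, rfl, rfl⟩

/-- the first column of an element of `Γ₀(N)` is a coprime pair with `N ∣ c` -/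
theorem isCoprime_col (γ : Gamma0 N) :
    IsCoprime ((γ : SL(2, ℤ)) 0 0) ((γ : SL(2, ℤ)) 1 0) :=
  ⟨(γ : SL(2, ℤ)) 1 1, - (γ : SL(2, ℤ)) 0 1, by
    have := det_eq_one (γ : SL(2, ℤ)); linarith⟩

theorem dvd_col (γ : Gamma0 N) : (N : ℤ) ∣ (γ : SL(2, ℤ)) 1 0 :=
  mem_Gamma0_iff_dvd.mp γ.2

/-- **the first-column symbol** of a homomorphism on `Γ₀(N)`: the value at any element with first
column `(a, c)` (and `0` if there is none). -/
def S (c₁ : Additive (Gamma0 N) →+ A) (a c : ℤ) : A :=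
  open Classical in
  if h : ∃ γ : Gamma0 N, (γ : SL(2, ℤ)) 0 0 = a ∧ (γ : SL(2, ℤ)) 1 0 = c then
    c₁ (Additive.ofMul (Classical.choose h)) else 0

/-- the symbol of the first column of `γ` is `c₁ γ` -/
theorem S_eq' {c₁ : Additive (Gamma0 N) →+ A} (hpar : IsParabolicHom (Gamma0 N) c₁)
    (γ : Gamma0 N) {a c : ℤ} (ha : (γ : SL(2, ℤ)) 0 0 = a) (hc : (γ : SL(2, ℤ)) 1 0 = c) :
    S c₁ a c = c₁ (Additive.ofMul γ) := by
  have h : ∃ γ : Gamma0 N, (γ : SL(2, ℤ)) 0 0 = a ∧ (γ : SL(2, ℤ)) 1 0 = c := ⟨γ, ha, hc⟩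
  unfold S
  rw [dif_pos h]
  obtain ⟨h0, h1⟩ := Classical.choose_spec h
  exact c1_eq_of_col hpar _ _ (by rw [h0, ha]) (by rw [h1, hc])

theorem S_eq {c₁ : Additive (Gamma0 N) →+ A} (hpar : IsParabolicHom (Gamma0 N) c₁)
    (γ : Gamma0 N) :
    S c₁ ((γ : SL(2, ℤ)) 0 0) ((γ : SL(2, ℤ)) 1 0) = c₁ (Additive.ofMul γ) :=
  S_eq' hpar γ rfl rfl

/-- the symbol vanishes outside the first columns -/
theorem S_eq_zero_of_not (c₁ : Additive (Gamma0 N) →+ A) {a c : ℤ}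
    (h : ¬ (IsCoprime a c ∧ (N : ℤ) ∣ c)) : S c₁ a c = 0 := by
  unfold S
  rw [dif_neg]
  rintro ⟨γ, rfl, rfl⟩
  exact h ⟨isCoprime_col γ, dvd_col γ⟩

/-- **(M1)** `S (a + z c) c = S a c` (left multiplication by `[[1, z], [0, 1]]`) -/
theorem S_add_mul_left {c₁ : Additive (Gamma0 N) →+ A} (hpar : IsParabolicHom (Gamma0 N) c₁)
    (a c z : ℤ) : S c₁ (a + z * c) c = S c₁ a c := by
  by_cases h : IsCoprime a c ∧ (N : ℤ) ∣ c
  · obtain ⟨γ, rfl, rfl⟩ := exists_col h.1 h.2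
    rw [S_eq hpar γ, S_eq' hpar (Tz N z * γ) (a := (γ : SL(2, ℤ)) 0 0 + z * (γ : SL(2, ℤ)) 1 0)
      (c := (γ : SL(2, ℤ)) 1 0), c1_mul', c1_Tz hpar, zero_add]
    · show ((Tz N z : SL(2, ℤ)) * (γ : SL(2, ℤ))) 0 0 = _
      rw [mul_00]; simp
    · show ((Tz N z : SL(2, ℤ)) * (γ : SL(2, ℤ))) 1 0 = _
      rw [mul_10]; simp
  · rw [S_eq_zero_of_not c₁ h, S_eq_zero_of_not]
    rintro ⟨h1, h2⟩
    apply h
    refine ⟨?_, h2⟩
    have h3 := h1.add_mul_right_left (-z)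
    have h4 : a + z * c + -z * c = a := by ring
    rwa [h4] at h3

/-- **(M2)** `S a (c + N y a) = S a c` (left multiplication by `[[1, 0], [N y, 1]]`) -/
theorem S_add_mul_right {c₁ : Additive (Gamma0 N) →+ A} (hpar : IsParabolicHom (Gamma0 N) c₁)
    (a c y : ℤ) : S c₁ a (c + N * y * a) = S c₁ a c := by
  by_cases h : IsCoprime a c ∧ (N : ℤ) ∣ c
  · obtain ⟨γ, rfl, rfl⟩ := exists_col h.1 h.2
    rw [S_eq hpar γ, S_eq' hpar (Ly N y * γ) (a := (γ : SL(2, ℤ)) 0 0)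
      (c := (γ : SL(2, ℤ)) 1 0 + N * y * (γ : SL(2, ℤ)) 0 0), c1_mul', c1_Ly hpar, zero_add]
    · show ((Ly N y : SL(2, ℤ)) * (γ : SL(2, ℤ))) 0 0 = _
      rw [mul_00]; simp
    · show ((Ly N y : SL(2, ℤ)) * (γ : SL(2, ℤ))) 1 0 = _
      rw [mul_10]; simp; ring
  · rw [S_eq_zero_of_not c₁ h, S_eq_zero_of_not]
    rintro ⟨h1, h2⟩
    apply h
    refine ⟨?_, ?_⟩
    · have h3 := h1.add_mul_left_right (-(N * y))
      have h4 : c + (N : ℤ) * y * a + a * -((N : ℤ) * y) = c := by ring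
      rwa [h4] at h3
    · have h3 : (N : ℤ) ∣ N * y * a := ⟨y * a, by ring⟩
      exact (dvd_add_left h3).mp h2

/-- (M1), congruence form -/
theorem S_congr_left {c₁ : Additive (Gamma0 N) →+ A} (hpar : IsParabolicHom (Gamma0 N) c₁)
    {a a' c : ℤ} (h : c ∣ a' - a) : S c₁ a' c = S c₁ a c := by
  obtain ⟨z, hz⟩ := h
  have : a' = a + z * c := by linarith
  rw [this, S_add_mul_left hpar]

/-- (M2), congruence form -/
theorem S_congr_right {c₁ : Additive (Gamma0 N) →+ A} (hpar : IsParabolicHom (Gamma0 N) c₁)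
    {a c c' : ℤ} (h : (N : ℤ) * a ∣ c' - c) : S c₁ a c' = S c₁ a c := by
  obtain ⟨y, hy⟩ := h
  have : c' = c + N * y * a := by linarith
  rw [this, S_add_mul_right hpar]

end Fermat.Agent.S41.RH
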