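import Mathlib
import Fermat.Agent.S41.AsmDefs
import Fermat.Agent.S41.AbsEigExtract
import Fermat.Agent.S41.RHSym
import Fermat.Agent.S41.DegenBridge
import Fermat.Agent.S41.Amalgam
import Fermat.Agent.S29.ParFinal

/-!
# C81 (S41), assembly, part A: hypothesis (A) (local injectivity of `i` modulo `p`), Route H

From the three inputs of Route H, stated here as interfaces:
* `ApplyEqZero N q p` (piece H1): a parabolic `c : Γ₀(N) → ZMod p` which extends to `Γ₀(N)[1/q]`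
  and is a `T_ℓ`-eigenvector with eigenvalue `≢ 1 + ℓ` vanishes on the `γ` with `γ₀₀ ∣ ℓ - 1`;
* `SndHom N q p`: the second component of a pair in the kernel extends as well;
* `PrimeSupply p W` (piece H2): non-Eisenstein good primes `ℓ ≡ 1` modulo one of two coprime
  integers.
-/

set_option autoImplicit false
set_option linter.unusedSectionVars false
set_option linter.unusedVariables false
set_option linter.style.haveILetI false

noncomputable section

open Matrix.SpecialLinearGroup CongruenceSubgroup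
open scoped MatrixGroups
open ModularCurve.Period
open Fermat.Agent.S29.D1 Fermat.Agent.S31.Lat Fermat.Agent.S41.P3 Fermat.Agent.S41.Abs
open Fermat.Agent.S41.P1a

namespace Fermat.Agent.S41.Asm

/-- interface of piece H1 (`RH.apply_eq_zero`), coefficients `ZMod p` -/
def ApplyEqZero (N q p : ℕ) : Prop :=
  ∀ (c : Additive (Gamma0 N) →+ ZMod p), IsParabolicHom (Gamma0 N) c →
  ∀ (Φ : Additive (Delta N q) →+ ZMod p),
    (∀ γ : Gamma0 N, Φ (Additive.ofMul ⟨iota (γ : SL(2, ℤ)), iota_mem_Delta γ⟩)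
      = c (Additive.ofMul γ)) →
  ∀ (ℓ : ℕ) [Fact ℓ.Prime] (hℓN : ¬ ℓ ∣ N), ℓ ≠ q → ∀ lam : ℤ,
    heckeHom (ZMod p) hℓN c = lam • c →
    (∀ x : ZMod p, (lam - 1 - (ℓ : ℤ)) • x = 0 → x = 0) →
  ∀ γ : Gamma0 N, ((γ : SL(2, ℤ)) 0 0) ∣ (ℓ : ℤ) - 1 → c (Additive.ofMul γ) = 0

/-- interface: the second component of a pair in the kernel extends to `Γ₀(N)[1/q]` -/
def SndHom (N q p : ℕ) : Prop :=
  ∀ (hq : q.Prime) (c₁ c₂ : Additive (Gamma0 N) →+ ZMod p), KerCond q c₁ c₂ hq.ne_zero →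
    ∃ Φ₂ : Additive (Delta N q) →+ ZMod p,
      ∀ γ : Gamma0 N, Φ₂ (Additive.ofMul ⟨iota (γ : SL(2, ℤ)), iota_mem_Delta γ⟩)
        = c₂ (Additive.ofMul γ)

/-- interface of piece H2 (`RH.exists_prime_dvd_sub_one`) -/
def PrimeSupply (p : ℕ) (W : WeierstrassCurve ℤ) : Prop :=
  ∀ (S : Finset ℕ) (a' a'' : ℤ), a' ≠ 0 → a'' ≠ 0 → IsCoprime a' a'' →
    ∃ ℓ : ℕ, ℓ.Prime ∧ ℓ ∉ S ∧ ℓ ≠ p ∧ W.IsGoodPrimeFor ℓ ∧
      ¬ (p : ℤ) ∣ W.apOfModel ℓ - (1 + ℓ) ∧ (a' ∣ (ℓ : ℤ) - 1 ∨ a'' ∣ (ℓ : ℤ) - 1)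

variable {N q p : ℕ} {W : WeierstrassCurve ℤ} [NeZero N] [Fact q.Prime] [Fact p.Prime]
variable {hqN : ¬ q ∣ N}

/-- a parabolic homomorphism on `Γ₀(N)`, `N ≥ 2`, which is an eigenvector of the `T_ℓ` with the
eigenvalues `a_ℓ(W)` and extends to `Γ₀(N)[1/q]`, vanishes -/
theorem eq_zero_of_eigen (hN2 : 2 ≤ N) (H1 : ApplyEqZero N q p) (H2 : PrimeSupply p W)
    (c : Additive (Gamma0 N) →+ ZMod p) (hpar : IsParabolicHom (Gamma0 N) c)
    (Φ : Additive (Delta N q) →+ ZMod p)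
    (hΦ : ∀ γ : Gamma0 N, Φ (Additive.ofMul ⟨iota (γ : SL(2, ℤ)), iota_mem_Delta γ⟩)
      = c (Additive.ofMul γ))
    (heig : ∀ i : Idx N q p W,
      @heckeHom N i.1 ⟨i.prime⟩ (ZMod p) _ i.not_dvd_left c = (W.apOfModel i.1 : ℤ) • c)
    (γ : Gamma0 N) : c (Additive.ofMul γ) = 0 := by
  classical
  set a : ℤ := (γ : SL(2, ℤ)) 0 0 with ha
  set c₀ : ℤ := (γ : SL(2, ℤ)) 1 0 with hc₀
  have hcop : IsCoprime a c₀ := RH.isCoprime_col γ
  have hNc : (N : ℤ) ∣ c₀ := RH.dvd_col γ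
  have hN2' : (2 : ℤ) ≤ (N : ℤ) := by exact_mod_cast hN2
  have hNunit : ¬ IsUnit (N : ℤ) := by
    intro h
    rcases Int.isUnit_iff.mp h with h1 | h1 <;> omega
  have hc₀unit : ¬ IsUnit c₀ := fun h => hNunit (isUnit_of_dvd_unit hNc h)
  have ha0 : a ≠ 0 := by
    intro h
    rw [h] at hcop
    exact hc₀unit (isCoprime_zero_left.mp hcop)
  have hcop' : IsCoprime (a + c₀) c₀ := by
    have := hcop.add_mul_left_left 1
    simpa using this
  have ha0' : a + c₀ ≠ 0 := by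
    intro h
    rw [h] at hcop'
    exact hc₀unit (isCoprime_zero_left.mp hcop')
  have hcop2 : IsCoprime a (a + c₀) := by
    have := hcop.add_mul_left_right 1
    simpa [add_comm] using this
  obtain ⟨ℓ, hℓ, hℓS, hℓp, hgood, hne, hdvd⟩ := H2 (N * q).primeFactors a (a + c₀) ha0 ha0' hcop2
  have hq : q.Prime := Fact.out
  have hNq0 : N * q ≠ 0 := Nat.mul_ne_zero (NeZero.ne N) hq.ne_zero
  have hℓNq : ¬ ℓ ∣ N * q := fun h => hℓS (Nat.mem_primeFactors.mpr ⟨hℓ, h, hNq0⟩)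
  let i : Idx N q p W := ⟨ℓ, hℓ, hgood, hℓNq, hℓp⟩
  haveI : Fact ℓ.Prime := ⟨hℓ⟩
  have hℓq : ℓ ≠ q := by
    rintro rfl
    exact hℓNq (dvd_mul_left _ _)
  have hunit : ∀ x : ZMod p, ((W.apOfModel ℓ : ℤ) - 1 - (ℓ : ℤ)) • x = 0 → x = 0 := by
    intro x hx
    rw [zsmul_eq_mul] at hx
    rcases mul_eq_zero.mp hx with h | h
    · exfalso
      apply hne
      have := (ZMod.intCast_zmod_eq_zero_iff_dvd _ p).mp h
      convert this using 1
      ring
    · exact h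
  have key := H1 c hpar Φ hΦ ℓ i.not_dvd_left hℓq (W.apOfModel ℓ : ℤ) (heig i) hunit
  rcases hdvd with h | h
  · exact key γ h
  · -- use `U(1) γ`
    have h1 := key (RH.Tz N 1 * γ) (by
      show ((RH.Tz N 1 : SL(2, ℤ)) * (γ : SL(2, ℤ))) 0 0 ∣ (ℓ : ℤ) - 1
      rw [RH.mul_00]
      simpa using h)
    rw [RH.c1_mul', RH.c1_Tz hpar, zero_add] at h1
    exact h1

/-- the eigen-equation modulo `p` of a component -/
theorem heckeHom_redMod_of_mem (hC : Comm N q p W hqN) (w : Lam N) (i : Idx N q p W)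
    (h : ∃ w' : Lam N, tN N q p W i w - (W.apOfModel i.1 : ℤ) • w = p • w') :
    @heckeHom N i.1 ⟨i.prime⟩ (ZMod p) _ i.not_dvd_left (redMod N p w : parFin N p).1
      = (W.apOfModel i.1 : ℤ) • (redMod N p w : parFin N p).1 := by
  obtain ⟨w', hw'⟩ := h
  have h1 : redMod N p (tN N q p W i w) = (W.apOfModel i.1 : ℤ) • redMod N p w := by
    have h2 : redMod N p (tN N q p W i w - (W.apOfModel i.1 : ℤ) • w) = 0 := by
      rw [hw', redMod_smul]
    rw [map_sub, map_zsmul, sub_eq_zero] at h2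
    exact h2
  have h3 := congrArg (fun x : parFin N p => (x : Additive (Gamma0 N) →+ ZMod p)) h1
  beta_reduce at h3
  rw [tN, redMod_Tpar, Fermat.Agent.S29.D1.coe_heckeParFin i.prime i.not_dvd_left] at h3
  rw [h3]
  rfl

/-- **hypothesis (A)**: `i` is locally injective modulo `p` -/
theorem hA_concrete (hC : Comm N q p W hqN) (hN2 : 2 ≤ N) (H1 : ApplyEqZero N q p)
    (Hs : SndHom N q p) (H2 : PrimeSupply p W) :
    ∀ x : LN hC × LN hC, iP hC x ∈ pMul (P := HP N q p W) p (LNq hC) →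
      x ∈ locSub (nIdeal N q p W) (pMul (P := HP N q p W) p (LN hC × LN hC)) := by
  have hp : p.Prime := Fact.out
  have hq : q.Prime := Fact.out
  haveI : NeZero p := ⟨hp.ne_zero⟩
  refine hA_of_forall_eigen (nIdeal N q p W) p hp.pos (iP hC) ?_
  intro z hiz hz
  -- the components and their reductions
  have hcomp : ∀ i : Idx N q p W,
      (∃ w' : Lam N, tN N q p W i (show Lam N from z.1) - (W.apOfModel i.1 : ℤ) • (show Lam N from z.1)
        = p • w') ∧
      (∃ w' : Lam N, tN N q p W i (show Lam N from z.2) - (W.apOfModel i.1 : ℤ) • (show Lam N from z.2)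
        = p • w') := by
    intro i
    obtain ⟨z', hz'⟩ := hz _ (X_sub_C_mem_nIdeal N q p W i)
    have e1 : ∀ u : LN hC, (MvPolynomial.X i - MvPolynomial.C (W.apOfModel i.1 : ℤ) : HP N q p W) • u
        = (tN N q p W i (show Lam N from u) - (W.apOfModel i.1 : ℤ) • (show Lam N from u) : Lam N) := by
      intro u
      rw [smul_LN, map_sub, LinearMap.sub_apply, polyAct_X, polyAct_C_apply]
    have h1 := congrArg Prod.fst hz'
    have h2 := congrArg Prod.snd hz'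
    rw [Prod.smul_fst, e1] at h1
    rw [Prod.smul_snd, e1] at h2
    exact ⟨⟨z'.1, h1⟩, ⟨z'.2, h2⟩⟩
  set c₁ : Additive (Gamma0 N) →+ ZMod p := (redMod N p (show Lam N from z.1) : parFin N p).1 with hc₁
  set c₂ : Additive (Gamma0 N) →+ ZMod p := (redMod N p (show Lam N from z.2) : parFin N p).1 with hc₂
  have hpar₁ : IsParabolicHom (Gamma0 N) c₁ := (redMod N p (show Lam N from z.1) : parFin N p).2.1
  have hpar₂ : IsParabolicHom (Gamma0 N) c₂ := (redMod N p (show Lam N from z.2) : parFin N p).2.1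
  have heig₁ : ∀ i : Idx N q p W,
      @heckeHom N i.1 ⟨i.prime⟩ (ZMod p) _ i.not_dvd_left c₁ = (W.apOfModel i.1 : ℤ) • c₁ :=
    fun i => heckeHom_redMod_of_mem hC _ i (hcomp i).1
  have heig₂ : ∀ i : Idx N q p W,
      @heckeHom N i.1 ⟨i.prime⟩ (ZMod p) _ i.not_dvd_left c₂ = (W.apOfModel i.1 : ℤ) • c₂ :=
    fun i => heckeHom_redMod_of_mem hC _ i (hcomp i).2
  -- the kernel condition
  have hsum : (alphaUp N q).op (ZMod p) c₁ + (betaUp hqN).op (ZMod p) c₂ = 0 := by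
    obtain ⟨y', hy'⟩ := hiz
    have h1 : ((iLam hqN (show Lam N × Lam N from z) : Lam (N * q)) :
        Additive (Gamma0 (N * q)) →+ ℤ) = p • (show Lam (N * q) from y').1 := by
      have := congrArg (fun u : Lam (N * q) => (u : Additive (Gamma0 (N * q)) →+ ℤ)) hy'
      exact this
    rw [iUp_apply] at h1
    have h2 : ((aUp ℤ ℤ hqN (show Lam N from z.1) + bUp ℤ ℤ hqN (show Lam N from z.2) : Lam (N * q)) :
        Additive (Gamma0 (N * q)) →+ ℤ)
        = (alphaUp N q).op ℤ (show Lam N from z.1).1 + (betaUp hqN).op ℤ (show Lam N from z.2).1 := rfl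
    rw [h2] at h1
    have e1 : (alphaUp N q).op (ZMod p) c₁
        = (Int.castAddHom (ZMod p)).comp ((alphaUp N q).op ℤ (show Lam N from z.1).1) :=
      alphaUp_comp_hom (Int.castAddHom (ZMod p)) _
    have e2 : (betaUp hqN).op (ZMod p) c₂
        = (Int.castAddHom (ZMod p)).comp ((betaUp hqN).op ℤ (show Lam N from z.2).1) :=
      betaUp_comp_hom (Int.castAddHom (ZMod p)) hqN _
    rw [e1, e2]
    refine AddMonoidHom.ext fun g => ?_
    have h3 := congrArg (fun u : Additive (Gamma0 (N * q)) →+ ℤ => ((u g : ℤ) : ZMod p)) h1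
    simp only [AddMonoidHom.add_apply, AddMonoidHom.smul_apply, nsmul_eq_mul, Int.cast_add,
      Int.cast_mul, Int.cast_natCast, ZMod.natCast_self, zero_mul] at h3
    simpa using h3
  have hker := kerCond_of_add_eq_zero hqN c₁ c₂ hsum
  have hqN' : Nat.Coprime N q := ((Nat.Prime.coprime_iff_not_dvd hq).mpr hqN).symm
  obtain ⟨Φ, hΦ, -⟩ := exists_hom hq hqN' c₁ c₂ hker
  obtain ⟨Φ₂, hΦ₂⟩ := Hs hq c₁ c₂ hker
  have hz₁ : redMod N p (show Lam N from z.1) = 0 := by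
    apply Subtype.ext
    refine AddMonoidHom.ext fun γ => ?_
    exact eq_zero_of_eigen hN2 H1 H2 c₁ hpar₁ Φ hΦ heig₁ (Additive.toMul γ)
  have hz₂ : redMod N p (show Lam N from z.2) = 0 := by
    apply Subtype.ext
    refine AddMonoidHom.ext fun γ => ?_
    exact eq_zero_of_eigen hN2 H1 H2 c₂ hpar₂ Φ₂ hΦ₂ heig₂ (Additive.toMul γ)
  obtain ⟨w₁, hw₁⟩ := exists_eq_smul_of_redMod_eq_zero p _ hz₁
  obtain ⟨w₂, hw₂⟩ := exists_eq_smul_of_redMod_eq_zero p _ hz₂
  exact ⟨(w₁, w₂), Prod.ext hw₁ hw₂⟩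

end Fermat.Agent.S41.Asm
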