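import Mathlib
import Fermat.Agent.S41.AbsLocal

/-!
# C81 (S41, level raising), piece P5b: local surjectivity of `i†` from duality

`P` a commutative ring, `𝔫` a prime ideal containing the prime number `p`.  `M`, `L'` are
`P`-modules, finitely generated over `ℤ`, `L'` free over `ℤ`, with `ℤ`-valued pairings `B₂` on `M`
(perfect) and `B'` on `L'` (representing every functional), `i : M → L'` and `i† : L' → M` adjoint.
If `i` is locally injective modulo `p` (A), then `i†` is locally surjective (B).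
-/

set_option autoImplicit false
set_option linter.unusedSectionVars false
set_option linter.unusedVariables false
set_option linter.style.haveILetI false

namespace Fermat.Agent.S41.Abs

section Nakayama

variable {P : Type*} [CommRing P] (𝔫 : Ideal P) [h𝔫 : 𝔫.IsPrime]

/-- **Nakayama**: if `s • C ≤ I • C` with `I ≤ 𝔫` and `s ∉ 𝔫`, then `C` is killed by some
`r ∉ 𝔫`. -/
theorem exists_notMem_smul_eq_zero {C : Type*} [AddCommGroup C] [Module P C] [Module.Finite P C]
    {I : Ideal P} (hI : I ≤ 𝔫) {s : P} (hs : s ∉ 𝔫)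
    (h : ∀ c : C, s • c ∈ I • (⊤ : Submodule P C)) :
    ∃ r : P, r ∉ 𝔫 ∧ ∀ c : C, r • c = 0 := by
  set f : Module.End P C := algebraMap P (Module.End P C) s with hf
  have hrange : LinearMap.range f ≤ I • (⊤ : Submodule P C) := by
    rintro _ ⟨c, rfl⟩
    rw [hf, Module.algebraMap_end_apply]
    exact h c
  obtain ⟨Q, hmonic, -, hcoeff, hQ⟩ :=
    LinearMap.exists_monic_and_natDegree_eq_and_coeff_mem_pow_and_aeval_eq_zero P f I hrange
  rw [hf, Polynomial.aeval_algebraMap_apply_eq_algebraMap_eval] at hQ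
  refine ⟨Q.eval s, ?_, fun c => ?_⟩
  · rw [Polynomial.eval_eq_sum_range, Finset.sum_range_succ]
    have h1 : ∑ k ∈ Finset.range Q.natDegree, Q.coeff k * s ^ k ∈ 𝔫 := by
      refine 𝔫.sum_mem fun k hk => ?_
      rw [Finset.mem_range] at hk
      refine 𝔫.mul_mem_right _ (hI ?_)
      have := hcoeff k
      exact Ideal.pow_le_self (by omega) this
    have h2 : Q.coeff Q.natDegree * s ^ Q.natDegree ∉ 𝔫 := by
      rw [hmonic.coeff_natDegree, one_mul]
      exact fun hmem => hs (h𝔫.mem_of_pow_mem _ hmem)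
    intro hmem
    exact h2 ((Submodule.add_mem_iff_right 𝔫 h1).1 hmem)
  · have := congrArg (fun F : Module.End P C => F c) hQ
    simpa [Module.algebraMap_end_apply] using this

end Nakayama

section ModP

variable (p : ℕ) [hp : Fact p.Prime]

/-- a functional modulo `p` that kills the kernel of `g` factors through `g` -/
theorem exists_functional_factor {M V : Type*} [AddCommGroup M] [AddCommGroup V]
    [Module (ZMod p) V] (f : M →+ ZMod p) (g : M →+ V) (h : ∀ x, g x = 0 → f x = 0) :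
    ∃ φ : V →ₗ[ZMod p] ZMod p, ∀ x, φ (g x) = f x := by
  classical
  let U : Submodule (ZMod p) V := AddSubgroup.toZModSubmodule p g.range
  have hU : ∀ u : U, ∃ x, g x = u := fun u => u.2
  choose c hc using hU
  have hspec : ∀ (x : M) (u : U), (u : V) = g x → f (c u) = f x := by
    intro x u hu
    have h1 : g (c u - x) = 0 := by rw [map_sub, hc, hu, sub_self]
    have h2 := h _ h1
    rwa [map_sub, sub_eq_zero] at h2
  let φ₀ : U →+ ZMod p :=
    { toFun := fun u => f (c u)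
      map_zero' := by
        have := hspec 0 0 (by simp)
        simpa using this
      map_add' := fun u v => by
        have := hspec (c u + c v) (u + v) (by simp [hc])
        rw [this, map_add] }
  obtain ⟨φ, hφ⟩ := LinearMap.exists_extend (AddMonoidHom.toZModLinearMap p φ₀)
  refine ⟨φ, fun x => ?_⟩
  have hx : g x ∈ U := ⟨x, rfl⟩
  have h1 : φ (g x) = φ₀ ⟨g x, hx⟩ := by
    have := congrArg (fun F : U →ₗ[ZMod p] ZMod p => F ⟨g x, hx⟩) hφ
    simpa using this
  rw [h1]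
  exact hspec x ⟨g x, hx⟩ rfl

/-- a functional modulo `p` on `M` that kills `i⁻¹(p L')` factors through `i` -/
theorem exists_factor_mod {M L' : Type*} [AddCommGroup M] [AddCommGroup L']
    (f : M →+ ZMod p) (i : M →+ L') (h : ∀ x, (∃ z : L', i x = p • z) → f x = 0) :
    ∃ θ : L' →+ ZMod p, ∀ x, θ (i x) = f x := by
  let H : AddSubgroup L' := (nsmulAddMonoidHom p : L' →+ L').range
  letI : Module (ZMod p) (L' ⧸ H) := AddCommGroup.zmodModule (n := p) (by
    intro x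
    obtain ⟨y, rfl⟩ := QuotientAddGroup.mk'_surjective H x
    rw [← map_nsmul, QuotientAddGroup.mk'_apply, QuotientAddGroup.eq_zero_iff]
    exact ⟨y, rfl⟩)
  obtain ⟨φ, hφ⟩ := exists_functional_factor p f ((QuotientAddGroup.mk' H).comp i) (by
    intro x hx
    rw [AddMonoidHom.comp_apply, QuotientAddGroup.mk'_apply, QuotientAddGroup.eq_zero_iff] at hx
    obtain ⟨z, hz⟩ := hx
    exact h x ⟨z, hz.symm⟩)
  exact ⟨φ.toAddMonoidHom.comp (QuotientAddGroup.mk' H), fun x => hφ x⟩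

/-- functionals modulo `p` on a free `ℤ`-module lift to `ℤ` -/
theorem exists_int_lift {L' : Type*} [AddCommGroup L'] [Module.Free ℤ L'] (θ : L' →+ ZMod p) :
    ∃ ψ : L' →+ ℤ, ∀ x, ((ψ x : ℤ) : ZMod p) = θ x := by
  obtain ⟨ψ, hψ⟩ := Module.projective_lifting_property
    (Int.castAddHom (ZMod p)).toIntLinearMap θ.toIntLinearMap
    (fun a => ⟨(ZMod.cast a : ℤ), by simp⟩)
  refine ⟨ψ.toAddMonoidHom, fun x => ?_⟩
  have := congrArg (fun F : L' →ₗ[ℤ] ZMod p => F x) hψ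
  simpa using this

end ModP

section Main

variable {P : Type*} [CommRing P] (𝔫 : Ideal P) [h𝔫 : 𝔫.IsPrime]
variable (p : ℕ) [hp : Fact p.Prime]
variable {M L' : Type*} [AddCommGroup M] [AddCommGroup L'] [Module P M] [Module P L']

/-- the key congruence: `s₁ • y ∈ range i† + p M` -/
theorem exists_eq_add_nsmul [Module.Finite ℤ M] [Module.Free ℤ L']
    (i : M →ₗ[P] L') (it : L' →ₗ[P] M) (B₂ : M →+ M →+ ℤ) (B' : L' →+ L' →+ ℤ)
    (hperf' : ∀ ψ : L' →+ ℤ, ∃ y', ∀ x', ψ x' = B' x' y')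
    (hperf₂ : ∀ ψ : M →+ ℤ, ∃ y, ∀ x, ψ x = B₂ x y)
    (hnd₂ : ∀ y, (∀ x, B₂ x y = 0) → y = 0)
    (hadj : ∀ x y', B' (i x) y' = B₂ x (it y'))
    (hself : ∀ (s : P) (x y : M), B₂ (s • x) y = B₂ x (s • y))
    (hA : ∀ x, i x ∈ pMul (P := P) p L' → x ∈ locSub 𝔫 (pMul (P := P) p M)) :
    ∃ s₁ : P, s₁ ∉ 𝔫 ∧ ∀ y : M, ∃ (y' : L') (w : M), s₁ • y = it y' + p • w := by
  haveI : IsNoetherian ℤ M := isNoetherian_of_isNoetherianRing_of_finite ℤ M
  obtain ⟨s₁, hs₁, hK⟩ := exists_common_smul_mem 𝔫 (pMul (P := P) p M)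
    ((pMul (P := P) p L').comap i) (IsNoetherian.noetherian _) (fun x hx => hA x hx)
  refine ⟨s₁, hs₁, fun y => ?_⟩
  set y₀ := s₁ • y with hy₀
  -- the functional `x ↦ B₂ x y₀ mod p`
  let f : M →+ ZMod p := (Int.castAddHom (ZMod p)).comp (B₂.flip y₀)
  have hf : ∀ x, f x = ((B₂ x y₀ : ℤ) : ZMod p) := fun x => rfl
  obtain ⟨θ, hθ⟩ := exists_factor_mod p f i.toAddMonoidHom (by
    rintro x ⟨z, hz⟩
    have hx : x ∈ (pMul (P := P) p L').comap i := ⟨z, hz⟩
    obtain ⟨x₁, hx₁⟩ := hK x hx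
    rw [hf, hy₀, ← hself, hx₁, map_nsmul, AddMonoidHom.coe_smul, Pi.smul_apply]
    simp)
  obtain ⟨ψ, hψ⟩ := exists_int_lift p θ
  obtain ⟨y', hy'⟩ := hperf' ψ
  have hdvd : ∀ x, (p : ℤ) ∣ B₂ x (y₀ - it y') := by
    intro x
    rw [← ZMod.intCast_zmod_eq_zero_iff_dvd, map_sub, Int.cast_sub, sub_eq_zero, ← hf,
      ← hadj, ← hy', hψ]
    exact (hθ x).symm
  -- divide by `p`
  have hp0 : (p : ℤ) ≠ 0 := by exact_mod_cast hp.out.ne_zero
  let μ : M →+ ℤ :=
    { toFun := fun x => B₂ x (y₀ - it y') / p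
      map_zero' := by simp
      map_add' := fun a b => by
        obtain ⟨ka, hka⟩ := hdvd a
        obtain ⟨kb, hkb⟩ := hdvd b
        have hab : B₂ (a + b) (y₀ - it y') = p * (ka + kb) := by
          rw [map_add, AddMonoidHom.add_apply, hka, hkb]
          ring
        rw [hab, hka, hkb, Int.mul_ediv_cancel_left _ hp0, Int.mul_ediv_cancel_left _ hp0,
          Int.mul_ediv_cancel_left _ hp0] }
  have hμ : ∀ x, (p : ℤ) * μ x = B₂ x (y₀ - it y') := fun x =>
    Int.mul_ediv_cancel' (hdvd x)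
  obtain ⟨w, hw⟩ := hperf₂ μ
  refine ⟨y', w, ?_⟩
  have h0 : y₀ - it y' - p • w = 0 := by
    apply hnd₂
    intro x
    rw [map_sub, map_nsmul, ← hw, ← hμ]
    simp
  have h1 : y₀ = it y' + p • w := by
    rw [sub_sub, sub_eq_zero] at h0
    exact h0
  exact h1

/-- **P5b**: `i†` is locally surjective -/
theorem locally_surjective_of_duality [Module.Finite ℤ M] [Module.Free ℤ L']
    (hp𝔫 : (p : P) ∈ 𝔫)
    (i : M →ₗ[P] L') (it : L' →ₗ[P] M) (B₂ : M →+ M →+ ℤ) (B' : L' →+ L' →+ ℤ)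
    (hperf' : ∀ ψ : L' →+ ℤ, ∃ y', ∀ x', ψ x' = B' x' y')
    (hperf₂ : ∀ ψ : M →+ ℤ, ∃ y, ∀ x, ψ x = B₂ x y)
    (hnd₂ : ∀ y, (∀ x, B₂ x y = 0) → y = 0)
    (hadj : ∀ x y', B' (i x) y' = B₂ x (it y'))
    (hself : ∀ (s : P) (x y : M), B₂ (s • x) y = B₂ x (s • y))
    (hA : ∀ x, i x ∈ pMul (P := P) p L' → x ∈ locSub 𝔫 (pMul (P := P) p M)) :
    ∀ y : M, y ∈ locSub 𝔫 (LinearMap.range it) := by
  obtain ⟨s₁, hs₁, hkey⟩ := exists_eq_add_nsmul 𝔫 p i it B₂ B' hperf' hperf₂ hnd₂ hadj hself hA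
  set R : Submodule P M := LinearMap.range it with hR
  haveI : Module.Finite ℤ (M ⧸ R) :=
    Module.Finite.of_surjective ((R.mkQ).restrictScalars ℤ) (Submodule.mkQ_surjective R)
  haveI : Module.Finite P (M ⧸ R) := Module.Finite.of_restrictScalars_finite ℤ P (M ⧸ R)
  have hI : Ideal.span {(p : P)} ≤ 𝔫 := (Ideal.span_singleton_le_iff_mem 𝔫).2 hp𝔫
  obtain ⟨r, hr, hrC⟩ := exists_notMem_smul_eq_zero 𝔫 (C := M ⧸ R) hI hs₁ (by
    intro c
    obtain ⟨y, rfl⟩ := Submodule.mkQ_surjective R c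
    obtain ⟨y', w, hyw⟩ := hkey y
    have h1 : s₁ • R.mkQ y = (p : P) • R.mkQ w := by
      rw [← map_smul, hyw, map_add, ← map_smul]
      have h2 : R.mkQ (it y') = 0 := by
        rw [Submodule.mkQ_apply, Submodule.Quotient.mk_eq_zero]
        exact ⟨y', rfl⟩
      rw [h2, zero_add, Nat.cast_smul_eq_nsmul]
    rw [h1]
    exact Submodule.smul_mem_smul (Ideal.mem_span_singleton_self _) Submodule.mem_top)
  intro y
  refine ⟨r, hr, ?_⟩
  have := hrC (R.mkQ y)
  rw [← map_smul, Submodule.mkQ_apply, Submodule.Quotient.mk_eq_zero] at this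
  exact this

end Main

end Fermat.Agent.S41.Abs
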