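import Mathlib
import Fermat.Agent.S41.DegenU

/-!
# S41, piece P3, part 8: the conjugation isomorphism `ψ : Γ₀(N q) ≃* Γ₀(N) ∩ Γ⁰(q)`

`ψ γ = δ γ δ⁻¹`, `δ = diag(q, 1)`. Then `β* c = (c|_{Γ₀(N) ∩ Γ⁰(q)}) ∘ ψ` and
`β_* c' = transfer (c' ∘ ψ⁻¹)`: the factorisations needed for the adjointness `β* ⊣ β_*`.
-/

set_option autoImplicit false
set_option linter.unusedSectionVars false
set_option linter.unusedVariables false

noncomputable section

open Matrix.SpecialLinearGroup CongruenceSubgroup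
open scoped MatrixGroups OnePoint
open ModularCurve.Period
open Fermat.Agent.S29.D1
open P2MW.S_ModularForm_heckeT_slash_eq_self_of_mem_Gamma0.ModularForm.HeckeSlashInvariance

namespace Fermat.Agent.S41.P3

/-! ### two mutually inverse single-coset families give an isomorphism -/

section abstract

variable {H G : Subgroup SL(2, ℤ)}

/-- two single-coset families whose representatives multiply to a central element define
mutually inverse isomorphisms -/
def CosetFam.mulEquivOfCentral (F : CosetFam H G Unit) (F' : CosetFam G H Unit)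
    (hc : ∀ M : GL (Fin 2) ℝ, (F'.r () * F.r ()) * M = M * (F'.r () * F.r ()))
    (hc' : ∀ M : GL (Fin 2) ℝ, (F.r () * F'.r ()) * M = M * (F.r () * F'.r ())) : G ≃* H where
  toFun g := F.κ g ()
  invFun h := F'.κ h ()
  left_inv g := Subtype.ext ((F.comp F').κ_eq_of_central g ((), ()) rfl (fun M => hc M))
  right_inv h := Subtype.ext ((F'.comp F).κ_eq_of_central h ((), ()) rfl (fun M => hc' M))
  map_mul' g h := F.κ_mul g h ()

end abstract

variable {q : ℕ} [Fact q.Prime] {N : ℕ}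

/-- `β*` with values in `Γ₀(N) ∩ Γ⁰(q)` -/
def betaUp' (hqN : ¬ q ∣ N) : CosetFam (stab0 N q) (Gamma0 (N * q)) Unit :=
  (betaUp hqN).subFam (le_refl _) id (fun _ _ h => h) (fun _ x => x) (fun _ _ => rfl)
    (fun g _ => by
      have hkinf : perm ((g : Gamma0 (N * q)) : SL(2, ℤ)) (∞ : OnePoint (ZMod q)) = ∞ :=
        ((mem_Gamma0_mul_iff hqN _).mp g.2).2
      have hspec := kap_spec hqN ⟨g, Gamma0_mul_le N q g.2⟩ (∞ : OnePoint (ZMod q))
      have hspec' : heckeRep q (∞ : OnePoint (ZMod q)) * mapGL ℝ ((g : Gamma0 (N * q)) : SL(2, ℤ))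
          = mapGL ℝ ((kap hqN ⟨g, Gamma0_mul_le N q g.2⟩ (∞ : OnePoint (ZMod q)) : Gamma0 N)
              : SL(2, ℤ)) * heckeRep q (∞ : OnePoint (ZMod q)) := by
        have := hspec
        rw [show perm ((⟨g, Gamma0_mul_le N q g.2⟩ : Gamma0 N) : SL(2, ℤ))
          (∞ : OnePoint (ZMod q)) = ∞ from hkinf] at this
        exact this
      have h01 := (entries_of_eq hspec').2.1
      simp only [hA_infty, hB_infty, hD_infty, zero_mul, add_zero, mul_zero, zero_add, mul_one]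
        at h01
      exact mem_stab0.mpr ⟨(kap hqN _ _).2, (perm_zero_eq _).mpr (Dvd.intro _ h01)⟩)

theorem betaUp'_r (hqN : ¬ q ∣ N) : (betaUp' hqN).r () = heckeRep q (∞ : OnePoint (ZMod q)) := rfl

/-- **the isomorphism `ψ : Γ₀(N q) ≃* Γ₀(N) ∩ Γ⁰(q)`, `γ ↦ δ γ δ⁻¹`** -/
def psiQ (hqN : ¬ q ∣ N) : Gamma0 (N * q) ≃* stab0 N q :=
  (betaUp' hqN).mulEquivOfCentral (conj0 hqN)
    (fun M => by
      rw [betaUp'_r, conj0_r, heckeRep_zero_mul_infty]
      exact heckeRep_infty_mul_zero_comm M)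
    (fun M => by
      rw [betaUp'_r, conj0_r]
      exact heckeRep_infty_mul_zero_comm M)

theorem psiQ_apply (hqN : ¬ q ∣ N) (γ : Gamma0 (N * q)) :
    ((psiQ hqN γ : stab0 N q) : SL(2, ℤ))
      = ((kap hqN ⟨γ, Gamma0_mul_le N q γ.2⟩ (∞ : OnePoint (ZMod q)) : Gamma0 N) : SL(2, ℤ)) :=
  rfl

theorem psiQ_symm_apply (hqN : ¬ q ∣ N) (σ : stab0 N q) :
    (psiQ hqN).symm σ = (conj0 hqN).κ σ () := rfl

/-- `δ γ = ψ(γ) δ` in `GL₂(ℝ)` -/
theorem psiQ_spec (hqN : ¬ q ∣ N) (γ : Gamma0 (N * q)) :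
    heckeRep q (∞ : OnePoint (ZMod q)) * mapGL ℝ ((γ : Gamma0 (N * q)) : SL(2, ℤ))
      = mapGL ℝ ((psiQ hqN γ : stab0 N q) : SL(2, ℤ)) * heckeRep q (∞ : OnePoint (ZMod q)) :=
  (betaUp' hqN).spec γ ()

/-- `δ γ = ψ(γ) δ` as integral matrices -/
theorem psiQ_spec_int (hqN : ¬ q ∣ N) (γ : Gamma0 (N * q)) :
    (!![(q : ℤ), 0; 0, 1] : Matrix (Fin 2) (Fin 2) ℤ) * ((γ : Gamma0 (N * q)) : SL(2, ℤ)).1
      = ((psiQ hqN γ : stab0 N q) : SL(2, ℤ)).1 * !![(q : ℤ), 0; 0, 1] := by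
  obtain ⟨e00, e01, e10, e11⟩ := entries_of_eq (psiQ_spec hqN γ)
  simp only [hA_infty, hB_infty, hD_infty, zero_mul, add_zero, mul_zero, zero_add, mul_one,
    one_mul] at e00 e01 e10 e11
  ext i j
  fin_cases i <;> fin_cases j <;>
    simp [Matrix.mul_apply, Fin.sum_univ_two]
  · linear_combination e00
  · linear_combination e01
  · linear_combination e10
  · linear_combination e11

section factor

variable (A : Type*) [AddCommGroup A]

/-- **`β* c = (c restricted to Γ₀(N) ∩ Γ⁰(q)) ∘ ψ`** -/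
theorem betaUp_op_apply (hqN : ¬ q ∣ N) (c : Additive (Gamma0 N) →+ A) (γ : Gamma0 (N * q)) :
    (betaUp hqN).op A c (Additive.ofMul γ)
      = (resFam (stab0_le N q)).op A c (Additive.ofMul (psiQ hqN γ)) := by
  rw [CosetFam.op_apply, resFam_op_apply]
  simp only [Finset.univ_unique, Finset.sum_singleton]
  rfl

/-- **the conjugation by `diag(1, q)` is composition with `ψ⁻¹`** -/
theorem conj0_op_apply (hqN : ¬ q ∣ N) (c : Additive (Gamma0 (N * q)) →+ A) (σ : stab0 N q) :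
    (conj0 hqN).op A c (Additive.ofMul σ) = c (Additive.ofMul ((psiQ hqN).symm σ)) := by
  rw [CosetFam.op_apply]
  simp only [Finset.univ_unique, Finset.sum_singleton]
  rfl

/-- **`β_* = transfer ∘ (composition with ψ⁻¹)`** -/
theorem betaDown_op (hqN : ¬ q ∣ N) (c : Additive (Gamma0 (N * q)) →+ A) :
    (betaDown hqN).op A c = (tr0 hqN).op A ((conj0 hqN).op A c) :=
  CosetFam.op_comp _ _ A c

end factor

/-! ### `Γ₀(N) ∩ Γ⁰(q)` is a congruence subgroup containing `-1` -/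

theorem neg_one_mem_stab0 (N q : ℕ) [Fact q.Prime] : (-1 : SL(2, ℤ)) ∈ stab0 N q := by
  refine mem_stab0.mpr ⟨mem_Gamma0_of_dvd' (by simp), (perm_zero_eq _).mpr (by simp)⟩

theorem Gamma_le_stab0 (N q : ℕ) [Fact q.Prime] : Gamma (N * q) ≤ stab0 N q := by
  intro g hg
  rw [Gamma_mem] at hg
  obtain ⟨h00, h01, h10, h11⟩ := hg
  have d10 : ((N * q : ℕ) : ℤ) ∣ g 1 0 := (ZMod.intCast_zmod_eq_zero_iff_dvd _ _).mp h10
  have d01 : ((N * q : ℕ) : ℤ) ∣ g 0 1 := (ZMod.intCast_zmod_eq_zero_iff_dvd _ _).mp h01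
  refine mem_stab0.mpr ⟨mem_Gamma0_of_dvd' ?_, (perm_zero_eq _).mpr ?_⟩
  · exact (Dvd.intro _ (by push_cast; rfl)).trans d10
  · exact (Dvd.intro_left _ (by push_cast; rfl)).trans d01

instance instFiniteIndexStab0 [NeZero N] : (stab0 N q).FiniteIndex :=
  haveI : NeZero (N * q) := ⟨Nat.mul_ne_zero (NeZero.ne N) (Fact.out : q.Prime).ne_zero⟩
  Subgroup.finiteIndex_of_le (Gamma_le_stab0 N q)

end Fermat.Agent.S41.P3
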