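import Mathlib

/-!
# S41, piece P2 (duality): the combinatorial model (Manin symbols on a finite `⟨s, ρ⟩`-set)

`X` a finite set with permutations `s` (`s² = 1`) and `ρ` (`ρ³ = 1`); `τ = s * ρ`.
Functions `v : X → ℤ` carry the action `(σ • v) x = v (σ⁻¹ x)`.

* `IsManin s ρ v` : `v + s•v = 0` and `v + ρ•v + ρ²•v = 0`   (the lattice `Hc` of Manin symbols)
* `IsBdry s ρ v`  : `v = s•u - u` for some `u` with `(s*ρ)•u = u`   (boundary symbols `∂`)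
* `six ρ v₁ v₂ = ⟨v₁, (ρ - ρ²) v₂⟩ = ∑ x, v₁ x * (v₂ (ρ⁻¹ x) - v₂ (ρ⁻¹ (ρ⁻¹ x)))`  (six times the pairing)

This file contains the definitions and the algebraic identity behind the intrinsic formula.
-/

set_option autoImplicit false
set_option linter.unusedSectionVars false
set_option linter.unusedVariables false

namespace Fermat.Agent.S41.PD

variable {X : Type*} [Fintype X] (s ρ : Equiv.Perm X)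

/-- Manin symbols: `v + s•v = 0`, `v + ρ•v + ρ²•v = 0` -/
def IsManin (v : X → ℤ) : Prop :=
  (∀ x, v x + v (s⁻¹ x) = 0) ∧ (∀ x, v x + v (ρ⁻¹ x) + v (ρ⁻¹ (ρ⁻¹ x)) = 0)

/-- boundary symbols: `v = s•u - u` with `u` invariant under `τ = s * ρ` -/
def IsBdry (v : X → ℤ) : Prop :=
  ∃ u : X → ℤ, (∀ x, u ((s * ρ)⁻¹ x) = u x) ∧ ∀ x, v x = u (s⁻¹ x) - u x

/-- six times the pairing: `⟨v₁, (ρ - ρ²) v₂⟩` -/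
def six (v₁ v₂ : X → ℤ) : ℤ := ∑ x, v₁ x * (v₂ (ρ⁻¹ x) - v₂ (ρ⁻¹ (ρ⁻¹ x)))

variable {s ρ}

theorem sum_comp_perm (σ : Equiv.Perm X) (f : X → ℤ) : ∑ x, f (σ x) = ∑ x, f x :=
  Equiv.sum_comp σ f

/-- the algebraic identity behind the intrinsic formula -/
theorem six_eq_of_rel {v₁ v₂ eS eR : X → ℤ}
    (h1 : ∀ x, v₁ x + v₁ (ρ⁻¹ x) + v₁ (ρ⁻¹ (ρ⁻¹ x)) = 0)
    (h2 : ∀ x, v₂ x + v₂ (ρ⁻¹ x) + v₂ (ρ⁻¹ (ρ⁻¹ x)) = 0)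
    (hS : ∀ x, eS x + eS (s⁻¹ x) = v₁ x * v₂ x)
    (hR : ∀ x, eR x + eR (ρ⁻¹ x) + eR (ρ⁻¹ (ρ⁻¹ x)) = v₁ x * v₂ x - v₁ (ρ⁻¹ x) * v₂ (ρ⁻¹ (ρ⁻¹ x))) :
    6 * (∑ x, eR x - ∑ x, eS x) = - six ρ v₁ v₂ := by
  have e1 : ∑ x, eS (s⁻¹ x) = ∑ x, eS x := sum_comp_perm s⁻¹ eS
  have e2 : ∑ x, eR (ρ⁻¹ x) = ∑ x, eR x := sum_comp_perm ρ⁻¹ eR
  have e3 : ∑ x, eR (ρ⁻¹ (ρ⁻¹ x)) = ∑ x, eR x := by
    rw [sum_comp_perm ρ⁻¹ (fun x => eR (ρ⁻¹ x)), e2]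
  have e4 : ∑ x, v₁ (ρ⁻¹ x) * v₂ (ρ⁻¹ (ρ⁻¹ x)) = ∑ x, v₁ x * v₂ (ρ⁻¹ x) :=
    sum_comp_perm ρ⁻¹ (fun x => v₁ x * v₂ (ρ⁻¹ x))
  have hS' : 2 * ∑ x, eS x = ∑ x, v₁ x * v₂ x := by
    have := Finset.sum_congr rfl (fun x (_ : x ∈ Finset.univ) => hS x)
    rw [Finset.sum_add_distrib, e1] at this
    linarith
  have hR' : 3 * ∑ x, eR x = ∑ x, v₁ x * v₂ x - ∑ x, v₁ x * v₂ (ρ⁻¹ x) := by
    have := Finset.sum_congr rfl (fun x (_ : x ∈ Finset.univ) => hR x)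
    rw [Finset.sum_add_distrib, Finset.sum_add_distrib, e2, e3, Finset.sum_sub_distrib, e4] at this
    linarith
  have h3 : ∑ x, v₁ x * v₂ x = - ∑ x, v₁ x * v₂ (ρ⁻¹ x) - ∑ x, v₁ x * v₂ (ρ⁻¹ (ρ⁻¹ x)) := by
    have : ∑ x, v₁ x * (v₂ x + v₂ (ρ⁻¹ x) + v₂ (ρ⁻¹ (ρ⁻¹ x))) = 0 := by
      apply Finset.sum_eq_zero; intro x _; rw [h2 x, mul_zero]
    simp only [mul_add, Finset.sum_add_distrib] at this
    linarith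
  have h4 : six ρ v₁ v₂ = ∑ x, v₁ x * v₂ (ρ⁻¹ x) - ∑ x, v₁ x * v₂ (ρ⁻¹ (ρ⁻¹ x)) := by
    simp only [six, mul_sub, Finset.sum_sub_distrib]
  rw [h4]
  linarith

end Fermat.Agent.S41.PD
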