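import Mathlib

/-!
# S41, piece P2 (duality): base points and indices in the cycles of a permutation of a finite set
-/

set_option autoImplicit false
set_option linter.unusedSectionVars false
set_option linter.unusedVariables false

noncomputable section

namespace Fermat.Agent.S41.PD

theorem perm_apply_inv {X : Type*} (τ : Equiv.Perm X) (x : X) : τ (τ⁻¹ x) = x :=
  τ.apply_symm_apply x

theorem perm_inv_apply {X : Type*} (τ : Equiv.Perm X) (x : X) : τ⁻¹ (τ x) = x :=
  τ.symm_apply_apply x

variable {X : Type*} [Finite X] (τ : Equiv.Perm X)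

/-- a chosen base point in the cycle of `x` -/
def base (x : X) : X :=
  @Quotient.out _ (Equiv.Perm.SameCycle.setoid τ) (@Quotient.mk _ (Equiv.Perm.SameCycle.setoid τ) x)

theorem sameCycle_base (x : X) : τ.SameCycle (base τ x) x := by
  have := @Quotient.mk_out _ (Equiv.Perm.SameCycle.setoid τ) x
  exact this

theorem base_eq_of_sameCycle {x y : X} (h : τ.SameCycle x y) : base τ x = base τ y := by
  unfold base
  congr 1
  exact @Quotient.sound _ (Equiv.Perm.SameCycle.setoid τ) _ _ h

theorem exists_pow_base (x : X) : ∃ n : ℕ, (τ ^ n) (base τ x) = x := by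
  obtain ⟨i, _, hi⟩ := (sameCycle_base τ x).exists_pow_eq'
  exact ⟨i, hi⟩

/-- the least `n` with `τ ^ n (base x) = x` -/
def idx (x : X) : ℕ := by classical exact Nat.find (exists_pow_base τ x)

theorem pow_idx (x : X) : (τ ^ idx τ x) (base τ x) = x := by
  classical
  exact Nat.find_spec (exists_pow_base τ x)

theorem idx_le {x : X} {n : ℕ} (h : (τ ^ n) (base τ x) = x) : idx τ x ≤ n := by
  classical
  exact Nat.find_min' (exists_pow_base τ x) h

theorem base_apply (x : X) : base τ (τ x) = base τ x :=
  base_eq_of_sameCycle τ (Equiv.Perm.sameCycle_apply_left.mpr (Equiv.Perm.SameCycle.refl τ x))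

theorem base_inv_apply (x : X) : base τ (τ⁻¹ x) = base τ x := by
  have := base_apply τ (τ⁻¹ x)
  rw [perm_apply_inv] at this
  exact this.symm

theorem base_pow_apply (n : ℕ) (x : X) : base τ ((τ ^ n) x) = base τ x := by
  induction n with
  | zero => simp
  | succ n ih => rw [pow_succ', Equiv.Perm.mul_apply, base_apply, ih]

theorem base_base (x : X) : base τ (base τ x) = base τ x :=
  base_eq_of_sameCycle τ (sameCycle_base τ x)

theorem idx_base (x : X) : idx τ (base τ x) = 0 := by
  have h : (τ ^ 0) (base τ (base τ x)) = base τ x := by simp [base_base]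
  exact Nat.le_zero.mp (idx_le τ h)

theorem idx_eq_zero_iff (x : X) : idx τ x = 0 ↔ base τ x = x := by
  constructor
  · intro h
    have := pow_idx τ x
    rw [h] at this
    simpa using this
  · intro h
    rw [← h]; exact idx_base τ x

theorem idx_inv_apply {x : X} (h : idx τ x ≠ 0) : idx τ (τ⁻¹ x) + 1 = idx τ x := by
  obtain ⟨m, hm⟩ := Nat.exists_eq_succ_of_ne_zero h
  have h1 : (τ ^ m) (base τ (τ⁻¹ x)) = τ⁻¹ x := by
    rw [base_inv_apply]
    have := pow_idx τ x
    rw [hm, pow_succ', Equiv.Perm.mul_apply] at this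
    apply τ.injective
    rw [perm_apply_inv]; exact this
  have h2 := idx_le τ h1
  have h3 : (τ ^ (idx τ (τ⁻¹ x) + 1)) (base τ x) = x := by
    rw [pow_succ', Equiv.Perm.mul_apply]
    have := pow_idx τ (τ⁻¹ x)
    rw [base_inv_apply] at this
    rw [this, perm_apply_inv]
  have h4 := idx_le τ h3
  omega

/-- the period of a point : `idx (τ⁻¹ x) + 1` is a period of base points -/
def per (x : X) : ℕ := idx τ (τ⁻¹ x) + 1

theorem per_pos (x : X) : 0 < per τ x := Nat.succ_pos _

theorem pow_per {b : X} (hb : base τ b = b) : (τ ^ per τ b) b = b := by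
  have := pow_idx τ (τ⁻¹ b)
  rw [base_inv_apply, hb] at this
  rw [per, pow_succ', Equiv.Perm.mul_apply, this, perm_apply_inv]

theorem per_le {b : X} (hb : base τ b = b) {m : ℕ} (hm : 0 < m) (h : (τ ^ m) b = b) :
    per τ b ≤ m := by
  obtain ⟨n, rfl⟩ := Nat.exists_eq_succ_of_ne_zero hm.ne'
  have h1 : (τ ^ n) (base τ (τ⁻¹ b)) = τ⁻¹ b := by
    rw [base_inv_apply, hb]
    rw [pow_succ', Equiv.Perm.mul_apply] at h
    apply τ.injective
    rw [perm_apply_inv]; exact h
  have := idx_le τ h1
  unfold per; omega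

theorem pow_mul_per {b : X} (hb : base τ b = b) (j : ℕ) : (τ ^ (per τ b * j)) b = b := by
  induction j with
  | zero => simp
  | succ j ih =>
    rw [Nat.mul_succ, pow_add, Equiv.Perm.mul_apply, pow_per τ hb, ih]

theorem per_dvd {b : X} (hb : base τ b = b) {m : ℕ} (h : (τ ^ m) b = b) : per τ b ∣ m := by
  have hdiv := Nat.div_add_mod m (per τ b)
  have hlt := Nat.mod_lt m (per_pos τ b)
  have h2 : (τ ^ (m % per τ b)) b = b := by
    have h3 : (τ ^ m) b = (τ ^ (m % per τ b)) ((τ ^ (per τ b * (m / per τ b))) b) := by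
      rw [← Equiv.Perm.mul_apply, ← pow_add, add_comm, hdiv]
    rw [pow_mul_per τ hb] at h3
    rw [← h3, h]
  by_contra hnd
  have hpos : 0 < m % per τ b := Nat.pos_of_ne_zero (fun h0 => hnd (Nat.dvd_of_mod_eq_zero h0))
  have := per_le τ hb hpos h2
  omega

/-- integer powers: a period of a base point is a multiple of `per` -/
theorem per_dvd_zpow {b : X} (hb : base τ b = b) {m : ℤ} (h : (τ ^ m) b = b) :
    (per τ b : ℤ) ∣ m := by
  rcases Int.natAbs_eq m with hm | hm
  · rw [hm] at h ⊢
    rw [zpow_natCast] at h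
    exact Int.natCast_dvd_natCast.mpr (per_dvd τ hb h)
  · rw [hm] at h ⊢
    rw [zpow_neg, zpow_natCast] at h
    have h' : (τ ^ m.natAbs) b = b := by
      have := congrArg (τ ^ m.natAbs) h
      rw [perm_apply_inv] at this
      exact this.symm
    exact (Int.natCast_dvd_natCast.mpr (per_dvd τ hb h')).neg_right

/-- two base points in the same cycle coincide -/
theorem base_unique {b b' : X} (hb : base τ b = b) (hb' : base τ b' = b') (h : τ.SameCycle b b') :
    b = b' := by
  rw [← hb, ← hb']; exact base_eq_of_sameCycle τ h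

end Fermat.Agent.S41.PD
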