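import Mathlib
import Fermat.Agent.S41.PDOrb

/-!
# S41, piece P2 (duality): primitives along the cycles of a permutation

For a permutation `τ` of a finite set and `f : X → ℤ`:
`f = τ•u - u` (i.e. `f x = u (τ⁻¹ x) - u x`) for some `u` iff all cycle sums of `f` vanish.
In particular `{τ•u - u}` is saturated, and if `τ ^ n = 1` and `∑_{j<n} f (τ^j x) = 0` for all `x`,
then `f = u - τ•u` for some `u`.
-/

set_option autoImplicit false
set_option linter.unusedSectionVars false
set_option linter.unusedVariables false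

noncomputable section

namespace Fermat.Agent.S41.PD

variable {X : Type*} [Finite X] (τ : Equiv.Perm X)

/-- the cycle sums of `f` vanish -/
def CycSumZero (f : X → ℤ) : Prop :=
  ∀ b : X, base τ b = b → ∑ j ∈ Finset.range (per τ b), f ((τ ^ j) b) = 0

/-- the primitive -/
def primOf (f : X → ℤ) (x : X) : ℤ := - ∑ j ∈ Finset.range (idx τ x), f ((τ ^ (j + 1)) (base τ x))

theorem primOf_spec {f : X → ℤ} (hf : CycSumZero τ f) (x : X) :
    f x = primOf τ f (τ⁻¹ x) - primOf τ f x := by
  unfold primOf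
  rw [base_inv_apply]
  by_cases h0 : idx τ x = 0
  · -- x is a base point
    have hb : base τ x = x := (idx_eq_zero_iff τ x).mp h0
    rw [h0, Finset.sum_range_zero, neg_zero, sub_zero, hb]
    have h1 := hf x hb
    rw [per, Finset.sum_range_succ'] at h1
    simp only [pow_zero, Equiv.Perm.one_apply] at h1
    linarith
  · have h1 := idx_inv_apply τ h0
    rw [← h1, Finset.sum_range_succ]
    have h2 : (τ ^ (idx τ (τ⁻¹ x) + 1)) (base τ x) = x := by
      rw [h1]; exact pow_idx τ x
    rw [h2]; ring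

theorem cycSumZero_of_prim {f u : X → ℤ} (h : ∀ x, f x = u (τ⁻¹ x) - u x) : CycSumZero τ f := by
  intro b hb
  have key : ∀ n : ℕ, ∑ j ∈ Finset.range n, f ((τ ^ j) b) = u (τ⁻¹ b) - u ((τ ^ n) (τ⁻¹ b)) := by
    intro n
    induction n with
    | zero => simp
    | succ n ih =>
      rw [Finset.sum_range_succ, ih, h]
      have e1 : τ⁻¹ ((τ ^ n) b) = (τ ^ n) (τ⁻¹ b) := by
        rw [← Equiv.Perm.mul_apply, ← Equiv.Perm.mul_apply]
        congr 1
        exact ((Commute.refl τ).inv_left.pow_right n).eq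
      have e2 : (τ ^ (n + 1)) (τ⁻¹ b) = (τ ^ n) b := by
        rw [pow_succ, Equiv.Perm.mul_apply, perm_apply_inv]
      rw [e1, e2]; ring
  rw [key]
  have e3 : (τ ^ per τ b) (τ⁻¹ b) = τ⁻¹ b := by
    have : (τ ^ per τ b) (τ⁻¹ b) = τ⁻¹ ((τ ^ per τ b) b) := by
      rw [← Equiv.Perm.mul_apply, ← Equiv.Perm.mul_apply]
      congr 1
      exact ((Commute.refl τ).inv_left.pow_right _).eq.symm
    rw [this, pow_per τ hb]
  rw [e3, sub_self]

/-- `{τ•u - u}` is saturated -/
theorem exists_prim_of_smul {f u : X → ℤ} {n : ℤ} (hn : n ≠ 0)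
    (h : ∀ x, n * f x = u (τ⁻¹ x) - u x) : ∃ u' : X → ℤ, ∀ x, f x = u' (τ⁻¹ x) - u' x := by
  have h1 : CycSumZero τ (fun x => n * f x) := cycSumZero_of_prim τ h
  have h2 : CycSumZero τ f := by
    intro b hb
    have := h1 b hb
    simp only [← Finset.mul_sum] at this
    rcases mul_eq_zero.mp this with h3 | h3
    · exact absurd h3 hn
    · exact h3
  exact ⟨primOf τ f, primOf_spec τ h2⟩

/-- sums over multiples of the period -/
theorem sum_range_per_mul {f : X → ℤ} {b : X} (hb : base τ b = b) (m : ℕ) :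
    ∑ j ∈ Finset.range (per τ b * m), f ((τ ^ j) b)
      = m * ∑ j ∈ Finset.range (per τ b), f ((τ ^ j) b) := by
  induction m with
  | zero => simp
  | succ m ih =>
    rw [Nat.mul_succ, Finset.sum_range_add, ih]
    have : ∀ j, (τ ^ (per τ b * m + j)) b = (τ ^ j) b := by
      intro j
      rw [add_comm, pow_add, Equiv.Perm.mul_apply, pow_mul_per τ hb]
    simp only [this]
    push_cast; ring

/-- norm-zero elements are of the form `u - σ•u` -/
theorem exists_prim_of_norm {n : ℕ} (hn : 0 < n) (hτ : τ ^ n = 1) {f : X → ℤ}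
    (hf : ∀ x, ∑ j ∈ Finset.range n, f ((τ ^ j) x) = 0) :
    ∃ u : X → ℤ, ∀ x, f x = u (τ⁻¹ x) - u x := by
  have h2 : CycSumZero τ f := by
    intro b hb
    have hfix : (τ ^ n) b = b := by rw [hτ]; rfl
    obtain ⟨m, hm⟩ := per_dvd τ hb hfix
    have h3 := hf b
    rw [hm, sum_range_per_mul τ hb] at h3
    have hm0 : (m : ℤ) ≠ 0 := by
      intro h0
      have : m = 0 := by exact_mod_cast h0
      rw [this, mul_zero] at hm
      omega
    rcases mul_eq_zero.mp h3 with h4 | h4
    · exact absurd h4 hm0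
    · exact h4
  exact ⟨primOf τ f, primOf_spec τ h2⟩

end Fermat.Agent.S41.PD
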