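import Mathlib

/-!
# S41, piece P2 (duality): saturated submodules of finitely generated `ℤ`-modules

For a saturated submodule `N` of a finite `ℤ`-module `M`: linear functionals vanishing on `N`
separate the points outside `N`, and every linear functional on `N` extends to `M`.
-/

set_option autoImplicit false
set_option linter.unusedSectionVars false
set_option linter.unusedVariables false

namespace Fermat.Agent.S41.PD

variable {M : Type*} [AddCommGroup M] [Module.Finite ℤ M] (N : Submodule ℤ M)

/-- saturated submodules -/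
def IsSat : Prop := ∀ (n : ℤ) (w : M), n ≠ 0 → n • w ∈ N → w ∈ N

variable {N}

theorem IsSat.torsionFree (h : IsSat N) : Module.IsTorsionFree ℤ (M ⧸ N) := by
  apply Module.IsTorsionFree.of_smul_eq_zero
  intro r m hm
  induction m using Submodule.Quotient.induction_on with
  | H w =>
    by_cases hr : r = 0
    · exact Or.inl hr
    · right
      rw [← Submodule.Quotient.mk_smul, Submodule.Quotient.mk_eq_zero] at hm
      rw [Submodule.Quotient.mk_eq_zero]
      exact h r w hr hm

theorem IsSat.free (h : IsSat N) : Module.Free ℤ (M ⧸ N) := by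
  haveI := h.torsionFree
  exact Module.free_of_finite_type_torsion_free'

/-- functionals vanishing on a saturated submodule separate points -/
theorem IsSat.exists_functional (h : IsSat N) {w : M} (hw : w ∉ N) :
    ∃ φ : M →ₗ[ℤ] ℤ, (∀ y ∈ N, φ y = 0) ∧ φ w ≠ 0 := by
  haveI := h.free
  have hne : (Submodule.Quotient.mk w : M ⧸ N) ≠ 0 := by
    rw [Ne, Submodule.Quotient.mk_eq_zero]; exact hw
  have := (Module.forall_dual_apply_eq_zero_iff ℤ (Submodule.Quotient.mk w : M ⧸ N)).not.mpr hne
  push_neg at this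
  obtain ⟨φ', hφ'⟩ := this
  refine ⟨φ'.comp N.mkQ, ?_, hφ'⟩
  intro y hy
  show φ' (Submodule.Quotient.mk y) = 0
  rw [(Submodule.Quotient.mk_eq_zero N).mpr hy, map_zero]

/-- functionals on a saturated submodule extend -/
theorem IsSat.exists_extension (h : IsSat N) (ψ : N →ₗ[ℤ] ℤ) :
    ∃ ψ' : M →ₗ[ℤ] ℤ, ∀ y : N, ψ' (y : M) = ψ y := by
  haveI := h.free
  obtain ⟨σ, hσ⟩ := Module.projective_lifting_property N.mkQ (LinearMap.id : (M ⧸ N) →ₗ[ℤ] (M ⧸ N))
    (Submodule.mkQ_surjective N)
  have hπ : ∀ w : M, w - σ (N.mkQ w) ∈ N := by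
    intro w
    rw [← Submodule.Quotient.mk_eq_zero N, Submodule.Quotient.mk_sub, sub_eq_zero]
    have := congrArg (fun f : (M ⧸ N) →ₗ[ℤ] (M ⧸ N) => f (N.mkQ w)) hσ
    exact this.symm
  let π : M →ₗ[ℤ] N :=
    { toFun := fun w => ⟨w - σ (N.mkQ w), hπ w⟩
      map_add' := by
        intro a b
        apply Subtype.ext
        show a + b - σ (N.mkQ (a + b)) = a - σ (N.mkQ a) + (b - σ (N.mkQ b))
        rw [map_add, map_add]; abel
      map_smul' := by
        intro n a
        apply Subtype.ext
        show n • a - σ (N.mkQ (n • a)) = n • (a - σ (N.mkQ a))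
        rw [map_smul, map_smul, smul_sub] }
  refine ⟨ψ.comp π, ?_⟩
  intro y
  show ψ (π (y : M)) = ψ y
  congr 1
  apply Subtype.ext
  show (y : M) - σ (N.mkQ (y : M)) = y
  have : N.mkQ (y : M) = 0 := (Submodule.Quotient.mk_eq_zero N).mpr y.2
  rw [this, map_zero, sub_zero]

end Fermat.Agent.S41.PD
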