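import Mathlib
import Fermat.Agent.S41.PDModel
import Fermat.Agent.S41.PDSat
import Fermat.Agent.S41.PDPrim

/-!
# S41, piece P2b (duality): linear algebra of Manin symbols

`X` finite, `s² = 1`, `ρ³ = 1`, `⟨s, ρ⟩` transitive on `X`. `Hc` = Manin symbols, `∂` = boundary
symbols, `six = 6 B`. Results:
* `isBdry_of_six_eq_zero` : `v₁ ∈ Hc`, `six v₁ v₂ = 0` for all `v₂ ∈ Hc` ⟹ `v₁ ∈ ∂`
* `exists_six_eq` : every linear functional `φ` on `Hc` vanishing on `∂` is `v₂ ↦ six v₁ v₂ / 6`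
-/

set_option autoImplicit false
set_option linter.unusedSectionVars false
set_option linter.unusedVariables false

noncomputable section

namespace Fermat.Agent.S41.PD

variable {X : Type*} [Fintype X]

/-- the standard inner product -/
def ip (v w : X → ℤ) : ℤ := ∑ x, v x * w x

theorem ip_add_right (v w w' : X → ℤ) : ip v (w + w') = ip v w + ip v w' := by
  simp only [ip, Pi.add_apply, mul_add, Finset.sum_add_distrib]

theorem ip_sub_right (v w w' : X → ℤ) : ip v (w - w') = ip v w - ip v w' := by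
  simp only [ip, Pi.sub_apply, mul_sub, Finset.sum_sub_distrib]

theorem ip_smul_right (n : ℤ) (v w : X → ℤ) : ip v (n • w) = n * ip v w := by
  simp only [ip, Pi.smul_apply, smul_eq_mul, Finset.mul_sum]
  apply Finset.sum_congr rfl; intro x _; ring

theorem ip_comm (v w : X → ℤ) : ip v w = ip w v := by
  simp only [ip]; apply Finset.sum_congr rfl; intro x _; ring

theorem ip_zero_right (v : X → ℤ) : ip v 0 = 0 := by
  simp [ip]

theorem ip_single [DecidableEq X] (v : X → ℤ) (x : X) : ip v (Pi.single x 1) = v x := by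
  simp [ip, Pi.single_apply]

theorem ip_comp (σ : Equiv.Perm X) (v w : X → ℤ) :
    ip (fun x => v (σ x)) (fun x => w (σ x)) = ip v w :=
  Equiv.sum_comp σ (fun x => v x * w x)

/-- linear functionals on `X → ℤ` are inner products -/
theorem exists_ip_of_functional (φ : (X → ℤ) →ₗ[ℤ] ℤ) : ∃ v : X → ℤ, ∀ w, φ w = ip v w := by
  classical
  refine ⟨fun x => φ (Pi.single x 1), ?_⟩
  intro w
  have := LinearMap.pi_apply_eq_sum_univ φ w
  rw [this, ip]
  apply Finset.sum_congr rfl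
  intro x _
  rw [smul_eq_mul, mul_comm]
  congr 2
  funext y
  simp [Pi.single_apply, eq_comm]

/-- the submodule of `σ`-invariant functions -/
def InvSub (σ : Equiv.Perm X) : Submodule ℤ (X → ℤ) where
  carrier := {v | ∀ x, v (σ⁻¹ x) = v x}
  add_mem' := by
    intro a b ha hb x
    show a (σ⁻¹ x) + b (σ⁻¹ x) = a x + b x
    rw [ha x, hb x]
  zero_mem' := fun x => rfl
  smul_mem' := by
    intro n a ha x
    show n • a (σ⁻¹ x) = n • a x
    rw [ha x]

theorem mem_InvSub {σ : Equiv.Perm X} {v : X → ℤ} : v ∈ InvSub σ ↔ ∀ x, v (σ⁻¹ x) = v x := Iff.rfl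

/-- the submodule `{σ•u - u}` -/
def ImSub (σ : Equiv.Perm X) : Submodule ℤ (X → ℤ) where
  carrier := {f | ∃ u : X → ℤ, ∀ x, f x = u (σ⁻¹ x) - u x}
  add_mem' := by
    rintro a b ⟨u, hu⟩ ⟨u', hu'⟩
    exact ⟨u + u', fun x => by show a x + b x = (u (σ⁻¹ x) + u' (σ⁻¹ x)) - (u x + u' x); rw [hu, hu']; ring⟩
  zero_mem' := ⟨0, fun x => by simp⟩
  smul_mem' := by
    rintro n a ⟨u, hu⟩
    exact ⟨n • u, fun x => by show n • a x = n • u (σ⁻¹ x) - n • u x; rw [hu]; simp [mul_sub]⟩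

theorem ImSub_isSat (σ : Equiv.Perm X) : IsSat (ImSub σ) := by
  rintro n w hn ⟨u, hu⟩
  exact exists_prim_of_smul σ hn (fun x => by have := hu x; simpa using this)

/-- an element orthogonal to all invariants is of the form `σ•u - u` -/
theorem mem_ImSub_of_perp (σ : Equiv.Perm X) {f : X → ℤ}
    (h : ∀ u' ∈ InvSub σ, ip u' f = 0) : ∃ u : X → ℤ, ∀ x, f x = u (σ⁻¹ x) - u x := by
  classical
  by_contra hcon
  have hf : f ∉ ImSub σ := hcon
  obtain ⟨φ, hφ0, hφf⟩ := (ImSub_isSat σ).exists_functional hf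
  obtain ⟨u', hu'⟩ := exists_ip_of_functional φ
  have hinv : u' ∈ InvSub σ := by
    intro x
    -- test with u = e_{σ⁻¹ x}... (σ•e_y - e_y) = e_{σ y} - e_y
    have hmem : (fun z => (Pi.single (σ⁻¹ x) (1 : ℤ) : X → ℤ) (σ⁻¹ z) - (Pi.single (σ⁻¹ x) (1 : ℤ) : X → ℤ) z)
        ∈ ImSub σ := ⟨Pi.single (σ⁻¹ x) 1, fun z => rfl⟩
    have h1 := hφ0 _ hmem
    rw [hu'] at h1
    have h2 : (fun z => (Pi.single (σ⁻¹ x) (1 : ℤ) : X → ℤ) (σ⁻¹ z) - (Pi.single (σ⁻¹ x) (1 : ℤ) : X → ℤ) z)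
        = Pi.single x 1 - Pi.single (σ⁻¹ x) 1 := by
      funext z
      simp only [Pi.single_apply, Pi.sub_apply]
      congr 1
      by_cases hz : z = x
      · subst hz; simp
      · rw [if_neg hz, if_neg]
        intro h'
        exact hz (σ⁻¹.injective h')
    rw [h2, ip_sub_right, ip_single, ip_single] at h1
    linarith
  have := h u' hinv
  rw [← hu'] at this
  exact hφf this

/-- hypotheses on the model -/
structure IsModel (s ρ : Equiv.Perm X) : Prop where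
  hs : s ^ 2 = 1
  hρ : ρ ^ 3 = 1
  tr : ∀ (α : Type) (f : X → α), (∀ x, f (s⁻¹ x) = f x) → (∀ x, f (ρ⁻¹ x) = f x) → ∀ x y, f x = f y

variable {s ρ : Equiv.Perm X}

theorem IsModel.s_inv (h : IsModel s ρ) (x : X) : s⁻¹ (s⁻¹ x) = x := by
  have := congrArg (fun σ : Equiv.Perm X => σ⁻¹ x) h.hs
  simpa [pow_two, mul_inv_rev] using this

theorem IsModel.ρ_inv (h : IsModel s ρ) (x : X) : ρ⁻¹ (ρ⁻¹ (ρ⁻¹ x)) = x := by
  have := congrArg (fun σ : Equiv.Perm X => σ⁻¹ x) h.hρ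
  simpa [pow_succ, mul_inv_rev] using this

/-- the submodule `U = V^s + V^ρ` -/
def USub (s ρ : Equiv.Perm X) : Submodule ℤ (X → ℤ) := InvSub s ⊔ InvSub ρ

/-- Manin symbols are orthogonal to the invariants -/
theorem ip_eq_zero_of_manin_S (h : IsModel s ρ) {v w : X → ℤ} (hv : IsManin s ρ v)
    (hw : w ∈ InvSub s) : ip v w = 0 := by
  have h1 : ip (fun x => v (s⁻¹ x)) (fun x => w (s⁻¹ x)) = ip v w := ip_comp s⁻¹ v w
  have h2 : ip v w + ip (fun x => v (s⁻¹ x)) (fun x => w (s⁻¹ x)) = 0 := by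
    simp only [ip, ← Finset.sum_add_distrib]
    apply Finset.sum_eq_zero
    intro x _
    rw [hw x, ← add_mul, hv.1 x, zero_mul]
  rw [h1] at h2
  omega

theorem ip_eq_zero_of_manin_R (h : IsModel s ρ) {v w : X → ℤ} (hv : IsManin s ρ v)
    (hw : w ∈ InvSub ρ) : ip v w = 0 := by
  have h1 : ip (fun x => v (ρ⁻¹ x)) (fun x => w (ρ⁻¹ x)) = ip v w := ip_comp ρ⁻¹ v w
  have h1' : ip (fun x => v (ρ⁻¹ (ρ⁻¹ x))) (fun x => w (ρ⁻¹ (ρ⁻¹ x))) = ip v w := by
    rw [← h1]
    exact ip_comp ρ⁻¹ (fun x => v (ρ⁻¹ x)) (fun x => w (ρ⁻¹ x))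
  have h2 : ip v w + ip (fun x => v (ρ⁻¹ x)) (fun x => w (ρ⁻¹ x))
      + ip (fun x => v (ρ⁻¹ (ρ⁻¹ x))) (fun x => w (ρ⁻¹ (ρ⁻¹ x))) = 0 := by
    simp only [ip, ← Finset.sum_add_distrib]
    apply Finset.sum_eq_zero
    intro x _
    rw [hw (ρ⁻¹ x), hw x, ← add_mul, ← add_mul, hv.2 x, zero_mul]
  rw [h1, h1'] at h2
  omega

theorem ip_eq_zero_of_manin_U (h : IsModel s ρ) {v w : X → ℤ} (hv : IsManin s ρ v)
    (hw : w ∈ USub s ρ) : ip v w = 0 := by
  obtain ⟨y, hy, z, hz, rfl⟩ := Submodule.mem_sup.mp hw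
  rw [ip_add_right, ip_eq_zero_of_manin_S h hv hy, ip_eq_zero_of_manin_R h hv hz, add_zero]

/-- an element orthogonal to `U` is a Manin symbol -/
theorem manin_of_perp (h : IsModel s ρ) {v : X → ℤ} (hv : ∀ w ∈ USub s ρ, ip v w = 0) :
    IsManin s ρ v := by
  classical
  constructor
  · intro x
    have hmem : (Pi.single x (1 : ℤ) + Pi.single (s⁻¹ x) 1 : X → ℤ) ∈ USub s ρ := by
      apply Submodule.mem_sup_left
      intro y
      simp only [Pi.add_apply, Pi.single_apply]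
      have e1 : (s⁻¹ y = x) ↔ (y = s⁻¹ x) := by
        constructor
        · intro hh; rw [← hh, h.s_inv]
        · intro hh; rw [hh, h.s_inv]
      have e2 : (s⁻¹ y = s⁻¹ x) ↔ (y = x) := s⁻¹.injective.eq_iff
      simp only [e1, e2]
      ring
    have := hv _ hmem
    rw [ip_add_right, ip_single, ip_single] at this
    exact this
  · intro x
    have hmem : (Pi.single x (1 : ℤ) + Pi.single (ρ⁻¹ x) 1 + Pi.single (ρ⁻¹ (ρ⁻¹ x)) 1 : X → ℤ)
        ∈ USub s ρ := by
      apply Submodule.mem_sup_right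
      intro y
      simp only [Pi.add_apply, Pi.single_apply]
      have e1 : (ρ⁻¹ y = x) ↔ (y = ρ⁻¹ (ρ⁻¹ x)) := by
        constructor
        · intro hh; rw [← hh, h.ρ_inv]
        · intro hh; rw [hh, h.ρ_inv]
      have e2 : (ρ⁻¹ y = ρ⁻¹ x) ↔ (y = x) := ρ⁻¹.injective.eq_iff
      have e3 : (ρ⁻¹ y = ρ⁻¹ (ρ⁻¹ x)) ↔ (y = ρ⁻¹ x) := ρ⁻¹.injective.eq_iff
      simp only [e1, e2, e3]
      ring
    have := hv _ hmem
    rw [ip_add_right, ip_add_right, ip_single, ip_single, ip_single] at this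
    exact this

/-- `U` is saturated -/
theorem USub_isSat (h : IsModel s ρ) : IsSat (USub s ρ) := by
  intro n w hn hw
  obtain ⟨y, hy, z, hz, hyz⟩ := Submodule.mem_sup.mp hw
  rcases isEmpty_or_nonempty X with hX | ⟨⟨x₀⟩⟩
  · have : w = 0 := by funext x; exact (hX.false x).elim
    rw [this]; exact zero_mem _
  -- reduction modulo n
  have hpt : ∀ x, y x + z x = n * w x := by
    intro x
    have := congrFun hyz x
    simpa using this
  let f : X → ZMod n.natAbs := fun x => (y x : ZMod n.natAbs)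
  have hn0 : ((n : ℤ) : ZMod n.natAbs) = 0 := by
    rw [ZMod.intCast_zmod_eq_zero_iff_dvd]
    exact Int.natAbs_dvd.mpr dvd_rfl
  have hfz : ∀ x, f x = - (z x : ZMod n.natAbs) := by
    intro x
    have := congrArg (fun t : ℤ => (t : ZMod n.natAbs)) (hpt x)
    simp only [Int.cast_add, Int.cast_mul, hn0, zero_mul] at this
    exact eq_neg_of_add_eq_zero_left this
  have hconst := h.tr _ f (fun x => by show ((y (s⁻¹ x) : ℤ) : ZMod n.natAbs) = y x; rw [hy x])
    (fun x => by rw [hfz, hfz, hz x])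
  -- y x ≡ y x₀ mod n
  have hdiv : ∀ x, n ∣ y x - y x₀ := by
    intro x
    have := hconst x x₀
    have h2 : ((y x - y x₀ : ℤ) : ZMod n.natAbs) = 0 := by
      rw [Int.cast_sub]; exact sub_eq_zero.mpr this
    rw [ZMod.intCast_zmod_eq_zero_iff_dvd] at h2
    exact Int.natAbs_dvd.mp h2
  choose y' hy' using hdiv
  have hy'inv : (y' : X → ℤ) ∈ InvSub s := by
    intro x
    have h1 := hy' (s⁻¹ x)
    have h2 := hy' x
    rw [hy x] at h1
    have : n * y' (s⁻¹ x) = n * y' x := by rw [← h1, ← h2]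
    exact mul_left_cancel₀ hn this
  have hz'inv : (w - y' : X → ℤ) ∈ InvSub ρ := by
    intro x
    show w (ρ⁻¹ x) - y' (ρ⁻¹ x) = w x - y' x
    have h1 := hy' (ρ⁻¹ x)
    have h2 := hy' x
    have h3 := hpt (ρ⁻¹ x)
    have h4 := hpt x
    rw [hz x] at h3
    have : n * (w (ρ⁻¹ x) - y' (ρ⁻¹ x)) = n * (w x - y' x) := by
      rw [mul_sub, mul_sub, ← h1, ← h2, ← h3, ← h4]; ring
    exact mul_left_cancel₀ hn this
  have : w = y' + (w - y') := by abel
  rw [this]
  exact Submodule.add_mem_sup hy'inv hz'inv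

/-- double orthogonal complement -/
theorem mem_USub_of_perp (h : IsModel s ρ) {w : X → ℤ}
    (hw : ∀ v, IsManin s ρ v → ip v w = 0) : w ∈ USub s ρ := by
  by_contra hcon
  obtain ⟨φ, hφ0, hφw⟩ := (USub_isSat h).exists_functional hcon
  obtain ⟨v, hv⟩ := exists_ip_of_functional φ
  have hman : IsManin s ρ v := manin_of_perp h (fun w' hw' => by rw [← hv]; exact hφ0 w' hw')
  exact hφw (by rw [hv]; exact hw v hman)

end Fermat.Agent.S41.PD
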