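import Mathlib
import Fermat.Agent.S41.PDAlg

/-!
# S41, piece P2b (duality): perfectness of the pairing on Manin symbols modulo boundaries
-/

set_option autoImplicit false
set_option linter.unusedSectionVars false
set_option linter.unusedVariables false

noncomputable section

namespace Fermat.Agent.S41.PD

variable {X : Type*} [Fintype X] {s ρ : Equiv.Perm X}

/-- `v = a - σ•a` -/
def Prim (σ : Equiv.Perm X) (v a : X → ℤ) : Prop := ∀ x, v x = a x - a (σ⁻¹ x)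

theorem exists_prim_S (h : IsModel s ρ) {v : X → ℤ} (hv : IsManin s ρ v) : ∃ b, Prim s v b := by
  have hsum : ∀ x, ∑ j ∈ Finset.range 2, v ((s ^ j) x) = 0 := by
    intro x
    rw [Finset.sum_range_succ, Finset.sum_range_one, pow_zero, pow_one, Equiv.Perm.one_apply]
    have := hv.1 (s x)
    rw [perm_inv_apply] at this
    linarith
  obtain ⟨u, hu⟩ := exists_prim_of_norm s (by norm_num) h.hs hsum
  exact ⟨fun x => - u x, fun x => by rw [hu x]; ring⟩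

theorem exists_prim_R (h : IsModel s ρ) {v : X → ℤ} (hv : IsManin s ρ v) : ∃ a, Prim ρ v a := by
  have hsum : ∀ x, ∑ j ∈ Finset.range 3, v ((ρ ^ j) x) = 0 := by
    intro x
    rw [Finset.sum_range_succ, Finset.sum_range_succ, Finset.sum_range_one, pow_zero, pow_one,
      pow_two, Equiv.Perm.one_apply, Equiv.Perm.mul_apply]
    have := hv.2 (ρ (ρ x))
    rw [perm_inv_apply, perm_inv_apply] at this
    linarith
  obtain ⟨u, hu⟩ := exists_prim_of_norm ρ (by norm_num) h.hρ hsum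
  exact ⟨fun x => - u x, fun x => by rw [hu x]; ring⟩

theorem six_eq_ip (ρ : Equiv.Perm X) (v₁ v₂ : X → ℤ) :
    six ρ v₁ v₂ = ip v₁ (fun x => v₂ (ρ⁻¹ x)) - ip v₁ (fun x => v₂ (ρ⁻¹ (ρ⁻¹ x))) := by
  simp only [six, ip, mul_sub, Finset.sum_sub_distrib]

/-- the formula `six v₁ v₂ = 6 ⟨v₁, a - b⟩` -/
theorem six_eq_six_ip (h : IsModel s ρ) {v₁ v₂ a b : X → ℤ} (hv₁ : IsManin s ρ v₁)
    (hv₂ : IsManin s ρ v₂) (ha : Prim ρ v₂ a) (hb : Prim s v₂ b) :
    six ρ v₁ v₂ = 6 * ip v₁ (a - b) := by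
  -- c3 = 3a - (v₂ - ρ²v₂) is ρ-invariant
  have hc3 : ((3 : ℤ) • a - (v₂ - fun x => v₂ (ρ⁻¹ (ρ⁻¹ x))) : X → ℤ) ∈ InvSub ρ := by
    intro x
    simp only [Pi.sub_apply, Pi.smul_apply, smul_eq_mul]
    have h1 := ha x
    have h2 := hv₂.2 x
    rw [h.ρ_inv]
    linarith
  have hc2 : ((2 : ℤ) • b - v₂ : X → ℤ) ∈ InvSub s := by
    intro x
    simp only [Pi.sub_apply, Pi.smul_apply, smul_eq_mul]
    have h1 := hb x
    have h2 := hv₂.1 x
    linarith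
  have e3 := ip_eq_zero_of_manin_R h hv₁ hc3
  have e2 := ip_eq_zero_of_manin_S h hv₁ hc2
  rw [ip_sub_right, ip_smul_right, ip_sub_right] at e3
  rw [ip_sub_right, ip_smul_right] at e2
  have e1 : ip v₁ v₂ + ip v₁ (fun x => v₂ (ρ⁻¹ x)) + ip v₁ (fun x => v₂ (ρ⁻¹ (ρ⁻¹ x))) = 0 := by
    simp only [ip, ← Finset.sum_add_distrib]
    apply Finset.sum_eq_zero
    intro x _
    rw [← mul_add, ← mul_add, hv₂.2 x, mul_zero]
  rw [six_eq_ip, ip_sub_right]
  linarith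

/-- skew-symmetry of `six` -/
theorem six_skew (h : IsModel s ρ) (v₁ v₂ : X → ℤ) : six ρ v₂ v₁ = - six ρ v₁ v₂ := by
  rw [six_eq_ip, six_eq_ip]
  have e1 : ip v₂ (fun x => v₁ (ρ⁻¹ x)) = ip v₁ (fun x => v₂ (ρ⁻¹ (ρ⁻¹ x))) := by
    have := ip_comp (ρ⁻¹ * ρ⁻¹) v₂ (fun x => v₁ (ρ⁻¹ x))
    rw [← this, ip_comm]
    simp only [Equiv.Perm.mul_apply, h.ρ_inv]
  have e2 : ip v₂ (fun x => v₁ (ρ⁻¹ (ρ⁻¹ x))) = ip v₁ (fun x => v₂ (ρ⁻¹ x)) := by
    have := ip_comp ρ⁻¹ v₂ (fun x => v₁ (ρ⁻¹ (ρ⁻¹ x)))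
    rw [← this, ip_comm]
    simp only [h.ρ_inv]
  rw [e1, e2]; ring

/-- the kernel of `j` -/
theorem isBdry_of_prim (h : IsModel s ρ) {v a b : X → ℤ} (ha : Prim ρ v a) (hb : Prim s v b)
    (hab : a - b ∈ USub s ρ) : IsBdry s ρ v := by
  obtain ⟨y, hy, z, hz, hyz⟩ := Submodule.mem_sup.mp hab
  -- u = a - z = b + y
  have hu : ∀ x, a x - z x = b x + y x := by
    intro x
    have := congrFun hyz x
    simp only [Pi.add_apply, Pi.sub_apply] at this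
    linarith
  have h1 : ∀ x, v x = (a x - z x) - (a (ρ⁻¹ x) - z (ρ⁻¹ x)) := by
    intro x; rw [ha x, hz x]; ring
  have h2 : ∀ x, v x = (a x - z x) - (a (s⁻¹ x) - z (s⁻¹ x)) := by
    intro x; rw [hu, hu, hb x, hy x]; ring
  have h3 : ∀ x, a (ρ⁻¹ x) - z (ρ⁻¹ x) = a (s⁻¹ x) - z (s⁻¹ x) := by
    intro x
    have := h1 x
    have := h2 x
    linarith
  refine ⟨fun x => - (a x - z x), ?_, ?_⟩
  · intro x
    show - (a ((s * ρ)⁻¹ x) - z ((s * ρ)⁻¹ x)) = - (a x - z x)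
    have e : (s * ρ)⁻¹ x = ρ⁻¹ (s⁻¹ x) := by rw [mul_inv_rev]; rfl
    rw [e, h3, h.s_inv]
  · intro x
    show v x = - (a (s⁻¹ x) - z (s⁻¹ x)) - - (a x - z x)
    rw [h2 x]; ring

/-- boundary symbols are Manin symbols with equal primitives -/
theorem IsBdry.prim (h : IsModel s ρ) {v : X → ℤ} (hv : IsBdry s ρ v) :
    ∃ a, Prim ρ v a ∧ Prim s v a := by
  obtain ⟨u, hu, hv⟩ := hv
  have hρ : ∀ x, u (ρ⁻¹ x) = u (s⁻¹ x) := by
    intro x
    have := hu (s x)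
    have e : (s * ρ)⁻¹ (s x) = ρ⁻¹ x := by
      rw [mul_inv_rev]; show ρ⁻¹ (s⁻¹ (s x)) = _; rw [perm_inv_apply]
    rw [e] at this
    have e2 : s x = s⁻¹ x := by
      apply s⁻¹.injective
      rw [perm_inv_apply, h.s_inv]
    rw [this, e2]
  refine ⟨fun x => - u x, ?_, ?_⟩
  · intro x
    show v x = - u x - - u (ρ⁻¹ x)
    rw [hv x, hρ]; ring
  · intro x
    show v x = - u x - - u (s⁻¹ x)
    rw [hv x]; ring

theorem manin_of_prim (h : IsModel s ρ) {v a b : X → ℤ} (ha : Prim ρ v a) (hb : Prim s v b) :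
    IsManin s ρ v := by
  constructor
  · intro x
    rw [hb x, hb (s⁻¹ x), h.s_inv]; ring
  · intro x
    rw [ha x, ha (ρ⁻¹ x), ha (ρ⁻¹ (ρ⁻¹ x)), h.ρ_inv]; ring

theorem IsBdry.manin (h : IsModel s ρ) {v : X → ℤ} (hv : IsBdry s ρ v) : IsManin s ρ v := by
  obtain ⟨a, ha, hb⟩ := hv.prim h
  exact manin_of_prim h ha hb

/-- boundary symbols are in the radical -/
theorem six_bdry_right (h : IsModel s ρ) {v₁ v : X → ℤ} (hv₁ : IsManin s ρ v₁)
    (hv : IsBdry s ρ v) : six ρ v₁ v = 0 := by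
  obtain ⟨a, ha, hb⟩ := hv.prim h
  rw [six_eq_six_ip h hv₁ (hv.manin h) ha hb, sub_self, ip_zero_right, mul_zero]

theorem six_bdry_left (h : IsModel s ρ) {v₁ v : X → ℤ} (hv₁ : IsManin s ρ v₁)
    (hv : IsBdry s ρ v) : six ρ v v₁ = 0 := by
  rw [six_skew h, six_bdry_right h hv₁ hv, neg_zero]

/-- **Non-degeneracy.** -/
theorem isBdry_of_six_eq_zero (h : IsModel s ρ) {v₁ : X → ℤ} (hv₁ : IsManin s ρ v₁)
    (hzero : ∀ v₂, IsManin s ρ v₂ → six ρ v₁ v₂ = 0) : IsBdry s ρ v₁ := by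
  obtain ⟨a, ha⟩ := exists_prim_R h hv₁
  obtain ⟨b, hb⟩ := exists_prim_S h hv₁
  apply isBdry_of_prim h ha hb
  apply mem_USub_of_perp h
  intro v hv
  have h1 := six_eq_six_ip h hv hv₁ ha hb
  rw [six_skew h, hzero v hv, neg_zero] at h1
  omega

/-- the submodule of Manin symbols -/
def HcSub (s ρ : Equiv.Perm X) : Submodule ℤ (X → ℤ) where
  carrier := {v | IsManin s ρ v}
  add_mem' := by
    intro a b ha hb
    exact ⟨fun x => by show a x + b x + (a (s⁻¹ x) + b (s⁻¹ x)) = 0; have := ha.1 x; have := hb.1 x; linarith,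
      fun x => by
        show a x + b x + (a (ρ⁻¹ x) + b (ρ⁻¹ x)) + (a (ρ⁻¹ (ρ⁻¹ x)) + b (ρ⁻¹ (ρ⁻¹ x))) = 0
        have := ha.2 x; have := hb.2 x; linarith⟩
  zero_mem' := ⟨fun x => by simp, fun x => by simp⟩
  smul_mem' := by
    intro n a ha
    exact ⟨fun x => by
        show n • a x + n • a (s⁻¹ x) = 0
        rw [← smul_add, ha.1 x, smul_zero],
      fun x => by
        show n • a x + n • a (ρ⁻¹ x) + n • a (ρ⁻¹ (ρ⁻¹ x)) = 0
        rw [← smul_add, ← smul_add, ha.2 x, smul_zero]⟩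

theorem mem_HcSub {v : X → ℤ} : v ∈ HcSub s ρ ↔ IsManin s ρ v := Iff.rfl

theorem HcSub_isSat (s ρ : Equiv.Perm X) : IsSat (HcSub s ρ) := by
  intro n w hn hw
  constructor
  · intro x
    have := hw.1 x
    simp only [Pi.smul_apply, smul_eq_mul] at this
    have h2 : n * (w x + w (s⁻¹ x)) = 0 := by linarith
    rcases mul_eq_zero.mp h2 with h3 | h3
    · exact absurd h3 hn
    · exact h3
  · intro x
    have := hw.2 x
    simp only [Pi.smul_apply, smul_eq_mul] at this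
    have h2 : n * (w x + w (ρ⁻¹ x) + w (ρ⁻¹ (ρ⁻¹ x))) = 0 := by linarith
    rcases mul_eq_zero.mp h2 with h3 | h3
    · exact absurd h3 hn
    · exact h3

/-- **Perfectness.** Every linear functional on Manin symbols vanishing on the boundary symbols is
`v₂ ↦ six v₁ v₂ / 6` for a Manin symbol `v₁`. -/
theorem exists_six_eq (h : IsModel s ρ) (φ : HcSub s ρ →ₗ[ℤ] ℤ)
    (hφ : ∀ v : HcSub s ρ, IsBdry s ρ (v : X → ℤ) → φ v = 0) :
    ∃ v₁, IsManin s ρ v₁ ∧ ∀ v₂ : HcSub s ρ, six ρ v₁ (v₂ : X → ℤ) = 6 * φ v₂ := by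
  obtain ⟨φ', hφ'⟩ := (HcSub_isSat s ρ).exists_extension φ
  obtain ⟨w, hw⟩ := exists_ip_of_functional φ'
  -- (s - 1) w is orthogonal to the τ-invariants
  have hperp : ∀ u' ∈ InvSub (s * ρ), ip u' (fun x => w (s⁻¹ x) - w x) = 0 := by
    intro u' hu'
    -- the boundary symbol of u'
    have hb : IsBdry s ρ (fun x => u' (s⁻¹ x) - u' x) := ⟨u', hu', fun x => rfl⟩
    have hm := hb.manin h
    have h1 := hφ ⟨_, hm⟩ hb
    rw [← hφ', hw] at h1
    -- ip w (s u' - u') = ip (s w - w) u'   (s² = 1)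
    have h2 : ip w (fun x => u' (s⁻¹ x)) = ip (fun x => w (s⁻¹ x)) u' := by
      have := ip_comp s⁻¹ w (fun x => u' (s⁻¹ x))
      rw [← this]
      simp only [h.s_inv]
    have h3 : ip w (fun x => u' (s⁻¹ x) - u' x) = ip w (fun x => u' (s⁻¹ x)) - ip w u' :=
      ip_sub_right w (fun x => u' (s⁻¹ x)) u'
    have h4 : ip u' (fun x => w (s⁻¹ x) - w x) = ip u' (fun x => w (s⁻¹ x)) - ip u' w :=
      ip_sub_right u' (fun x => w (s⁻¹ x)) w
    have h1' : ip w (fun x => u' (s⁻¹ x) - u' x) = 0 := h1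
    rw [h4, ip_comm u' (fun x => w (s⁻¹ x)), ← h2, ip_comm u' w]
    rw [h3] at h1'
    exact h1'
  obtain ⟨u, hu⟩ := mem_ImSub_of_perp (s * ρ) hperp
  -- v := (1 - ρ)(-u) = (1 - s)(w - u)
  have hτ : ∀ x, (s * ρ)⁻¹ x = ρ⁻¹ (s⁻¹ x) := by
    intro x; rw [mul_inv_rev]; rfl
  have hsx : ∀ x, s x = s⁻¹ x := by
    intro x
    apply s⁻¹.injective
    rw [perm_inv_apply, h.s_inv]
  have ha : Prim ρ (fun x => - u x + u (ρ⁻¹ x)) (fun x => - u x) := by
    intro x; ring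
  have hb : Prim s (fun x => - u x + u (ρ⁻¹ x)) (fun x => w x - u x) := by
    intro x
    show - u x + u (ρ⁻¹ x) = (w x - u x) - (w (s⁻¹ x) - u (s⁻¹ x))
    have := hu (s x)
    rw [hτ, perm_inv_apply, hsx] at this
    linarith
  have hman := manin_of_prim h ha hb
  refine ⟨fun x => - u x + u (ρ⁻¹ x), hman, ?_⟩
  intro v₂
  have h1 := six_eq_six_ip h v₂.2 hman ha hb
  rw [six_skew h, h1, ← hφ', hw]
  have : ((fun x => - u x) - fun x => w x - u x) = - w := by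
    funext x
    show - u x - (w x - u x) = - w x
    ring
  rw [this]
  have : ip (v₂ : X → ℤ) (-w) = - ip w v₂ := by
    rw [ip_comm]
    simp [ip]
  rw [this]; ring

end Fermat.Agent.S41.PD
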