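import Mathlib
import Fermat.Prelude.Def_ModularCurve_PeriodMap

/-!
# S41, piece P2 (duality), part "Shapiro": sections of `SL(2,ℤ) → SL(2,ℤ) ⧸ Γ` and induced cochains

`Γ ⊆ SL(2,ℤ)` a subgroup, `X = SL(2,ℤ) ⧸ Γ` (left cosets, left action). For a section `r` the elements
`A g x = (r x)⁻¹ g r(g⁻¹x) ∈ Γ` satisfy `A (g h) x = A g x * A h (g⁻¹ x)`, so a function `f : Γ → ℤ`
induces `sh f g x = f (A g x)`, a cocycle when `f` is a homomorphism.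
-/

set_option autoImplicit false
set_option linter.unusedSectionVars false
set_option linter.unusedVariables false

noncomputable section

open scoped MatrixGroups
open ModularCurve.Period

namespace Fermat.Agent.S41.PD

variable {Γ : Subgroup SL(2, ℤ)}

/-- a section of `SL(2,ℤ) → SL(2,ℤ) ⧸ Γ` -/
structure Sec (Γ : Subgroup SL(2, ℤ)) where
  r : SL(2, ℤ) ⧸ Γ → SL(2, ℤ)
  mk_r : ∀ x, ((r x : SL(2, ℤ)) : SL(2, ℤ) ⧸ Γ) = x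

namespace Sec

variable (r : Sec Γ)

theorem A_mem (g : SL(2, ℤ)) (x : SL(2, ℤ) ⧸ Γ) :
    (r.r x)⁻¹ * g * r.r (g⁻¹ • x) ∈ Γ := by
  have h : ((r.r x : SL(2, ℤ)) : SL(2, ℤ) ⧸ Γ) = ((g * r.r (g⁻¹ • x) : SL(2, ℤ)) : SL(2, ℤ) ⧸ Γ) := by
    rw [r.mk_r]
    have : ((g * r.r (g⁻¹ • x) : SL(2, ℤ)) : SL(2, ℤ) ⧸ Γ) = g • ((r.r (g⁻¹ • x) : SL(2, ℤ)) : SL(2, ℤ) ⧸ Γ) := rfl
    rw [this, r.mk_r, smul_inv_smul]
  have := QuotientGroup.eq.mp h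
  rwa [← mul_assoc] at this

/-- `A g x = (r x)⁻¹ g r(g⁻¹ x) ∈ Γ` -/
def A (g : SL(2, ℤ)) (x : SL(2, ℤ) ⧸ Γ) : Γ := ⟨(r.r x)⁻¹ * g * r.r (g⁻¹ • x), r.A_mem g x⟩

@[simp] theorem coe_A (g : SL(2, ℤ)) (x : SL(2, ℤ) ⧸ Γ) :
    ((r.A g x : Γ) : SL(2, ℤ)) = (r.r x)⁻¹ * g * r.r (g⁻¹ • x) := rfl

theorem A_mul (g h : SL(2, ℤ)) (x : SL(2, ℤ) ⧸ Γ) :
    r.A (g * h) x = r.A g x * r.A h (g⁻¹ • x) := by
  apply Subtype.ext
  simp only [coe_A, Subgroup.coe_mul, mul_inv_rev, mul_smul]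
  group

theorem A_one (x : SL(2, ℤ) ⧸ Γ) : r.A 1 x = 1 := by
  apply Subtype.ext
  simp [coe_A]

/-- the cochain induced by a function on `Γ` -/
def sh (f : Γ → ℤ) (g : SL(2, ℤ)) (x : SL(2, ℤ) ⧸ Γ) : ℤ := f (r.A g x)

theorem sh_apply (f : Γ → ℤ) (g : SL(2, ℤ)) (x : SL(2, ℤ) ⧸ Γ) : r.sh f g x = f (r.A g x) := rfl

end Sec

/-- the action of `SL(2,ℤ)` on functions on `X` : `(g • v) x = v (g⁻¹ x)` -/
def act (g : SL(2, ℤ)) (v : SL(2, ℤ) ⧸ Γ → ℤ) : SL(2, ℤ) ⧸ Γ → ℤ := fun x => v (g⁻¹ • x)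

@[simp] theorem act_apply (g : SL(2, ℤ)) (v : SL(2, ℤ) ⧸ Γ → ℤ) (x : SL(2, ℤ) ⧸ Γ) :
    act g v x = v (g⁻¹ • x) := rfl

theorem act_mul (g h : SL(2, ℤ)) (v : SL(2, ℤ) ⧸ Γ → ℤ) : act (g * h) v = act g (act h v) := by
  funext x; simp [act, mul_smul]

theorem act_one (v : SL(2, ℤ) ⧸ Γ → ℤ) : act (1 : SL(2, ℤ)) v = v := by
  funext x; simp [act]

theorem act_add (g : SL(2, ℤ)) (v w : SL(2, ℤ) ⧸ Γ → ℤ) : act g (v + w) = act g v + act g w := rfl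

theorem act_mul_fun (g : SL(2, ℤ)) (v w : SL(2, ℤ) ⧸ Γ → ℤ) : act g (v * w) = act g v * act g w := rfl

theorem neg_one_smul_coset (hΓ : (-1 : SL(2, ℤ)) ∈ Γ) (x : SL(2, ℤ) ⧸ Γ) :
    (-1 : SL(2, ℤ)) • x = x := by
  induction x using QuotientGroup.induction_on with
  | H g =>
    show ((-1 * g : SL(2, ℤ)) : SL(2, ℤ) ⧸ Γ) = g
    rw [eq_comm, QuotientGroup.eq]
    have : g⁻¹ * (-1 * g) = -1 := by
      rw [show (-1 : SL(2, ℤ)) * g = g * -1 from by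
        ext i j; fin_cases i <;> fin_cases j <;> simp [Matrix.mul_apply, Fin.sum_univ_two]]
      rw [← mul_assoc, inv_mul_cancel, one_mul]
    rw [this]; exact hΓ

namespace Sec

variable (r : Sec Γ)

theorem sh_mul (c : Γ →* Multiplicative ℤ) (g h : SL(2, ℤ)) :
    r.sh (fun γ => Multiplicative.toAdd (c γ)) (g * h)
      = r.sh (fun γ => Multiplicative.toAdd (c γ)) g
        + act g (r.sh (fun γ => Multiplicative.toAdd (c γ)) h) := by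
  funext x
  simp only [sh_apply, Pi.add_apply, act_apply, A_mul, map_mul, toAdd_mul]

end Sec

end Fermat.Agent.S41.PD
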