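import Mathlib
import Fermat.Agent.S41.PDShap
import Fermat.Agent.S41.PDOrb

/-!
# S41, piece P2 (duality): a `T`-adapted section of `SL(2,ℤ) → SL(2,ℤ) ⧸ Γ`

`adSec Γ` is a section `r` with `r (T^i b) = T^i r(b)` along each `T`-orbit (base point `b`), so that
`A T x = 1` unless `x` is a base point, where `A T b = r(b)⁻¹ T^k r(b)` (`k` = width of the cusp).
-/

set_option autoImplicit false
set_option linter.unusedSectionVars false
set_option linter.unusedVariables false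

noncomputable section

open scoped MatrixGroups
open ModularCurve.Period

namespace Fermat.Agent.S41.PD

variable (Γ : Subgroup SL(2, ℤ)) [Γ.FiniteIndex]

instance finiteQuot : Finite (SL(2, ℤ) ⧸ Γ) := Subgroup.finite_quotient_of_finiteIndex

instance fintypeQuot : Fintype (SL(2, ℤ) ⧸ Γ) := Fintype.ofFinite _

instance finiteQuot' : Finite (Quotient (QuotientGroup.leftRel Γ)) := finiteQuot Γ

/-- the permutation of `X` given by `T` -/
def tau : Equiv.Perm (SL(2, ℤ) ⧸ Γ) := MulAction.toPerm ModularGroup.T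

variable {Γ}

@[simp] theorem tau_apply (x : SL(2, ℤ) ⧸ Γ) : tau Γ x = ModularGroup.T • x := rfl

theorem tau_pow_apply (n : ℕ) (x : SL(2, ℤ) ⧸ Γ) : (tau Γ ^ n) x = ModularGroup.T ^ n • x := by
  induction n generalizing x with
  | zero => simp
  | succ n ih => rw [pow_succ, Equiv.Perm.mul_apply, ih, tau_apply, pow_succ, mul_smul]

theorem tau_inv_apply (x : SL(2, ℤ) ⧸ Γ) : (tau Γ)⁻¹ x = ModularGroup.T⁻¹ • x := by
  apply (tau Γ).injective
  rw [perm_apply_inv, tau_apply, smul_inv_smul]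

variable (Γ)

/-- the `T`-adapted section -/
def adSec : Sec Γ where
  r x := ModularGroup.T ^ idx (tau Γ) x * Quotient.out (base (tau Γ) x)
  mk_r x := by
    have h1 : ((ModularGroup.T ^ idx (tau Γ) x * Quotient.out (base (tau Γ) x) : SL(2, ℤ)) : SL(2, ℤ) ⧸ Γ)
        = ModularGroup.T ^ idx (tau Γ) x • ((Quotient.out (base (tau Γ) x) : SL(2, ℤ)) : SL(2, ℤ) ⧸ Γ) := rfl
    rw [h1, QuotientGroup.out_eq', ← tau_pow_apply, pow_idx]

variable {Γ}

theorem adSec_r (x : SL(2, ℤ) ⧸ Γ) :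
    (adSec Γ).r x = ModularGroup.T ^ idx (tau Γ) x * Quotient.out (base (tau Γ) x) := rfl

/-- base points -/
def IsBase (b : SL(2, ℤ) ⧸ Γ) : Prop := base (tau Γ) b = b

theorem adSec_r_base {b : SL(2, ℤ) ⧸ Γ} (hb : IsBase b) : (adSec Γ).r b = Quotient.out b := by
  rw [adSec_r, (idx_eq_zero_iff (tau Γ) b).mpr hb, pow_zero, one_mul, hb]

theorem adSec_A_of_not_base {x : SL(2, ℤ) ⧸ Γ} (hx : ¬ IsBase x) :
    (adSec Γ).A ModularGroup.T x = 1 := by
  apply Subtype.ext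
  have h0 : idx (tau Γ) x ≠ 0 := fun h => hx ((idx_eq_zero_iff (tau Γ) x).mp h)
  have h1 := idx_inv_apply (tau Γ) h0
  rw [Sec.coe_A, adSec_r, adSec_r, ← tau_inv_apply, base_inv_apply, ← h1, pow_succ]
  simp only [Subgroup.coe_one, mul_inv_rev]
  group

/-- the width of the cusp of a base point -/
def wid (b : SL(2, ℤ) ⧸ Γ) : ℕ := per (tau Γ) b

theorem wid_pos (b : SL(2, ℤ) ⧸ Γ) : 0 < wid b := per_pos _ _

theorem adSec_A_base {b : SL(2, ℤ) ⧸ Γ} (hb : IsBase b) :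
    (((adSec Γ).A ModularGroup.T b : Γ) : SL(2, ℤ))
      = (Quotient.out b)⁻¹ * ModularGroup.T ^ wid b * Quotient.out b := by
  rw [Sec.coe_A, adSec_r_base hb, adSec_r, ← tau_inv_apply, base_inv_apply, hb, wid, per, pow_succ']
  group

theorem T_pow_wid_smul {b : SL(2, ℤ) ⧸ Γ} (hb : IsBase b) : ModularGroup.T ^ wid b • b = b := by
  rw [← tau_pow_apply]; exact pow_per (tau Γ) hb

theorem trace_conj_T_zpow (g : SL(2, ℤ)) (k : ℤ) :
    ((g⁻¹ * ModularGroup.T ^ k * g : SL(2, ℤ)) : Matrix (Fin 2) (Fin 2) ℤ).trace = 2 := by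
  have h1 : ((g⁻¹ * ModularGroup.T ^ k * g : SL(2, ℤ)) : Matrix (Fin 2) (Fin 2) ℤ)
      = (g⁻¹ : SL(2, ℤ)).1 * ((ModularGroup.T ^ k : SL(2, ℤ)).1 * g.1) := by
    rw [mul_assoc]
    rfl
  rw [h1, Matrix.trace_mul_comm, Matrix.mul_assoc]
  have h2 : g.1 * (g⁻¹ : SL(2, ℤ)).1 = 1 := by
    have : ((g * g⁻¹ : SL(2, ℤ)) : Matrix (Fin 2) (Fin 2) ℤ) = 1 := by
      rw [mul_inv_cancel]
      rfl
    exact this
  rw [h2, Matrix.mul_one]
  have h3 := ModularGroup.coe_T_zpow k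
  show ((ModularGroup.T ^ k : SL(2, ℤ)) : Matrix (Fin 2) (Fin 2) ℤ).trace = 2
  rw [h3, Matrix.trace_fin_two_of]
  norm_num

/-- every `A T x` of the adapted section has trace `2` -/
theorem adSec_A_trace (x : SL(2, ℤ) ⧸ Γ) :
    ((((adSec Γ).A ModularGroup.T x : Γ) : SL(2, ℤ)) : Matrix (Fin 2) (Fin 2) ℤ).trace = 2 := by
  by_cases hx : IsBase x
  · rw [adSec_A_base hx]
    have := trace_conj_T_zpow (Quotient.out x) (wid x : ℤ)
    rwa [zpow_natCast] at this
  · rw [adSec_A_of_not_base hx]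
    simp [Matrix.trace_fin_two]

/-- for a parabolic homomorphism the induced cocycle of the adapted section vanishes at `T` -/
theorem hom_adSec_A_T {c : Additive Γ →+ ℤ} (hc : c ∈ parabolicHoms ℤ Γ ℤ) (x : SL(2, ℤ) ⧸ Γ) :
    c (Additive.ofMul ((adSec Γ).A ModularGroup.T x)) = 0 := by
  apply hc
  rw [adSec_A_trace]; norm_num

end Fermat.Agent.S41.PD
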