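import Mathlib

/-!
# S41, piece P2 (duality): abstract cusp systems

A *cusp system* for a group `G` with a predicate `P` ("positive parabolic") is a finite family
`π : I → G` of elements such that every `γ` with `P γ` is conjugate to `π i ^ j` for a unique
`(i, j)`, `j ≥ 1`. Sums of class functions over a cusp system are independent of the system and
are transported by isomorphisms respecting `P`.
-/

set_option autoImplicit false
set_option linter.unusedSectionVars false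
set_option linter.unusedVariables false

namespace Fermat.Agent.S41.PD

/-- cusp systems -/
structure CuspSys {G : Type*} [Group G] (P : G → Prop) {I : Type*} (π : I → G) : Prop where
  pos : ∀ i, P (π i)
  ex : ∀ γ, P γ → ∃ (i : I) (j : ℕ), 0 < j ∧ ∃ g : G, γ = g⁻¹ * π i ^ j * g
  uniq : ∀ (i i' : I) (j j' : ℕ) (g : G), 0 < j → 0 < j' → π i ^ j = g⁻¹ * π i' ^ j' * g →
    i = i' ∧ j = j'

variable {G₁ G₂ : Type*} [Group G₁] [Group G₂] {P₁ : G₁ → Prop} {P₂ : G₂ → Prop}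
  {I₁ I₂ : Type*} {π₁ : I₁ → G₁} {π₂ : I₂ → G₂}

theorem conj_pow' {G : Type*} [Group G] (g x : G) (n : ℕ) : (g⁻¹ * x * g) ^ n = g⁻¹ * x ^ n * g := by
  induction n with
  | zero => simp
  | succ n ih => rw [pow_succ, ih, pow_succ]; group

/-- the matching of two cusp systems along an isomorphism -/
theorem CuspSys.exists_match (h₁ : CuspSys P₁ π₁) (h₂ : CuspSys P₂ π₂) (ψ : G₁ ≃* G₂)
    (hψ : ∀ γ, P₂ (ψ γ) ↔ P₁ γ) (i : I₁) :
    ∃ i' : I₂, ∃ g : G₂, ψ (π₁ i) = g⁻¹ * π₂ i' * g := by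
  obtain ⟨i', j', hj', g, hg⟩ := h₂.ex (ψ (π₁ i)) ((hψ _).mpr (h₁.pos i))
  have hP : P₁ (ψ.symm (π₂ i')) := by
    rw [← hψ, MulEquiv.apply_symm_apply]; exact h₂.pos i'
  obtain ⟨i'', j'', hj'', g', hg'⟩ := h₁.ex _ hP
  -- π₁ i = ψ⁻¹(g)⁻¹ (ψ⁻¹ π₂ i')^j' ψ⁻¹(g) = ... π₁ i'' ^ (j'' j')
  have h3 : π₁ i ^ 1 = (g' * ψ.symm g)⁻¹ * π₁ i'' ^ (j'' * j') * (g' * ψ.symm g) := by
    have e1 : π₁ i = ψ.symm (ψ (π₁ i)) := (MulEquiv.symm_apply_apply ψ _).symm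
    rw [pow_one, e1, hg, map_mul, map_mul, map_inv, map_pow, hg', conj_pow', pow_mul]
    group
  obtain ⟨_, h5⟩ := h₁.uniq i i'' 1 (j'' * j') _ Nat.one_pos (Nat.mul_pos hj'' hj') h3
  have h6 : j' = 1 := by
    have := Nat.eq_one_of_mul_eq_one_left h5.symm
    exact this
  refine ⟨i', g, ?_⟩
  rw [hg, h6, pow_one]

/-- sums of class functions over cusp systems correspond -/
theorem CuspSys.sum_eq [Fintype I₁] [Fintype I₂] (h₁ : CuspSys P₁ π₁) (h₂ : CuspSys P₂ π₂)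
    (ψ : G₁ ≃* G₂) (hψ : ∀ γ, P₂ (ψ γ) ↔ P₁ γ) (f : G₂ → ℤ)
    (hf : ∀ (γ g : G₂), P₂ γ → f (g⁻¹ * γ * g) = f γ) :
    ∑ i, f (ψ (π₁ i)) = ∑ i', f (π₂ i') := by
  classical
  choose β gβ hβ using h₁.exists_match h₂ ψ hψ
  have hψ' : ∀ γ, P₁ (ψ.symm γ) ↔ P₂ γ := by
    intro γ
    rw [← hψ, MulEquiv.apply_symm_apply]
  choose β' gβ' hβ' using h₂.exists_match h₁ ψ.symm hψ'
  have hinj : Function.Injective β := by
    intro a b hab
    have ha := hβ a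
    have hb := hβ b
    rw [hab] at ha
    -- ψ π a = g_a⁻¹ π₂ g_a, ψ π b = g_b⁻¹ π₂ g_b
    have h3 : ψ (π₁ a) = ((gβ b)⁻¹ * gβ a)⁻¹ * ψ (π₁ b) * ((gβ b)⁻¹ * gβ a) := by
      rw [ha, hb]; group
    have h4 : π₁ a ^ 1 = (ψ.symm ((gβ b)⁻¹ * gβ a))⁻¹ * π₁ b ^ 1 * ψ.symm ((gβ b)⁻¹ * gβ a) := by
      rw [pow_one, pow_one]
      apply ψ.injective
      rw [map_mul, map_mul, map_inv, MulEquiv.apply_symm_apply]
      exact h3
    exact (h₁.uniq a b 1 1 _ Nat.one_pos Nat.one_pos h4).1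
  have hsurj : Function.Surjective β := by
    intro b'
    refine ⟨β' b', ?_⟩
    have h1 := hβ (β' b')
    have h2 := hβ' b'
    -- π₂ b' = ψ (g'⁻¹ π₁ (β' b') g') = ψ g'⁻¹ * (g⁻¹ π₂ (β (β' b')) g) * ψ g'
    have h3 : π₂ b' ^ 1 = (gβ (β' b') * ψ (gβ' b'))⁻¹ * π₂ (β (β' b')) ^ 1 * (gβ (β' b') * ψ (gβ' b')) := by
      rw [pow_one, pow_one]
      have e1 : π₂ b' = ψ (ψ.symm (π₂ b')) := (MulEquiv.apply_symm_apply ψ _).symm
      rw [e1, h2, map_mul, map_mul, map_inv, h1]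
      group
    exact ((h₂.uniq b' (β (β' b')) 1 1 _ Nat.one_pos Nat.one_pos h3).1).symm
  have hbij : Function.Bijective β := ⟨hinj, hsurj⟩
  rw [← Equiv.sum_comp (Equiv.ofBijective β hbij) (fun i' => f (π₂ i'))]
  apply Finset.sum_congr rfl
  intro i _
  show f (ψ (π₁ i)) = f (π₂ (β i))
  rw [hβ i, hf _ _ (h₂.pos _)]

end Fermat.Agent.S41.PD
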