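import Mathlib

/-!
# S41, piece P2 (duality): positive parabolic elements of `SL(2,ℤ)`

`PosPar g` : `tr g = 2` and `g₀₁ - g₁₀ > 0`. Every such element is `h⁻¹ T^m h` with `m ≥ 1`;
the property is invariant under conjugation by integral matrices of positive determinant.
-/

set_option autoImplicit false
set_option linter.unusedSectionVars false
set_option linter.unusedVariables false

open scoped MatrixGroups

namespace Fermat.Agent.S41.PD

/-- positive parabolic elements -/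
def PosPar (g : SL(2, ℤ)) : Prop := g.1 0 0 + g.1 1 1 = 2 ∧ 0 < g.1 0 1 - g.1 1 0

theorem det_eq (g : SL(2, ℤ)) : g.1 0 0 * g.1 1 1 - g.1 0 1 * g.1 1 0 = 1 := by
  have := g.2
  rwa [Matrix.det_fin_two] at this

theorem inv_entries (g : SL(2, ℤ)) :
    (g⁻¹).1 0 0 = g.1 1 1 ∧ (g⁻¹).1 0 1 = - g.1 0 1 ∧ (g⁻¹).1 1 0 = - g.1 1 0 ∧ (g⁻¹).1 1 1 = g.1 0 0 := by
  rw [Matrix.SpecialLinearGroup.coe_inv, Matrix.adjugate_fin_two]
  simp

theorem mul_entries (g h : SL(2, ℤ)) :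
    (g * h).1 0 0 = g.1 0 0 * h.1 0 0 + g.1 0 1 * h.1 1 0 ∧
    (g * h).1 0 1 = g.1 0 0 * h.1 0 1 + g.1 0 1 * h.1 1 1 ∧
    (g * h).1 1 0 = g.1 1 0 * h.1 0 0 + g.1 1 1 * h.1 1 0 ∧
    (g * h).1 1 1 = g.1 1 0 * h.1 0 1 + g.1 1 1 * h.1 1 1 := by
  rw [Matrix.SpecialLinearGroup.coe_mul]
  simp [Matrix.mul_apply, Fin.sum_univ_two]

theorem T_zpow_entries (k : ℤ) :
    (ModularGroup.T ^ k).1 0 0 = 1 ∧ (ModularGroup.T ^ k).1 0 1 = k ∧
    (ModularGroup.T ^ k).1 1 0 = 0 ∧ (ModularGroup.T ^ k).1 1 1 = 1 := by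
  rw [ModularGroup.coe_T_zpow]
  simp

theorem sl_ext {g h : SL(2, ℤ)} (h00 : g.1 0 0 = h.1 0 0) (h01 : g.1 0 1 = h.1 0 1)
    (h10 : g.1 1 0 = h.1 1 0) (h11 : g.1 1 1 = h.1 1 1) : g = h := by
  apply Subtype.ext
  ext i j
  fin_cases i <;> fin_cases j
  · exact h00
  · exact h01
  · exact h10
  · exact h11

/-- entries of `g⁻¹ T^k g` -/
theorem conj_T_entries (g : SL(2, ℤ)) (k : ℤ) :
    (g⁻¹ * ModularGroup.T ^ k * g).1 0 0 = 1 + k * g.1 1 0 * g.1 1 1 ∧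
    (g⁻¹ * ModularGroup.T ^ k * g).1 0 1 = k * g.1 1 1 ^ 2 ∧
    (g⁻¹ * ModularGroup.T ^ k * g).1 1 0 = - k * g.1 1 0 ^ 2 ∧
    (g⁻¹ * ModularGroup.T ^ k * g).1 1 1 = 1 - k * g.1 1 0 * g.1 1 1 := by
  obtain ⟨a1, a2, a3, a4⟩ := mul_entries (g⁻¹ * ModularGroup.T ^ k) g
  obtain ⟨b1, b2, b3, b4⟩ := mul_entries g⁻¹ (ModularGroup.T ^ k)
  obtain ⟨c1, c2, c3, c4⟩ := inv_entries g
  obtain ⟨d1, d2, d3, d4⟩ := T_zpow_entries k
  have hd := det_eq g
  rw [a1, a2, a3, a4, b1, b2, b3, b4, c1, c2, c3, c4, d1, d2, d3, d4]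
  refine ⟨?_, ?_, ?_, ?_⟩
  · linear_combination hd
  · ring
  · ring
  · linear_combination hd

theorem sq_add_sq_pos (g : SL(2, ℤ)) : 0 < g.1 1 0 ^ 2 + g.1 1 1 ^ 2 := by
  have hd := det_eq g
  by_contra h
  have h1 : g.1 1 0 ^ 2 + g.1 1 1 ^ 2 = 0 := by nlinarith [sq_nonneg (g.1 1 0), sq_nonneg (g.1 1 1)]
  have h2 : g.1 1 0 = 0 := by nlinarith [sq_nonneg (g.1 1 0), sq_nonneg (g.1 1 1)]
  have h3 : g.1 1 1 = 0 := by nlinarith [sq_nonneg (g.1 1 0), sq_nonneg (g.1 1 1)]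
  rw [h2, h3] at hd
  simp at hd

theorem posPar_conj_T_pow (g : SL(2, ℤ)) {k : ℕ} (hk : 0 < k) :
    PosPar (g⁻¹ * ModularGroup.T ^ k * g) := by
  obtain ⟨a1, a2, a3, a4⟩ := conj_T_entries g (k : ℤ)
  rw [zpow_natCast] at a1 a2 a3 a4
  refine ⟨by rw [a1, a4]; ring, ?_⟩
  rw [a2, a3]
  have := sq_add_sq_pos g
  have hk' : (0 : ℤ) < k := by exact_mod_cast hk
  nlinarith

theorem posPar_conj_T_zpow_iff (g : SL(2, ℤ)) (k : ℤ) :
    PosPar (g⁻¹ * ModularGroup.T ^ k * g) ↔ 0 < k := by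
  obtain ⟨a1, a2, a3, a4⟩ := conj_T_entries g k
  have := sq_add_sq_pos g
  constructor
  · intro h
    have h2 := h.2
    rw [a2, a3] at h2
    by_contra hk
    have : k ≤ 0 := not_lt.mp hk
    nlinarith
  · intro hk
    refine ⟨by rw [a1, a4]; ring, ?_⟩
    rw [a2, a3]
    nlinarith

/-- classification of positive parabolic elements -/
theorem PosPar.exists_conj {γ : SL(2, ℤ)} (hγ : PosPar γ) :
    ∃ (g : SL(2, ℤ)) (m : ℕ), 0 < m ∧ γ = g⁻¹ * ModularGroup.T ^ m * g := by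
  have hd := det_eq γ
  obtain ⟨htr, hpos⟩ := hγ
  -- nilpotent part n = [[α, b],[c, -α]], α = γ00 - 1
  set α := γ.1 0 0 - 1 with hα
  set b := γ.1 0 1 with hb
  set c := γ.1 1 0 with hc
  have h11 : γ.1 1 1 = 1 - α := by rw [hα]; linarith
  have hnil : α ^ 2 + b * c = 0 := by
    have h00 : γ.1 0 0 = 1 + α := by rw [hα]; ring
    rw [h00, h11] at hd
    nlinarith
  -- want h = [[p, q],[r, s]] ∈ SL2 with (r, s) ∝ ... such that γ = h⁻¹ T^m h:
  -- need m r s = α, m s^2 = b, - m r^2 = c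
  by_cases hc0 : c = 0
  · have hα0 : α = 0 := by
      rw [hc0, mul_zero, add_zero] at hnil
      exact pow_eq_zero_iff (two_ne_zero) |>.mp hnil
    have hbpos : 0 < b := by rw [hc0] at hpos; linarith
    refine ⟨1, b.toNat, by omega, ?_⟩
    have hbn : ((b.toNat : ℕ) : ℤ) = b := Int.toNat_of_nonneg hbpos.le
    rw [inv_one, one_mul, mul_one]
    obtain ⟨d1, d2, d3, d4⟩ := T_zpow_entries (b.toNat : ℤ)
    rw [zpow_natCast] at d1 d2 d3 d4
    apply sl_ext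
    · rw [d1]; have : γ.1 0 0 = 1 + α := by rw [hα]; ring
      rw [this, hα0]; ring
    · rw [d2, hbn]
    · rw [d3]; exact hc0
    · rw [d4, h11, hα0]; ring
  · -- c ≠ 0: (r, s) primitive with r s m = α, s² m = b, r² m = -c
    -- take g' = gcd(α, c), r = c / g' ... use (r, s) := (-c/g', α/g')... sign adjustments
    have hcneg : c < 0 := by
      rcases lt_trichotomy c 0 with h | h | h
      · exact h
      · exact absurd h hc0
      · exfalso
        have hb' : 0 < b := by linarith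
        nlinarith [sq_nonneg α]
    set d := Int.gcd α c with hd'
    have hdpos : 0 < (d : ℤ) := by
      have : d ≠ 0 := by
        rw [hd']; intro h0
        exact hc0 (Int.gcd_eq_zero_iff.mp h0).2
      exact_mod_cast Nat.pos_of_ne_zero this
    obtain ⟨α', hα'⟩ : (d : ℤ) ∣ α := Int.gcd_dvd_left α c
    obtain ⟨c', hc'⟩ : (d : ℤ) ∣ c := Int.gcd_dvd_right α c
    have hcop : IsCoprime c' α' := by
      have h1 : Int.gcd α' c' = 1 := by
        have := Int.gcd_div_gcd_div_gcd (i := α) (j := c) (by exact_mod_cast hdpos)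
        rw [← hd'] at this
        have e1 : α / (d : ℤ) = α' := by rw [hα']; exact Int.mul_ediv_cancel_left _ hdpos.ne'
        have e2 : c / (d : ℤ) = c' := by rw [hc']; exact Int.mul_ediv_cancel_left _ hdpos.ne'
        rw [e1, e2] at this; exact this
      exact (Int.isCoprime_iff_gcd_eq_one.mpr h1).symm
    -- row (r, s) = (c', -α')   [then m r s = α, m s² = b, -m r² = c with m = -d / c' ... ]
    have hcop2 : IsCoprime c' (-α') := hcop.neg_right
    obtain ⟨g, hg0, hg1⟩ := hcop2.exists_SL2_row 1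
    -- m := - c / c'^2 = - d / c'
    have hc'ne : c' ≠ 0 := by
      intro h0; rw [h0, mul_zero] at hc'; exact hc0 hc'
    -- c' ∣ d : from α² + b c = 0: d² α'² + b d c' = 0 → d α'² = - b c' → c' ∣ d α'² → c' ∣ d
    have h2 : (d : ℤ) * α' ^ 2 = - b * c' := by
      have : (d : ℤ) * ((d : ℤ) * α' ^ 2 + b * c') = 0 := by
        rw [hα', hc'] at hnil; linear_combination hnil
      rcases mul_eq_zero.mp this with h | h
      · exact absurd h hdpos.ne'
      · linarith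
    have h3 : c' ∣ (d : ℤ) := by
      have : c' ∣ (d : ℤ) * α' ^ 2 := ⟨-b, by rw [h2]; ring⟩
      exact (hcop.pow_right (n := 2)).dvd_of_dvd_mul_right this
    obtain ⟨m', hm'⟩ := h3
    -- b = - m' α'² ... from h2: c' m' α'² = - b c' → b = - m' α'^2
    have hb2 : b = - m' * α' ^ 2 := by
      have : c' * (m' * α' ^ 2 + b) = 0 := by
        rw [hm'] at h2; linear_combination h2
      rcases mul_eq_zero.mp this with h | h
      · exact absurd h hc'ne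
      · linarith
    have hc2 : c = m' * c' ^ 2 := by rw [hc', hm']; ring
    have hα2 : α = m' * c' * α' := by rw [hα', hm']; ring
    have hm'neg : m' < 0 := by
      have : 0 < c' ^ 2 := by positivity
      by_contra h
      have h' : 0 ≤ m' := not_lt.mp h
      have : 0 ≤ m' * c' ^ 2 := mul_nonneg h' (sq_nonneg _)
      linarith
    refine ⟨g, (-m').toNat, by omega, ?_⟩
    have hmn : (((-m').toNat : ℕ) : ℤ) = -m' := Int.toNat_of_nonneg (by linarith)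
    obtain ⟨a1, a2, a3, a4⟩ := conj_T_entries g ((-m').toNat : ℤ)
    rw [zpow_natCast] at a1 a2 a3 a4
    apply sl_ext
    · rw [a1, hmn, hg0, hg1]
      have : γ.1 0 0 = 1 + α := by rw [hα]; ring
      rw [this, hα2]; ring
    · rw [a2, hmn, hg1, ← hb, hb2]; ring
    · rw [a3, hmn, hg0, ← hc, hc2]; ring
    · rw [a4, hmn, hg0, hg1, h11, hα2]; ring

/-- an element conjugating a positive power of `T` to a power of `T` is `± T^n` -/
theorem eq_of_conj_T {h : SL(2, ℤ)} {a b : ℤ} (ha : a ≠ 0)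
    (hconj : h * ModularGroup.T ^ a = ModularGroup.T ^ b * h) :
    h.1 1 0 = 0 ∧ a = b := by
  obtain ⟨a1, a2, a3, a4⟩ := mul_entries h (ModularGroup.T ^ a)
  obtain ⟨b1, b2, b3, b4⟩ := mul_entries (ModularGroup.T ^ b) h
  obtain ⟨d1, d2, d3, d4⟩ := T_zpow_entries a
  obtain ⟨e1, e2, e3, e4⟩ := T_zpow_entries b
  have hd := det_eq h
  rw [hconj] at a1 a2 a3 a4
  rw [b1, d1, d3, e1, e2] at a1
  rw [b2, d2, d4, e1, e2] at a2
  rw [b4, d2, d4, e3, e4] at a4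
  have hr : h.1 1 0 * a = 0 := by linarith
  have hr0 : h.1 1 0 = 0 := by
    rcases mul_eq_zero.mp hr with h' | h'
    · exact h'
    · exact absurd h' ha
  refine ⟨hr0, ?_⟩
  rw [hr0] at a1 hd
  have h5 : h.1 0 0 * h.1 1 1 = 1 := by linarith
  have h6 : b * h.1 1 1 = h.1 0 0 * a := by linarith
  rcases Int.eq_one_or_neg_one_of_mul_eq_one' h5 with ⟨p1, p2⟩ | ⟨p1, p2⟩
  · rw [p1, p2] at h6; linarith
  · rw [p1, p2] at h6; linarith

/-- an element with `c = 0` is `± T^n` -/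
theorem eq_T_zpow_of_c_eq_zero {h : SL(2, ℤ)} (hc : h.1 1 0 = 0) :
    ∃ n : ℤ, h = ModularGroup.T ^ n ∨ h = -1 * ModularGroup.T ^ n := by
  have hd := det_eq h
  rw [hc, mul_zero, sub_zero] at hd
  rcases Int.eq_one_or_neg_one_of_mul_eq_one' hd with ⟨p1, p2⟩ | ⟨p1, p2⟩
  · refine ⟨h.1 0 1, Or.inl ?_⟩
    obtain ⟨d1, d2, d3, d4⟩ := T_zpow_entries (h.1 0 1)
    apply sl_ext
    · rw [d1, p1]
    · rw [d2]
    · rw [d3, hc]
    · rw [d4, p2]
  · refine ⟨- h.1 0 1, Or.inr ?_⟩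
    obtain ⟨d1, d2, d3, d4⟩ := T_zpow_entries (- h.1 0 1)
    obtain ⟨b1, b2, b3, b4⟩ := mul_entries (-1) (ModularGroup.T ^ (- h.1 0 1))
    have n00 : (-1 : SL(2, ℤ)).1 0 0 = -1 := by simp
    have n01 : (-1 : SL(2, ℤ)).1 0 1 = 0 := by simp
    have n10 : (-1 : SL(2, ℤ)).1 1 0 = 0 := by simp
    have n11 : (-1 : SL(2, ℤ)).1 1 1 = -1 := by simp
    apply sl_ext
    · rw [b1, d1, d3, n00, n01, p1]; ring
    · rw [b2, d2, d4, n00, n01]; ring
    · rw [b3, d1, d3, n10, n11, hc]; ring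
    · rw [b4, d2, d4, n10, n11, p2]; ring

theorem pos_aux (p q r s α b c : ℤ) (hD : 0 < p * s - q * r) (hnil : α ^ 2 + b * c = 0)
    (hpos : 0 < b - c) :
    0 < b * (p ^ 2 + r ^ 2) - 2 * α * (p * q + r * s) - c * (q ^ 2 + s ^ 2) := by
  rcases lt_trichotomy b 0 with hb0 | hb0 | hb0
  · exfalso
    have hc : c < 0 := by linarith
    have h1 : 0 < b * c := mul_pos_of_neg_of_neg hb0 hc
    have h2 : 0 ≤ α ^ 2 := sq_nonneg α
    linarith
  · have hα0 : α = 0 := by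
      rw [hb0, zero_mul, add_zero] at hnil
      exact pow_eq_zero_iff (two_ne_zero) |>.mp hnil
    rw [hb0, hα0]
    have hcneg : 0 < -c := by linarith
    have hqs : 0 < q ^ 2 + s ^ 2 := by
      rcases eq_or_ne q 0 with hq | hq
      · have hs : s ≠ 0 := by
          intro hs; rw [hq, hs] at hD; simp at hD
        have : 0 < s ^ 2 := by positivity
        rw [hq]; simpa using this
      · have : 0 < q ^ 2 := by positivity
        have : 0 ≤ s ^ 2 := sq_nonneg s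
        linarith
    have := mul_pos hcneg hqs
    linarith
  · have hbE : b * (b * (p ^ 2 + r ^ 2) - 2 * α * (p * q + r * s) - c * (q ^ 2 + s ^ 2))
        = (b * p - α * q) ^ 2 + (b * r - α * s) ^ 2 := by
      have : b * c = - α ^ 2 := by linarith
      linear_combination (-(q ^ 2 + s ^ 2)) * this
    have hne : 0 < (b * p - α * q) ^ 2 + (b * r - α * s) ^ 2 := by
      rcases eq_or_ne (b * p - α * q) 0 with h1 | h1
      · rcases eq_or_ne (b * r - α * s) 0 with h2 | h2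
        · exfalso
          have h3 : b * (p * s - q * r) = 0 := by linear_combination s * h1 - q * h2
          rcases mul_eq_zero.mp h3 with h4 | h4
          · linarith
          · linarith
        · have : 0 < (b * r - α * s) ^ 2 := by positivity
          have : 0 ≤ (b * p - α * q) ^ 2 := sq_nonneg _
          linarith
      · have : 0 < (b * p - α * q) ^ 2 := by positivity
        have : 0 ≤ (b * r - α * s) ^ 2 := sq_nonneg _
        linarith
    rw [← hbE] at hne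
    by_contra hcon
    have h5 := not_lt.mp hcon
    have := mul_nonpos_of_nonneg_of_nonpos hb0.le h5
    linarith

/-- invariance of positive parabolicity under conjugation by integral matrices of positive
determinant -/
theorem PosPar.of_conj {γ γ' : SL(2, ℤ)} (hγ : PosPar γ) (δ : Matrix (Fin 2) (Fin 2) ℤ)
    (hδ : 0 < δ.det) (h : δ * γ.1 = γ'.1 * δ) : PosPar γ' := by
  obtain ⟨htr, hpos⟩ := hγ
  have hd := det_eq γ
  rw [Matrix.det_fin_two] at hδ
  have e00 := congrFun (congrFun h 0) 0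
  have e01 := congrFun (congrFun h 0) 1
  have e10 := congrFun (congrFun h 1) 0
  have e11 := congrFun (congrFun h 1) 1
  simp only [Matrix.mul_apply, Fin.sum_univ_two] at e00 e01 e10 e11
  have hDa : (δ 0 0 * δ 1 1 - δ 0 1 * δ 1 0) * γ'.1 0 0
      = δ 1 1 * (δ 0 0 * γ.1 0 0 + δ 0 1 * γ.1 1 0) - δ 1 0 * (δ 0 0 * γ.1 0 1 + δ 0 1 * γ.1 1 1) := by
    rw [e00, e01]; ring
  have hDd : (δ 0 0 * δ 1 1 - δ 0 1 * δ 1 0) * γ'.1 1 1
      = δ 0 0 * (δ 1 0 * γ.1 0 1 + δ 1 1 * γ.1 1 1) - δ 0 1 * (δ 1 0 * γ.1 0 0 + δ 1 1 * γ.1 1 0) := by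
    rw [e10, e11]; ring
  have hDb : (δ 0 0 * δ 1 1 - δ 0 1 * δ 1 0) * γ'.1 0 1
      = δ 0 0 * (δ 0 0 * γ.1 0 1 + δ 0 1 * γ.1 1 1) - δ 0 1 * (δ 0 0 * γ.1 0 0 + δ 0 1 * γ.1 1 0) := by
    rw [e00, e01]; ring
  have hDc : (δ 0 0 * δ 1 1 - δ 0 1 * δ 1 0) * γ'.1 1 0
      = δ 1 1 * (δ 1 0 * γ.1 0 0 + δ 1 1 * γ.1 1 0) - δ 1 0 * (δ 1 0 * γ.1 0 1 + δ 1 1 * γ.1 1 1) := by
    rw [e10, e11]; ring
  have htr' : γ'.1 0 0 + γ'.1 1 1 = 2 := by
    have : (δ 0 0 * δ 1 1 - δ 0 1 * δ 1 0) * (γ'.1 0 0 + γ'.1 1 1)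
        = (δ 0 0 * δ 1 1 - δ 0 1 * δ 1 0) * 2 := by
      rw [mul_add, hDa, hDd, ← htr]; ring
    exact mul_left_cancel₀ hδ.ne' this
  refine ⟨htr', ?_⟩
  have h11 : γ.1 1 1 = 1 - (γ.1 0 0 - 1) := by linarith
  have hnil : (γ.1 0 0 - 1) ^ 2 + γ.1 0 1 * γ.1 1 0 = 0 := by
    rw [h11] at hd
    linear_combination -hd
  have hE : (δ 0 0 * δ 1 1 - δ 0 1 * δ 1 0) * (γ'.1 0 1 - γ'.1 1 0)
      = γ.1 0 1 * (δ 0 0 ^ 2 + δ 1 0 ^ 2) - 2 * (γ.1 0 0 - 1) * (δ 0 0 * δ 0 1 + δ 1 0 * δ 1 1)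
        - γ.1 1 0 * (δ 0 1 ^ 2 + δ 1 1 ^ 2) := by
    rw [mul_sub, hDb, hDc, h11]; ring
  have hEpos := pos_aux (δ 0 0) (δ 0 1) (δ 1 0) (δ 1 1) (γ.1 0 0 - 1) (γ.1 0 1) (γ.1 1 0) hδ hnil hpos
  rw [← hE] at hEpos
  by_contra hcon
  have h5 := not_lt.mp hcon
  have := mul_nonpos_of_nonneg_of_nonpos hδ.le h5
  linarith

end Fermat.Agent.S41.PD
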