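import Mathlib
import Fermat.Agent.S41.PDAdapt
import Fermat.Agent.S41.PDPar
import Fermat.Agent.S41.PDCuspAbs

/-!
# S41, piece P2 (duality): the cusp system of the adapted section

The elements `π_b = A T b` (`b` a base point) form a cusp system of `Γ` for the predicate
"positive parabolic".
-/

set_option autoImplicit false
set_option linter.unusedSectionVars false
set_option linter.unusedVariables false

noncomputable section

open scoped MatrixGroups
open ModularCurve.Period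

namespace Fermat.Agent.S41.PD

variable {Γ : Subgroup SL(2, ℤ)} [Γ.FiniteIndex]

/-- the index set : base points of the `T`-orbits -/
abbrev Cusp (Γ : Subgroup SL(2, ℤ)) [Γ.FiniteIndex] : Type := {b : SL(2, ℤ) ⧸ Γ // IsBase b}

instance : Fintype (Cusp Γ) := by classical exact Subtype.fintype _

/-- the parabolic generator at a base point -/
def cuspGen (b : Cusp Γ) : Γ := (adSec Γ).A ModularGroup.T b.1

theorem coe_cuspGen (b : Cusp Γ) :
    ((cuspGen b : Γ) : SL(2, ℤ)) = (Quotient.out b.1)⁻¹ * ModularGroup.T ^ wid b.1 * Quotient.out b.1 :=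
  adSec_A_base b.2

theorem coe_cuspGen_pow (b : Cusp Γ) (j : ℕ) :
    (((cuspGen b) ^ j : Γ) : SL(2, ℤ))
      = (Quotient.out b.1)⁻¹ * ModularGroup.T ^ (wid b.1 * j) * Quotient.out b.1 := by
  rw [Subgroup.coe_pow, coe_cuspGen, conj_pow', pow_mul]

theorem T_pow_smul_mk (n : ℕ) (g : SL(2, ℤ)) :
    ModularGroup.T ^ n • ((g : SL(2, ℤ)) : SL(2, ℤ) ⧸ Γ) = ((ModularGroup.T ^ n * g : SL(2, ℤ)) : SL(2, ℤ) ⧸ Γ) := rfl

theorem smul_mk (h g : SL(2, ℤ)) :
    h • ((g : SL(2, ℤ)) : SL(2, ℤ) ⧸ Γ) = ((h * g : SL(2, ℤ)) : SL(2, ℤ) ⧸ Γ) := rfl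

theorem tau_zpow_apply (n : ℤ) (x : SL(2, ℤ) ⧸ Γ) : (tau Γ ^ n) x = ModularGroup.T ^ n • x := by
  have h : tau Γ = MulAction.toPermHom SL(2, ℤ) (SL(2, ℤ) ⧸ Γ) ModularGroup.T := rfl
  rw [h, ← map_zpow]; rfl

/-- the cusp system -/
theorem cuspSys (hΓ : (-1 : SL(2, ℤ)) ∈ Γ) :
    CuspSys (fun γ : Γ => PosPar (γ : SL(2, ℤ))) (cuspGen (Γ := Γ)) where
  pos b := by
    show PosPar ((cuspGen b : Γ) : SL(2, ℤ))
    rw [coe_cuspGen]
    exact posPar_conj_T_pow _ (wid_pos b.1)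
  ex γ hγ := by
    obtain ⟨g, m, hm, hg⟩ := PosPar.exists_conj hγ
    -- x = gΓ is fixed by T^m
    set x : SL(2, ℤ) ⧸ Γ := ((g : SL(2, ℤ)) : SL(2, ℤ) ⧸ Γ) with hx
    have hfix : ModularGroup.T ^ m • x = x := by
      rw [hx, smul_mk, eq_comm, QuotientGroup.eq]
      have : g⁻¹ * (ModularGroup.T ^ m * g) = (γ : SL(2, ℤ)) := by rw [hg]; group
      rw [this]; exact γ.2
    set b := base (tau Γ) x with hb
    have hbb : IsBase b := base_base (tau Γ) x
    have hxb : ModularGroup.T ^ idx (tau Γ) x • b = x := by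
      rw [← tau_pow_apply]; exact pow_idx (tau Γ) x
    -- T^m b = b
    have hfixb : (tau Γ ^ m) b = b := by
      have h1 : (tau Γ ^ m) ((tau Γ ^ idx (tau Γ) x) b) = (tau Γ ^ idx (tau Γ) x) b := by
        rw [pow_idx, tau_pow_apply]; exact hfix
      rw [← Equiv.Perm.mul_apply, ← pow_add, add_comm, pow_add, Equiv.Perm.mul_apply] at h1
      exact (tau Γ ^ idx (tau Γ) x).injective h1
    obtain ⟨j, hj⟩ := per_dvd (tau Γ) hbb hfixb
    have hjpos : 0 < j := by
      rcases Nat.eq_zero_or_pos j with h0 | h0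
      · rw [h0, mul_zero] at hj; omega
      · exact h0
    -- g = T^n out(b) γ'
    have hmem : (ModularGroup.T ^ idx (tau Γ) x * Quotient.out b)⁻¹ * g ∈ Γ := by
      rw [← QuotientGroup.eq]
      have : ((ModularGroup.T ^ idx (tau Γ) x * Quotient.out b : SL(2, ℤ)) : SL(2, ℤ) ⧸ Γ)
          = ModularGroup.T ^ idx (tau Γ) x • ((Quotient.out b : SL(2, ℤ)) : SL(2, ℤ) ⧸ Γ) := rfl
      rw [this, QuotientGroup.out_eq', hxb]
    refine ⟨⟨b, hbb⟩, j, hjpos, ⟨_, hmem⟩, ?_⟩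
    apply Subtype.ext
    rw [Subgroup.coe_mul, Subgroup.coe_mul, Subgroup.coe_inv, coe_cuspGen_pow]
    show (γ : SL(2, ℤ)) = ((ModularGroup.T ^ idx (tau Γ) x * Quotient.out b)⁻¹ * g)⁻¹
      * ((Quotient.out b)⁻¹ * ModularGroup.T ^ (wid b * j) * Quotient.out b)
      * ((ModularGroup.T ^ idx (tau Γ) x * Quotient.out b)⁻¹ * g)
    have hw : wid b * j = m := hj.symm
    rw [hw, hg]
    have hcomm : ModularGroup.T ^ idx (tau Γ) x * ModularGroup.T ^ m
        = ModularGroup.T ^ m * ModularGroup.T ^ idx (tau Γ) x := by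
      rw [← pow_add, ← pow_add, add_comm]
    have e1 : ((ModularGroup.T ^ idx (tau Γ) x * Quotient.out b)⁻¹ * g)⁻¹
        * ((Quotient.out b)⁻¹ * ModularGroup.T ^ m * Quotient.out b)
        * ((ModularGroup.T ^ idx (tau Γ) x * Quotient.out b)⁻¹ * g)
        = g⁻¹ * (ModularGroup.T ^ idx (tau Γ) x * ModularGroup.T ^ m
          * (ModularGroup.T ^ idx (tau Γ) x)⁻¹) * g := by group
    rw [e1, hcomm, mul_inv_cancel_right]
  uniq b b' j j' γ hj hj' h := by
    have h' := congrArg (fun t : Γ => (t : SL(2, ℤ))) h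
    simp only [Subgroup.coe_mul, Subgroup.coe_inv, coe_cuspGen_pow] at h'
    -- hh = out(b') γ out(b)⁻¹ conjugates T^{wj} to T^{w'j'}
    set hh : SL(2, ℤ) := Quotient.out b'.1 * (γ : SL(2, ℤ)) * (Quotient.out b.1)⁻¹ with hhdef
    have hconj : hh * ModularGroup.T ^ ((wid b.1 * j : ℕ) : ℤ)
        = ModularGroup.T ^ ((wid b'.1 * j' : ℕ) : ℤ) * hh := by
      rw [zpow_natCast, zpow_natCast]
      have e1 : ModularGroup.T ^ (wid b.1 * j)
          = Quotient.out b.1 * ((Quotient.out b.1)⁻¹ * ModularGroup.T ^ (wid b.1 * j) * Quotient.out b.1)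
            * (Quotient.out b.1)⁻¹ := by group
      rw [e1, h', hhdef]; group
    have hne : ((wid b.1 * j : ℕ) : ℤ) ≠ 0 := by
      have : 0 < wid b.1 * j := Nat.mul_pos (wid_pos _) hj
      exact_mod_cast this.ne'
    obtain ⟨hc0, hab⟩ := eq_of_conj_T hne hconj
    obtain ⟨n, hn⟩ := eq_T_zpow_of_c_eq_zero hc0
    -- hh • b = b'
    have hact : hh • b.1 = b'.1 := by
      have e1 : hh • b.1 = hh • ((Quotient.out b.1 : SL(2, ℤ)) : SL(2, ℤ) ⧸ Γ) := by
        rw [QuotientGroup.out_eq']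
      rw [e1, smul_mk, hhdef]
      have e2 : Quotient.out b'.1 * (γ : SL(2, ℤ)) * (Quotient.out b.1)⁻¹ * Quotient.out b.1
          = Quotient.out b'.1 * (γ : SL(2, ℤ)) := by group
      rw [e2]
      have e3 : ((Quotient.out b'.1 * (γ : SL(2, ℤ)) : SL(2, ℤ)) : SL(2, ℤ) ⧸ Γ)
          = ((Quotient.out b'.1 : SL(2, ℤ)) : SL(2, ℤ) ⧸ Γ) := by
        rw [QuotientGroup.eq]
        have : (Quotient.out b'.1 * (γ : SL(2, ℤ)))⁻¹ * Quotient.out b'.1 = ((γ⁻¹ : Γ) : SL(2, ℤ)) := by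
          rw [Subgroup.coe_inv]; group
        rw [this]; exact (γ⁻¹).2
      rw [e3, QuotientGroup.out_eq']
    have hT : ModularGroup.T ^ n • b.1 = b'.1 := by
      rcases hn with hn | hn
      · rw [← hn]; exact hact
      · rw [hn, mul_smul, neg_one_smul_coset hΓ] at hact
        exact hact
    have hsame : (tau Γ).SameCycle b.1 b'.1 := ⟨n, by rw [tau_zpow_apply]; exact hT⟩
    have hbb' : b.1 = b'.1 := base_unique (tau Γ) b.2 b'.2 hsame
    have hbeq : b = b' := Subtype.ext hbb'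
    refine ⟨hbeq, ?_⟩
    rw [hbeq] at hab
    have h3 : wid b'.1 * j = wid b'.1 * j' := by exact_mod_cast hab
    exact Nat.eq_of_mul_eq_mul_left (wid_pos _) h3

/-- sums over `X` of a function of `A T x` vanishing at `1` are sums over the cusps -/
theorem sum_A_T_eq (f : Γ → ℤ) (hf : f 1 = 0) :
    ∑ x : SL(2, ℤ) ⧸ Γ, f ((adSec Γ).A ModularGroup.T x) = ∑ b : Cusp Γ, f (cuspGen b) := by
  classical
  have h1 : ∑ x : SL(2, ℤ) ⧸ Γ, f ((adSec Γ).A ModularGroup.T x)
      = ∑ x ∈ Finset.univ.filter (fun x : SL(2, ℤ) ⧸ Γ => IsBase x), f ((adSec Γ).A ModularGroup.T x) := by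
    rw [Finset.sum_filter]
    apply Finset.sum_congr rfl
    intro x _
    by_cases hx : IsBase x
    · rw [if_pos hx]
    · rw [if_neg hx, adSec_A_of_not_base hx, hf]
  rw [h1]
  rw [Finset.sum_subtype (Finset.univ.filter (fun x : SL(2, ℤ) ⧸ Γ => IsBase x))
    (p := fun x => IsBase x) (by intro x; simp) (fun x => f ((adSec Γ).A ModularGroup.T x))]
  rfl

end Fermat.Agent.S41.PD
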