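import Mathlib
import Fermat.Agent.S41.PDAdapt
import Fermat.Agent.S41.PDModel

/-!
# S41, piece P2 (duality): the intrinsic formula

`c₁, c₂ : Γ → ℤ` parabolic homomorphisms, `η : Γ → ℤ` with `η (x y) = η x + η y + c₁ x * c₂ y`.
With the adapted section, `v_i = z_i(S)` are Manin symbols and
`6 * ∑_x η (A T x) = - six (v₁, v₂)`.
-/

set_option autoImplicit false
set_option linter.unusedSectionVars false
set_option linter.unusedVariables false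

noncomputable section

open scoped MatrixGroups
open ModularCurve.Period

namespace Fermat.Agent.S41.PD

variable {Γ : Subgroup SL(2, ℤ)}

/-- evaluation of an additive homomorphism on `Γ` -/
def ev (c : Additive Γ →+ ℤ) (γ : Γ) : ℤ := c (Additive.ofMul γ)

theorem ev_mul (c : Additive Γ →+ ℤ) (γ γ' : Γ) : ev c (γ * γ') = ev c γ + ev c γ' := by
  unfold ev; rw [ofMul_mul, map_add]

@[simp] theorem ev_one (c : Additive Γ →+ ℤ) : ev c 1 = 0 := by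
  unfold ev; rw [ofMul_one, map_zero]

theorem ev_add (c c' : Additive Γ →+ ℤ) (γ : Γ) : ev (c + c') γ = ev c γ + ev c' γ := rfl

theorem ev_inv (c : Additive Γ →+ ℤ) (γ : Γ) : ev c γ⁻¹ = - ev c γ := by
  have := ev_mul c γ γ⁻¹
  rw [mul_inv_cancel, ev_one] at this
  linarith

/-- `R = S * T` -/
def Rm : SL(2, ℤ) := ModularGroup.S * ModularGroup.T

theorem S_mul_S : ModularGroup.S * ModularGroup.S = -1 := by
  apply Subtype.ext
  simp only [Matrix.SpecialLinearGroup.coe_mul, ModularGroup.coe_S,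
    Matrix.SpecialLinearGroup.coe_neg, Matrix.SpecialLinearGroup.coe_one]
  ext i j; fin_cases i <;> fin_cases j <;> simp [Matrix.mul_apply, Fin.sum_univ_two]

theorem Rm_cube : Rm * Rm * Rm = -1 := by
  apply Subtype.ext
  simp only [Rm, Matrix.SpecialLinearGroup.coe_mul, ModularGroup.coe_S, ModularGroup.coe_T,
    Matrix.SpecialLinearGroup.coe_neg, Matrix.SpecialLinearGroup.coe_one]
  ext i j; fin_cases i <;> fin_cases j <;> simp [Matrix.mul_apply, Fin.sum_univ_two]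

/-- `-1` as an element of `Γ` -/
def negOne (hΓ : (-1 : SL(2, ℤ)) ∈ Γ) : Γ := ⟨-1, hΓ⟩

theorem negOne_mul_self (hΓ : (-1 : SL(2, ℤ)) ∈ Γ) : negOne hΓ * negOne hΓ = 1 := by
  apply Subtype.ext
  show (-1 : SL(2, ℤ)) * -1 = 1
  ext i j; fin_cases i <;> fin_cases j <;> simp [Matrix.mul_apply, Fin.sum_univ_two]

theorem ev_negOne (hΓ : (-1 : SL(2, ℤ)) ∈ Γ) (c : Additive Γ →+ ℤ) : ev c (negOne hΓ) = 0 := by
  have := ev_mul c (negOne hΓ) (negOne hΓ)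
  rw [negOne_mul_self, ev_one] at this
  linarith

theorem neg_one_mul_comm (g : SL(2, ℤ)) : (-1 : SL(2, ℤ)) * g = g * -1 := by
  ext i j; fin_cases i <;> fin_cases j <;> simp [Matrix.mul_apply, Fin.sum_univ_two]

theorem Sec.A_neg_one (r : Sec Γ) (hΓ : (-1 : SL(2, ℤ)) ∈ Γ) (x : SL(2, ℤ) ⧸ Γ) :
    r.A (-1) x = negOne hΓ := by
  apply Subtype.ext
  have h1 : (-1 : SL(2, ℤ))⁻¹ • x = x := by
    have := neg_one_smul_coset hΓ x
    rw [inv_smul_eq_iff, this]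
  rw [Sec.coe_A, h1, mul_assoc, neg_one_mul_comm, ← mul_assoc, inv_mul_cancel, one_mul]
  rfl

/-- a "cup-primitive" of `(c₁, c₂)` -/
def IsEta (c₁ c₂ : Additive Γ →+ ℤ) (η : Γ → ℤ) : Prop :=
  ∀ x y : Γ, η (x * y) = η x + η y + ev c₁ x * ev c₂ y

namespace IsEta

variable {c₁ c₂ : Additive Γ →+ ℤ} {η : Γ → ℤ}

theorem map_one (h : IsEta c₁ c₂ η) : η 1 = 0 := by
  have := h 1 1
  rw [one_mul, ev_one, zero_mul] at this
  linarith

theorem map_negOne (h : IsEta c₁ c₂ η) (hΓ : (-1 : SL(2, ℤ)) ∈ Γ) : η (negOne hΓ) = 0 := by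
  have := h (negOne hΓ) (negOne hΓ)
  rw [negOne_mul_self, h.map_one, ev_negOne, zero_mul] at this
  linarith

theorem map_inv (h : IsEta c₁ c₂ η) (γ : Γ) : η γ⁻¹ = - η γ + ev c₁ γ * ev c₂ γ := by
  have := h γ γ⁻¹
  rw [mul_inv_cancel, h.map_one, ev_inv] at this
  linarith

/-- `η` is a class function on elements killed by `c₁` and `c₂` -/
theorem map_conj (h : IsEta c₁ c₂ η) (γ π : Γ) (h1 : ev c₁ π = 0) (h2 : ev c₂ π = 0) :
    η (γ * π * γ⁻¹) = η π := by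
  rw [h (γ * π) γ⁻¹, h γ π, h.map_inv, ev_mul, h1, h2, ev_inv]
  ring

end IsEta

/-! ### the induced cochains -/

variable [Γ.FiniteIndex]

/-- the Manin symbol of a homomorphism : `v_c x = c (A S x)` -/
def vOf (c : Additive Γ →+ ℤ) : SL(2, ℤ) ⧸ Γ → ℤ := fun x => ev c ((adSec Γ).A ModularGroup.S x)

/-- the cocycle of a homomorphism -/
def zOf (c : Additive Γ →+ ℤ) (g : SL(2, ℤ)) : SL(2, ℤ) ⧸ Γ → ℤ := fun x => ev c ((adSec Γ).A g x)

theorem zOf_mul (c : Additive Γ →+ ℤ) (g h : SL(2, ℤ)) (x : SL(2, ℤ) ⧸ Γ) :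
    zOf c (g * h) x = zOf c g x + zOf c h (g⁻¹ • x) := by
  unfold zOf; rw [Sec.A_mul, ev_mul]

theorem zOf_S (c : Additive Γ →+ ℤ) : zOf c ModularGroup.S = vOf c := rfl

theorem zOf_T {c : Additive Γ →+ ℤ} (hc : c ∈ parabolicHoms ℤ Γ ℤ) (x : SL(2, ℤ) ⧸ Γ) :
    zOf c ModularGroup.T x = 0 := hom_adSec_A_T hc x

theorem zOf_neg_one (hΓ : (-1 : SL(2, ℤ)) ∈ Γ) (c : Additive Γ →+ ℤ) (x : SL(2, ℤ) ⧸ Γ) :
    zOf c (-1) x = 0 := by
  unfold zOf; rw [Sec.A_neg_one _ hΓ, ev_negOne]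

theorem zOf_Rm {c : Additive Γ →+ ℤ} (hc : c ∈ parabolicHoms ℤ Γ ℤ) (x : SL(2, ℤ) ⧸ Γ) :
    zOf c Rm x = vOf c x := by
  rw [Rm, zOf_mul, zOf_T hc, add_zero, zOf_S]

/-- the permutations of `X` given by `S` and `R` -/
def sP (Γ : Subgroup SL(2, ℤ)) : Equiv.Perm (SL(2, ℤ) ⧸ Γ) := MulAction.toPerm ModularGroup.S

def rP (Γ : Subgroup SL(2, ℤ)) : Equiv.Perm (SL(2, ℤ) ⧸ Γ) := MulAction.toPerm Rm

theorem sP_inv_apply (x : SL(2, ℤ) ⧸ Γ) : (sP Γ)⁻¹ x = ModularGroup.S⁻¹ • x := by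
  apply (sP Γ).injective
  rw [perm_apply_inv]
  show x = ModularGroup.S • (ModularGroup.S⁻¹ • x)
  rw [smul_inv_smul]

theorem rP_inv_apply (x : SL(2, ℤ) ⧸ Γ) : (rP Γ)⁻¹ x = Rm⁻¹ • x := by
  apply (rP Γ).injective
  rw [perm_apply_inv]
  show x = Rm • (Rm⁻¹ • x)
  rw [smul_inv_smul]

theorem vOf_manin (hΓ : (-1 : SL(2, ℤ)) ∈ Γ) {c : Additive Γ →+ ℤ} (hc : c ∈ parabolicHoms ℤ Γ ℤ) :
    IsManin (sP Γ) (rP Γ) (vOf c) := by
  constructor
  · intro x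
    have := zOf_mul c ModularGroup.S ModularGroup.S x
    rw [S_mul_S, zOf_neg_one hΓ, zOf_S] at this
    rw [sP_inv_apply]; linarith
  · intro x
    have h1 := zOf_mul c (Rm * Rm) Rm x
    have h2 := zOf_mul c Rm Rm x
    rw [Rm_cube, zOf_neg_one hΓ, h2, zOf_Rm hc, zOf_Rm hc, zOf_Rm hc, mul_inv_rev, mul_smul] at h1
    rw [rP_inv_apply, rP_inv_apply]; linarith

/-- the main computation: the intrinsic formula -/
theorem six_sum_eta (hΓ : (-1 : SL(2, ℤ)) ∈ Γ) {c₁ c₂ : Additive Γ →+ ℤ}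
    (hc₁ : c₁ ∈ parabolicHoms ℤ Γ ℤ) (hc₂ : c₂ ∈ parabolicHoms ℤ Γ ℤ) {η : Γ → ℤ}
    (hη : IsEta c₁ c₂ η) :
    6 * ∑ x : SL(2, ℤ) ⧸ Γ, η ((adSec Γ).A ModularGroup.T x) = - six (rP Γ) (vOf c₁) (vOf c₂) := by
  -- the cochain of η
  set E : SL(2, ℤ) → (SL(2, ℤ) ⧸ Γ) → ℤ := fun g x => η ((adSec Γ).A g x) with hE
  have hEmul : ∀ g h x, E (g * h) x = E g x + E h (g⁻¹ • x) + zOf c₁ g x * zOf c₂ h (g⁻¹ • x) := by
    intro g h x
    simp only [hE, zOf]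
    rw [Sec.A_mul, hη]
  have hEneg : ∀ x, E (-1) x = 0 := by
    intro x
    simp only [hE]
    rw [Sec.A_neg_one _ hΓ, hη.map_negOne]
  have hm1 := vOf_manin hΓ hc₁
  have hm2 := vOf_manin hΓ hc₂
  -- relation at S
  have hS : ∀ x, E ModularGroup.S x + E ModularGroup.S ((sP Γ)⁻¹ x) = vOf c₁ x * vOf c₂ x := by
    intro x
    have h := hEmul ModularGroup.S ModularGroup.S x
    rw [S_mul_S, hEneg, zOf_S, zOf_S] at h
    have h2 := hm2.1 x
    rw [sP_inv_apply] at h2 ⊢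
    have h3 : vOf c₂ (ModularGroup.S⁻¹ • x) = - vOf c₂ x := by linarith
    rw [h3] at h
    linarith
  -- relation at R
  have hR : ∀ x, E Rm x + E Rm ((rP Γ)⁻¹ x) + E Rm ((rP Γ)⁻¹ ((rP Γ)⁻¹ x))
      = vOf c₁ x * vOf c₂ x - vOf c₁ ((rP Γ)⁻¹ x) * vOf c₂ ((rP Γ)⁻¹ ((rP Γ)⁻¹ x)) := by
    intro x
    have h1 := hEmul (Rm * Rm) Rm x
    have h2 := hEmul Rm Rm x
    have h3 := zOf_mul c₁ Rm Rm x
    rw [Rm_cube, hEneg, h2, h3, zOf_Rm hc₁, zOf_Rm hc₁, zOf_Rm hc₂, zOf_Rm hc₂, mul_inv_rev,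
      mul_smul] at h1
    have h4 := hm2.2 x
    rw [rP_inv_apply, rP_inv_apply] at h4 ⊢
    have h5 : vOf c₂ (Rm⁻¹ • Rm⁻¹ • x) = - vOf c₂ x - vOf c₂ (Rm⁻¹ • x) := by linarith
    rw [h5] at h1 ⊢
    linarith
  -- η̃(T)
  have hT : ∀ x, E Rm x = E ModularGroup.S x + E ModularGroup.T (ModularGroup.S⁻¹ • x) := by
    intro x
    have h := hEmul ModularGroup.S ModularGroup.T x
    rw [zOf_T hc₂, mul_zero, add_zero] at h
    exact h
  have hsum : ∑ x, E ModularGroup.T x = ∑ x, E Rm x - ∑ x, E ModularGroup.S x := by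
    have h1 : ∑ x, E ModularGroup.T (ModularGroup.S⁻¹ • x) = ∑ x, E ModularGroup.T x := by
      have := sum_comp_perm (sP Γ)⁻¹ (E ModularGroup.T)
      simp only [sP_inv_apply] at this
      exact this
    rw [← h1, ← Finset.sum_sub_distrib]
    apply Finset.sum_congr rfl
    intro x _
    rw [hT x]; ring
  have := six_eq_of_rel (s := sP Γ) (ρ := rP Γ) hm1.2 hm2.2 hS hR
  rw [← hsum] at this
  exact this

end Fermat.Agent.S41.PD
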