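import Mathlib
import Fermat.Agent.S41.PDOrb

/-!
# S41, piece P2 (duality): norms on permutation modules for permutations of order 2 and 3

If `σ² = 1` (resp. `σ³ = 1`) and `f : X → ℤ` is `σ`-invariant and vanishes at the fixed points of `σ`,
then `f = e + σ•e` (resp. `f = e + σ•e + σ²•e`) for some `e`.
-/

set_option autoImplicit false
set_option linter.unusedSectionVars false
set_option linter.unusedVariables false

noncomputable section

namespace Fermat.Agent.S41.PD

variable {X : Type*} [Finite X] (σ : Equiv.Perm X)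

theorem exists_pow_base_lt {n : ℕ} (hn : 0 < n) (hσ : σ ^ n = 1) (x : X) :
    ∃ i < n, (σ ^ i) (base σ x) = x := by
  obtain ⟨m, hm⟩ := exists_pow_base σ x
  refine ⟨m % n, Nat.mod_lt _ hn, ?_⟩
  have h1 : σ ^ m = σ ^ (m % n) := by
    conv_lhs => rw [← Nat.div_add_mod m n, pow_add, pow_mul, hσ, one_pow, one_mul]
  rw [← h1, hm]

theorem inv_eq_of_sq (hσ : σ ^ 2 = 1) (x : X) : σ⁻¹ x = σ x := by
  apply σ.injective
  rw [perm_apply_inv, ← Equiv.Perm.mul_apply, ← pow_two, hσ, Equiv.Perm.one_apply]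

/-- norm surjectivity for an involution -/
theorem exists_norm_two (hσ : σ ^ 2 = 1) (f : X → ℤ) (hinv : ∀ x, f (σ⁻¹ x) = f x)
    (hfix : ∀ x, σ x = x → f x = 0) :
    ∃ e : X → ℤ, ∀ x, e x + e (σ⁻¹ x) = f x := by
  classical
  refine ⟨fun x => if base σ x = x then f x else 0, ?_⟩
  intro x
  show (if base σ x = x then f x else 0) + (if base σ (σ⁻¹ x) = σ⁻¹ x then f (σ⁻¹ x) else 0) = f x
  rw [base_inv_apply, hinv]
  by_cases hx : σ x = x
  · rw [hfix x hx]; simp
  · have hx' : σ⁻¹ x ≠ x := by rw [inv_eq_of_sq σ hσ]; exact hx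
    obtain ⟨i, hi, hb⟩ := exists_pow_base_lt σ (by norm_num : 0 < 2) hσ x
    have hcase : base σ x = x ∨ base σ x = σ⁻¹ x := by
      interval_cases i
      · left; simpa using hb
      · right
        rw [pow_one] at hb
        apply σ.injective
        rw [perm_apply_inv]; exact hb
    rcases hcase with h | h
    · rw [if_pos h, if_neg (by rw [h]; exact hx'.symm), add_zero]
    · rw [if_neg (by rw [h]; exact hx'), if_pos h, zero_add]

/-- norm surjectivity for a permutation of order 3 -/
theorem exists_norm_three (hσ : σ ^ 3 = 1) (f : X → ℤ) (hinv : ∀ x, f (σ⁻¹ x) = f x)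
    (hfix : ∀ x, σ x = x → f x = 0) :
    ∃ e : X → ℤ, ∀ x, e x + e (σ⁻¹ x) + e (σ⁻¹ (σ⁻¹ x)) = f x := by
  classical
  refine ⟨fun x => if base σ x = x then f x else 0, ?_⟩
  intro x
  show (if base σ x = x then f x else 0) + (if base σ (σ⁻¹ x) = σ⁻¹ x then f (σ⁻¹ x) else 0)
    + (if base σ (σ⁻¹ (σ⁻¹ x)) = σ⁻¹ (σ⁻¹ x) then f (σ⁻¹ (σ⁻¹ x)) else 0) = f x
  simp only [base_inv_apply, hinv]
  by_cases hx : σ x = x
  · rw [hfix x hx]; simp
  · have h3 : ∀ y, σ (σ (σ y)) = y := by
      intro y
      have := congrArg (fun τ : Equiv.Perm X => τ y) hσ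
      simpa [pow_succ, Equiv.Perm.mul_apply] using this
    have h1 : σ⁻¹ x ≠ x := by
      intro h; apply hx
      have := congrArg σ h
      rw [perm_apply_inv] at this; exact this.symm
    have h2 : σ⁻¹ (σ⁻¹ x) ≠ x := by
      intro h; apply hx
      have h' : σ⁻¹ (σ⁻¹ x) = σ x := by
        apply σ.injective; apply σ.injective
        rw [perm_apply_inv, perm_apply_inv, h3]
      rw [← h', h]
    have h12 : σ⁻¹ (σ⁻¹ x) ≠ σ⁻¹ x := by
      intro h; apply h1
      exact σ⁻¹.injective h
    obtain ⟨i, hi, hb⟩ := exists_pow_base_lt σ (by norm_num : 0 < 3) hσ x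
    have hcase : base σ x = x ∨ base σ x = σ⁻¹ x ∨ base σ x = σ⁻¹ (σ⁻¹ x) := by
      interval_cases i
      · left; simpa using hb
      · right; left
        rw [pow_one] at hb
        apply σ.injective
        rw [perm_apply_inv]; exact hb
      · right; right
        rw [pow_two, Equiv.Perm.mul_apply] at hb
        apply σ.injective; apply σ.injective
        rw [perm_apply_inv, perm_apply_inv]; exact hb
    rcases hcase with h | h | h
    · rw [if_pos h, if_neg (by rw [h]; exact h1.symm), if_neg (by rw [h]; exact h2.symm)]; ring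
    · rw [if_neg (by rw [h]; exact h1), if_pos h, if_neg (by rw [h]; exact h12.symm)]; ring
    · rw [if_neg (by rw [h]; exact h2), if_neg (by rw [h]; exact h12), if_pos h]; ring

end Fermat.Agent.S41.PD
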