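import Mathlib

/-!
# S41, piece P2a: `PSL(2,ℤ) = C₂ * C₃` in the form of a universal property

For every group `E` with elements `s`, `r`, `s² = 1`, `r³ = 1`, there is a homomorphism
`φ : SL(2,ℤ) → E` with `φ S = s`, `φ (S * T) = r`. Proof: ping-pong on the upper half plane.
Consequence: cocycles on `SL(2,ℤ)` (with values in a module on which `-1` acts trivially) can be
prescribed on `S` and `R = S * T`.
-/

set_option autoImplicit false
set_option linter.unusedSectionVars false
set_option linter.unusedVariables false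

noncomputable section

open scoped MatrixGroups Pointwise
open UpperHalfPlane

namespace Fermat.Agent.S41.PDPres

/-- `R = S * T` -/
def Rmat : SL(2, ℤ) := ModularGroup.S * ModularGroup.T

/-- the homomorphism from a cyclic group given by an element of suitable order -/
def cyc (n : ℕ) {G : Type*} [Group G] (σ : G) (h : σ ^ n = 1) : Multiplicative (ZMod n) →* G :=
  AddMonoidHom.toMultiplicativeLeft
    (ZMod.lift n ⟨zmultiplesHom (Additive G) (Additive.ofMul σ), by
      show (n : ℤ) • Additive.ofMul σ = 0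
      rw [natCast_zsmul, ← ofMul_pow, h]; rfl⟩)

theorem cyc_apply (n : ℕ) {G : Type*} [Group G] (σ : G) (h : σ ^ n = 1) (k : ℤ) :
    cyc n σ h (Multiplicative.ofAdd (k : ZMod n)) = σ ^ k := by
  unfold cyc
  rw [AddMonoidHom.coe_toMultiplicativeLeft]
  simp only [Function.comp_apply, toAdd_ofAdd, ZMod.lift_coe]
  show Additive.toMul (k • Additive.ofMul σ) = σ ^ k
  rw [← ofMul_zpow]; rfl

theorem cyc_one (n : ℕ) {G : Type*} [Group G] (σ : G) (h : σ ^ n = 1) :
    cyc n σ h (Multiplicative.ofAdd (1 : ZMod n)) = σ := by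
  have := cyc_apply n σ h 1
  simpa using this

/-- orders of the two factors -/
def nn : Bool → ℕ
  | false => 2
  | true => 3

/-- the two cyclic factors -/
def Hf (b : Bool) : Type := Multiplicative (ZMod (nn b))

instance (b : Bool) : Group (Hf b) := by unfold Hf; infer_instance

/-- the generator of a factor -/
def gg (b : Bool) : Hf b := Multiplicative.ofAdd (1 : ZMod (nn b))

/-- the action homomorphism on the upper half plane -/
def rhoH : SL(2, ℤ) →* Equiv.Perm ℍ := MulAction.toPermHom SL(2, ℤ) ℍ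

theorem rhoH_apply (g : SL(2, ℤ)) (z : ℍ) : rhoH g z = g • z := rfl

theorem neg_one_smul_H (z : ℍ) : (-1 : SL(2, ℤ)) • z = z := by
  simp

theorem S_mul_S' : ModularGroup.S * ModularGroup.S = -1 := by
  apply Subtype.ext
  simp only [Matrix.SpecialLinearGroup.coe_mul, ModularGroup.coe_S,
    Matrix.SpecialLinearGroup.coe_neg, Matrix.SpecialLinearGroup.coe_one]
  ext i j; fin_cases i <;> fin_cases j <;> simp [Matrix.mul_apply, Fin.sum_univ_two]

theorem Rmat_cube : Rmat * Rmat * Rmat = -1 := by
  apply Subtype.ext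
  simp only [Rmat, Matrix.SpecialLinearGroup.coe_mul, ModularGroup.coe_S, ModularGroup.coe_T,
    Matrix.SpecialLinearGroup.coe_neg, Matrix.SpecialLinearGroup.coe_one]
  ext i j; fin_cases i <;> fin_cases j <;> simp [Matrix.mul_apply, Fin.sum_univ_two]

theorem rhoH_neg_one : rhoH (-1) = 1 := by
  ext z
  rw [rhoH_apply, neg_one_smul_H]; rfl

theorem rhoH_S_sq : rhoH ModularGroup.S ^ 2 = 1 := by
  rw [pow_two, ← map_mul, S_mul_S', rhoH_neg_one]

theorem rhoH_R_cube : rhoH Rmat ^ 3 = 1 := by
  rw [pow_succ, pow_two, ← map_mul, ← map_mul, Rmat_cube, rhoH_neg_one]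

/-- the generators as permutations -/
def gen : (b : Bool) → Equiv.Perm ℍ
  | false => rhoH ModularGroup.S
  | true => rhoH Rmat

theorem gen_pow : ∀ b : Bool, gen b ^ nn b = 1
  | false => rhoH_S_sq
  | true => rhoH_R_cube

/-- the homomorphisms of the factors to `Perm ℍ` -/
def fH (b : Bool) : Hf b →* Equiv.Perm ℍ := cyc (nn b) (gen b) (gen_pow b)

/-! ### the ping-pong sets -/

def XS : Bool → Set ℍ
  | false => {z | 0 < z.re}
  | true => {z | z.re < 0}

theorem re_S_smul (z : ℍ) : (ModularGroup.S • z).re = - z.re / Complex.normSq (z : ℂ) := by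
  rw [UpperHalfPlane.modular_S_smul]
  show ((-(z : ℂ))⁻¹).re = _
  rw [Complex.inv_re, Complex.normSq_neg, Complex.neg_re]
  rfl

theorem re_T_smul (z : ℍ) : (ModularGroup.T • z).re = z.re + 1 := by
  rw [UpperHalfPlane.modular_T_smul]
  simp [add_comm]

theorem normSq_pos' (z : ℍ) : 0 < Complex.normSq (z : ℂ) :=
  Complex.normSq_pos.mpr (UpperHalfPlane.ne_zero z)

theorem re_R_smul (z : ℍ) :
    (Rmat • z).re = - (z.re + 1) / Complex.normSq ((ModularGroup.T • z : ℍ) : ℂ) := by
  rw [Rmat, mul_smul, re_S_smul, re_T_smul]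

theorem S_maps {z : ℍ} (hz : z.re < 0) : 0 < (ModularGroup.S • z).re := by
  rw [re_S_smul]
  exact div_pos (by linarith) (normSq_pos' z)

theorem R_maps {z : ℍ} (hz : 0 < z.re) : (Rmat • z).re < 0 := by
  rw [re_R_smul]
  exact div_neg_of_neg_of_pos (by linarith) (normSq_pos' _)

theorem R_maps_gt {z : ℍ} (hz : 0 < z.re) : -1 < (Rmat • z).re := by
  rw [re_R_smul, lt_div_iff₀ (normSq_pos' _)]
  have h1 : Complex.normSq ((ModularGroup.T • z : ℍ) : ℂ)
      = (z.re + 1) ^ 2 + z.im ^ 2 := by
    rw [Complex.normSq_apply]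
    have hre : ((ModularGroup.T • z : ℍ) : ℂ).re = z.re + 1 := re_T_smul z
    have him : ((ModularGroup.T • z : ℍ) : ℂ).im = z.im := by
      rw [UpperHalfPlane.modular_T_smul]; simp
    rw [hre, him]; ring
  rw [h1]
  nlinarith [z.im_pos, sq_nonneg z.im]

theorem R2_maps {z : ℍ} (hz : 0 < z.re) : (Rmat • Rmat • z).re < 0 := by
  rw [re_R_smul]
  have := R_maps_gt hz
  exact div_neg_of_neg_of_pos (by linarith) (normSq_pos' _)

theorem Hf_false_cases (h : Hf false) : h = 1 ∨ h = gg false := by
  have : ∀ a : ZMod 2, a = 0 ∨ a = 1 := by decide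
  rcases this (Multiplicative.toAdd h) with h0 | h1
  · left; exact h0
  · right; exact h1

theorem Hf_true_cases (h : Hf true) : h = 1 ∨ h = gg true ∨ h = gg true * gg true := by
  have : ∀ a : ZMod 3, a = 0 ∨ a = 1 ∨ a = 1 + 1 := by decide
  rcases this (Multiplicative.toAdd h) with h0 | h1 | h2
  · left; exact h0
  · right; left; exact h1
  · right; right; exact h2

theorem fH_gg (b : Bool) : fH b (gg b) = gen b := cyc_one (nn b) _ _

theorem fH_false_one : fH false (gg false) = rhoH ModularGroup.S := fH_gg false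

theorem fH_true_one : fH true (gg true) = rhoH Rmat := fH_gg true

theorem pingpong : Function.Injective (Monoid.CoprodI.lift fH) := by
  apply Monoid.CoprodI.lift_injective_of_ping_pong fH _ XS
  · intro b
    cases b
    · exact ⟨⟨Complex.mk 1 1, by simp⟩, by show (0 : ℝ) < 1; norm_num⟩
    · exact ⟨⟨Complex.mk (-1) 1, by simp⟩, by show (-1 : ℝ) < 0; norm_num⟩
  · intro i j hij
    cases i <;> cases j
    · exact absurd rfl hij
    · show Disjoint {z : ℍ | 0 < z.re} {z : ℍ | z.re < 0}
      rw [Set.disjoint_left]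
      intro z h1 h2
      simp only [Set.mem_setOf_eq] at h1 h2
      linarith
    · show Disjoint {z : ℍ | z.re < 0} {z : ℍ | 0 < z.re}
      rw [Set.disjoint_left]
      intro z h1 h2
      simp only [Set.mem_setOf_eq] at h1 h2
      linarith
    · exact absurd rfl hij
  · intro i j hij h hh
    cases i <;> cases j
    · exact absurd rfl hij
    · rcases Hf_false_cases h with h1 | h1
      · exact absurd h1 hh
      · rw [h1, fH_false_one]
        rintro _ ⟨z, hz, rfl⟩
        exact S_maps hz
    · rcases Hf_true_cases h with h1 | h1 | h1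
      · exact absurd h1 hh
      · rw [h1, fH_true_one]
        rintro _ ⟨z, hz, rfl⟩
        exact R_maps hz
      · rw [h1, map_mul, fH_true_one]
        rintro _ ⟨z, hz, rfl⟩
        exact R2_maps hz
    · exact absurd rfl hij
  · right
    refine ⟨true, ?_⟩
    show (3 : Cardinal) ≤ Cardinal.mk (Multiplicative (ZMod 3))
    rw [Cardinal.mk_fintype]
    have : Fintype.card (Multiplicative (ZMod 3)) = 3 := by
      rw [Fintype.card_multiplicative]; exact ZMod.card 3
    rw [this]; norm_num

theorem rhoH_mem_range (g : SL(2, ℤ)) : rhoH g ∈ (Monoid.CoprodI.lift fH).range := by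
  have hS : rhoH ModularGroup.S ∈ (Monoid.CoprodI.lift fH).range :=
    ⟨Monoid.CoprodI.of (gg false), by
      rw [Monoid.CoprodI.lift_of, fH_false_one]⟩
  have hR : rhoH Rmat ∈ (Monoid.CoprodI.lift fH).range :=
    ⟨Monoid.CoprodI.of (gg true), by
      rw [Monoid.CoprodI.lift_of, fH_true_one]⟩
  have hT : rhoH ModularGroup.T ∈ (Monoid.CoprodI.lift fH).range := by
    have : ModularGroup.T = ModularGroup.S⁻¹ * Rmat := by rw [Rmat, inv_mul_cancel_left]
    rw [this, map_mul, map_inv]
    exact mul_mem (inv_mem hS) hR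
  have hg : g ∈ Subgroup.closure ({ModularGroup.S, ModularGroup.T} : Set SL(2, ℤ)) := by
    rw [SpecialLinearGroup.SL2Z_generators]; trivial
  induction hg using Subgroup.closure_induction with
  | mem x hx =>
    rcases hx with rfl | rfl
    · exact hS
    · exact hT
  | one => rw [map_one]; exact one_mem _
  | mul x y _ _ hx hy => rw [map_mul]; exact mul_mem hx hy
  | inv x _ hx => rw [map_inv]; exact inv_mem hx

/-- **Universal property of `PSL(2,ℤ) = C₂ * C₃`.** -/
theorem exists_hom_of_rel {E : Type*} [Group E] (s r : E) (hs : s ^ 2 = 1) (hr : r ^ 3 = 1) :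
    ∃ φ : SL(2, ℤ) →* E, φ ModularGroup.S = s ∧ φ Rmat = r := by
  -- the homomorphism from the free product
  let genE : Bool → E := fun b => if b then r else s
  have hgenE : ∀ b, genE b ^ nn b = 1 := by
    intro b; cases b
    · exact hs
    · exact hr
  let fE : (b : Bool) → Hf b →* E := fun b => cyc (nn b) (genE b) (hgenE b)
  have hfE : ∀ b, fE b (gg b) = genE b := fun b => cyc_one (nn b) _ _
  let L := Monoid.CoprodI.lift fH
  let e := MonoidHom.ofInjective pingpong
  let ρ' : SL(2, ℤ) →* L.range := rhoH.codRestrict L.range rhoH_mem_range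
  refine ⟨(Monoid.CoprodI.lift fE).comp (e.symm.toMonoidHom.comp ρ'), ?_, ?_⟩
  · have h1 : ρ' ModularGroup.S = e (Monoid.CoprodI.of (gg false)) := by
      apply Subtype.ext
      show rhoH ModularGroup.S = Monoid.CoprodI.lift fH (Monoid.CoprodI.of (gg false))
      rw [Monoid.CoprodI.lift_of, fH_false_one]
    show Monoid.CoprodI.lift fE (e.symm (ρ' ModularGroup.S)) = s
    rw [h1, MulEquiv.symm_apply_apply, Monoid.CoprodI.lift_of, hfE]
    rfl
  · have h1 : ρ' Rmat = e (Monoid.CoprodI.of (gg true)) := by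
      apply Subtype.ext
      show rhoH Rmat = Monoid.CoprodI.lift fH (Monoid.CoprodI.of (gg true))
      rw [Monoid.CoprodI.lift_of, fH_true_one]
    show Monoid.CoprodI.lift fE (e.symm (ρ' Rmat)) = r
    rw [h1, MulEquiv.symm_apply_apply, Monoid.CoprodI.lift_of, hfE]
    rfl

/-! ### extension of cocycles -/

section cocycle

variable {M : Type*} [AddCommGroup M] (a : SL(2, ℤ) → M → M)
  (a_one : ∀ m, a 1 m = m) (a_mul : ∀ g h m, a (g * h) m = a g (a h m))
  (a_add : ∀ g m m', a g (m + m') = a g m + a g m')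

include a_one a_mul a_add

theorem a_zero (g : SL(2, ℤ)) : a g 0 = 0 := by
  have := a_add g 0 0
  rw [add_zero] at this
  exact left_eq_add.mp this

theorem a_neg' (g : SL(2, ℤ)) (m : M) : a g (-m) = - a g m := by
  have := a_add g m (-m)
  rw [add_neg_cancel, a_zero a a_one a_mul a_add] at this
  exact (neg_eq_of_add_eq_zero_right this.symm).symm

theorem a_sub (g : SL(2, ℤ)) (m m' : M) : a g (m - m') = a g m - a g m' := by
  rw [sub_eq_add_neg, a_add, a_neg' a a_one a_mul a_add, sub_eq_add_neg]

omit a_add in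
/-- the affine permutation `m ↦ m₀ + g • m` -/
def aff (m₀ : M) (g : SL(2, ℤ)) : Equiv.Perm M where
  toFun m := m₀ + a g m
  invFun m := a g⁻¹ (m - m₀)
  left_inv m := by
    show a g⁻¹ (m₀ + a g m - m₀) = m
    rw [add_sub_cancel_left, ← a_mul, inv_mul_cancel, a_one]
  right_inv m := by
    show m₀ + a g (a g⁻¹ (m - m₀)) = m
    rw [← a_mul, mul_inv_cancel, a_one, add_sub_cancel]

omit a_add in
theorem aff_apply (m₀ : M) (g : SL(2, ℤ)) (m : M) :
    aff a a_one a_mul m₀ g m = m₀ + a g m := rfl

/-- **Extension of cocycles**: a cocycle on `SL(2,ℤ)` with values in a module on which `-1` acts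
trivially can be prescribed on `S` and `R = S * T`, subject to the norm conditions. -/
theorem exists_cocycle (a_neg : ∀ m, a (-1) m = m) (mS mR : M)
    (hS : mS + a ModularGroup.S mS = 0) (hR : mR + a Rmat mR + a Rmat (a Rmat mR) = 0) :
    ∃ z : SL(2, ℤ) → M, (∀ g h, z (g * h) = z g + a g (z h)) ∧ z ModularGroup.S = mS ∧ z Rmat = mR := by
  have hs : (aff a a_one a_mul mS ModularGroup.S) ^ 2 = 1 := by
    ext m
    rw [pow_two, Equiv.Perm.mul_apply, aff_apply, aff_apply, a_add, ← a_mul, S_mul_S', a_neg,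
      ← add_assoc, hS, zero_add]
    rfl
  have hr : (aff a a_one a_mul mR Rmat) ^ 3 = 1 := by
    ext m
    rw [pow_succ, pow_two, Equiv.Perm.mul_apply, Equiv.Perm.mul_apply, aff_apply, aff_apply,
      aff_apply, a_add, a_add, a_add, ← a_mul Rmat Rmat m, ← a_mul Rmat (Rmat * Rmat) m,
      ← mul_assoc, Rmat_cube, a_neg, ← add_assoc, ← add_assoc, hR, zero_add]
    rfl
  obtain ⟨φ, hφS, hφR⟩ := exists_hom_of_rel _ _ hs hr
  -- every φ g is affine with linear part a g
  have key : ∀ g : SL(2, ℤ), ∀ m, φ g m = φ g 0 + a g m := by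
    intro g
    have hg : g ∈ Subgroup.closure ({ModularGroup.S, ModularGroup.T} : Set SL(2, ℤ)) := by
      rw [SpecialLinearGroup.SL2Z_generators]; trivial
    have hSk : ∀ m, φ ModularGroup.S m = φ ModularGroup.S 0 + a ModularGroup.S m := by
      intro m
      rw [hφS, aff_apply, aff_apply, a_zero a a_one a_mul a_add, add_zero]
    have hRk : ∀ m, φ Rmat m = φ Rmat 0 + a Rmat m := by
      intro m
      rw [hφR, aff_apply, aff_apply, a_zero a a_one a_mul a_add, add_zero]
    have hmul : ∀ x y : SL(2, ℤ), (∀ m, φ x m = φ x 0 + a x m) → (∀ m, φ y m = φ y 0 + a y m) →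
        ∀ m, φ (x * y) m = φ (x * y) 0 + a (x * y) m := by
      intro x y hx hy m
      rw [map_mul, Equiv.Perm.mul_apply, Equiv.Perm.mul_apply, hy m, hx, hx (φ y 0), a_add, a_mul]
      abel
    have hinv : ∀ x : SL(2, ℤ), (∀ m, φ x m = φ x 0 + a x m) →
        ∀ m, φ x⁻¹ m = φ x⁻¹ 0 + a x⁻¹ m := by
      intro x hx m
      have h1 : ∀ m', φ x⁻¹ m' = a x⁻¹ (m' - φ x 0) := by
        intro m'
        apply (φ x).injective
        rw [← Equiv.Perm.mul_apply, ← map_mul, mul_inv_cancel, map_one, Equiv.Perm.one_apply, hx,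
          ← a_mul, mul_inv_cancel, a_one, add_sub_cancel]
      rw [h1 m, h1 0, a_sub a a_one a_mul a_add, a_sub a a_one a_mul a_add,
        a_zero a a_one a_mul a_add]
      abel
    induction hg using Subgroup.closure_induction with
    | mem x hx =>
      rcases hx with rfl | rfl
      · exact hSk
      · have hT : ModularGroup.T = ModularGroup.S⁻¹ * Rmat := by rw [Rmat, inv_mul_cancel_left]
        rw [hT]
        exact hmul _ _ (hinv _ hSk) hRk
    | one =>
      intro m
      rw [map_one, Equiv.Perm.one_apply, Equiv.Perm.one_apply, a_one, zero_add]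
    | mul x y _ _ hx hy => exact hmul x y hx hy
    | inv x _ hx => exact hinv x hx
  refine ⟨fun g => φ g 0, ?_, ?_, ?_⟩
  · intro g h
    show φ (g * h) 0 = φ g 0 + a g (φ h 0)
    rw [map_mul, Equiv.Perm.mul_apply, key g]
  · show φ ModularGroup.S 0 = mS
    rw [hφS, aff_apply, a_zero a a_one a_mul a_add, add_zero]
  · show φ Rmat 0 = mR
    rw [hφR, aff_apply, a_zero a a_one a_mul a_add, add_zero]

end cocycle

end Fermat.Agent.S41.PDPres
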