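import Mathlib
import Fermat.Agent.S41.PDEta
import Fermat.Agent.S41.PDPres
import Fermat.Agent.S41.PDNorm

/-!
# S41, piece P2 (duality): existence of a cup-primitive `η`, and of a homomorphism with given
Manin symbol

* `exists_isEta` : for parabolic `c₁, c₂` there is `η : Γ → ℤ` with
  `η (x y) = η x + η y + c₁ x * c₂ y`.
* `six_dvd` : `6 ∣ six (v_{c₁}, v_{c₂})`.
* `exists_hom_of_manin` : every Manin symbol `v` is `v_c` for a parabolic homomorphism `c`, up to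
  nothing (exactly, for the adapted section, modulo a boundary).
-/

set_option autoImplicit false
set_option linter.unusedSectionVars false
set_option linter.unusedVariables false

noncomputable section

open scoped MatrixGroups
open ModularCurve.Period

namespace Fermat.Agent.S41.PD

variable {Γ : Subgroup SL(2, ℤ)}

theorem Rm_eq : Rm = PDPres.Rmat := rfl

theorem act_neg_one (hΓ : (-1 : SL(2, ℤ)) ∈ Γ) (v : SL(2, ℤ) ⧸ Γ → ℤ) :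
    act (-1 : SL(2, ℤ)) v = v := by
  funext x
  rw [act_apply]
  congr 1
  rw [inv_smul_eq_iff, neg_one_smul_coset hΓ]

theorem act_zero (g : SL(2, ℤ)) : act g (0 : SL(2, ℤ) ⧸ Γ → ℤ) = 0 := rfl

theorem act_neg (g : SL(2, ℤ)) (v : SL(2, ℤ) ⧸ Γ → ℤ) : act g (-v) = - act g v := rfl

theorem act_sub (g : SL(2, ℤ)) (v w : SL(2, ℤ) ⧸ Γ → ℤ) : act g (v - w) = act g v - act g w := rfl

/-- cocycles for `act` -/
def IsCoc (z : SL(2, ℤ) → (SL(2, ℤ) ⧸ Γ → ℤ)) : Prop := ∀ g h, z (g * h) = z g + act g (z h)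

theorem IsCoc.map_one {z : SL(2, ℤ) → (SL(2, ℤ) ⧸ Γ → ℤ)} (hz : IsCoc z) : z 1 = 0 := by
  have := hz 1 1
  rw [one_mul, act_one] at this
  exact left_eq_add.mp this

theorem IsCoc.map_inv {z : SL(2, ℤ) → (SL(2, ℤ) ⧸ Γ → ℤ)} (hz : IsCoc z) (g : SL(2, ℤ)) :
    z g⁻¹ = - act g⁻¹ (z g) := by
  have := hz g⁻¹ g
  rw [inv_mul_cancel, hz.map_one] at this
  exact eq_neg_of_add_eq_zero_left this.symm

/-- a cocycle vanishing at `S` and `R` vanishes -/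
theorem IsCoc.eq_zero {z : SL(2, ℤ) → (SL(2, ℤ) ⧸ Γ → ℤ)} (hz : IsCoc z)
    (hS : z ModularGroup.S = 0) (hR : z Rm = 0) (g : SL(2, ℤ)) : z g = 0 := by
  have hg : g ∈ Subgroup.closure ({ModularGroup.S, ModularGroup.T} : Set SL(2, ℤ)) := by
    rw [SpecialLinearGroup.SL2Z_generators]; trivial
  have hT : z ModularGroup.T = 0 := by
    have h1 : ModularGroup.T = ModularGroup.S⁻¹ * Rm := by rw [Rm, inv_mul_cancel_left]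
    rw [h1, hz, hR, act_zero, add_zero, hz.map_inv, hS, act_zero, neg_zero]
  induction hg using Subgroup.closure_induction with
  | mem x hx =>
    rcases hx with rfl | rfl
    · exact hS
    · exact hT
  | one => exact hz.map_one
  | mul x y _ _ hx hy => rw [hz, hx, hy, act_zero, add_zero]
  | inv x _ hx => rw [hz.map_inv, hx, act_zero, neg_zero]

theorem IsCoc.ext {z z' : SL(2, ℤ) → (SL(2, ℤ) ⧸ Γ → ℤ)} (hz : IsCoc z) (hz' : IsCoc z')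
    (hS : z ModularGroup.S = z' ModularGroup.S) (hR : z Rm = z' Rm) (g : SL(2, ℤ)) : z g = z' g := by
  have hd : IsCoc (fun g => z g - z' g) := by
    intro g h
    show z (g * h) - z' (g * h) = z g - z' g + act g (z h - z' h)
    rw [hz, hz', act_sub]; abel
  have := hd.eq_zero (by show z _ - z' _ = 0; rw [hS, sub_self]) (by show z _ - z' _ = 0; rw [hR, sub_self]) g
  exact sub_eq_zero.mp this

variable [Γ.FiniteIndex]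

theorem zOf_isCoc (c : Additive Γ →+ ℤ) : IsCoc (zOf c) := by
  intro g h
  funext x
  rw [zOf_mul]; rfl

theorem sP_sq (hΓ : (-1 : SL(2, ℤ)) ∈ Γ) : sP Γ ^ 2 = 1 := by
  ext x
  rw [pow_two, Equiv.Perm.mul_apply]
  show ModularGroup.S • ModularGroup.S • x = x
  rw [← mul_smul, S_mul_S, neg_one_smul_coset hΓ]

theorem rP_cube (hΓ : (-1 : SL(2, ℤ)) ∈ Γ) : rP Γ ^ 3 = 1 := by
  ext x
  rw [pow_succ, pow_two, Equiv.Perm.mul_apply, Equiv.Perm.mul_apply]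
  show Rm • Rm • Rm • x = x
  rw [← mul_smul, ← mul_smul, Rm_cube, neg_one_smul_coset hΓ]

theorem manin_fix_S {v : SL(2, ℤ) ⧸ Γ → ℤ} (hv : IsManin (sP Γ) (rP Γ) v)
    (x : SL(2, ℤ) ⧸ Γ) (hx : sP Γ x = x) : v x = 0 := by
  have h1 := hv.1 x
  have h2 : (sP Γ)⁻¹ x = x := by
    apply (sP Γ).injective; rw [perm_apply_inv, hx]
  rw [h2] at h1
  omega

theorem manin_fix_R {v : SL(2, ℤ) ⧸ Γ → ℤ} (hv : IsManin (sP Γ) (rP Γ) v)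
    (x : SL(2, ℤ) ⧸ Γ) (hx : rP Γ x = x) : v x = 0 := by
  have h1 := hv.2 x
  have h2 : (rP Γ)⁻¹ x = x := by
    apply (rP Γ).injective; rw [perm_apply_inv, hx]
  rw [h2, h2] at h1
  omega

/-- existence of the auxiliary functions `e_S`, `e_R` -/
theorem exists_eS (hΓ : (-1 : SL(2, ℤ)) ∈ Γ) {v₁ v₂ : SL(2, ℤ) ⧸ Γ → ℤ}
    (h1 : IsManin (sP Γ) (rP Γ) v₁) (h2 : IsManin (sP Γ) (rP Γ) v₂) :
    ∃ e : SL(2, ℤ) ⧸ Γ → ℤ, ∀ x, e x + e ((sP Γ)⁻¹ x) = v₁ x * v₂ x := by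
  apply exists_norm_two (sP Γ) (sP_sq hΓ) (fun x => v₁ x * v₂ x)
  · intro x
    have a1 := h1.1 x
    have a2 := h2.1 x
    have b1 : v₁ ((sP Γ)⁻¹ x) = - v₁ x := by linarith
    have b2 : v₂ ((sP Γ)⁻¹ x) = - v₂ x := by linarith
    show v₁ _ * v₂ _ = _
    rw [b1, b2]; ring
  · intro x hx
    show v₁ x * v₂ x = 0
    rw [manin_fix_S h1 x hx, zero_mul]

theorem exists_eR (hΓ : (-1 : SL(2, ℤ)) ∈ Γ) {v₁ v₂ : SL(2, ℤ) ⧸ Γ → ℤ}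
    (h1 : IsManin (sP Γ) (rP Γ) v₁) (h2 : IsManin (sP Γ) (rP Γ) v₂) :
    ∃ e : SL(2, ℤ) ⧸ Γ → ℤ, ∀ x, e x + e ((rP Γ)⁻¹ x) + e ((rP Γ)⁻¹ ((rP Γ)⁻¹ x))
      = v₁ x * v₂ x - v₁ ((rP Γ)⁻¹ x) * v₂ ((rP Γ)⁻¹ ((rP Γ)⁻¹ x)) := by
  have h3 : ∀ y : SL(2, ℤ) ⧸ Γ, (rP Γ)⁻¹ ((rP Γ)⁻¹ ((rP Γ)⁻¹ y)) = y := by
    intro y
    have := congrArg (fun τ : Equiv.Perm (SL(2, ℤ) ⧸ Γ) => τ⁻¹ y) (rP_cube hΓ)
    simpa [pow_succ, Equiv.Perm.mul_apply, mul_inv_rev] using this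
  apply exists_norm_three (rP Γ) (rP_cube hΓ)
    (fun x => v₁ x * v₂ x - v₁ ((rP Γ)⁻¹ x) * v₂ ((rP Γ)⁻¹ ((rP Γ)⁻¹ x)))
  · intro x
    show v₁ ((rP Γ)⁻¹ x) * v₂ ((rP Γ)⁻¹ x)
        - v₁ ((rP Γ)⁻¹ ((rP Γ)⁻¹ x)) * v₂ ((rP Γ)⁻¹ ((rP Γ)⁻¹ ((rP Γ)⁻¹ x)))
      = v₁ x * v₂ x - v₁ ((rP Γ)⁻¹ x) * v₂ ((rP Γ)⁻¹ ((rP Γ)⁻¹ x))
    rw [h3]
    have a1 := h1.2 x
    have a2 := h2.2 x
    have b1 : v₁ ((rP Γ)⁻¹ ((rP Γ)⁻¹ x)) = - v₁ x - v₁ ((rP Γ)⁻¹ x) := by linarith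
    have b2 : v₂ ((rP Γ)⁻¹ ((rP Γ)⁻¹ x)) = - v₂ x - v₂ ((rP Γ)⁻¹ x) := by linarith
    rw [b1, b2]; ring
  · intro x hx
    have h2' : (rP Γ)⁻¹ x = x := by
      apply (rP Γ).injective; rw [perm_apply_inv, hx]
    show v₁ x * v₂ x - v₁ ((rP Γ)⁻¹ x) * v₂ ((rP Γ)⁻¹ ((rP Γ)⁻¹ x)) = 0
    rw [h2', h2', manin_fix_R h1 x hx, zero_mul, sub_self]

/-- **Cup-primitives relative to a cocycle.** For a cocycle `z₁` and a Manin symbol `v₂` there is a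
cocycle `z₂` with `z₂ S = z₂ R = v₂` and a cochain `E` with
`E (g h) = E g + g • E h + z₁ g * g • z₂ h`, provided `z₁ S = z₁ R` is a Manin symbol. -/
theorem exists_cochain (hΓ : (-1 : SL(2, ℤ)) ∈ Γ) {z₁ : SL(2, ℤ) → (SL(2, ℤ) ⧸ Γ → ℤ)}
    (hz₁ : IsCoc z₁) (hneg : z₁ (-1) = 0) {v₁ v₂ : SL(2, ℤ) ⧸ Γ → ℤ}
    (h1 : IsManin (sP Γ) (rP Γ) v₁) (h2 : IsManin (sP Γ) (rP Γ) v₂)
    (h1S : z₁ ModularGroup.S = v₁) (h1R : z₁ Rm = v₁) :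
    ∃ (z₂ E : SL(2, ℤ) → (SL(2, ℤ) ⧸ Γ → ℤ)), IsCoc z₂ ∧ z₂ ModularGroup.S = v₂ ∧ z₂ Rm = v₂ ∧
      ∀ g h, E (g * h) = E g + act g (E h) + z₁ g * act g (z₂ h) := by
  obtain ⟨eS, heS⟩ := exists_eS hΓ h1 h2
  obtain ⟨eR, heR⟩ := exists_eR hΓ h1 h2
  -- the twisted module
  let a : SL(2, ℤ) → ((SL(2, ℤ) ⧸ Γ → ℤ) × (SL(2, ℤ) ⧸ Γ → ℤ)) →
      ((SL(2, ℤ) ⧸ Γ → ℤ) × (SL(2, ℤ) ⧸ Γ → ℤ)) :=
    fun g m => (act g m.1, act g m.2 + z₁ g * act g m.1)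
  have a_one : ∀ m, a 1 m = m := by
    intro m
    show (act 1 m.1, act 1 m.2 + z₁ 1 * act 1 m.1) = m
    rw [act_one, act_one, hz₁.map_one, zero_mul, add_zero]
  have a_mul : ∀ g h m, a (g * h) m = a g (a h m) := by
    intro g h m
    show (act (g * h) m.1, act (g * h) m.2 + z₁ (g * h) * act (g * h) m.1)
      = (act g (act h m.1), act g (act h m.2 + z₁ h * act h m.1) + z₁ g * act g (act h m.1))
    rw [act_mul, act_mul, hz₁, act_add, act_mul_fun]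
    congr 1
    ring
  have a_add : ∀ g m m', a g (m + m') = a g m + a g m' := by
    intro g m m'
    show (act g (m.1 + m'.1), act g (m.2 + m'.2) + z₁ g * act g (m.1 + m'.1))
      = (act g m.1 + act g m'.1, act g m.2 + z₁ g * act g m.1 + (act g m'.2 + z₁ g * act g m'.1))
    rw [act_add, act_add]
    congr 1
    ring
  have a_neg : ∀ m, a (-1) m = m := by
    intro m
    show (act (-1) m.1, act (-1) m.2 + z₁ (-1) * act (-1) m.1) = m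
    rw [act_neg_one hΓ, act_neg_one hΓ, hneg, zero_mul, add_zero]
  have hSv : ∀ v : SL(2, ℤ) ⧸ Γ → ℤ, ∀ x, act ModularGroup.S v x = v ((sP Γ)⁻¹ x) := by
    intro v x; rw [sP_inv_apply]; rfl
  have hRv : ∀ v : SL(2, ℤ) ⧸ Γ → ℤ, ∀ x, act Rm v x = v ((rP Γ)⁻¹ x) := by
    intro v x; rw [rP_inv_apply]; rfl
  have hS : (v₂, eS) + a ModularGroup.S (v₂, eS) = 0 := by
    show (v₂ + act ModularGroup.S v₂, eS + (act ModularGroup.S eS + z₁ ModularGroup.S * act ModularGroup.S v₂))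
      = ((0 : SL(2, ℤ) ⧸ Γ → ℤ), (0 : SL(2, ℤ) ⧸ Γ → ℤ))
    rw [h1S]
    congr 1
    · funext x
      show v₂ x + act ModularGroup.S v₂ x = 0
      rw [hSv]; exact h2.1 x
    · funext x
      show eS x + (act ModularGroup.S eS x + v₁ x * act ModularGroup.S v₂ x) = 0
      rw [hSv, hSv]
      have a2 := h2.1 x
      have b2 : v₂ ((sP Γ)⁻¹ x) = - v₂ x := by linarith
      have := heS x
      rw [b2]; linarith
  have hR : (v₂, eR) + a PDPres.Rmat (v₂, eR) + a PDPres.Rmat (a PDPres.Rmat (v₂, eR)) = 0 := by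
    rw [← Rm_eq]
    show (v₂ + act Rm v₂ + act Rm (act Rm v₂),
        eR + (act Rm eR + z₁ Rm * act Rm v₂)
          + (act Rm (act Rm eR + z₁ Rm * act Rm v₂) + z₁ Rm * act Rm (act Rm v₂)))
      = ((0 : SL(2, ℤ) ⧸ Γ → ℤ), (0 : SL(2, ℤ) ⧸ Γ → ℤ))
    rw [h1R]
    congr 1
    · funext x
      show v₂ x + act Rm v₂ x + act Rm (act Rm v₂) x = 0
      rw [hRv, hRv, hRv]; exact h2.2 x
    · funext x
      show eR x + (act Rm eR x + v₁ x * act Rm v₂ x)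
          + (act Rm (act Rm eR + v₁ * act Rm v₂) x + v₁ x * act Rm (act Rm v₂) x) = 0
      rw [hRv, hRv, hRv (act Rm eR + v₁ * act Rm v₂), hRv (act Rm v₂)]
      show eR x + (eR ((rP Γ)⁻¹ x) + v₁ x * v₂ ((rP Γ)⁻¹ x))
          + ((act Rm eR ((rP Γ)⁻¹ x) + v₁ ((rP Γ)⁻¹ x) * act Rm v₂ ((rP Γ)⁻¹ x))
            + v₁ x * act Rm v₂ ((rP Γ)⁻¹ x)) = 0
      rw [hRv, hRv]
      have a2 := h2.2 x
      have := heR x
      have b2 : v₂ ((rP Γ)⁻¹ ((rP Γ)⁻¹ x)) = - v₂ x - v₂ ((rP Γ)⁻¹ x) := by linarith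
      rw [b2] at this ⊢
      linarith
  obtain ⟨Z, hZ, hZS, hZR⟩ := PDPres.exists_cocycle a a_one a_mul a_add a_neg (v₂, eS) (v₂, eR) hS hR
  refine ⟨fun g => (Z g).1, fun g => (Z g).2, ?_, ?_, ?_, ?_⟩
  · intro g h
    show (Z (g * h)).1 = (Z g).1 + act g (Z h).1
    rw [hZ]; rfl
  · show (Z ModularGroup.S).1 = v₂
    rw [hZS]
  · show (Z Rm).1 = v₂
    rw [Rm_eq, hZR]
  · intro g h
    show (Z (g * h)).2 = (Z g).2 + act g (Z h).2 + z₁ g * act g (Z h).1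
    rw [hZ]
    show (Z g).2 + (act g (Z h).2 + z₁ g * act g (Z h).1) = _
    ring

/-- **Existence of cup-primitives.** -/
theorem exists_isEta (hΓ : (-1 : SL(2, ℤ)) ∈ Γ) {c₁ c₂ : Additive Γ →+ ℤ}
    (hc₁ : c₁ ∈ parabolicHoms ℤ Γ ℤ) (hc₂ : c₂ ∈ parabolicHoms ℤ Γ ℤ) :
    ∃ η : Γ → ℤ, IsEta c₁ c₂ η := by
  have hz1 : IsCoc (zOf c₁) := zOf_isCoc c₁
  have hz2 : IsCoc (zOf c₂) := zOf_isCoc c₂
  obtain ⟨z₂, E, hz₂, hS, hR, hE⟩ := exists_cochain hΓ hz1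
    (by funext x; exact zOf_neg_one hΓ c₁ x) (vOf_manin hΓ hc₁) (vOf_manin hΓ hc₂)
    (zOf_S c₁) (by funext x; exact zOf_Rm hc₁ x)
  have hz₂eq : ∀ g, z₂ g = zOf c₂ g := fun g =>
    hz₂.ext hz2 (by rw [hS, zOf_S]) (by rw [hR]; funext x; exact (zOf_Rm hc₂ x).symm) g
  -- evaluate at the base coset
  let x₀ : SL(2, ℤ) ⧸ Γ := ((1 : SL(2, ℤ)) : SL(2, ℤ) ⧸ Γ)
  have hfix : ∀ γ : Γ, ((γ : SL(2, ℤ))⁻¹) • x₀ = x₀ := by
    intro γ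
    show (((γ : SL(2, ℤ))⁻¹ * 1 : SL(2, ℤ)) : SL(2, ℤ) ⧸ Γ) = ((1 : SL(2, ℤ)) : SL(2, ℤ) ⧸ Γ)
    rw [QuotientGroup.eq]
    simp
  have hval : ∀ (c : Additive Γ →+ ℤ) (γ : Γ), zOf c (γ : SL(2, ℤ)) x₀ = ev c γ := by
    intro c γ
    have hr : (adSec Γ).r x₀ ∈ Γ := by
      have := (adSec Γ).mk_r x₀
      have h2 := QuotientGroup.eq.mp this
      simpa using inv_mem h2
    have hA : (adSec Γ).A (γ : SL(2, ℤ)) x₀
        = (⟨(adSec Γ).r x₀, hr⟩ : Γ)⁻¹ * γ * ⟨(adSec Γ).r x₀, hr⟩ := by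
      apply Subtype.ext
      rw [Sec.coe_A, hfix]
      rfl
    show ev c ((adSec Γ).A (γ : SL(2, ℤ)) x₀) = ev c γ
    rw [hA, ev_mul, ev_mul, ev_inv]; ring
  refine ⟨fun γ => E (γ : SL(2, ℤ)) x₀, ?_⟩
  intro γ γ'
  show E ((γ * γ' : Γ) : SL(2, ℤ)) x₀ = E γ x₀ + E γ' x₀ + ev c₁ γ * ev c₂ γ'
  rw [Subgroup.coe_mul, hE]
  show E γ x₀ + act (γ : SL(2, ℤ)) (E γ') x₀ + zOf c₁ γ x₀ * act (γ : SL(2, ℤ)) (z₂ γ') x₀ = _
  rw [act_apply, act_apply, hfix, hz₂eq, hval, hval]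

/-- integrality of the pairing -/
theorem six_dvd (hΓ : (-1 : SL(2, ℤ)) ∈ Γ) {c₁ c₂ : Additive Γ →+ ℤ}
    (hc₁ : c₁ ∈ parabolicHoms ℤ Γ ℤ) (hc₂ : c₂ ∈ parabolicHoms ℤ Γ ℤ) :
    (6 : ℤ) ∣ six (rP Γ) (vOf c₁) (vOf c₂) := by
  obtain ⟨η, hη⟩ := exists_isEta hΓ hc₁ hc₂
  have := six_sum_eta hΓ hc₁ hc₂ hη
  exact (Int.dvd_neg.mp ⟨_, this.symm⟩)

end Fermat.Agent.S41.PD
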