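import Mathlib
import Fermat.Agent.S41.PDExist
import Fermat.Agent.S41.PDCusp

/-!
# S41, piece P2 (duality): the pairing on parabolic homomorphisms, its intrinsic description and
its invariance under conjugation

* `pairZ c₁ c₂ = six (v_{c₁}, v_{c₂}) / 6`
* `pairZ_eq_neg_sum` : `pairZ c₁ c₂ = - ∑_{cusps} η (π_b)` for every cup-primitive `η`
* `pairZ_conj` : invariance under an isomorphism `ψ : Γ₁ ≃* Γ₂` induced by an integral matrix of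
  positive determinant.
-/

set_option autoImplicit false
set_option linter.unusedSectionVars false
set_option linter.unusedVariables false

noncomputable section

open scoped MatrixGroups
open ModularCurve.Period

namespace Fermat.Agent.S41.PD

variable {Γ : Subgroup SL(2, ℤ)} [Γ.FiniteIndex]

/-- the pairing (as an integer) -/
def pairZ (c₁ c₂ : Additive Γ →+ ℤ) : ℤ := six (rP Γ) (vOf c₁) (vOf c₂) / 6

theorem six_pairZ (hΓ : (-1 : SL(2, ℤ)) ∈ Γ) {c₁ c₂ : Additive Γ →+ ℤ}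
    (hc₁ : c₁ ∈ parabolicHoms ℤ Γ ℤ) (hc₂ : c₂ ∈ parabolicHoms ℤ Γ ℤ) :
    6 * pairZ c₁ c₂ = six (rP Γ) (vOf c₁) (vOf c₂) :=
  Int.mul_ediv_cancel' (six_dvd hΓ hc₁ hc₂)

theorem vOf_add (c c' : Additive Γ →+ ℤ) : vOf (c + c') = vOf c + vOf c' := by
  funext x; rfl

theorem vOf_zero : vOf (0 : Additive Γ →+ ℤ) = 0 := by
  funext x; rfl

theorem vOf_neg (c : Additive Γ →+ ℤ) : vOf (-c) = - vOf c := by
  funext x; rfl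

theorem six_add_left {X : Type*} [Fintype X] (ρ : Equiv.Perm X) (v v' w : X → ℤ) :
    six ρ (v + v') w = six ρ v w + six ρ v' w := by
  simp only [six, Pi.add_apply, add_mul, Finset.sum_add_distrib]

theorem six_add_right {X : Type*} [Fintype X] (ρ : Equiv.Perm X) (v w w' : X → ℤ) :
    six ρ v (w + w') = six ρ v w + six ρ v w' := by
  simp only [six, Pi.add_apply, ← Finset.sum_add_distrib]
  apply Finset.sum_congr rfl; intro x _; ring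

theorem pairZ_add_left (hΓ : (-1 : SL(2, ℤ)) ∈ Γ) {c₁ c₁' c₂ : Additive Γ →+ ℤ}
    (hc₁ : c₁ ∈ parabolicHoms ℤ Γ ℤ) (hc₁' : c₁' ∈ parabolicHoms ℤ Γ ℤ)
    (hc₂ : c₂ ∈ parabolicHoms ℤ Γ ℤ) :
    pairZ (c₁ + c₁') c₂ = pairZ c₁ c₂ + pairZ c₁' c₂ := by
  have h1 := six_pairZ hΓ ((parabolicHoms ℤ Γ ℤ).add_mem hc₁ hc₁') hc₂
  have h2 := six_pairZ hΓ hc₁ hc₂
  have h3 := six_pairZ hΓ hc₁' hc₂
  rw [vOf_add, six_add_left] at h1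
  omega

theorem pairZ_add_right (hΓ : (-1 : SL(2, ℤ)) ∈ Γ) {c₁ c₂ c₂' : Additive Γ →+ ℤ}
    (hc₁ : c₁ ∈ parabolicHoms ℤ Γ ℤ) (hc₂ : c₂ ∈ parabolicHoms ℤ Γ ℤ)
    (hc₂' : c₂' ∈ parabolicHoms ℤ Γ ℤ) :
    pairZ c₁ (c₂ + c₂') = pairZ c₁ c₂ + pairZ c₁ c₂' := by
  have h1 := six_pairZ hΓ hc₁ ((parabolicHoms ℤ Γ ℤ).add_mem hc₂ hc₂')
  have h2 := six_pairZ hΓ hc₁ hc₂
  have h3 := six_pairZ hΓ hc₁ hc₂'
  rw [vOf_add, six_add_right] at h1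
  omega

/-- **The intrinsic formula.** -/
theorem pairZ_eq_neg_sum (hΓ : (-1 : SL(2, ℤ)) ∈ Γ) {c₁ c₂ : Additive Γ →+ ℤ}
    (hc₁ : c₁ ∈ parabolicHoms ℤ Γ ℤ) (hc₂ : c₂ ∈ parabolicHoms ℤ Γ ℤ) {η : Γ → ℤ}
    (hη : IsEta c₁ c₂ η) :
    pairZ c₁ c₂ = - ∑ b : Cusp Γ, η (cuspGen b) := by
  have h1 := six_pairZ hΓ hc₁ hc₂
  have h2 := six_sum_eta hΓ hc₁ hc₂ hη
  rw [sum_A_T_eq η hη.map_one] at h2
  omega

/-- skew-symmetry -/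
theorem pairZ_skew (hΓ : (-1 : SL(2, ℤ)) ∈ Γ) {c₁ c₂ : Additive Γ →+ ℤ}
    (hc₁ : c₁ ∈ parabolicHoms ℤ Γ ℤ) (hc₂ : c₂ ∈ parabolicHoms ℤ Γ ℤ) :
    pairZ c₂ c₁ = - pairZ c₁ c₂ := by
  obtain ⟨η, hη⟩ := exists_isEta hΓ hc₁ hc₂
  have hη' : IsEta c₂ c₁ (fun γ => ev c₁ γ * ev c₂ γ - η γ) := by
    intro x y
    show ev c₁ (x * y) * ev c₂ (x * y) - η (x * y) = _
    rw [hη, ev_mul, ev_mul]; ring
  rw [pairZ_eq_neg_sum hΓ hc₂ hc₁ hη', pairZ_eq_neg_sum hΓ hc₁ hc₂ hη]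
  rw [neg_neg, ← Finset.sum_neg_distrib]
  apply Finset.sum_congr rfl
  intro b _
  have hb : ((cuspGen b : Γ) : SL(2, ℤ)).1.trace ^ 2 = 4 := by
    have := adSec_A_trace (Γ := Γ) b.1
    show ((((adSec Γ).A ModularGroup.T b.1 : Γ) : SL(2, ℤ)) : Matrix (Fin 2) (Fin 2) ℤ).trace ^ 2 = 4
    rw [this]; norm_num
  have h1 : ev c₁ (cuspGen b) = 0 := hc₁ _ hb
  show - (ev c₁ (cuspGen b) * ev c₂ (cuspGen b) - η (cuspGen b)) = η (cuspGen b)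
  rw [h1]; ring

/-! ### conjugation -/

/-- pull-back of a homomorphism along a group isomorphism -/
def pull {Γ₁ Γ₂ : Subgroup SL(2, ℤ)} (ψ : Γ₁ ≃* Γ₂) (c : Additive Γ₂ →+ ℤ) : Additive Γ₁ →+ ℤ :=
  c.comp (MonoidHom.toAdditive ψ.toMonoidHom)

theorem ev_pull {Γ₁ Γ₂ : Subgroup SL(2, ℤ)} (ψ : Γ₁ ≃* Γ₂) (c : Additive Γ₂ →+ ℤ) (γ : Γ₁) :
    ev (pull ψ c) γ = ev c (ψ γ) := rfl

theorem trace_of_conj {γ γ' : SL(2, ℤ)} (δ : Matrix (Fin 2) (Fin 2) ℤ)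
    (hδ : 0 < δ.det) (h : δ * γ.1 = γ'.1 * δ) : γ'.1.trace = γ.1.trace := by
  rw [Matrix.det_fin_two] at hδ
  have e00 := congrFun (congrFun h 0) 0
  have e01 := congrFun (congrFun h 0) 1
  have e10 := congrFun (congrFun h 1) 0
  have e11 := congrFun (congrFun h 1) 1
  simp only [Matrix.mul_apply, Fin.sum_univ_two] at e00 e01 e10 e11
  rw [Matrix.trace_fin_two, Matrix.trace_fin_two]
  have : (δ 0 0 * δ 1 1 - δ 0 1 * δ 1 0) * (γ'.1 0 0 + γ'.1 1 1)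
      = (δ 0 0 * δ 1 1 - δ 0 1 * δ 1 0) * (γ.1 0 0 + γ.1 1 1) := by
    linear_combination (-δ 1 1) * e00 + δ 1 0 * e01 + δ 0 1 * e10 - δ 0 0 * e11
  exact mul_left_cancel₀ hδ.ne' this

theorem adj_conj {γ γ' : SL(2, ℤ)} (δ : Matrix (Fin 2) (Fin 2) ℤ)
    (hδ : 0 < δ.det) (h : δ * γ.1 = γ'.1 * δ) :
    δ.adjugate * γ'.1 = γ.1 * δ.adjugate := by
  rw [Matrix.det_fin_two] at hδ
  have e00 := congrFun (congrFun h 0) 0
  have e01 := congrFun (congrFun h 0) 1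
  have e10 := congrFun (congrFun h 1) 0
  have e11 := congrFun (congrFun h 1) 1
  simp only [Matrix.mul_apply, Fin.sum_univ_two] at e00 e01 e10 e11
  have hDa : (δ 0 0 * δ 1 1 - δ 0 1 * δ 1 0) * γ'.1 0 0
      = δ 1 1 * (δ 0 0 * γ.1 0 0 + δ 0 1 * γ.1 1 0) - δ 1 0 * (δ 0 0 * γ.1 0 1 + δ 0 1 * γ.1 1 1) := by
    rw [e00, e01]; ring
  have hDd : (δ 0 0 * δ 1 1 - δ 0 1 * δ 1 0) * γ'.1 1 1
      = δ 0 0 * (δ 1 0 * γ.1 0 1 + δ 1 1 * γ.1 1 1) - δ 0 1 * (δ 1 0 * γ.1 0 0 + δ 1 1 * γ.1 1 0) := by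
    rw [e10, e11]; ring
  have hDb : (δ 0 0 * δ 1 1 - δ 0 1 * δ 1 0) * γ'.1 0 1
      = δ 0 0 * (δ 0 0 * γ.1 0 1 + δ 0 1 * γ.1 1 1) - δ 0 1 * (δ 0 0 * γ.1 0 0 + δ 0 1 * γ.1 1 0) := by
    rw [e00, e01]; ring
  have hDc : (δ 0 0 * δ 1 1 - δ 0 1 * δ 1 0) * γ'.1 1 0
      = δ 1 1 * (δ 1 0 * γ.1 0 0 + δ 1 1 * γ.1 1 0) - δ 1 0 * (δ 1 0 * γ.1 0 1 + δ 1 1 * γ.1 1 1) := by
    rw [e10, e11]; ring
  have hne := hδ.ne'
  rw [Matrix.adjugate_fin_two]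
  ext i j
  fin_cases i <;> fin_cases j
  · simp only [Matrix.mul_apply, Fin.sum_univ_two, Matrix.of_apply, Matrix.cons_val', Matrix.cons_val_zero,
      Matrix.cons_val_one, Fin.zero_eta, Fin.mk_one, Matrix.cons_val_fin_one]
    apply mul_left_cancel₀ hne
    linear_combination δ 1 1 * hDa - δ 0 1 * hDc
  · simp only [Matrix.mul_apply, Fin.sum_univ_two, Matrix.of_apply, Matrix.cons_val', Matrix.cons_val_zero,
      Matrix.cons_val_one, Fin.zero_eta, Fin.mk_one, Matrix.cons_val_fin_one]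
    apply mul_left_cancel₀ hne
    linear_combination δ 1 1 * hDb - δ 0 1 * hDd
  · simp only [Matrix.mul_apply, Fin.sum_univ_two, Matrix.of_apply, Matrix.cons_val', Matrix.cons_val_zero,
      Matrix.cons_val_one, Fin.zero_eta, Fin.mk_one, Matrix.cons_val_fin_one]
    apply mul_left_cancel₀ hne
    linear_combination (-δ 1 0) * hDa + δ 0 0 * hDc
  · simp only [Matrix.mul_apply, Fin.sum_univ_two, Matrix.of_apply, Matrix.cons_val', Matrix.cons_val_zero,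
      Matrix.cons_val_one, Fin.zero_eta, Fin.mk_one, Matrix.cons_val_fin_one]
    apply mul_left_cancel₀ hne
    linear_combination (-δ 1 0) * hDb + δ 0 0 * hDd

theorem det_adj_pos (δ : Matrix (Fin 2) (Fin 2) ℤ) (hδ : 0 < δ.det) : 0 < δ.adjugate.det := by
  rw [Matrix.det_adjugate]
  simpa using hδ

theorem pull_parabolic {Γ₁ Γ₂ : Subgroup SL(2, ℤ)} (ψ : Γ₁ ≃* Γ₂) (δ : Matrix (Fin 2) (Fin 2) ℤ)
    (hδ : 0 < δ.det) (hψ : ∀ γ : Γ₁, δ * (γ : SL(2, ℤ)).1 = ((ψ γ : Γ₂) : SL(2, ℤ)).1 * δ)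
    {c : Additive Γ₂ →+ ℤ} (hc : c ∈ parabolicHoms ℤ Γ₂ ℤ) :
    pull ψ c ∈ parabolicHoms ℤ Γ₁ ℤ := by
  intro γ hγ
  show c (Additive.ofMul (ψ γ)) = 0
  apply hc
  rw [trace_of_conj δ hδ (hψ γ)]; exact hγ

/-- **Invariance of the pairing under conjugation.** -/
theorem pairZ_conj {Γ₁ Γ₂ : Subgroup SL(2, ℤ)} [Γ₁.FiniteIndex] [Γ₂.FiniteIndex]
    (h₁ : (-1 : SL(2, ℤ)) ∈ Γ₁) (h₂ : (-1 : SL(2, ℤ)) ∈ Γ₂)
    (ψ : Γ₁ ≃* Γ₂) (δ : Matrix (Fin 2) (Fin 2) ℤ)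
    (hδ : 0 < δ.det) (hψ : ∀ γ : Γ₁, δ * (γ : SL(2, ℤ)).1 = ((ψ γ : Γ₂) : SL(2, ℤ)).1 * δ)
    {c c' : Additive Γ₂ →+ ℤ} (hc : c ∈ parabolicHoms ℤ Γ₂ ℤ) (hc' : c' ∈ parabolicHoms ℤ Γ₂ ℤ) :
    pairZ (pull ψ c) (pull ψ c') = pairZ c c' := by
  obtain ⟨η, hη⟩ := exists_isEta h₂ hc hc'
  have hη₁ : IsEta (pull ψ c) (pull ψ c') (fun γ => η (ψ γ)) := by
    intro x y
    show η (ψ (x * y)) = _
    rw [map_mul, hη]; rfl
  rw [pairZ_eq_neg_sum h₁ (pull_parabolic ψ δ hδ hψ hc) (pull_parabolic ψ δ hδ hψ hc') hη₁,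
    pairZ_eq_neg_sum h₂ hc hc' hη]
  congr 1
  apply CuspSys.sum_eq (cuspSys h₁) (cuspSys h₂) ψ
  · intro γ
    constructor
    · intro h
      exact PosPar.of_conj h δ.adjugate (det_adj_pos δ hδ) (adj_conj δ hδ (hψ γ))
    · intro h
      exact PosPar.of_conj h δ hδ (hψ γ)
  · intro γ g hγ
    have hpar : ((γ : Γ₂) : SL(2, ℤ)).1.trace ^ 2 = 4 := by
      rw [Matrix.trace_fin_two, hγ.1]; norm_num
    have := hη.map_conj g⁻¹ γ (hc _ hpar) (hc' _ hpar)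
    rwa [inv_inv] at this

end Fermat.Agent.S41.PD
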