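import Mathlib
import Fermat.Agent.S41.PDPair
import Fermat.Agent.S41.PDAlg2

/-!
# S41, piece P2 (duality): perfectness of the pairing on `Hom_par(Γ, ℤ)`

* `pairZ_nondeg` : `pairZ c c' = 0` for all parabolic `c'` implies `c = 0`
* `pairZ_perfect` : every linear functional on `parabolicHoms ℤ Γ ℤ` is `pairZ c ·`
-/

set_option autoImplicit false
set_option linter.unusedSectionVars false
set_option linter.unusedVariables false

noncomputable section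

open scoped MatrixGroups
open ModularCurve.Period

namespace Fermat.Agent.S41.PD

variable {Γ : Subgroup SL(2, ℤ)} [Γ.FiniteIndex]

/-! ### the model hypotheses -/

theorem smul_const_of_inv {α : Type} (f : SL(2, ℤ) ⧸ Γ → α)
    (hS : ∀ x, f (ModularGroup.S⁻¹ • x) = f x) (hR : ∀ x, f (Rm⁻¹ • x) = f x)
    (g : SL(2, ℤ)) : ∀ x, f (g • x) = f x := by
  have hg : g ∈ Subgroup.closure ({ModularGroup.S, ModularGroup.T} : Set SL(2, ℤ)) := by
    rw [SpecialLinearGroup.SL2Z_generators]; trivial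
  have hS' : ∀ x, f (ModularGroup.S • x) = f x := by
    intro x
    have := hS (ModularGroup.S • x)
    rw [inv_smul_smul] at this
    exact this.symm
  have hR' : ∀ x, f (Rm • x) = f x := by
    intro x
    have := hR (Rm • x)
    rw [inv_smul_smul] at this
    exact this.symm
  have hT : ∀ x, f (ModularGroup.T • x) = f x := by
    intro x
    have h1 : ModularGroup.T = ModularGroup.S⁻¹ * Rm := by rw [Rm, inv_mul_cancel_left]
    rw [h1, mul_smul, hS, hR']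
  induction hg using Subgroup.closure_induction with
  | mem y hy =>
    rcases hy with rfl | rfl
    · exact hS'
    · exact hT
  | one => intro x; rw [one_smul]
  | mul y z _ _ hy hz => intro x; rw [mul_smul, hy, hz]
  | inv y _ hy =>
    intro x
    have := hy (y⁻¹ • x)
    rw [smul_inv_smul] at this
    exact this.symm

theorem isModel (hΓ : (-1 : SL(2, ℤ)) ∈ Γ) : IsModel (sP Γ) (rP Γ) where
  hs := sP_sq hΓ
  hρ := rP_cube hΓ
  tr := by
    intro α f hS hR x y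
    have h1 := smul_const_of_inv f (fun x => by rw [← sP_inv_apply]; exact hS x)
      (fun x => by rw [← rP_inv_apply]; exact hR x)
    obtain ⟨gx, rfl⟩ := QuotientGroup.mk_surjective x
    obtain ⟨gy, rfl⟩ := QuotientGroup.mk_surjective y
    have : ((gy : SL(2, ℤ)) : SL(2, ℤ) ⧸ Γ) = (gy * gx⁻¹) • ((gx : SL(2, ℤ)) : SL(2, ℤ) ⧸ Γ) := by
      show _ = (((gy * gx⁻¹) * gx : SL(2, ℤ)) : SL(2, ℤ) ⧸ Γ)
      rw [inv_mul_cancel_right]
    rw [this, h1]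

theorem tauP_inv_apply (hΓ : (-1 : SL(2, ℤ)) ∈ Γ) (x : SL(2, ℤ) ⧸ Γ) :
    (sP Γ * rP Γ)⁻¹ x = ModularGroup.T⁻¹ • x := by
  rw [mul_inv_rev]
  show (rP Γ)⁻¹ ((sP Γ)⁻¹ x) = _
  rw [rP_inv_apply, sP_inv_apply, ← mul_smul]
  have h1 : Rm⁻¹ * ModularGroup.S⁻¹ = ModularGroup.T⁻¹ * (-1 : SL(2, ℤ))⁻¹ := by
    rw [← mul_inv_rev, ← mul_inv_rev, Rm, ← mul_assoc, S_mul_S, neg_one_mul_comm]
  rw [h1, mul_smul]
  congr 1
  rw [inv_smul_eq_iff, neg_one_smul_coset hΓ]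

/-! ### boundary symbols form a subgroup -/

theorem isBdry_zero {X : Type*} [Fintype X] (s ρ : Equiv.Perm X) : IsBdry s ρ (0 : X → ℤ) :=
  ⟨0, fun _ => rfl, fun _ => by simp⟩

theorem IsBdry.add {X : Type*} [Fintype X] {s ρ : Equiv.Perm X} {v v' : X → ℤ}
    (h : IsBdry s ρ v) (h' : IsBdry s ρ v') : IsBdry s ρ (v + v') := by
  obtain ⟨u, hu, hv⟩ := h
  obtain ⟨u', hu', hv'⟩ := h'
  exact ⟨u + u', fun x => by show u _ + u' _ = u x + u' x; rw [hu, hu'],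
    fun x => by show v x + v' x = (u _ + u' _) - (u x + u' x); rw [hv, hv']; ring⟩

theorem IsBdry.neg {X : Type*} [Fintype X] {s ρ : Equiv.Perm X} {v : X → ℤ}
    (h : IsBdry s ρ v) : IsBdry s ρ (-v) := by
  obtain ⟨u, hu, hv⟩ := h
  exact ⟨-u, fun x => by show - u _ = - u x; rw [hu],
    fun x => by show - v x = (- u _) - (- u x); rw [hv]; ring⟩

theorem IsBdry.sub {X : Type*} [Fintype X] {s ρ : Equiv.Perm X} {v v' : X → ℤ}
    (h : IsBdry s ρ v) (h' : IsBdry s ρ v') : IsBdry s ρ (v - v') := by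
  rw [sub_eq_add_neg]; exact h.add h'.neg

theorem IsBdry.smul {X : Type*} [Fintype X] {s ρ : Equiv.Perm X} {v : X → ℤ}
    (h : IsBdry s ρ v) (n : ℤ) : IsBdry s ρ (n • v) := by
  obtain ⟨u, hu, hv⟩ := h
  exact ⟨n • u, fun x => by show n • u _ = n • u x; rw [hu],
    fun x => by show n • v x = n • u _ - n • u x; rw [hv]; simp [mul_sub]⟩

/-! ### injectivity -/

/-- evaluation of the induced cocycle at the base coset -/
theorem zOf_base (c : Additive Γ →+ ℤ) (γ : Γ) :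
    zOf c (γ : SL(2, ℤ)) ((1 : SL(2, ℤ)) : SL(2, ℤ) ⧸ Γ) = ev c γ := by
  set x₀ : SL(2, ℤ) ⧸ Γ := ((1 : SL(2, ℤ)) : SL(2, ℤ) ⧸ Γ)
  have hfix : ((γ : SL(2, ℤ))⁻¹) • x₀ = x₀ := by
    show (((γ : SL(2, ℤ))⁻¹ * 1 : SL(2, ℤ)) : SL(2, ℤ) ⧸ Γ) = ((1 : SL(2, ℤ)) : SL(2, ℤ) ⧸ Γ)
    rw [QuotientGroup.eq]
    simp
  have hr : (adSec Γ).r x₀ ∈ Γ := by
    have := (adSec Γ).mk_r x₀
    have h2 := QuotientGroup.eq.mp this
    simpa using inv_mem h2
  have hA : (adSec Γ).A (γ : SL(2, ℤ)) x₀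
      = (⟨(adSec Γ).r x₀, hr⟩ : Γ)⁻¹ * γ * ⟨(adSec Γ).r x₀, hr⟩ := by
    apply Subtype.ext
    rw [Sec.coe_A, hfix]
    rfl
  show ev c ((adSec Γ).A (γ : SL(2, ℤ)) x₀) = ev c γ
  rw [hA, ev_mul, ev_mul, ev_inv]; ring

theorem coset_fix (γ : Γ) :
    ((γ : SL(2, ℤ))⁻¹) • (((1 : SL(2, ℤ)) : SL(2, ℤ) ⧸ Γ)) = ((1 : SL(2, ℤ)) : SL(2, ℤ) ⧸ Γ) := by
  show (((γ : SL(2, ℤ))⁻¹ * 1 : SL(2, ℤ)) : SL(2, ℤ) ⧸ Γ) = ((1 : SL(2, ℤ)) : SL(2, ℤ) ⧸ Γ)
  rw [QuotientGroup.eq]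
  simp

theorem ev_ext {c c' : Additive Γ →+ ℤ} (h : ∀ γ, ev c γ = ev c' γ) : c = c' := by
  apply AddMonoidHom.ext
  intro a
  exact h (Additive.toMul a)

/-- a homomorphism whose Manin symbol is a boundary vanishes -/
theorem eq_zero_of_isBdry (hΓ : (-1 : SL(2, ℤ)) ∈ Γ) {c : Additive Γ →+ ℤ}
    (hc : c ∈ parabolicHoms ℤ Γ ℤ) (hb : IsBdry (sP Γ) (rP Γ) (vOf c)) : c = 0 := by
  obtain ⟨u, hu, hv⟩ := hb
  -- z' g = zOf c g - (g•u - u) is a cocycle vanishing at S and R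
  have hcoc : IsCoc (fun g => zOf c g - (act g u - u)) := by
    intro g h
    show zOf c (g * h) - (act (g * h) u - u) = zOf c g - (act g u - u) + act g (zOf c h - (act h u - u))
    rw [zOf_isCoc c g h, act_mul, act_sub, act_sub]; abel
  have hS : (fun g => zOf c g - (act g u - u)) ModularGroup.S = 0 := by
    funext x
    show zOf c ModularGroup.S x - (u (ModularGroup.S⁻¹ • x) - u x) = 0
    rw [zOf_S, hv x, sP_inv_apply]; ring
  have hT : ∀ x, u (ModularGroup.T⁻¹ • x) = u x := by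
    intro x
    have := hu x
    rwa [tauP_inv_apply hΓ] at this
  have hR : (fun g => zOf c g - (act g u - u)) Rm = 0 := by
    funext x
    show zOf c Rm x - (u (Rm⁻¹ • x) - u x) = 0
    rw [zOf_Rm hc, hv x, sP_inv_apply]
    have : Rm⁻¹ • x = ModularGroup.T⁻¹ • ModularGroup.S⁻¹ • x := by
      rw [Rm, mul_inv_rev, mul_smul]
    rw [this, hT]; ring
  have hzero := hcoc.eq_zero hS hR
  apply ev_ext
  intro γ
  have h1 := congrFun (hzero (γ : SL(2, ℤ))) ((1 : SL(2, ℤ)) : SL(2, ℤ) ⧸ Γ)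
  have h2 : zOf c (γ : SL(2, ℤ)) ((1 : SL(2, ℤ)) : SL(2, ℤ) ⧸ Γ)
      - (u ((γ : SL(2, ℤ))⁻¹ • ((1 : SL(2, ℤ)) : SL(2, ℤ) ⧸ Γ)) - u ((1 : SL(2, ℤ)) : SL(2, ℤ) ⧸ Γ)) = 0 := h1
  rw [coset_fix, zOf_base, sub_self, sub_zero] at h2
  rw [h2]; rfl

end Fermat.Agent.S41.PD
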