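import Mathlib
import Fermat.Agent.S41.PDPerf

/-!
# S41, piece P2 (duality): perfectness of the pairing on `Hom_par(Γ, ℤ)`, part 2

* `cocHom z hz` : the homomorphism `γ ↦ z γ x₀` of a cocycle `z : SL(2,ℤ) → Fun(SL(2,ℤ)/Γ, ℤ)`
* `zOf_cocHom` : `z` is cohomologous to the cocycle of `cocHom z` (Shapiro)
* `exists_hom_of_manin` : every Manin symbol is, modulo boundaries, the symbol of a parabolic hom
* `pairZ_nondeg`, `pairZ_perfect`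
-/

set_option autoImplicit false
set_option linter.unusedSectionVars false
set_option linter.unusedVariables false

noncomputable section

open scoped MatrixGroups
open ModularCurve.Period

namespace Fermat.Agent.S41.PD

variable {Γ : Subgroup SL(2, ℤ)} [Γ.FiniteIndex]

/-! ### parabolic homomorphisms via positive parabolic elements -/

theorem eq_one_of_trace_two {γ : SL(2, ℤ)} (htr : γ.1 0 0 + γ.1 1 1 = 2)
    (hd : γ.1 0 1 - γ.1 1 0 = 0) : γ = 1 := by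
  have hdet := det_eq γ
  have hb : γ.1 0 1 = γ.1 1 0 := by linarith
  have ha : γ.1 1 1 = 2 - γ.1 0 0 := by linarith
  rw [hb, ha] at hdet
  have h0 : (γ.1 0 0 - 1) ^ 2 + γ.1 1 0 ^ 2 = 0 := by nlinarith
  have h1 : γ.1 0 0 - 1 = 0 := by
    have : (γ.1 0 0 - 1) ^ 2 = 0 := by nlinarith [sq_nonneg (γ.1 0 0 - 1), sq_nonneg (γ.1 1 0)]
    exact pow_eq_zero_iff (two_ne_zero) |>.mp this
  have h2 : γ.1 1 0 = 0 := by
    have : γ.1 1 0 ^ 2 = 0 := by nlinarith [sq_nonneg (γ.1 0 0 - 1), sq_nonneg (γ.1 1 0)]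
    exact pow_eq_zero_iff (two_ne_zero) |>.mp this
  apply sl_ext
  · show γ.1 0 0 = (1 : Matrix (Fin 2) (Fin 2) ℤ) 0 0
    simp; linarith
  · show γ.1 0 1 = (1 : Matrix (Fin 2) (Fin 2) ℤ) 0 1
    simp; linarith
  · show γ.1 1 0 = (1 : Matrix (Fin 2) (Fin 2) ℤ) 1 0
    simp; linarith
  · show γ.1 1 1 = (1 : Matrix (Fin 2) (Fin 2) ℤ) 1 1
    simp; linarith

theorem ev_eq_zero_of_trace_two {c : Additive Γ →+ ℤ}
    (h : ∀ γ : Γ, PosPar (γ : SL(2, ℤ)) → ev c γ = 0) (γ : Γ)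
    (htr : (γ : SL(2, ℤ)).1 0 0 + (γ : SL(2, ℤ)).1 1 1 = 2) : ev c γ = 0 := by
  rcases lt_trichotomy ((γ : SL(2, ℤ)).1 0 1 - (γ : SL(2, ℤ)).1 1 0) 0 with hd | hd | hd
  · have hinv : PosPar ((γ⁻¹ : Γ) : SL(2, ℤ)) := by
      obtain ⟨a1, a2, a3, a4⟩ := inv_entries (γ : SL(2, ℤ))
      constructor
      · show ((γ : SL(2, ℤ))⁻¹).1 0 0 + ((γ : SL(2, ℤ))⁻¹).1 1 1 = 2
        rw [a1, a4]; linarith
      · show 0 < ((γ : SL(2, ℤ))⁻¹).1 0 1 - ((γ : SL(2, ℤ))⁻¹).1 1 0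
        rw [a2, a3]; linarith
    have := h _ hinv
    rw [ev_inv] at this
    linarith
  · have : γ = 1 := by
      apply Subtype.ext
      exact eq_one_of_trace_two htr hd
    rw [this, ev_one]
  · exact h γ ⟨htr, hd⟩

theorem parabolic_of_posPar (hΓ : (-1 : SL(2, ℤ)) ∈ Γ) {c : Additive Γ →+ ℤ}
    (h : ∀ γ : Γ, PosPar (γ : SL(2, ℤ)) → ev c γ = 0) : c ∈ parabolicHoms ℤ Γ ℤ := by
  intro γ hγ
  show ev c γ = 0
  rw [Matrix.trace_fin_two] at hγ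
  have h4 : ((γ : SL(2, ℤ)).1 0 0 + (γ : SL(2, ℤ)).1 1 1 - 2)
      * ((γ : SL(2, ℤ)).1 0 0 + (γ : SL(2, ℤ)).1 1 1 + 2) = 0 := by
    have : ((γ : SL(2, ℤ)).1 0 0 + (γ : SL(2, ℤ)).1 1 1) ^ 2 = 4 := hγ
    nlinarith
  rcases mul_eq_zero.mp h4 with h2 | h2
  · exact ev_eq_zero_of_trace_two h γ (by linarith)
  · have hneg : ev c (negOne hΓ * γ) = 0 := by
      apply ev_eq_zero_of_trace_two h
      show ((-1 : SL(2, ℤ)) * (γ : SL(2, ℤ))).1 0 0 + ((-1 : SL(2, ℤ)) * (γ : SL(2, ℤ))).1 1 1 = 2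
      rw [neg_one_mul]
      simp only [Matrix.SpecialLinearGroup.coe_neg, Matrix.neg_apply]
      linarith
    rw [ev_mul, ev_negOne] at hneg
    linarith

/-! ### the homomorphism of a cocycle -/

/-- the base coset -/
def x0 (Γ : Subgroup SL(2, ℤ)) : SL(2, ℤ) ⧸ Γ := ((1 : SL(2, ℤ)) : SL(2, ℤ) ⧸ Γ)

theorem coset_fix' (γ : Γ) : ((γ : SL(2, ℤ))⁻¹) • x0 Γ = x0 Γ := coset_fix γ

theorem smul_x0 (g : SL(2, ℤ)) : g • x0 Γ = ((g : SL(2, ℤ)) : SL(2, ℤ) ⧸ Γ) := by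
  show (((g * 1 : SL(2, ℤ))) : SL(2, ℤ) ⧸ Γ) = _
  rw [mul_one]

theorem r_smul_x0 (x : SL(2, ℤ) ⧸ Γ) : (adSec Γ).r x • x0 Γ = x := by
  rw [smul_x0, (adSec Γ).mk_r]

/-- the homomorphism attached to a cocycle: evaluation at the base coset -/
def cocHom (z : SL(2, ℤ) → (SL(2, ℤ) ⧸ Γ → ℤ)) (hz : IsCoc z) : Additive Γ →+ ℤ where
  toFun a := z ((Additive.toMul a : Γ) : SL(2, ℤ)) (x0 Γ)
  map_zero' := by
    show z (1 : SL(2, ℤ)) (x0 Γ) = 0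
    rw [hz.map_one]; rfl
  map_add' a b := by
    show z (((Additive.toMul a : Γ) : SL(2, ℤ)) * ((Additive.toMul b : Γ) : SL(2, ℤ))) (x0 Γ) = _
    rw [hz]
    show z _ (x0 Γ) + z _ ((((Additive.toMul a : Γ) : SL(2, ℤ)))⁻¹ • x0 Γ) = _
    rw [coset_fix']

theorem ev_cocHom (z : SL(2, ℤ) → (SL(2, ℤ) ⧸ Γ → ℤ)) (hz : IsCoc z) (γ : Γ) :
    ev (cocHom z hz) γ = z (γ : SL(2, ℤ)) (x0 Γ) := rfl

/-- **Shapiro**: every cocycle is cohomologous to the cocycle of its homomorphism. -/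
theorem zOf_cocHom (z : SL(2, ℤ) → (SL(2, ℤ) ⧸ Γ → ℤ)) (hz : IsCoc z) (g : SL(2, ℤ))
    (x : SL(2, ℤ) ⧸ Γ) :
    zOf (cocHom z hz) g x
      = z g x - z ((adSec Γ).r x) x + z ((adSec Γ).r (g⁻¹ • x)) (g⁻¹ • x) := by
  show z (((adSec Γ).A g x : Γ) : SL(2, ℤ)) (x0 Γ) = _
  rw [Sec.coe_A, mul_assoc, hz, hz, hz.map_inv]
  show - (z ((adSec Γ).r x) ((((adSec Γ).r x)⁻¹)⁻¹ • x0 Γ))
      + (z g ((((adSec Γ).r x)⁻¹)⁻¹ • x0 Γ)
        + z ((adSec Γ).r (g⁻¹ • x)) (g⁻¹ • (((adSec Γ).r x)⁻¹)⁻¹ • x0 Γ)) = _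
  rw [inv_inv, r_smul_x0]
  ring

theorem IsCoc.map_pow_T {z : SL(2, ℤ) → (SL(2, ℤ) ⧸ Γ → ℤ)} (hz : IsCoc z)
    (hT : z ModularGroup.T = 0) (m : ℕ) : z (ModularGroup.T ^ m) = 0 := by
  induction m with
  | zero => rw [pow_zero, hz.map_one]
  | succ k ih => rw [pow_succ, hz, ih, hT, act_zero, add_zero]

theorem cocHom_parabolic (hΓ : (-1 : SL(2, ℤ)) ∈ Γ) (z : SL(2, ℤ) → (SL(2, ℤ) ⧸ Γ → ℤ))
    (hz : IsCoc z) (hT : z ModularGroup.T = 0) :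
    cocHom z hz ∈ parabolicHoms ℤ Γ ℤ := by
  apply parabolic_of_posPar hΓ
  intro γ hγ
  rw [ev_cocHom]
  obtain ⟨g, m, hm, hg⟩ := hγ.exists_conj
  have hfix : (g⁻¹ * ModularGroup.T ^ m)⁻¹ • x0 Γ = g • x0 Γ := by
    have h1 : (g⁻¹ * ModularGroup.T ^ m)⁻¹ = g * (γ : SL(2, ℤ))⁻¹ := by
      rw [hg]; group
    rw [h1, mul_smul, coset_fix']
  rw [hg, hz, hz, hz.map_pow_T hT, act_zero, add_zero, hz.map_inv]
  show - (z g ((g⁻¹)⁻¹ • x0 Γ)) + z g ((g⁻¹ * ModularGroup.T ^ m)⁻¹ • x0 Γ) = 0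
  rw [hfix, inv_inv]
  ring

/-! ### surjectivity -/

theorem isManin_zero {X : Type*} [Fintype X] (s ρ : Equiv.Perm X) : IsManin s ρ (0 : X → ℤ) :=
  ⟨fun _ => by simp, fun _ => by simp⟩

/-- a cocycle with prescribed Manin symbol -/
theorem exists_coc_of_manin (hΓ : (-1 : SL(2, ℤ)) ∈ Γ) {v : SL(2, ℤ) ⧸ Γ → ℤ}
    (hv : IsManin (sP Γ) (rP Γ) v) :
    ∃ z : SL(2, ℤ) → (SL(2, ℤ) ⧸ Γ → ℤ), IsCoc z ∧ z ModularGroup.S = v ∧ z ModularGroup.T = 0 := by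
  have hz₁ : IsCoc (fun _ : SL(2, ℤ) => (0 : SL(2, ℤ) ⧸ Γ → ℤ)) := by
    intro g h
    show (0 : SL(2, ℤ) ⧸ Γ → ℤ) = 0 + act g 0
    rw [act_zero, add_zero]
  obtain ⟨z, E, hz, hS, hR, -⟩ := exists_cochain hΓ hz₁ rfl
    (isManin_zero (sP Γ) (rP Γ)) hv rfl rfl
  refine ⟨z, hz, hS, ?_⟩
  have h1 : ModularGroup.T = ModularGroup.S⁻¹ * Rm := by rw [Rm, inv_mul_cancel_left]
  rw [h1, hz, hz.map_inv, hS, hR, neg_add_cancel]

theorem exists_hom_of_manin (hΓ : (-1 : SL(2, ℤ)) ∈ Γ) {v : SL(2, ℤ) ⧸ Γ → ℤ}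
    (hv : IsManin (sP Γ) (rP Γ) v) :
    ∃ c ∈ parabolicHoms ℤ Γ ℤ, IsBdry (sP Γ) (rP Γ) (vOf c - v) := by
  obtain ⟨z, hz, hS, hT⟩ := exists_coc_of_manin hΓ hv
  have hc := cocHom_parabolic hΓ z hz hT
  refine ⟨cocHom z hz, hc, fun x => z ((adSec Γ).r x) x, ?_, ?_⟩
  · intro x
    rw [tauP_inv_apply hΓ]
    have h1 := zOf_cocHom z hz ModularGroup.T x
    rw [zOf_T hc, hT] at h1
    simp only [Pi.zero_apply] at h1
    linarith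
  · intro x
    rw [sP_inv_apply]
    have h1 := zOf_cocHom z hz ModularGroup.S x
    rw [zOf_S, hS] at h1
    show vOf (cocHom z hz) x - v x = _
    rw [h1]; ring

/-! ### uniqueness -/

theorem vOf_sub (c c' : Additive Γ →+ ℤ) : vOf (c - c') = vOf c - vOf c' := by
  rw [sub_eq_add_neg, vOf_add, vOf_neg, sub_eq_add_neg]

theorem hom_unique (hΓ : (-1 : SL(2, ℤ)) ∈ Γ) {c c' : Additive Γ →+ ℤ}
    (hc : c ∈ parabolicHoms ℤ Γ ℤ) (hc' : c' ∈ parabolicHoms ℤ Γ ℤ) {v : SL(2, ℤ) ⧸ Γ → ℤ}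
    (h : IsBdry (sP Γ) (rP Γ) (vOf c - v)) (h' : IsBdry (sP Γ) (rP Γ) (vOf c' - v)) : c = c' := by
  have h1 : IsBdry (sP Γ) (rP Γ) (vOf (c - c')) := by
    rw [vOf_sub]
    have := h.sub h'
    rwa [sub_sub_sub_cancel_right] at this
  exact sub_eq_zero.mp (eq_zero_of_isBdry hΓ ((parabolicHoms ℤ Γ ℤ).sub_mem hc hc') h1)

/-! ### non-degeneracy and perfectness -/

theorem six_sub_right {X : Type*} [Fintype X] (ρ : Equiv.Perm X) (v w w' : X → ℤ) :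
    six ρ v (w - w') = six ρ v w - six ρ v w' := by
  have := six_add_right ρ v (w - w') w'
  rw [sub_add_cancel] at this
  linarith

theorem six_sub_left {X : Type*} [Fintype X] (ρ : Equiv.Perm X) (v v' w : X → ℤ) :
    six ρ (v - v') w = six ρ v w - six ρ v' w := by
  have := six_add_left ρ (v - v') v' w
  rw [sub_add_cancel] at this
  linarith

/-- **Non-degeneracy of the pairing.** -/
theorem pairZ_nondeg (hΓ : (-1 : SL(2, ℤ)) ∈ Γ) {c : Additive Γ →+ ℤ}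
    (hc : c ∈ parabolicHoms ℤ Γ ℤ)
    (h : ∀ c' ∈ parabolicHoms ℤ Γ ℤ, pairZ c c' = 0) : c = 0 := by
  apply eq_zero_of_isBdry hΓ hc
  apply isBdry_of_six_eq_zero (isModel hΓ) (vOf_manin hΓ hc)
  intro v₂ hv₂
  obtain ⟨c', hc', hb⟩ := exists_hom_of_manin hΓ hv₂
  have h1 := six_bdry_right (isModel hΓ) (vOf_manin hΓ hc) hb
  rw [six_sub_right, ← six_pairZ hΓ hc hc', h c' hc'] at h1
  linarith

/-- the parabolic homomorphism of a Manin symbol -/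
def homOf (hΓ : (-1 : SL(2, ℤ)) ∈ Γ) (v : HcSub (sP Γ) (rP Γ)) : parabolicHoms ℤ Γ ℤ :=
  ⟨Classical.choose (exists_hom_of_manin hΓ v.2),
    (Classical.choose_spec (exists_hom_of_manin hΓ v.2)).1⟩

theorem homOf_spec (hΓ : (-1 : SL(2, ℤ)) ∈ Γ) (v : HcSub (sP Γ) (rP Γ)) :
    IsBdry (sP Γ) (rP Γ) (vOf (homOf hΓ v).1 - v.1) :=
  (Classical.choose_spec (exists_hom_of_manin hΓ v.2)).2

theorem homOf_eq (hΓ : (-1 : SL(2, ℤ)) ∈ Γ) (v : HcSub (sP Γ) (rP Γ)) {c : Additive Γ →+ ℤ}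
    (hc : c ∈ parabolicHoms ℤ Γ ℤ) (h : IsBdry (sP Γ) (rP Γ) (vOf c - v.1)) :
    homOf hΓ v = ⟨c, hc⟩ :=
  Subtype.ext (hom_unique hΓ (homOf hΓ v).2 hc (homOf_spec hΓ v) h)

/-- `homOf` as a linear map -/
def homOfL (hΓ : (-1 : SL(2, ℤ)) ∈ Γ) : HcSub (sP Γ) (rP Γ) →ₗ[ℤ] parabolicHoms ℤ Γ ℤ :=
  AddMonoidHom.toIntLinearMap
    { toFun := homOf hΓ
      map_zero' := by
        apply homOf_eq hΓ 0 (parabolicHoms ℤ Γ ℤ).zero_mem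
        show IsBdry (sP Γ) (rP Γ) (vOf 0 - 0)
        rw [vOf_zero, sub_zero]
        exact isBdry_zero _ _
      map_add' := by
        intro v w
        apply homOf_eq hΓ (v + w)
          ((parabolicHoms ℤ Γ ℤ).add_mem (homOf hΓ v).2 (homOf hΓ w).2)
        show IsBdry (sP Γ) (rP Γ) (vOf ((homOf hΓ v).1 + (homOf hΓ w).1) - (v.1 + w.1))
        rw [vOf_add]
        have := (homOf_spec hΓ v).add (homOf_spec hΓ w)
        rwa [sub_add_sub_comm] at this }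

theorem homOfL_apply (hΓ : (-1 : SL(2, ℤ)) ∈ Γ) (v : HcSub (sP Γ) (rP Γ)) :
    homOfL hΓ v = homOf hΓ v := rfl

/-- **Perfectness of the pairing**: every functional on `Hom_par(Γ, ℤ)` is `pairZ c ·`. -/
theorem pairZ_perfect (hΓ : (-1 : SL(2, ℤ)) ∈ Γ) (φ : parabolicHoms ℤ Γ ℤ →ₗ[ℤ] ℤ) :
    ∃ c ∈ parabolicHoms ℤ Γ ℤ, ∀ c' : parabolicHoms ℤ Γ ℤ, pairZ c c'.1 = φ c' := by
  obtain ⟨v₁, hv₁, hsix⟩ := exists_six_eq (isModel hΓ) (φ.comp (homOfL hΓ)) (by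
    intro v hv
    show φ (homOf hΓ v) = 0
    have : homOf hΓ v = ⟨0, (parabolicHoms ℤ Γ ℤ).zero_mem⟩ := by
      apply homOf_eq
      rw [vOf_zero, zero_sub]
      exact hv.neg
    rw [this]
    exact map_zero φ)
  obtain ⟨c, hc, hb⟩ := exists_hom_of_manin hΓ hv₁
  refine ⟨c, hc, fun c' => ?_⟩
  have h1 := six_bdry_left (isModel hΓ) (vOf_manin hΓ c'.2) hb
  rw [six_sub_left, ← six_pairZ hΓ hc c'.2] at h1
  have h2 := hsix ⟨vOf c'.1, vOf_manin hΓ c'.2⟩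
  have h3 : homOf hΓ ⟨vOf c'.1, vOf_manin hΓ c'.2⟩ = c' := by
    rw [homOf_eq hΓ _ c'.2 (by rw [sub_self]; exact isBdry_zero _ _)]
  have h4 : (φ.comp (homOfL hΓ)) ⟨vOf c'.1, vOf_manin hΓ c'.2⟩ = φ c' := by
    show φ (homOf hΓ _) = φ c'
    rw [h3]
  rw [h4] at h2
  linarith

end Fermat.Agent.S41.PD
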