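import Mathlib
import Fermat.Agent.S41.PDPerf2

/-!
# S41, piece P2 (duality): restriction and transfer are adjoint

For `Γ' ≤ Γ` (finite index in `SL(2,ℤ)`, containing `-1`):
`pairZ (res c) c' = pairZ c (tr c')`, where `tr c' γ = ∑_{x' over x₀} c' (A' γ x')` is the
transfer.
-/

set_option autoImplicit false
set_option linter.unusedSectionVars false
set_option linter.unusedVariables false

noncomputable section

open scoped MatrixGroups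
open ModularCurve.Period

namespace Fermat.Agent.S41.PD

/-! ### cocycles and boundaries -/

section single

variable {Γ : Subgroup SL(2, ℤ)} [Γ.FiniteIndex]

/-- the symbol of the homomorphism of a cocycle `z` with `z T = 0` is `z S` modulo boundaries -/
theorem isBdry_of_coc (hΓ : (-1 : SL(2, ℤ)) ∈ Γ) (z : SL(2, ℤ) → (SL(2, ℤ) ⧸ Γ → ℤ))
    (hz : IsCoc z) (hT : z ModularGroup.T = 0) :
    IsBdry (sP Γ) (rP Γ) (vOf (cocHom z hz) - z ModularGroup.S) := by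
  have hc := cocHom_parabolic hΓ z hz hT
  refine ⟨fun x => z ((adSec Γ).r x) x, ?_, ?_⟩
  · intro x
    rw [tauP_inv_apply hΓ]
    have h1 := zOf_cocHom z hz ModularGroup.T x
    rw [zOf_T hc, hT] at h1
    simp only [Pi.zero_apply] at h1
    linarith
  · intro x
    rw [sP_inv_apply]
    have h1 := zOf_cocHom z hz ModularGroup.S x
    rw [zOf_S] at h1
    show vOf (cocHom z hz) x - z ModularGroup.S x = _
    rw [h1]; ring

end single

variable {Γ' Γ : Subgroup SL(2, ℤ)} [Γ'.FiniteIndex] [Γ.FiniteIndex]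

/-- the projection `G/Γ' → G/Γ` -/
def prj (h : Γ' ≤ Γ) : SL(2, ℤ) ⧸ Γ' → SL(2, ℤ) ⧸ Γ := Subgroup.quotientMapOfLE h

theorem prj_mk (h : Γ' ≤ Γ) (g : SL(2, ℤ)) :
    prj h ((g : SL(2, ℤ)) : SL(2, ℤ) ⧸ Γ') = ((g : SL(2, ℤ)) : SL(2, ℤ) ⧸ Γ) := rfl

theorem prj_smul (h : Γ' ≤ Γ) (g : SL(2, ℤ)) (x' : SL(2, ℤ) ⧸ Γ') :
    prj h (g • x') = g • prj h x' := by
  obtain ⟨a, rfl⟩ := QuotientGroup.mk_surjective x'
  rfl

theorem prj_x0 (h : Γ' ≤ Γ) : prj h (x0 Γ') = x0 Γ := rfl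

/-! ### pull-back and push-forward of functions -/

/-- pull-back of functions -/
def pbFun (h : Γ' ≤ Γ) (v : SL(2, ℤ) ⧸ Γ → ℤ) : SL(2, ℤ) ⧸ Γ' → ℤ := fun x' => v (prj h x')

open scoped Classical in
/-- push-forward of functions -/
def pfFun (h : Γ' ≤ Γ) (v' : SL(2, ℤ) ⧸ Γ' → ℤ) : SL(2, ℤ) ⧸ Γ → ℤ :=
  fun x => ∑ x' : SL(2, ℤ) ⧸ Γ', if prj h x' = x then v' x' else 0

theorem pbFun_act (h : Γ' ≤ Γ) (g : SL(2, ℤ)) (v : SL(2, ℤ) ⧸ Γ → ℤ) :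
    pbFun h (act g v) = act g (pbFun h v) := by
  funext x'
  show v (g⁻¹ • prj h x') = v (prj h (g⁻¹ • x'))
  rw [prj_smul]

theorem pfFun_act (h : Γ' ≤ Γ) (g : SL(2, ℤ)) (v' : SL(2, ℤ) ⧸ Γ' → ℤ) :
    pfFun h (act g v') = act g (pfFun h v') := by
  classical
  funext x
  show (∑ x' : SL(2, ℤ) ⧸ Γ', if prj h x' = x then v' (g⁻¹ • x') else 0)
    = ∑ x' : SL(2, ℤ) ⧸ Γ', if prj h x' = g⁻¹ • x then v' x' else 0
  refine Eq.trans ?_ (Equiv.sum_comp (MulAction.toPerm g⁻¹ : Equiv.Perm (SL(2, ℤ) ⧸ Γ'))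
    (fun x' => if prj h x' = g⁻¹ • x then v' x' else 0))
  apply Finset.sum_congr rfl
  intro x' _
  show _ = if prj h (g⁻¹ • x') = g⁻¹ • x then v' (g⁻¹ • x') else 0
  rw [prj_smul]
  by_cases hx : prj h x' = x
  · rw [if_pos hx, if_pos (by rw [hx])]
  · rw [if_neg hx, if_neg (fun e => hx (smul_left_cancel _ e))]

theorem pfFun_add (h : Γ' ≤ Γ) (v w : SL(2, ℤ) ⧸ Γ' → ℤ) :
    pfFun h (v + w) = pfFun h v + pfFun h w := by
  classical
  funext x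
  show (∑ x' : SL(2, ℤ) ⧸ Γ', if prj h x' = x then v x' + w x' else 0)
    = (∑ x' : SL(2, ℤ) ⧸ Γ', if prj h x' = x then v x' else 0)
      + ∑ x' : SL(2, ℤ) ⧸ Γ', if prj h x' = x then w x' else 0
  rw [← Finset.sum_add_distrib]
  apply Finset.sum_congr rfl
  intro x' _
  split_ifs <;> simp

theorem pfFun_zero (h : Γ' ≤ Γ) : pfFun h (0 : SL(2, ℤ) ⧸ Γ' → ℤ) = 0 := by
  classical
  funext x
  show (∑ x' : SL(2, ℤ) ⧸ Γ', if prj h x' = x then (0 : ℤ) else 0) = 0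
  simp

theorem pfFun_sub (h : Γ' ≤ Γ) (v w : SL(2, ℤ) ⧸ Γ' → ℤ) :
    pfFun h (v - w) = pfFun h v - pfFun h w := by
  have := pfFun_add h (v - w) w
  rw [sub_add_cancel] at this
  rw [this, add_sub_cancel_right]

theorem sum_mul_pfFun (h : Γ' ≤ Γ) (v : SL(2, ℤ) ⧸ Γ → ℤ) (w : SL(2, ℤ) ⧸ Γ' → ℤ) :
    ∑ x, v x * pfFun h w x = ∑ x', v (prj h x') * w x' := by
  classical
  simp only [pfFun, Finset.mul_sum]
  rw [Finset.sum_comm]
  apply Finset.sum_congr rfl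
  intro x' _
  simp

/-- the adjunction for the six-form -/
theorem six_pb_pf (h : Γ' ≤ Γ) (v : SL(2, ℤ) ⧸ Γ → ℤ) (v' : SL(2, ℤ) ⧸ Γ' → ℤ) :
    six (rP Γ') (pbFun h v) v' = six (rP Γ) v (pfFun h v') := by
  have e1 : ∀ x, pfFun h v' ((rP Γ)⁻¹ x) = pfFun h (act Rm v') x := by
    intro x
    rw [pfFun_act, rP_inv_apply]; rfl
  have e2 : ∀ x, pfFun h v' ((rP Γ)⁻¹ ((rP Γ)⁻¹ x)) = pfFun h (act Rm (act Rm v')) x := by
    intro x
    rw [pfFun_act, pfFun_act, rP_inv_apply, rP_inv_apply]; rfl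
  have e3 : six (rP Γ) v (pfFun h v')
      = ∑ x, v x * pfFun h (act Rm v' - act Rm (act Rm v')) x := by
    unfold six
    apply Finset.sum_congr rfl
    intro x _
    rw [e1, e2, pfFun_sub]; rfl
  rw [e3, sum_mul_pfFun]
  unfold six
  apply Finset.sum_congr rfl
  intro x' _
  rw [rP_inv_apply, rP_inv_apply]
  rfl

/-! ### pull-back and push-forward of cocycles -/

theorem pb_isCoc (h : Γ' ≤ Γ) {z : SL(2, ℤ) → (SL(2, ℤ) ⧸ Γ → ℤ)} (hz : IsCoc z) :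
    IsCoc (fun g => pbFun h (z g)) := by
  intro g k
  show pbFun h (z (g * k)) = pbFun h (z g) + act g (pbFun h (z k))
  rw [hz, ← pbFun_act]
  rfl

theorem pf_isCoc (h : Γ' ≤ Γ) {z : SL(2, ℤ) → (SL(2, ℤ) ⧸ Γ' → ℤ)} (hz : IsCoc z) :
    IsCoc (fun g => pfFun h (z g)) := by
  intro g k
  show pfFun h (z (g * k)) = pfFun h (z g) + act g (pfFun h (z k))
  rw [hz, pfFun_add, pfFun_act]

/-- restriction of homomorphisms -/
def res (h : Γ' ≤ Γ) (c : Additive Γ →+ ℤ) : Additive Γ' →+ ℤ :=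
  c.comp (MonoidHom.toAdditive (Subgroup.inclusion h))

theorem ev_res (h : Γ' ≤ Γ) (c : Additive Γ →+ ℤ) (γ : Γ') :
    ev (res h c) γ = ev c ⟨γ, h γ.2⟩ := rfl

theorem res_parabolic (h : Γ' ≤ Γ) {c : Additive Γ →+ ℤ} (hc : c ∈ parabolicHoms ℤ Γ ℤ) :
    res h c ∈ parabolicHoms ℤ Γ' ℤ := by
  intro γ hγ
  exact hc ⟨γ, h γ.2⟩ hγ

/-- transfer of homomorphisms -/
def tr (h : Γ' ≤ Γ) (c' : Additive Γ' →+ ℤ) : Additive Γ →+ ℤ :=
  cocHom (fun g => pfFun h (zOf c' g)) (pf_isCoc h (zOf_isCoc c'))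

open scoped Classical in
theorem ev_tr (h : Γ' ≤ Γ) (c' : Additive Γ' →+ ℤ) (γ : Γ) :
    ev (tr h c') γ = ∑ x' : SL(2, ℤ) ⧸ Γ',
      if prj h x' = x0 Γ then ev c' ((adSec Γ').A (γ : SL(2, ℤ)) x') else 0 := by
  show pfFun h (zOf c' (γ : SL(2, ℤ))) (x0 Γ) = _
  unfold pfFun
  apply Finset.sum_congr rfl
  intro x' _
  congr 1

theorem tr_parabolic (h : Γ' ≤ Γ) (hΓ : (-1 : SL(2, ℤ)) ∈ Γ) {c' : Additive Γ' →+ ℤ}
    (hc' : c' ∈ parabolicHoms ℤ Γ' ℤ) : tr h c' ∈ parabolicHoms ℤ Γ ℤ := by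
  apply cocHom_parabolic hΓ
  show pfFun h (zOf c' ModularGroup.T) = 0
  have : zOf c' ModularGroup.T = 0 := by funext x; exact zOf_T hc' x
  rw [this, pfFun_zero]

theorem cocHom_pb (h : Γ' ≤ Γ) (c : Additive Γ →+ ℤ) :
    cocHom (fun g => pbFun h (zOf c g)) (pb_isCoc h (zOf_isCoc c)) = res h c := by
  apply ev_ext
  intro γ
  rw [ev_cocHom, ev_res]
  show zOf c ((γ : SL(2, ℤ))) (prj h (x0 Γ')) = _
  rw [prj_x0]
  exact zOf_base c ⟨γ, h γ.2⟩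

/-- **Restriction and transfer are adjoint.** -/
theorem pairZ_res_tr (h : Γ' ≤ Γ) (hΓ' : (-1 : SL(2, ℤ)) ∈ Γ') {c : Additive Γ →+ ℤ}
    (hc : c ∈ parabolicHoms ℤ Γ ℤ) {c' : Additive Γ' →+ ℤ} (hc' : c' ∈ parabolicHoms ℤ Γ' ℤ) :
    pairZ (res h c) c' = pairZ c (tr h c') := by
  have hΓ : (-1 : SL(2, ℤ)) ∈ Γ := h hΓ'
  have hT : ∀ {Δ : Subgroup SL(2, ℤ)} [Δ.FiniteIndex] {d : Additive Δ →+ ℤ},
      d ∈ parabolicHoms ℤ Δ ℤ → zOf d ModularGroup.T = 0 := by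
    intro Δ _ d hd
    funext x; exact zOf_T hd x
  -- restriction
  have b1 : IsBdry (sP Γ') (rP Γ') (vOf (res h c) - pbFun h (vOf c)) := by
    have := isBdry_of_coc hΓ' (fun g => pbFun h (zOf c g)) (pb_isCoc h (zOf_isCoc c)) (by
      show pbFun h (zOf c ModularGroup.T) = 0
      rw [hT hc]; rfl)
    rw [cocHom_pb] at this
    exact this
  -- transfer
  have b2 : IsBdry (sP Γ) (rP Γ) (vOf (tr h c') - pfFun h (vOf c')) :=
    isBdry_of_coc hΓ (fun g => pfFun h (zOf c' g)) (pf_isCoc h (zOf_isCoc c')) (by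
      show pfFun h (zOf c' ModularGroup.T) = 0
      rw [hT hc', pfFun_zero])
  have h1 := six_pairZ hΓ' (res_parabolic h hc) hc'
  have h2 := six_pairZ hΓ hc (tr_parabolic h hΓ hc')
  have h3 := six_bdry_left (isModel hΓ') (vOf_manin hΓ' hc') b1
  have h4 := six_bdry_right (isModel hΓ) (vOf_manin hΓ hc) b2
  rw [six_sub_left] at h3
  rw [six_sub_right] at h4
  have h5 := six_pb_pf h (vOf c) (vOf c')
  linarith

end Fermat.Agent.S41.PD
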