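import Mathlib
import Fermat.Agent.S41.PDAdj
import Fermat.Agent.S41.DegenPsi

/-!
# S41, piece P2 (duality): the adjunction `res ⊣ transfer` for coset families

`pairZ_res_op` : for `Γ' ≤ Γ` and every coset family `F : CosetFam Γ' Γ Y` whose representatives
form a full system of representatives of `Γ' \ Γ`:
`pairZ ((resFam h).op ℤ c) c' = pairZ c (F.op ℤ c')`.
-/

set_option autoImplicit false
set_option linter.unusedSectionVars false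
set_option linter.unusedVariables false

noncomputable section

open Matrix.SpecialLinearGroup
open scoped MatrixGroups
open ModularCurve.Period
open Fermat.Agent.S41.P3

namespace Fermat.Agent.S41.PD

variable {Γ' Γ : Subgroup SL(2, ℤ)} [Γ'.FiniteIndex] [Γ.FiniteIndex]

/-- the fibre of `G/Γ' → G/Γ` over the base coset -/
def Fib (h : Γ' ≤ Γ) : Type := {x' : SL(2, ℤ) ⧸ Γ' // prj h x' = x0 Γ}

instance instFiniteFib (h : Γ' ≤ Γ) : Finite (Fib h) :=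
  inferInstanceAs (Finite {x' : SL(2, ℤ) ⧸ Γ' // prj h x' = x0 Γ})

instance instFintypeFib (h : Γ' ≤ Γ) : Fintype (Fib h) := Fintype.ofFinite _

theorem mem_of_mk_eq_x0 {g : SL(2, ℤ)} (hg : ((g : SL(2, ℤ)) : SL(2, ℤ) ⧸ Γ) = x0 Γ) : g ∈ Γ := by
  have h2 := QuotientGroup.eq.mp hg
  simpa using inv_mem h2

theorem mk_eq_x0_of_mem {g : SL(2, ℤ)} (hg : g ∈ Γ) : ((g : SL(2, ℤ)) : SL(2, ℤ) ⧸ Γ) = x0 Γ := by
  apply QuotientGroup.eq.mpr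
  simpa using inv_mem hg

theorem r_mem_of_fib (h : Γ' ≤ Γ) (x' : Fib h) : (adSec Γ').r x'.1 ∈ Γ := by
  apply mem_of_mk_eq_x0
  rw [← prj_mk h, (adSec Γ').mk_r]
  exact x'.2

/-- the coset family of the fibre: representatives `(r' x')⁻¹` -/
def fibFam (h : Γ' ≤ Γ) : CosetFam Γ' Γ (Fib h) where
  r x' := mapGL ℝ ((adSec Γ').r x'.1)⁻¹
  act γ x' := ⟨(γ : SL(2, ℤ))⁻¹ • x'.1, by rw [prj_smul, x'.2, coset_fix']⟩
  κ γ x' := (adSec Γ').A (γ : SL(2, ℤ)) x'.1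
  spec γ x' := by
    rw [← map_mul, ← map_mul, Sec.coe_A]
    congr 1
    group
  act_one x' := by
    apply Subtype.ext
    show ((1 : Γ) : SL(2, ℤ))⁻¹ • x'.1 = x'.1
    rw [Subgroup.coe_one, inv_one, one_smul]
  act_mul γ δ x' := by
    apply Subtype.ext
    show ((γ * δ : Γ) : SL(2, ℤ))⁻¹ • x'.1 = (δ : SL(2, ℤ))⁻¹ • (γ : SL(2, ℤ))⁻¹ • x'.1
    rw [Subgroup.coe_mul, mul_inv_rev, mul_smul]

theorem fibFam_uniq (h : Γ' ≤ Γ) : (fibFam h).Uniq := by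
  intro x' y' s e
  have e1 : ((adSec Γ').r x'.1)⁻¹ = (s : SL(2, ℤ)) * ((adSec Γ').r y'.1)⁻¹ := by
    apply CosetFam.mapGL_inj
    rw [map_mul]
    exact e
  apply Subtype.ext
  rw [← (adSec Γ').mk_r x'.1, ← (adSec Γ').mk_r y'.1]
  apply QuotientGroup.eq.mpr
  rw [e1]
  simpa using s.2

/-- the transfer is the operator of the fibre family -/
theorem tr_eq_op (h : Γ' ≤ Γ) (c' : Additive Γ' →+ ℤ) : tr h c' = (fibFam h).op ℤ c' := by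
  classical
  apply AddMonoidHom.ext
  intro a
  obtain ⟨γ, rfl⟩ : ∃ γ : Γ, Additive.ofMul γ = a := ⟨Additive.toMul a, rfl⟩
  show ev (tr h c') γ = _
  rw [ev_tr, CosetFam.op_apply, ← Finset.sum_filter]
  exact Finset.sum_subtype (Finset.univ.filter fun x' => prj h x' = x0 Γ) (by simp)
    (fun x' => ev c' ((adSec Γ').A (γ : SL(2, ℤ)) x'))

/-- **two full systems of representatives give the same operator** -/
theorem op_eq_fib (h : Γ' ≤ Γ) {Y : Type*} [Fintype Y] (F : CosetFam Γ' Γ Y) (hU : F.Uniq)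
    (t : Y → Γ) (ht : ∀ y, F.r y = mapGL ℝ ((t y : Γ) : SL(2, ℤ)))
    (hcomp : ∀ g : Γ, ∃ (y : Y) (s : Γ'),
      mapGL ℝ ((g : Γ) : SL(2, ℤ)) = mapGL ℝ ((s : Γ') : SL(2, ℤ)) * F.r y)
    (c' : Additive Γ' →+ ℤ) : F.op ℤ c' = (fibFam h).op ℤ c' := by
  -- the map `e`
  let e₀ : Y → Fib h := fun y =>
    ⟨(((t y : Γ) : SL(2, ℤ))⁻¹ : SL(2, ℤ)), by
      rw [prj_mk]
      exact mk_eq_x0_of_mem (Γ.inv_mem (t y).2)⟩
  have hu : ∀ y, ((t y : Γ) : SL(2, ℤ)) * (adSec Γ').r (e₀ y).1 ∈ Γ' := by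
    intro y
    have h1 : (((adSec Γ').r (e₀ y).1 : SL(2, ℤ)) : SL(2, ℤ) ⧸ Γ')
        = ((((t y : Γ) : SL(2, ℤ))⁻¹ : SL(2, ℤ)) : SL(2, ℤ) ⧸ Γ') := (adSec Γ').mk_r _
    have h2 := QuotientGroup.eq.mp h1.symm
    rwa [inv_inv] at h2
  let u : Y → Γ' := fun y => ⟨_, hu y⟩
  have hr : ∀ y, F.r y = mapGL ℝ ((u y : Γ') : SL(2, ℤ)) * (fibFam h).r (e₀ y) := by
    intro y
    rw [ht]
    show _ = mapGL ℝ (((t y : Γ) : SL(2, ℤ)) * (adSec Γ').r (e₀ y).1)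
      * mapGL ℝ ((adSec Γ').r (e₀ y).1)⁻¹
    rw [← map_mul, mul_inv_cancel_right]
  have hinj : Function.Injective e₀ := by
    intro y₁ y₂ h12
    have h1 := hr y₁
    have h2 := hr y₂
    rw [h12] at h1
    have h3 : (fibFam h).r (e₀ y₂) = (mapGL ℝ ((u y₂ : Γ') : SL(2, ℤ)))⁻¹ * F.r y₂ := by
      rw [h2, ← mul_assoc, inv_mul_cancel, one_mul]
    rw [h3, ← mul_assoc, ← map_inv, ← map_mul, ← Subgroup.coe_inv, ← Subgroup.coe_mul] at h1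
    exact hU _ _ _ h1
  have hsurj : Function.Surjective e₀ := by
    intro x'
    obtain ⟨y, s, hys⟩ := hcomp ⟨((adSec Γ').r x'.1)⁻¹, Γ.inv_mem (r_mem_of_fib h x')⟩
    refine ⟨y, ?_⟩
    rw [ht, ← map_mul] at hys
    have h1 : ((adSec Γ').r x'.1)⁻¹ = (s : SL(2, ℤ)) * ((t y : Γ) : SL(2, ℤ)) :=
      CosetFam.mapGL_inj hys
    apply Subtype.ext
    show ((((t y : Γ) : SL(2, ℤ))⁻¹ : SL(2, ℤ)) : SL(2, ℤ) ⧸ Γ') = x'.1
    rw [← (adSec Γ').mk_r x'.1]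
    apply QuotientGroup.eq.mpr
    have h2 : (((t y : Γ) : SL(2, ℤ))⁻¹)⁻¹ * (adSec Γ').r x'.1 = ((s : SL(2, ℤ)))⁻¹ := by
      have h3 : (adSec Γ').r x'.1 = ((s : SL(2, ℤ)) * ((t y : Γ) : SL(2, ℤ)))⁻¹ := by
        rw [← h1, inv_inv]
      rw [h3]; group
    rw [h2]
    exact Γ'.inv_mem s.2
  exact F.op_eq_of_rel (fibFam h) (fibFam_uniq h) (Equiv.ofBijective e₀ ⟨hinj, hsurj⟩) u hr ℤ c'

theorem resFam_op_eq (h : Γ' ≤ Γ) (c : Additive Γ →+ ℤ) : (resFam h).op ℤ c = res h c := by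
  apply AddMonoidHom.ext
  intro a
  obtain ⟨γ, rfl⟩ : ∃ γ : Γ', Additive.ofMul γ = a := ⟨Additive.toMul a, rfl⟩
  rw [resFam_op_apply]
  rfl

/-- **Theorem A: restriction and transfer are adjoint** (coset family form). -/
theorem pairZ_res_op (h : Γ' ≤ Γ) (hΓ' : (-1 : SL(2, ℤ)) ∈ Γ') {Y : Type*} [Fintype Y]
    (F : CosetFam Γ' Γ Y) (hU : F.Uniq)
    (t : Y → Γ) (ht : ∀ y, F.r y = mapGL ℝ ((t y : Γ) : SL(2, ℤ)))
    (hcomp : ∀ g : Γ, ∃ (y : Y) (s : Γ'),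
      mapGL ℝ ((g : Γ) : SL(2, ℤ)) = mapGL ℝ ((s : Γ') : SL(2, ℤ)) * F.r y)
    {c : Additive Γ →+ ℤ} (hc : c ∈ parabolicHoms ℤ Γ ℤ)
    {c' : Additive Γ' →+ ℤ} (hc' : c' ∈ parabolicHoms ℤ Γ' ℤ) :
    pairZ ((resFam h).op ℤ c) c' = pairZ c (F.op ℤ c') := by
  rw [resFam_op_eq, op_eq_fib h F hU t ht hcomp, ← tr_eq_op]
  exact pairZ_res_tr h hΓ' hc hc'

end Fermat.Agent.S41.PD
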