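import Mathlib
import Fermat.Agent.S41.PDFam
import Fermat.Agent.S41.DegenLam

/-!
# S41, piece P2 (duality): the pairing on `Λ_N = Hom_par(Γ₀(N), ℤ)` and the degeneracy maps

* `pairZ_alpha` : `⟨α* c, c'⟩_{Nq} = ⟨c, α_* c'⟩_N`
* `pairZ_beta`  : `⟨β* c, c'⟩_{Nq} = ⟨c, β_* c'⟩_N`
* `pairZ_hecke` : `⟨T_ℓ c, c'⟩_N = ⟨c, T_ℓ c'⟩_N`
* `pairLam M : Lam M →+ Lam M →+ ℤ`, perfect and skew-symmetric; `pairLam2` on `Lam N × Lam N`
* `pairLam_iLam` : `⟨i x, y'⟩ = ⟨x, i† y'⟩`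
-/

set_option autoImplicit false
set_option linter.unusedSectionVars false
set_option linter.unusedVariables false

noncomputable section

open Matrix.SpecialLinearGroup CongruenceSubgroup
open scoped MatrixGroups OnePoint
open ModularCurve.Period
open Fermat.Agent.S29.D1
open Fermat.Agent.S41.P3
open Fermat.Agent.S31.Lat

namespace Fermat.Agent.S41.PD

theorem neg_one_mem_G0 (M : ℕ) : (-1 : SL(2, ℤ)) ∈ Gamma0 M := by
  rw [Gamma0_mem]
  simp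

section degeneracy

variable {q : ℕ} [Fact q.Prime] {N : ℕ} [NeZero N] [NeZero (N * q)]

/-- **`α*` and `α_*` are adjoint.** -/
theorem pairZ_alpha (hqN : ¬ q ∣ N) {c : Additive (Gamma0 N) →+ ℤ}
    (hc : c ∈ parabolicHoms ℤ (Gamma0 N) ℤ) {c' : Additive (Gamma0 (N * q)) →+ ℤ}
    (hc' : c' ∈ parabolicHoms ℤ (Gamma0 (N * q)) ℤ) :
    pairZ ((alphaUp N q).op ℤ c) c' = pairZ c ((alphaDown hqN).op ℤ c') :=
  pairZ_res_op (Gamma0_mul_le N q) (neg_one_mem_G0 _) (alphaDown hqN) (alphaDown_uniq hqN)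
    (tInf hqN) (fun _ => rfl)
    (fun g => transferFam_complete (Gamma0 N) (Gamma0 (N * q)) perm perm_one perm_mul
      (∞ : OnePoint (ZMod q)) (fun g hg h => (mem_Gamma0_mul_iff hqN g).mpr ⟨hg, h⟩)
      (tInf hqN) (perm_tInf hqN) g) hc hc'

/-- restriction to `Γ₀(N) ∩ Γ⁰(q)` and the transfer are adjoint -/
theorem pairZ_res0 (hqN : ¬ q ∣ N) {c : Additive (Gamma0 N) →+ ℤ}
    (hc : c ∈ parabolicHoms ℤ (Gamma0 N) ℤ) {c' : Additive (stab0 N q) →+ ℤ}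
    (hc' : c' ∈ parabolicHoms ℤ (stab0 N q) ℤ) :
    pairZ ((resFam (stab0_le N q)).op ℤ c) c' = pairZ c ((tr0 hqN).op ℤ c') :=
  pairZ_res_op (stab0_le N q) (neg_one_mem_stab0 N q) (tr0 hqN) (tr0_uniq hqN)
    (tZero hqN) (fun _ => rfl)
    (fun g => transferFam_complete (Gamma0 N) (stab0 N q) perm perm_one perm_mul
      ((0 : ZMod q) : OnePoint (ZMod q)) (fun g hg h => mem_stab0.mpr ⟨hg, h⟩)
      (tZero hqN) (perm_tZero hqN) g) hc hc'

theorem det_diag_pos : 0 < (!![(q : ℤ), 0; 0, 1] : Matrix (Fin 2) (Fin 2) ℤ).det := by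
  rw [Matrix.det_fin_two_of]
  have : 0 < (q : ℤ) := by exact_mod_cast (Fact.out : q.Prime).pos
  linarith

theorem betaUp_eq_pull (hqN : ¬ q ∣ N) (c : Additive (Gamma0 N) →+ ℤ) :
    (betaUp hqN).op ℤ c = pull (psiQ hqN) ((resFam (stab0_le N q)).op ℤ c) := by
  apply AddMonoidHom.ext
  intro a
  obtain ⟨γ, rfl⟩ : ∃ γ : Gamma0 (N * q), Additive.ofMul γ = a := ⟨Additive.toMul a, rfl⟩
  rw [betaUp_op_apply]
  rfl

theorem eq_pull_conj0 (hqN : ¬ q ∣ N) (c' : Additive (Gamma0 (N * q)) →+ ℤ) :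
    c' = pull (psiQ hqN) ((conj0 hqN).op ℤ c') := by
  apply AddMonoidHom.ext
  intro a
  obtain ⟨γ, rfl⟩ : ∃ γ : Gamma0 (N * q), Additive.ofMul γ = a := ⟨Additive.toMul a, rfl⟩
  show c' (Additive.ofMul γ) = (conj0 hqN).op ℤ c' (Additive.ofMul (psiQ hqN γ))
  rw [conj0_op_apply, MulEquiv.symm_apply_apply]

/-- **`β*` and `β_*` are adjoint.** -/
theorem pairZ_beta (hqN : ¬ q ∣ N) {c : Additive (Gamma0 N) →+ ℤ}
    (hc : c ∈ parabolicHoms ℤ (Gamma0 N) ℤ) {c' : Additive (Gamma0 (N * q)) →+ ℤ}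
    (hc' : c' ∈ parabolicHoms ℤ (Gamma0 (N * q)) ℤ) :
    pairZ ((betaUp hqN).op ℤ c) c' = pairZ c ((betaDown hqN).op ℤ c') := by
  have hres : (resFam (stab0_le N q)).op ℤ c ∈ parabolicHoms ℤ (stab0 N q) ℤ :=
    (resFam (stab0_le N q)).op_isParabolicHom hc
  have hconj : (conj0 hqN).op ℤ c' ∈ parabolicHoms ℤ (stab0 N q) ℤ :=
    (conj0 hqN).op_isParabolicHom hc'
  have h1 : pairZ ((betaUp hqN).op ℤ c) c'
      = pairZ (pull (psiQ hqN) ((resFam (stab0_le N q)).op ℤ c))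
          (pull (psiQ hqN) ((conj0 hqN).op ℤ c')) := by
    rw [← betaUp_eq_pull, ← eq_pull_conj0]
  rw [h1, pairZ_conj (neg_one_mem_G0 _) (neg_one_mem_stab0 N q) (psiQ hqN)
    (!![(q : ℤ), 0; 0, 1]) det_diag_pos (psiQ_spec_int hqN) hres hconj,
    pairZ_res0 hqN hc hconj, betaDown_op]

end degeneracy

section hecke

variable {N : ℕ} [NeZero N]

/-- **The Hecke operators `T_ℓ`, `ℓ ∤ N`, are self-adjoint.** -/
theorem pairZ_hecke {ℓ : ℕ} [Fact ℓ.Prime] (hℓN : ¬ ℓ ∣ N) {c c' : Additive (Gamma0 N) →+ ℤ}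
    (hc : c ∈ parabolicHoms ℤ (Gamma0 N) ℤ) (hc' : c' ∈ parabolicHoms ℤ (Gamma0 N) ℤ) :
    pairZ (heckeHom ℤ hℓN c) c' = pairZ c (heckeHom ℤ hℓN c') := by
  haveI : NeZero (N * ℓ) := ⟨Nat.mul_ne_zero (NeZero.ne N) (Fact.out : ℓ.Prime).ne_zero⟩
  have hb : (betaUp hℓN).op ℤ c ∈ parabolicHoms ℤ (Gamma0 (N * ℓ)) ℤ :=
    (betaUp hℓN).op_isParabolicHom hc
  have ha' : (alphaUp N ℓ).op ℤ c' ∈ parabolicHoms ℤ (Gamma0 (N * ℓ)) ℤ :=
    (alphaUp N ℓ).op_isParabolicHom hc'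
  have hab : (alphaDown hℓN).op ℤ ((betaUp hℓN).op ℤ c) ∈ parabolicHoms ℤ (Gamma0 N) ℤ :=
    (alphaDown hℓN).op_isParabolicHom hb
  rw [← alphaDown_betaUp ℤ hℓN c, ← betaDown_alphaUp ℤ hℓN c',
    pairZ_skew (neg_one_mem_G0 N) hc' hab, ← pairZ_alpha hℓN hc' hb,
    ← pairZ_skew (neg_one_mem_G0 _) ha' hb, pairZ_beta hℓN hc ha']

end hecke

/-! ### the pairing on the lattices -/

section lattice

variable (M : ℕ) [NeZero M]

/-- **the pairing on `Λ_M`** -/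
def pairLam : Lam M →+ Lam M →+ ℤ :=
  AddMonoidHom.mk' (fun c => AddMonoidHom.mk' (fun c' => pairZ c.1 c'.1)
    (fun a b => pairZ_add_right (neg_one_mem_G0 M) c.2 a.2 b.2))
    (fun a b => by
      apply AddMonoidHom.ext
      intro c'
      exact pairZ_add_left (neg_one_mem_G0 M) a.2 b.2 c'.2)

variable {M}

theorem pairLam_apply (c c' : Lam M) : pairLam M c c' = pairZ c.1 c'.1 := rfl

theorem pairLam_skew (c c' : Lam M) : pairLam M c' c = - pairLam M c c' :=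
  pairZ_skew (neg_one_mem_G0 M) c.2 c'.2

theorem pairLam_nondeg_left (c : Lam M) (h : ∀ c' : Lam M, pairLam M c c' = 0) : c = 0 :=
  Subtype.ext (pairZ_nondeg (neg_one_mem_G0 M) c.2 (fun c' hc' => h ⟨c', hc'⟩))

theorem pairLam_nondeg_right (c' : Lam M) (h : ∀ c : Lam M, pairLam M c c' = 0) : c' = 0 := by
  apply pairLam_nondeg_left
  intro c
  rw [pairLam_skew, h, neg_zero]

theorem pairLam_perfect_left (φ : Lam M →+ ℤ) : ∃ c : Lam M, ∀ c' : Lam M, φ c' = pairLam M c c' := by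
  obtain ⟨c, hc, h⟩ := pairZ_perfect (neg_one_mem_G0 M) φ.toIntLinearMap
  exact ⟨⟨c, hc⟩, fun c' => (h c').symm⟩

theorem pairLam_perfect_right (φ : Lam M →+ ℤ) :
    ∃ c' : Lam M, ∀ c : Lam M, φ c = pairLam M c c' := by
  obtain ⟨c, hc⟩ := pairLam_perfect_left (-φ)
  refine ⟨c, fun c' => ?_⟩
  rw [pairLam_skew, ← hc]
  simp

theorem pairLam_Tpar {ℓ : ℕ} (hℓ : ℓ.Prime) (hℓM : ¬ ℓ ∣ M) (c c' : Lam M) :
    pairLam M (Tpar hℓ hℓM c) c' = pairLam M c (Tpar hℓ hℓM c') :=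
  haveI : Fact ℓ.Prime := ⟨hℓ⟩
  pairZ_hecke hℓM c.2 c'.2

end lattice

section adjoint

variable {q : ℕ} [Fact q.Prime] {N : ℕ} [NeZero N] [NeZero (N * q)]

theorem pairLam_aUp (hqN : ¬ q ∣ N) (c : Lam N) (c' : Lam (N * q)) :
    pairLam (N * q) (aUp ℤ ℤ hqN c) c' = pairLam N c (aDown ℤ ℤ hqN c') :=
  pairZ_alpha hqN c.2 c'.2

theorem pairLam_bUp (hqN : ¬ q ∣ N) (c : Lam N) (c' : Lam (N * q)) :
    pairLam (N * q) (bUp ℤ ℤ hqN c) c' = pairLam N c (bDown ℤ ℤ hqN c') :=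
  pairZ_beta hqN c.2 c'.2

variable (N)

/-- the pairing on `Λ_N × Λ_N` -/
def pairLam2 : (Lam N × Lam N) →+ (Lam N × Lam N) →+ ℤ :=
  AddMonoidHom.mk' (fun x => AddMonoidHom.mk' (fun y => pairLam N x.1 y.1 + pairLam N x.2 y.2)
    (fun a b => by
      show pairLam N x.1 (a.1 + b.1) + pairLam N x.2 (a.2 + b.2) = _
      rw [map_add, map_add]; ring))
    (fun a b => by
      apply AddMonoidHom.ext
      intro y
      show pairLam N (a.1 + b.1) y.1 + pairLam N (a.2 + b.2) y.2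
        = (pairLam N a.1 y.1 + pairLam N a.2 y.2) + (pairLam N b.1 y.1 + pairLam N b.2 y.2)
      rw [map_add, map_add, AddMonoidHom.add_apply, AddMonoidHom.add_apply]; ring)

variable {N}

theorem pairLam2_apply (x y : Lam N × Lam N) :
    pairLam2 N x y = pairLam N x.1 y.1 + pairLam N x.2 y.2 := rfl

theorem pairLam2_nondeg_right (y : Lam N × Lam N) (h : ∀ x, pairLam2 N x y = 0) : y = 0 := by
  have h1 : y.1 = 0 := by
    apply pairLam_nondeg_right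
    intro c
    have := h (c, 0)
    rw [pairLam2_apply] at this
    simpa using this
  have h2 : y.2 = 0 := by
    apply pairLam_nondeg_right
    intro c
    have := h (0, c)
    rw [pairLam2_apply] at this
    simpa using this
  exact Prod.ext h1 h2

theorem pairLam2_perfect_right (φ : (Lam N × Lam N) →+ ℤ) :
    ∃ y, ∀ x, φ x = pairLam2 N x y := by
  obtain ⟨y₁, h₁⟩ := pairLam_perfect_right (φ.comp (AddMonoidHom.inl (Lam N) (Lam N)))
  obtain ⟨y₂, h₂⟩ := pairLam_perfect_right (φ.comp (AddMonoidHom.inr (Lam N) (Lam N)))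
  refine ⟨(y₁, y₂), fun x => ?_⟩
  rw [pairLam2_apply, ← h₁, ← h₂]
  show φ x = φ (x.1, 0) + φ (0, x.2)
  rw [← map_add]
  congr 1
  ext <;> simp

/-- **`i` and `i†` are adjoint.** -/
theorem pairLam_iLam (hqN : ¬ q ∣ N) (x : Lam N × Lam N) (y' : Lam (N * q)) :
    pairLam (N * q) (iLam hqN x) y' = pairLam2 N x (iLamDual hqN y') := by
  rw [pairLam2_apply]
  show pairLam (N * q) (aUp ℤ ℤ hqN x.1 + bUp ℤ ℤ hqN x.2) y' = _
  rw [map_add, AddMonoidHom.add_apply, pairLam_aUp, pairLam_bUp]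
  rfl

theorem pairLam2_Tpar {ℓ : ℕ} (hℓ : ℓ.Prime) (hℓN : ¬ ℓ ∣ N) (x y : Lam N × Lam N) :
    pairLam2 N (Tpar hℓ hℓN x.1, Tpar hℓ hℓN x.2) y
      = pairLam2 N x (Tpar hℓ hℓN y.1, Tpar hℓ hℓN y.2) := by
  rw [pairLam2_apply, pairLam2_apply, pairLam_Tpar, pairLam_Tpar]

end adjoint

end Fermat.Agent.S41.PD
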