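import Mathlib
import Fermat.Agent.S41.AsmDefs
import Fermat.Agent.S41.AbsDual
import Fermat.Agent.S41.PDGlue

/-!
# C81 (S41), assembly, part B: hypothesis (B) (local surjectivity of `i†`)

From the duality (piece P2, `PDGlue`) and `Abs.locally_surjective_of_duality` (piece P5b).
-/

set_option autoImplicit false
set_option linter.unusedSectionVars false
set_option linter.unusedVariables false
set_option linter.style.haveILetI false

noncomputable section

open Matrix.SpecialLinearGroup CongruenceSubgroup
open scoped MatrixGroups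
open ModularCurve.Period
open Fermat.Agent.S29.D1 Fermat.Agent.S31.Lat Fermat.Agent.S41.P3 Fermat.Agent.S41.Abs
open Fermat.Agent.S41.PD

namespace Fermat.Agent.S41.Asm

variable {N q p : ℕ} {W : WeierstrassCurve ℤ} [NeZero N] [Fact q.Prime] [Fact p.Prime]
variable {hqN : ¬ q ∣ N}

/-- **hypothesis (B)**: `i†` is locally surjective -/
theorem hB_concrete (hC : Comm N q p W hqN)
    (hA : ∀ x : LN hC × LN hC, iP hC x ∈ pMul (P := HP N q p W) p (LNq hC) →
      x ∈ locSub (nIdeal N q p W) (pMul (P := HP N q p W) p (LN hC × LN hC))) :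
    ∀ y : LN hC × LN hC, y ∈ locSub (nIdeal N q p W) (LinearMap.range (itP hC)) := by
  haveI : NeZero q := ⟨(Fact.out : q.Prime).ne_zero⟩
  haveI : NeZero (N * q) := ⟨Nat.mul_ne_zero (NeZero.ne N) (NeZero.ne q)⟩
  have hself1 : ∀ (s : HP N q p W) (x y : Lam N),
      pairLam N (polyAct (tN N q p W) hC.hcN s x) y
        = pairLam N x (polyAct (tN N q p W) hC.hcN s y) :=
    fun s x y => polyAct_adjoint (L₂ := Lam N) (tN N q p W) hC.hcN (pairLam N)
      (fun i x y => pairLam_Tpar i.prime i.not_dvd_left x y) s x y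
  refine locally_surjective_of_duality (nIdeal N q p W) p (natCast_mem_nIdeal N q p W)
    (iP hC) (itP hC) (pairLam2 N) (pairLam (N * q))
    (fun ψ => pairLam_perfect_right ψ) (fun ψ => pairLam2_perfect_right ψ)
    (fun y h => pairLam2_nondeg_right y h)
    (fun x y' => pairLam_iLam hqN x y') ?_ hA
  intro s x y
  exact congrArg₂ (· + ·) (hself1 s x.1 y.1) (hself1 s x.2 y.2)

end Fermat.Agent.S41.Asm
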