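import Mathlib
import Fermat.Agent.S41.AsmDefs
import Fermat.Agent.S41.AsmA
import Fermat.Agent.S41.AsmB
import Fermat.Agent.S41.AbsLocal

/-!
# C81 (S41), assembly, main step: the kernel of `i†` is not locally zero

(A) + (B) + (C) + (M) ⇒ `∃ y ∈ ker i†, ∀ s ∉ 𝔫, s • y ≠ 0` (`Abs.exists_not_locally_zero`).
-/

set_option autoImplicit false
set_option linter.unusedSectionVars false
set_option linter.unusedVariables false
set_option linter.style.haveILetI false

noncomputable section

open Matrix.SpecialLinearGroup CongruenceSubgroup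
open scoped MatrixGroups
open ModularCurve.Period
open Fermat.Agent.S29.D1 Fermat.Agent.S31.Lat Fermat.Agent.S41.P3 Fermat.Agent.S41.Abs

namespace Fermat.Agent.S41.Asm

variable {N q p : ℕ} {W : WeierstrassCurve ℤ} [NeZero N] [Fact q.Prime] [Fact p.Prime]
variable {hqN : ¬ q ∣ N}

/-- the kernel of `i†` is not locally zero at `𝔫` -/
theorem exists_ker_not_locally_zero (hC : Comm N q p W hqN) (hN2 : 2 ≤ N)
    (H1 : ApplyEqZero N q p) (Hs : SndHom N q p) (H2 : PrimeSupply p W)
    (HC : ∃ z : LN hC, ∀ u : LN hC,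
      z - (((q : HP N q p W) + 1) • ((q : HP N q p W) + 1) • u - TqP hC (TqP hC u))
        ∉ locSub (nIdeal N q p W) (pMul (P := HP N q p W) p (LN hC))) :
    ∃ y : LNq hC, itP hC y = 0 ∧ ∀ s : HP N q p W, s ∉ nIdeal N q p W → s • y ≠ 0 := by
  haveI : NeZero q := ⟨(Fact.out : q.Prime).ne_zero⟩
  haveI : NeZero (N * q) := ⟨Nat.mul_ne_zero (NeZero.ne N) (NeZero.ne q)⟩
  have hA := hA_concrete hC hN2 H1 Hs H2
  have hB := hB_concrete hC hA
  exact exists_not_locally_zero (nIdeal N q p W) (p := p) (Fact.out : p.Prime).pos (iP hC) (itP hC)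
    (TqP hC) ((q : HP N q p W) + 1) (itP_iP hC) hA hB HC

end Fermat.Agent.S41.Asm
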