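import Mathlib

/-!
# S41, Route H, piece H1c (abstract part): the collapse of the Hecke eigen-equation

A symbol `S : ℤ → ℤ → A` with (M1), (M2), the `q`-scaling (Q) and the Hecke eigen-equation (HE)
at a prime `ℓ` with eigenvalue `lam`, `lam - 1 - ℓ` injective on `A`, vanishes on every column
`(a, c)` with `a ∣ ℓ - 1`:  `core_eq_zero`.
-/

set_option autoImplicit false

namespace Fermat.Agent.S41.RH

/-- `(1 + x)^i ≡ 1 + i x` modulo `x²` -/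
theorem one_add_pow_modSq (x : ℤ) (i : ℕ) : ∃ z : ℤ, (1 + x) ^ i = 1 + i * x + x ^ 2 * z := by
  induction i with
  | zero => exact ⟨0, by simp⟩
  | succ i ih =>
    obtain ⟨z, hz⟩ := ih
    refine ⟨z + i + x * z, ?_⟩
    rw [pow_succ, hz]
    push_cast
    ring

theorem isCoprime_prime_iff {r : ℕ} (hr : r.Prime) (x : ℤ) : IsCoprime (r : ℤ) x ↔ ¬ (r : ℤ) ∣ x :=
  (Nat.prime_iff_prime_int.mp hr).coprime_iff_not_dvd

/-- one prime -/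
theorem exists_shift_one {N r : ℕ} (hr : r.Prime) (hrN : ¬ r ∣ N) {a c : ℤ} (hac : IsCoprime a c) :
    ∃ y₀ : ℕ, ∀ y : ℤ, y ≡ y₀ [ZMOD r] → ¬ (r : ℤ) ∣ c + N * y * a := by
  have hrp := Nat.prime_iff_prime_int.mp hr
  by_cases hc : (r : ℤ) ∣ c
  · have ha : ¬ (r : ℤ) ∣ a := by
      intro ha
      have h1 : IsUnit (r : ℤ) := hac.isUnit_of_dvd' ha hc
      exact hrp.not_isUnit h1
    refine ⟨1, fun y hy h => ?_⟩
    have h2 : (r : ℤ) ∣ N * y * a := (Int.dvd_add_right hc).mp h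
    have hNr : ¬ (r : ℤ) ∣ (N : ℤ) := by
      rwa [Int.natCast_dvd_natCast]
    rcases hrp.dvd_or_dvd h2 with h3 | h3
    · rcases hrp.dvd_or_dvd h3 with h4 | h4
      · exact hNr h4
      · have h5 : (r : ℤ) ∣ y - 1 := by
          have := hy.symm.dvd
          simpa using this
        have h6 : (r : ℤ) ∣ 1 := by
          have := dvd_sub h4 h5
          simpa using this
        exact hrp.not_isUnit (isUnit_of_dvd_one h6)
    · exact ha h3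
  · refine ⟨0, fun y hy h => hc ?_⟩
    have h5 : (r : ℤ) ∣ y := by
      have := hy.symm.dvd
      simpa using this
    have h6 : (r : ℤ) ∣ N * y * a := (h5.mul_left _).mul_right _
    exact (Int.dvd_add_left h6).mp h

/-- moving `c` inside its class modulo `N a` away from two primes -/
theorem exists_shift_coprime {N q ℓ : ℕ} (hq : q.Prime) (hℓ : ℓ.Prime) (hℓq : ℓ ≠ q)
    (hqN : Nat.Coprime N q) (hℓN : ¬ ℓ ∣ N) {a c : ℤ} (hac : IsCoprime a c) :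
    ∃ y : ℤ, IsCoprime (q : ℤ) (c + N * y * a) ∧ IsCoprime (ℓ : ℤ) (c + N * y * a) := by
  have hqN' : ¬ q ∣ N := by
    intro h
    exact hq.one_lt.ne' (Nat.eq_one_of_dvd_coprimes hqN h (dvd_refl q))
  obtain ⟨y₁, h1⟩ := exists_shift_one hq hqN' hac
  obtain ⟨y₂, h2⟩ := exists_shift_one hℓ hℓN hac
  have hco : Nat.Coprime q ℓ := (Nat.coprime_primes hq hℓ).mpr hℓq.symm
  refine ⟨(Nat.chineseRemainder hco y₁ y₂ : ℕ), ?_, ?_⟩
  · rw [isCoprime_prime_iff hq]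
    exact h1 _ (Int.natCast_modEq_iff.mpr (Nat.chineseRemainder hco y₁ y₂).2.1)
  · rw [isCoprime_prime_iff hℓ]
    exact h2 _ (Int.natCast_modEq_iff.mpr (Nat.chineseRemainder hco y₁ y₂).2.2)

/-- a power `u = q^(2n)`, `n ≥ 1`, with `u = 1 + c₀ ℓ^k t`, `k ≥ 1`, `ℓ ∤ t` -/
theorem exists_pow_eq {q ℓ : ℕ} (hq : q.Prime) (hℓ : ℓ.Prime) (hℓq : ℓ ≠ q) {c₀ : ℤ}
    (hqc : IsCoprime (q : ℤ) c₀) (hℓc : IsCoprime (ℓ : ℤ) c₀) :
    ∃ (n k : ℕ) (t : ℤ), 1 ≤ k ∧ ¬ (ℓ : ℤ) ∣ t ∧ (q : ℤ) ^ (2 * n) = 1 + c₀ * (ℓ : ℤ) ^ k * t := by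
  have hc0 : c₀ ≠ 0 := by
    rintro rfl
    have := (isCoprime_prime_iff hℓ 0).mp hℓc
    exact this (dvd_zero _)
  set M : ℕ := c₀.natAbs * ℓ with hM
  have hMpos : 0 < M := Nat.mul_pos (Int.natAbs_pos.mpr hc0) hℓ.pos
  have hqM : Nat.Coprime q M := by
    apply Nat.Coprime.mul_right
    · have := Int.isCoprime_iff_gcd_eq_one.mp hqc
      simpa [Int.gcd] using this
    · exact (Nat.coprime_primes hq hℓ).mpr hℓq.symm
  set n : ℕ := Nat.totient M with hn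
  have hnpos : 0 < n := Nat.totient_pos.mpr hMpos
  have h1 : q ^ n ≡ 1 [MOD M] := Nat.ModEq.pow_totient hqM
  have h2 : (M : ℤ) ∣ (q : ℤ) ^ n - 1 := by
    have := (Int.natCast_modEq_iff.mpr h1).symm.dvd
    simpa using this
  have h3 : (M : ℤ) ∣ (q : ℤ) ^ (2 * n) - 1 := by
    have : (q : ℤ) ^ (2 * n) - 1 = ((q : ℤ) ^ n - 1) * ((q : ℤ) ^ n + 1) := by ring
    rw [this]
    exact h2.mul_right _
  -- the natural number D = q^(2n) - 1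
  have hu1 : 1 < q ^ (2 * n) := Nat.one_lt_pow (by omega) hq.one_lt
  obtain ⟨D, hD⟩ : ∃ D : ℕ, q ^ (2 * n) = 1 + D := ⟨q ^ (2 * n) - 1, by omega⟩
  have hD0 : D ≠ 0 := by omega
  have hDZ : (q : ℤ) ^ (2 * n) - 1 = (D : ℤ) := by
    have : ((q ^ (2 * n) : ℕ) : ℤ) = ((1 + D : ℕ) : ℤ) := by rw [hD]
    push_cast at this
    linarith
  obtain ⟨k, w, hw, hDw⟩ := Nat.exists_eq_pow_mul_and_not_dvd hD0 ℓ hℓ.ne_one
  have hMZ : (M : ℤ) = (c₀.natAbs : ℤ) * ℓ := by rw [hM]; push_cast; ring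
  have hℓD : (ℓ : ℤ) ∣ (D : ℤ) := by
    rw [← hDZ]
    exact (Dvd.intro_left _ hMZ.symm).trans h3
  have hcD : c₀ ∣ (D : ℤ) := by
    rw [← hDZ]
    refine dvd_trans ?_ h3
    rw [hMZ]
    exact (Int.dvd_natAbs.mpr (dvd_refl c₀)).mul_right _
  have hk : 1 ≤ k := by
    rcases Nat.eq_zero_or_pos k with h0 | h0
    · exfalso
      rw [h0, pow_zero, one_mul] at hDw
      rw [hDw] at hℓD
      exact hw (Int.natCast_dvd_natCast.mp hℓD)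
    · exact h0
  have hcw : c₀ ∣ (w : ℤ) := by
    have h4 : c₀ ∣ ((ℓ : ℤ) ^ k) * (w : ℤ) := by
      have : (D : ℤ) = ((ℓ : ℤ) ^ k) * (w : ℤ) := by rw [hDw]; push_cast; ring
      rw [← this]; exact hcD
    exact (hℓc.symm.pow_right).dvd_of_dvd_mul_left h4
  obtain ⟨t, ht⟩ := hcw
  refine ⟨n, k, t, hk, ?_, ?_⟩
  · intro h
    apply hw
    have : (ℓ : ℤ) ∣ (w : ℤ) := by rw [ht]; exact h.mul_left _
    exact Int.natCast_dvd_natCast.mp this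
  · have : (D : ℤ) = ((ℓ : ℤ) ^ k) * (w : ℤ) := by rw [hDw]; push_cast; ring
    rw [ht] at this
    linarith [hDZ, this, show c₀ * (ℓ : ℤ) ^ k * t = (ℓ : ℤ) ^ k * (c₀ * t) by ring]


theorem exists_nat_mul_eq {ℓ : ℕ} (hℓ : ℓ.Prime) {b : ℤ} (hb : IsCoprime (ℓ : ℤ) b) (j : ℤ) :
    ∃ (i : ℕ) (s : ℤ), (i : ℤ) * b = j + ℓ * s := by
  obtain ⟨x, y, hxy⟩ := hb
  have hℓpos : (0 : ℤ) < ℓ := by exact_mod_cast hℓ.pos
  have h0 : 0 ≤ (j * y) % (ℓ : ℤ) := Int.emod_nonneg _ hℓpos.ne'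
  refine ⟨((j * y) % (ℓ : ℤ)).toNat, - (j * x) - ((j * y) / (ℓ : ℤ)) * b, ?_⟩
  rw [Int.toNat_of_nonneg h0]
  have h1 := Int.emod_add_mul_ediv (j * y) (ℓ : ℤ)
  have h2 : (j * y) % (ℓ : ℤ) = j * y - ℓ * ((j * y) / (ℓ : ℤ)) := by linarith
  rw [h2]
  have h3 : j * y * b = j - j * x * ℓ := by
    have : j * (x * ℓ + y * b) = j := by rw [hxy, mul_one]
    linarith
  linear_combination h3

/-- **Route H, abstract core**: a symbol satisfying (M1), (M2), (Q) and the Hecke eigen-equation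
(HE) with an eigenvalue `lam` such that `lam - 1 - ℓ` acts injectively vanishes on all columns
`(a, c)` with `a ∣ ℓ - 1`. -/
theorem core_eq_zero {A : Type*} [AddCommGroup A] {N q ℓ : ℕ} (hq : q.Prime) [Fact ℓ.Prime]
    (hqN : Nat.Coprime N q) (hℓN : ¬ ℓ ∣ N) (hℓq : ℓ ≠ q)
    (S : ℤ → ℤ → A) (lam : ℤ)
    (M1 : ∀ a a' c : ℤ, c ∣ a' - a → S a' c = S a c)
    (M2 : ∀ a c c' : ℤ, (N : ℤ) * a ∣ c' - c → S a c' = S a c)
    (Q : ∀ n : ℕ, (N : ℤ) ∣ (q : ℤ) ^ (2 * n) - 1 → ∀ a c : ℤ, IsCoprime (q : ℤ) c →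
      S ((q : ℤ) ^ (2 * n) * a) c = S a c)
    (HE : ∀ a c : ℤ, IsCoprime a c → (N : ℤ) ∣ c → (ℓ : ℤ) ∣ c →
      ∃ f : ZMod ℓ → ℤ, lam • S a c = S a (c / ℓ) + ∑ x : ZMod ℓ, S (a + f x * c) (ℓ * c))
    (hunit : ∀ x : A, (lam - 1 - (ℓ : ℤ)) • x = 0 → x = 0)
    (a c : ℤ) (hac : IsCoprime a c) (hNc : (N : ℤ) ∣ c) (ha : a ∣ (ℓ : ℤ) - 1) : S a c = 0 := by
  have hℓ : ℓ.Prime := Fact.out
  have hℓpos : (0 : ℤ) < ℓ := by exact_mod_cast hℓ.pos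
  obtain ⟨y, hyq, hyℓ⟩ := exists_shift_coprime hq hℓ hℓq hqN hℓN hac
  set c₀ := c + N * y * a with hc₀
  have hS0 : S a c₀ = S a c := M2 a c c₀ ⟨y, by rw [hc₀]; ring⟩
  have hac₀ : IsCoprime a c₀ := by
    have : c₀ = c + (N * y) * a := by rw [hc₀]
    rw [this]
    exact IsCoprime.add_mul_right_right hac _
  have hNc₀ : (N : ℤ) ∣ c₀ := dvd_add hNc ⟨y * a, by ring⟩
  have hℓa : IsCoprime (ℓ : ℤ) a := by
    have h1 : IsCoprime (ℓ : ℤ) ((ℓ : ℤ) - 1) := ⟨1, -1, by ring⟩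
    exact h1.of_isCoprime_of_dvd_right ha
  obtain ⟨n, k, t, hk, hℓt, hu⟩ := exists_pow_eq hq hℓ hℓq hyq hyℓ
  obtain ⟨k', rfl⟩ : ∃ k', k = k' + 1 := ⟨k - 1, by omega⟩
  -- (CONST)
  have hconst : ∀ m : ℕ, S a (c₀ * (ℓ : ℤ) ^ m) = S a c₀ := by
    intro m
    apply M2
    have h1 : a ∣ (ℓ : ℤ) ^ m - 1 :=
      ha.trans (by simpa using sub_dvd_pow_sub_pow (ℓ : ℤ) 1 m)
    obtain ⟨N', hN'⟩ := hNc₀
    obtain ⟨a', ha'⟩ := h1
    refine ⟨N' * a', ?_⟩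
    have : c₀ * (ℓ : ℤ) ^ m - c₀ = c₀ * ((ℓ : ℤ) ^ m - 1) := by ring
    rw [this, ha']
    nth_rewrite 1 [hN']
    ring
  set cc := c₀ * (ℓ : ℤ) ^ (k' + 1) with hcc
  have hN1 : (N : ℤ) ∣ (q : ℤ) ^ (2 * n) - 1 := by
    rw [hu]
    obtain ⟨N', hN'⟩ := hNc₀
    exact ⟨N' * (ℓ : ℤ) ^ (k' + 1) * t, by linear_combination t * hcc + ((ℓ : ℤ) ^ (k' + 1) * t) * hN'⟩
  have hqcc : IsCoprime (q : ℤ) (ℓ * cc) := by
    have hqℓ : IsCoprime (q : ℤ) (ℓ : ℤ) := by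
      rw [isCoprime_prime_iff hq, Int.natCast_dvd_natCast]
      intro h
      exact hℓq ((Nat.prime_dvd_prime_iff_eq hq hℓ).mp h).symm
    exact hqℓ.mul_right (hyq.mul_right hqℓ.pow_right)
  -- (COLLAPSE)
  have hcol : ∀ j : ℤ, S (a + j * cc) (ℓ * cc) = S a (ℓ * cc) := by
    intro j
    have hat : IsCoprime (ℓ : ℤ) (a * t) :=
      hℓa.mul_right ((isCoprime_prime_iff hℓ t).mpr hℓt)
    obtain ⟨i, s, his⟩ := exists_nat_mul_eq hℓ hat j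
    obtain ⟨z, hz⟩ := one_add_pow_modSq (cc * t) i
    have hui : (q : ℤ) ^ (2 * (n * i)) = 1 + i * (cc * t) + (cc * t) ^ 2 * z := by
      rw [← hz, ← mul_assoc, pow_mul, hu]
    have hN2 : (N : ℤ) ∣ (q : ℤ) ^ (2 * (n * i)) - 1 := by
      have h1 : (q : ℤ) ^ (2 * n) - 1 ∣ ((q : ℤ) ^ (2 * n)) ^ i - 1 := by
        simpa using sub_dvd_pow_sub_pow ((q : ℤ) ^ (2 * n)) 1 i
      rw [← mul_assoc, pow_mul]
      exact hN1.trans h1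
    rw [← Q (n * i) hN2 a (ℓ * cc) hqcc]
    apply M1
    refine ⟨- s - a * t ^ 2 * z * c₀ * (ℓ : ℤ) ^ k', ?_⟩
    rw [hui]
    have h5 : cc = c₀ * (ℓ : ℤ) ^ k' * ℓ := by rw [hcc, pow_succ]; ring
    linear_combination (-cc) * his + (a * t ^ 2 * z * cc) * h5 
  obtain ⟨f, hf⟩ := HE a cc (hac₀.mul_right hℓa.symm.pow_right)
    (hNc₀.mul_right _) ⟨c₀ * (ℓ : ℤ) ^ k', by rw [hcc, pow_succ]; ring⟩
  have h6 : cc / (ℓ : ℤ) = c₀ * (ℓ : ℤ) ^ k' := by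
    rw [hcc, pow_succ, ← mul_assoc]
    exact Int.mul_ediv_cancel _ hℓpos.ne'
  have h7 : (ℓ : ℤ) * cc = c₀ * (ℓ : ℤ) ^ (k' + 1 + 1) := by rw [hcc]; ring
  have h8 : ∑ x : ZMod ℓ, S (a + f x * cc) (ℓ * cc) = (ℓ : ℤ) • S a c₀ := by
    rw [Finset.sum_congr rfl (fun x _ => hcol (f x)), Finset.sum_const, Finset.card_univ,
      ZMod.card, h7, hconst, natCast_zsmul]
  rw [h8, h6, hconst, hconst] at hf
  rw [← hS0]
  apply hunit
  rw [sub_smul, sub_smul, one_smul, hf]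
  abel

end Fermat.Agent.S41.RH
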