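import Mathlib
import Fermat.Agent.S29.ParHecke
import Fermat.Agent.S41.RHSym

/-!
# S41, Route H, piece H1b: the Hecke equation (HE)

For `γ ∈ Γ₀(N)` with first column `(a, c)`, `ℓ ∣ c` (`ℓ ∤ N` prime):
* the first column of `kap γ j` (`j : ZMod ℓ`) is `(a + j c, ℓ c)`;
* the first column of `kap γ ∞` is `(a, c / ℓ)`;
* hence, for a parabolic homomorphism `c₁`,
  `(T_ℓ c₁)(γ) = S(a, c/ℓ) + ∑_{j mod ℓ} S(a + j c, ℓ c)`.
-/

set_option autoImplicit false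
set_option linter.unusedSectionVars false
set_option linter.unusedVariables false
set_option linter.unusedSimpArgs false

noncomputable section

open Matrix Matrix.SpecialLinearGroup CongruenceSubgroup
open scoped MatrixGroups
open ModularCurve.Period
open P2MW.S_ModularForm_heckeT_slash_eq_self_of_mem_Gamma0.ModularForm.HeckeSlashInvariance
open Fermat.Agent.S29.D1 Fermat.Agent.S41.P1a
open OnePoint

namespace Fermat.Agent.S41.RH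

variable {N : ℕ} {ℓ : ℕ} [Fact ℓ.Prime]

theorem he_mapGL_entry (g : SL(2, ℤ)) (i j : Fin 2) :
    ((mapGL ℝ g : GL (Fin 2) ℝ) : Matrix (Fin 2) (Fin 2) ℝ) i j = ((g i j : ℤ) : ℝ) := by
  simp

theorem he_val_heckeRep_coe (j : ZMod ℓ) :
    ((heckeRep ℓ (j : OnePoint (ZMod ℓ)) : GL (Fin 2) ℝ) : Matrix (Fin 2) (Fin 2) ℝ)
      = !![(1 : ℝ), (j.val : ℝ); 0, (ℓ : ℝ)] := by
  rw [heckeRep_coe]
  exact ModularForm.val_heckeMatrix (Fact.out : ℓ.Prime).ne_zero _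

theorem he_val_heckeRep_infty :
    ((heckeRep ℓ (∞ : OnePoint (ZMod ℓ)) : GL (Fin 2) ℝ) : Matrix (Fin 2) (Fin 2) ℝ)
      = !![(ℓ : ℝ), 0; 0, 1] := by
  rw [heckeRep_infty]
  exact ModularForm.val_heckeDiagMatrix (Fact.out : ℓ.Prime).ne_zero

/-- the first column of `heckeRep x * γ = κ * heckeRep x'`, in integers -/
theorem he_col_eq (γ κ : SL(2, ℤ)) (x x' : OnePoint (ZMod ℓ))
    (h : heckeRep ℓ x * mapGL ℝ γ = mapGL ℝ κ * heckeRep ℓ x') :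
    ((∃ j : ZMod ℓ, x = (j : OnePoint (ZMod ℓ)) ∧
        ((∃ j' : ZMod ℓ, x' = (j' : OnePoint (ZMod ℓ)) ∧
            κ 0 0 = γ 0 0 + (j.val : ℤ) * γ 1 0 ∧ κ 1 0 = (ℓ : ℤ) * γ 1 0) ∨
          (x' = ∞ ∧ (ℓ : ℤ) * κ 0 0 = γ 0 0 + (j.val : ℤ) * γ 1 0 ∧
            (ℓ : ℤ) * κ 1 0 = (ℓ : ℤ) * γ 1 0))) ∨
      (x = ∞ ∧
        ((∃ j' : ZMod ℓ, x' = (j' : OnePoint (ZMod ℓ)) ∧
            κ 0 0 = (ℓ : ℤ) * γ 0 0 ∧ κ 1 0 = γ 1 0) ∨
          (x' = ∞ ∧ (ℓ : ℤ) * κ 0 0 = (ℓ : ℤ) * γ 0 0 ∧ (ℓ : ℤ) * κ 1 0 = γ 1 0)))) := by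
  have h00 := congrArg (fun M : GL (Fin 2) ℝ => (M : Matrix (Fin 2) (Fin 2) ℝ) 0 0) h
  have h10 := congrArg (fun M : GL (Fin 2) ℝ => (M : Matrix (Fin 2) (Fin 2) ℝ) 1 0) h
  simp only [Matrix.GeneralLinearGroup.coe_mul, Matrix.mul_apply, Fin.sum_univ_two,
    he_mapGL_entry] at h00 h10
  induction x using OnePoint.rec with
  | infty =>
    right
    refine ⟨rfl, ?_⟩
    rw [he_val_heckeRep_infty] at h00 h10
    induction x' using OnePoint.rec with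
    | infty =>
      right
      rw [he_val_heckeRep_infty] at h00 h10
      simp only [Matrix.of_apply, Matrix.cons_val_zero, Matrix.cons_val_one,
        Matrix.cons_val', Matrix.empty_val', Matrix.cons_val_fin_one, mul_zero, add_zero,
        zero_mul, zero_add, one_mul, mul_one] at h00 h10
      refine ⟨rfl, ?_, ?_⟩
      · have : (((ℓ : ℤ) * κ 0 0 : ℤ) : ℝ) = (((ℓ : ℤ) * γ 0 0 : ℤ) : ℝ) := by
          push_cast; linarith
        exact_mod_cast this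
      · have : (((ℓ : ℤ) * κ 1 0 : ℤ) : ℝ) = ((γ 1 0 : ℤ) : ℝ) := by
          push_cast; linarith
        exact_mod_cast this
    | coe j' =>
      left
      rw [he_val_heckeRep_coe] at h00 h10
      simp only [Matrix.of_apply, Matrix.cons_val_zero, Matrix.cons_val_one,
        Matrix.cons_val', Matrix.empty_val', Matrix.cons_val_fin_one, mul_zero, add_zero,
        zero_mul, zero_add, one_mul, mul_one] at h00 h10
      refine ⟨j', rfl, ?_, ?_⟩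
      · have : ((κ 0 0 : ℤ) : ℝ) = (((ℓ : ℤ) * γ 0 0 : ℤ) : ℝ) := by
          push_cast; linarith
        exact_mod_cast this
      · have : ((κ 1 0 : ℤ) : ℝ) = ((γ 1 0 : ℤ) : ℝ) := by
          linarith
        exact_mod_cast this
  | coe j =>
    left
    refine ⟨j, rfl, ?_⟩
    rw [he_val_heckeRep_coe] at h00 h10
    induction x' using OnePoint.rec with
    | infty =>
      right
      rw [he_val_heckeRep_infty] at h00 h10
      simp only [Matrix.of_apply, Matrix.cons_val_zero, Matrix.cons_val_one,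
        Matrix.cons_val', Matrix.empty_val', Matrix.cons_val_fin_one, mul_zero, add_zero,
        zero_mul, zero_add, one_mul, mul_one] at h00 h10
      refine ⟨rfl, ?_, ?_⟩
      · have : (((ℓ : ℤ) * κ 0 0 : ℤ) : ℝ) = ((γ 0 0 + (j.val : ℤ) * γ 1 0 : ℤ) : ℝ) := by
          push_cast; linarith
        exact_mod_cast this
      · have : (((ℓ : ℤ) * κ 1 0 : ℤ) : ℝ) = (((ℓ : ℤ) * γ 1 0 : ℤ) : ℝ) := by
          push_cast; linarith
        exact_mod_cast this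
    | coe j' =>
      left
      rw [he_val_heckeRep_coe] at h00 h10
      simp only [Matrix.of_apply, Matrix.cons_val_zero, Matrix.cons_val_one,
        Matrix.cons_val', Matrix.empty_val', Matrix.cons_val_fin_one, mul_zero, add_zero,
        zero_mul, zero_add, one_mul, mul_one] at h00 h10
      refine ⟨j', rfl, ?_, ?_⟩
      · have : ((κ 0 0 : ℤ) : ℝ) = ((γ 0 0 + (j.val : ℤ) * γ 1 0 : ℤ) : ℝ) := by
          push_cast; linarith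
        exact_mod_cast this
      · have : ((κ 1 0 : ℤ) : ℝ) = (((ℓ : ℤ) * γ 1 0 : ℤ) : ℝ) := by
          push_cast; linarith
        exact_mod_cast this

/-- the entries of the first column of an element of `SL₂(ℤ)` are coprime -/
theorem he_isCoprime_col (g : SL(2, ℤ)) : IsCoprime (g 0 0) (g 1 0) := by
  have h := det_eq_one g
  exact ⟨g 1 1, - g 0 1, by linear_combination h⟩

theorem he_not_dvd_of_dvd (g : SL(2, ℤ)) {m : ℤ} (hm : ¬ IsUnit m) (h : m ∣ g 1 0) :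
    ¬ m ∣ g 0 0 := fun h0 =>
  hm ((he_isCoprime_col g).isUnit_of_dvd' h0 h)

theorem he_prime_not_isUnit : ¬ IsUnit (ℓ : ℤ) :=
  (Nat.prime_iff_prime_int.mp (Fact.out : ℓ.Prime)).not_isUnit

variable (hℓN : ¬ ℓ ∣ N)

/-- **(HE), finite cosets**: first column of `kap γ j` when `ℓ ∣ γ₁₀` -/
theorem kap_coe_col (γ : Gamma0 N) (hℓc : (ℓ : ℤ) ∣ (γ : SL(2, ℤ)) 1 0) (j : ZMod ℓ) :
    ((kap hℓN γ (j : OnePoint (ZMod ℓ)) : Gamma0 N) : SL(2, ℤ)) 0 0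
        = (γ : SL(2, ℤ)) 0 0 + (j.val : ℤ) * (γ : SL(2, ℤ)) 1 0 ∧
      ((kap hℓN γ (j : OnePoint (ZMod ℓ)) : Gamma0 N) : SL(2, ℤ)) 1 0
        = (ℓ : ℤ) * (γ : SL(2, ℤ)) 1 0 := by
  have h := he_col_eq _ _ _ _ (kap_spec hℓN γ (j : OnePoint (ZMod ℓ)))
  rcases h with ⟨j₁, hj₁, h⟩ | ⟨hx, -⟩
  · have hjj : j₁ = j := (OnePoint.coe_injective hj₁).symm
    subst hjj
    rcases h with ⟨j', -, h1, h2⟩ | ⟨-, h1, -⟩
    · exact ⟨h1, h2⟩
    · exfalso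
      apply he_not_dvd_of_dvd (γ : SL(2, ℤ)) (he_prime_not_isUnit (ℓ := ℓ)) hℓc
      have h3 : (ℓ : ℤ) ∣ (γ : SL(2, ℤ)) 0 0 + (j₁.val : ℤ) * (γ : SL(2, ℤ)) 1 0 :=
        ⟨_, h1.symm⟩
      exact (Int.dvd_add_left (Dvd.dvd.mul_left hℓc _)).mp h3
  · exact absurd hx (OnePoint.coe_ne_infty j)

/-- **(HE), the coset `∞`**: first column of `kap γ ∞` when `ℓ ∣ γ₁₀` -/
theorem kap_infty_col (γ : Gamma0 N) (hℓc : (ℓ : ℤ) ∣ (γ : SL(2, ℤ)) 1 0) :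
    ((kap hℓN γ (∞ : OnePoint (ZMod ℓ)) : Gamma0 N) : SL(2, ℤ)) 0 0 = (γ : SL(2, ℤ)) 0 0 ∧
      (ℓ : ℤ) * ((kap hℓN γ (∞ : OnePoint (ZMod ℓ)) : Gamma0 N) : SL(2, ℤ)) 1 0
        = (γ : SL(2, ℤ)) 1 0 := by
  have hℓ0 : (ℓ : ℤ) ≠ 0 := by exact_mod_cast (Fact.out : ℓ.Prime).ne_zero
  have h := he_col_eq _ _ _ _ (kap_spec hℓN γ (∞ : OnePoint (ZMod ℓ)))
  rcases h with ⟨j₁, hj₁, -⟩ | ⟨-, h⟩
  · exact absurd hj₁.symm (OnePoint.coe_ne_infty j₁)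
  · rcases h with ⟨j', -, h1, h2⟩ | ⟨-, h1, h2⟩
    · exfalso
      set κ := ((kap hℓN γ (∞ : OnePoint (ZMod ℓ)) : Gamma0 N) : SL(2, ℤ)) with hκ
      apply he_not_dvd_of_dvd κ (he_prime_not_isUnit (ℓ := ℓ)) (h2 ▸ hℓc)
      exact ⟨_, h1⟩
    · exact ⟨mul_left_cancel₀ hℓ0 h1, h2⟩

variable {A : Type*} [AddCommGroup A]

/-- **(HE)**: the Hecke equation for the symbol `S`, at `γ` with `ℓ ∣ γ₁₀`. -/
theorem heckeHom_eq_S {c₁ : Additive (Gamma0 N) →+ A} (hpar : IsParabolicHom (Gamma0 N) c₁)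
    (γ : Gamma0 N) (hℓc : (ℓ : ℤ) ∣ (γ : SL(2, ℤ)) 1 0) :
    heckeHom A hℓN c₁ (Additive.ofMul γ)
      = S c₁ ((γ : SL(2, ℤ)) 0 0) ((γ : SL(2, ℤ)) 1 0 / (ℓ : ℤ))
        + ∑ j : ZMod ℓ, S c₁ ((γ : SL(2, ℤ)) 0 0 + (j.val : ℤ) * (γ : SL(2, ℤ)) 1 0)
            ((ℓ : ℤ) * (γ : SL(2, ℤ)) 1 0) := by
  have hℓ0 : (ℓ : ℤ) ≠ 0 := by exact_mod_cast (Fact.out : ℓ.Prime).ne_zero
  rw [heckeHom_apply]
  have hsum : ∑ x : OnePoint (ZMod ℓ), c₁ (Additive.ofMul (kap hℓN γ x))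
      = c₁ (Additive.ofMul (kap hℓN γ (∞ : OnePoint (ZMod ℓ))))
        + ∑ j : ZMod ℓ, c₁ (Additive.ofMul (kap hℓN γ (j : OnePoint (ZMod ℓ)))) :=
    Fintype.sum_option (fun x : OnePoint (ZMod ℓ) => c₁ (Additive.ofMul (kap hℓN γ x)))
  rw [hsum]
  congr 1
  · obtain ⟨h1, h2⟩ := kap_infty_col hℓN γ hℓc
    have h3 : (γ : SL(2, ℤ)) 1 0 / (ℓ : ℤ)
        = ((kap hℓN γ (∞ : OnePoint (ZMod ℓ)) : Gamma0 N) : SL(2, ℤ)) 1 0 := by
      rw [← h2, Int.mul_ediv_cancel_left _ hℓ0]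
    rw [h3, ← h1]
    exact (S_eq hpar _).symm
  · refine Finset.sum_congr rfl (fun j _ => ?_)
    obtain ⟨h1, h2⟩ := kap_coe_col hℓN γ hℓc j
    rw [← h1, ← h2]
    exact (S_eq hpar _).symm

/-- (HE) in terms of a first column `(a, ℓ c')`. -/
theorem heckeHom_eq_S' {c₁ : Additive (Gamma0 N) →+ A} (hpar : IsParabolicHom (Gamma0 N) c₁)
    (γ : Gamma0 N) (a c' : ℤ) (ha : (γ : SL(2, ℤ)) 0 0 = a)
    (hc : (γ : SL(2, ℤ)) 1 0 = (ℓ : ℤ) * c') :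
    heckeHom A hℓN c₁ (Additive.ofMul γ)
      = S c₁ a c' + ∑ j : ZMod ℓ, S c₁ (a + (j.val : ℤ) * ((ℓ : ℤ) * c')) ((ℓ : ℤ) * ((ℓ : ℤ) * c')) := by
  have hℓ0 : (ℓ : ℤ) ≠ 0 := by exact_mod_cast (Fact.out : ℓ.Prime).ne_zero
  rw [heckeHom_eq_S hℓN hpar γ ⟨c', hc⟩, ha, hc, Int.mul_ediv_cancel_left _ hℓ0]

end Fermat.Agent.S41.RH
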