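import Mathlib
import Fermat.Agent.S41.RHSym

/-!
# S41, Route H, piece H1a, part 2: the `q`-scaling relation (Q)

Let `Φ : Γ₀(N)[1/q] → A` be a homomorphism whose restriction to `Γ₀(N)` is the parabolic
homomorphism `c₁`. Then for `u = q ^ (2 n) ≡ 1 mod N` the first-column symbol satisfies
`S c₁ (u a) c = S c₁ a c` (`q` prime to `c`).

* `PhiX` : `Φ` extended by `0` to `SL₂(ℚ)`.
* `hd q k` : the diagonal matrix `diag(q ^ k, q ^ (-k))`, an element of `Delta N q`.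
* `PhiX_hd_sq` : `Φ(diag(u, u⁻¹)) = 0` for `u = q ^ (2 n) ≡ 1 mod N`.
* `c1_eq_of_qpow` : `c₁ γ' = c₁ γ` if `γ'` has first column `(u a, c)` and `γ` has `(a, c)`.
* `S_qpow` : (Q).
* `exists_hom_snd`, `exists_hom_pair` : the homomorphism for the second component `c₂`.
* `S_qpow_of_kerCond` : (Q) for both components of a pair in the kernel of `α* + β*`.
-/

set_option autoImplicit false

noncomputable section

open Matrix Matrix.SpecialLinearGroup CongruenceSubgroup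
open scoped MatrixGroups
open ModularCurve.Period

namespace Fermat.Agent.S41.RH

open Fermat.Agent.S41.P1a

variable {N q : ℕ} {A : Type*} [AddCommGroup A]

/-! ## `Φ` extended by zero -/

/-- `Φ` extended by `0` outside `Delta N q` -/
def PhiX (Φ : Additive (Delta N q) →+ A) (g : SL(2, ℚ)) : A :=
  open Classical in
  if h : g ∈ Delta N q then Φ (Additive.ofMul ⟨g, h⟩) else 0

theorem PhiX_eq (Φ : Additive (Delta N q) →+ A) {g : SL(2, ℚ)} (h : g ∈ Delta N q) :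
    PhiX Φ g = Φ (Additive.ofMul ⟨g, h⟩) := by
  unfold PhiX
  rw [dif_pos h]

theorem PhiX_mul (Φ : Additive (Delta N q) →+ A) {g g' : SL(2, ℚ)} (h : g ∈ Delta N q)
    (h' : g' ∈ Delta N q) : PhiX Φ (g * g') = PhiX Φ g + PhiX Φ g' := by
  rw [PhiX_eq Φ h, PhiX_eq Φ h', PhiX_eq Φ (mul_mem h h'), ← map_add]
  rfl

theorem PhiX_one (Φ : Additive (Delta N q) →+ A) : PhiX Φ 1 = 0 := by
  rw [PhiX_eq Φ (one_mem _)]
  exact map_zero Φ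

theorem PhiX_inv (Φ : Additive (Delta N q) →+ A) {g : SL(2, ℚ)} (h : g ∈ Delta N q) :
    PhiX Φ g⁻¹ = - PhiX Φ g := by
  have h1 := PhiX_mul Φ h (inv_mem h)
  rw [mul_inv_cancel, PhiX_one] at h1
  exact eq_neg_of_add_eq_zero_right h1.symm

/-- conjugation invariance -/
theorem PhiX_conj (Φ : Additive (Delta N q) →+ A) {g h : SL(2, ℚ)} (hg : g ∈ Delta N q)
    (hh : h ∈ Delta N q) : PhiX Φ (h⁻¹ * g * h) = PhiX Φ g := by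
  rw [PhiX_mul Φ (mul_mem (inv_mem hh) hg) hh, PhiX_mul Φ (inv_mem hh) hg, PhiX_inv Φ hh]
  abel

/-- conjugation invariance, other side -/
theorem PhiX_conj' (Φ : Additive (Delta N q) →+ A) {g h : SL(2, ℚ)} (hg : g ∈ Delta N q)
    (hh : h ∈ Delta N q) : PhiX Φ (h * g * h⁻¹) = PhiX Φ g := by
  rw [PhiX_mul Φ (mul_mem hh hg) (inv_mem hh), PhiX_mul Φ hh hg, PhiX_inv Φ hh]
  abel

theorem PhiX_iota {Φ : Additive (Delta N q) →+ A} {c₁ : Additive (Gamma0 N) →+ A}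
    (hΦ : ∀ γ : Gamma0 N, Φ (Additive.ofMul ⟨iota (γ : SL(2, ℤ)), iota_mem_Delta γ⟩)
      = c₁ (Additive.ofMul γ)) (γ : Gamma0 N) :
    PhiX Φ (iota (γ : SL(2, ℤ))) = c₁ (Additive.ofMul γ) := by
  rw [PhiX_eq Φ (iota_mem_Delta γ), hΦ]

/-! ## The diagonal elements -/

/-- `diag(q ^ k, q ^ (-k))` -/
def hd (q : ℕ) (hq : q ≠ 0) (k : ℕ) : SL(2, ℚ) :=
  ⟨!![(q : ℚ) ^ k, 0; 0, ((q : ℚ) ^ k)⁻¹], by
    rw [Matrix.det_fin_two_of]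
    have : (q : ℚ) ^ k ≠ 0 := pow_ne_zero _ (by exact_mod_cast hq)
    field_simp
    ring⟩

@[simp] theorem hd_00 (hq : q ≠ 0) (k : ℕ) : (hd q hq k) 0 0 = (q : ℚ) ^ k := rfl
@[simp] theorem hd_01 (hq : q ≠ 0) (k : ℕ) : (hd q hq k) 0 1 = 0 := rfl
@[simp] theorem hd_10 (hq : q ≠ 0) (k : ℕ) : (hd q hq k) 1 0 = 0 := rfl
@[simp] theorem hd_11 (hq : q ≠ 0) (k : ℕ) : (hd q hq k) 1 1 = ((q : ℚ) ^ k)⁻¹ := rfl

theorem hd_mem (hq : q ≠ 0) (k : ℕ) : hd q hq k ∈ Delta N q := by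
  refine ⟨k, !![(q : ℤ) ^ (2 * k), 0; 0, 1], ?_, by simp⟩
  have h0 : (q : ℚ) ^ k ≠ 0 := pow_ne_zero _ (by exact_mod_cast hq)
  ext i j
  fin_cases i <;> fin_cases j
  · simp [cst_apply, hd, pow_mul, pow_two, mul_comm]
  · simp [cst_apply, hd]
  · simp [cst_apply, hd]
  · simp [cst_apply, hd, h0]

theorem mulQ_00 (g h : SL(2, ℚ)) : (g * h : SL(2, ℚ)) 0 0 = g 0 0 * h 0 0 + g 0 1 * h 1 0 := by
  rw [Matrix.SpecialLinearGroup.coe_mul, Matrix.mul_apply, Fin.sum_univ_two]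

theorem mulQ_01 (g h : SL(2, ℚ)) : (g * h : SL(2, ℚ)) 0 1 = g 0 0 * h 0 1 + g 0 1 * h 1 1 := by
  rw [Matrix.SpecialLinearGroup.coe_mul, Matrix.mul_apply, Fin.sum_univ_two]

theorem mulQ_10 (g h : SL(2, ℚ)) : (g * h : SL(2, ℚ)) 1 0 = g 1 0 * h 0 0 + g 1 1 * h 1 0 := by
  rw [Matrix.SpecialLinearGroup.coe_mul, Matrix.mul_apply, Fin.sum_univ_two]

theorem mulQ_11 (g h : SL(2, ℚ)) : (g * h : SL(2, ℚ)) 1 1 = g 1 0 * h 0 1 + g 1 1 * h 1 1 := by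
  rw [Matrix.SpecialLinearGroup.coe_mul, Matrix.mul_apply, Fin.sum_univ_two]

theorem invQ_00 (g : SL(2, ℚ)) : (g⁻¹ : SL(2, ℚ)) 0 0 = g 1 1 := by
  rw [Matrix.SpecialLinearGroup.coe_inv, Matrix.adjugate_fin_two]; rfl

theorem invQ_01 (g : SL(2, ℚ)) : (g⁻¹ : SL(2, ℚ)) 0 1 = - g 0 1 := by
  rw [Matrix.SpecialLinearGroup.coe_inv, Matrix.adjugate_fin_two]; rfl

theorem invQ_10 (g : SL(2, ℚ)) : (g⁻¹ : SL(2, ℚ)) 1 0 = - g 1 0 := by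
  rw [Matrix.SpecialLinearGroup.coe_inv, Matrix.adjugate_fin_two]; rfl

theorem invQ_11 (g : SL(2, ℚ)) : (g⁻¹ : SL(2, ℚ)) 1 1 = g 0 0 := by
  rw [Matrix.SpecialLinearGroup.coe_inv, Matrix.adjugate_fin_two]; rfl

/-- the four-elementary formula: `diag(u, u⁻¹) = L(u⁻¹ - 1) U(1) L(u - 1) U(-u⁻¹)`, with
`u = q ^ (2 n) = 1 + N z`, written with conjugates by `h = diag(q ^ n, q ^ (-n))` -/
theorem hd_sq_eq (hq : q ≠ 0) (n : ℕ) (z : ℤ) (hz : (q : ℤ) ^ (2 * n) - 1 = N * z) :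
    hd q hq n * hd q hq n
      = (hd q hq n * iota ((Ly N (-z) : Gamma0 N) : SL(2, ℤ)) * (hd q hq n)⁻¹)
        * iota ((Tz N 1 : Gamma0 N) : SL(2, ℤ)) * iota ((Ly N z : Gamma0 N) : SL(2, ℤ))
        * ((hd q hq n)⁻¹ * iota ((Tz N (-1) : Gamma0 N) : SL(2, ℤ)) * hd q hq n) := by
  have h0 : (q : ℚ) ^ n ≠ 0 := pow_ne_zero _ (by exact_mod_cast hq)
  have hz' : ((q : ℚ) ^ n) ^ 2 - 1 = N * z := by
    have := congrArg (Int.cast : ℤ → ℚ) hz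
    push_cast at this
    rw [← this]
    ring
  have hNz : (N : ℚ) * z = ((q : ℚ) ^ n) ^ 2 - 1 := hz'.symm
  apply sl2Q_ext
  · simp only [mulQ_00, mulQ_01, mulQ_10, mulQ_11, invQ_00, invQ_01, invQ_10, invQ_11, hd_00,
      hd_01, hd_10, hd_11, iota_apply, Tz_00, Tz_01, Tz_10, Tz_11, Ly_00, Ly_01, Ly_10, Ly_11]
    push_cast
    simp only [mul_neg]
    rw [hNz]
    field_simp
    ring
  · simp only [mulQ_00, mulQ_01, mulQ_10, mulQ_11, invQ_00, invQ_01, invQ_10, invQ_11, hd_00,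
      hd_01, hd_10, hd_11, iota_apply, Tz_00, Tz_01, Tz_10, Tz_11, Ly_00, Ly_01, Ly_10, Ly_11]
    push_cast
    simp only [mul_neg]
    rw [hNz]
    field_simp
    ring
  · simp only [mulQ_00, mulQ_01, mulQ_10, mulQ_11, invQ_00, invQ_01, invQ_10, invQ_11, hd_00,
      hd_01, hd_10, hd_11, iota_apply, Tz_00, Tz_01, Tz_10, Tz_11, Ly_00, Ly_01, Ly_10, Ly_11]
    push_cast
    simp only [mul_neg]
    rw [hNz]
    field_simp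
    ring
  · simp only [mulQ_00, mulQ_01, mulQ_10, mulQ_11, invQ_00, invQ_01, invQ_10, invQ_11, hd_00,
      hd_01, hd_10, hd_11, iota_apply, Tz_00, Tz_01, Tz_10, Tz_11, Ly_00, Ly_01, Ly_10, Ly_11]
    push_cast
    simp only [mul_neg]
    rw [hNz]
    field_simp
    ring

/-- `Φ(diag(u, u⁻¹)) = 0` for `u = q ^ (2 n) ≡ 1 mod N` -/
theorem PhiX_hd_sq {Φ : Additive (Delta N q) →+ A} {c₁ : Additive (Gamma0 N) →+ A}
    (hpar : IsParabolicHom (Gamma0 N) c₁)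
    (hΦ : ∀ γ : Gamma0 N, Φ (Additive.ofMul ⟨iota (γ : SL(2, ℤ)), iota_mem_Delta γ⟩)
      = c₁ (Additive.ofMul γ)) (hq : q ≠ 0) (n : ℕ) (hn : (N : ℤ) ∣ (q : ℤ) ^ (2 * n) - 1) :
    PhiX Φ (hd q hq n * hd q hq n) = 0 := by
  obtain ⟨z, hz⟩ := hn
  have hh : hd q hq n ∈ Delta N q := hd_mem hq n
  have hi : ∀ γ : Gamma0 N, iota (γ : SL(2, ℤ)) ∈ Delta N q := fun γ => iota_mem_Delta γ
  have hm1 : hd q hq n * iota ((Ly N (-z) : Gamma0 N) : SL(2, ℤ)) * (hd q hq n)⁻¹ ∈ Delta N q :=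
    mul_mem (mul_mem hh (hi _)) (inv_mem hh)
  have hm2 : (hd q hq n)⁻¹ * iota ((Tz N (-1) : Gamma0 N) : SL(2, ℤ)) * hd q hq n ∈ Delta N q :=
    mul_mem (mul_mem (inv_mem hh) (hi _)) hh
  rw [hd_sq_eq hq n z hz, PhiX_mul Φ (mul_mem (mul_mem hm1 (hi _)) (hi _)) hm2,
    PhiX_mul Φ (mul_mem hm1 (hi _)) (hi _), PhiX_mul Φ hm1 (hi _), PhiX_conj' Φ (hi _) hh,
    PhiX_conj Φ (hi _) hh, PhiX_iota hΦ, PhiX_iota hΦ, PhiX_iota hΦ, PhiX_iota hΦ,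
    c1_Ly hpar, c1_Ly hpar, c1_Tz hpar, c1_Tz hpar]
  simp

/-- the matrix identity behind (Q) -/
theorem iota_mul_conj_eq (hq : q ≠ 0) (n : ℕ) (γ γ' : Gamma0 N)
    (h00 : (γ' : SL(2, ℤ)) 0 0 = (q : ℤ) ^ (2 * n) * (γ : SL(2, ℤ)) 0 0)
    (h10 : (γ' : SL(2, ℤ)) 1 0 = (γ : SL(2, ℤ)) 1 0) :
    iota (γ' : SL(2, ℤ)) * ((hd q hq n)⁻¹ * iota ((Tz N ((q : ℤ) ^ (2 * n) * (γ' : SL(2, ℤ)) 1 1
        * (γ : SL(2, ℤ)) 0 1 - (γ' : SL(2, ℤ)) 0 1 * (γ : SL(2, ℤ)) 1 1) : Gamma0 N) : SL(2, ℤ))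
        * hd q hq n)
      = hd q hq n * iota (γ : SL(2, ℤ)) * hd q hq n := by
  have h0 : (q : ℚ) ^ n ≠ 0 := pow_ne_zero _ (by exact_mod_cast hq)
  have e00 : (((γ' : SL(2, ℤ)) 0 0 : ℤ) : ℚ) = ((q : ℚ) ^ n) ^ 2 * (((γ : SL(2, ℤ)) 0 0 : ℤ) : ℚ) := by
    have := congrArg (Int.cast : ℤ → ℚ) h00
    push_cast at this
    rw [this]
    ring
  have e10 : (((γ' : SL(2, ℤ)) 1 0 : ℤ) : ℚ) = (((γ : SL(2, ℤ)) 1 0 : ℤ) : ℚ) := by
    rw [h10]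
  have d1 : (((γ : SL(2, ℤ)) 0 0 : ℤ) : ℚ) * (((γ : SL(2, ℤ)) 1 1 : ℤ) : ℚ)
      - (((γ : SL(2, ℤ)) 0 1 : ℤ) : ℚ) * (((γ : SL(2, ℤ)) 1 0 : ℤ) : ℚ) = 1 := by
    have := congrArg (Int.cast : ℤ → ℚ) (det_eq_one (γ : SL(2, ℤ)))
    push_cast at this
    exact this
  have d2 : ((q : ℚ) ^ n) ^ 2 * (((γ : SL(2, ℤ)) 0 0 : ℤ) : ℚ) * (((γ' : SL(2, ℤ)) 1 1 : ℤ) : ℚ)
      - (((γ' : SL(2, ℤ)) 0 1 : ℤ) : ℚ) * (((γ : SL(2, ℤ)) 1 0 : ℤ) : ℚ) = 1 := by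
    have := congrArg (Int.cast : ℤ → ℚ) (det_eq_one (γ' : SL(2, ℤ)))
    push_cast at this
    rw [e00, e10] at this
    exact this
  have hpow : ((q : ℚ)) ^ (2 * n) = ((q : ℚ) ^ n) ^ 2 := by ring
  apply sl2Q_ext
  · simp only [mulQ_00, mulQ_01, mulQ_10, mulQ_11, invQ_00, invQ_01, invQ_10, invQ_11, hd_00,
      hd_01, hd_10, hd_11, iota_apply, Tz_00, Tz_01, Tz_10, Tz_11]
    push_cast
    rw [e00, hpow]
    field_simp
    ring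
  · simp only [mulQ_00, mulQ_01, mulQ_10, mulQ_11, invQ_00, invQ_01, invQ_10, invQ_11, hd_00,
      hd_01, hd_10, hd_11, iota_apply, Tz_00, Tz_01, Tz_10, Tz_11]
    push_cast
    rw [e00, hpow]
    field_simp
    linear_combination ((q : ℚ) ^ n * (((γ : SL(2, ℤ)) 0 1 : ℤ) : ℚ)) * d2
      - ((q : ℚ) ^ n * (((γ' : SL(2, ℤ)) 0 1 : ℤ) : ℚ)) * d1
  · simp only [mulQ_00, mulQ_01, mulQ_10, mulQ_11, invQ_00, invQ_01, invQ_10, invQ_11, hd_00,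
      hd_01, hd_10, hd_11, iota_apply, Tz_00, Tz_01, Tz_10, Tz_11]
    push_cast
    rw [e10, hpow]
    field_simp
    ring
  · simp only [mulQ_00, mulQ_01, mulQ_10, mulQ_11, invQ_00, invQ_01, invQ_10, invQ_11, hd_00,
      hd_01, hd_10, hd_11, iota_apply, Tz_00, Tz_01, Tz_10, Tz_11]
    push_cast
    rw [e10, hpow]
    field_simp
    linear_combination ((((γ : SL(2, ℤ)) 1 1 : ℤ) : ℚ)) * d2
      - (((q : ℚ) ^ n) ^ 2 * (((γ' : SL(2, ℤ)) 1 1 : ℤ) : ℚ)) * d1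

/-- **(Q), elementwise**: if `γ'` has first column `(q ^ (2 n) a, c)` and `γ` has first column
`(a, c)`, and `q ^ (2 n) ≡ 1 mod N`, then `c₁ γ' = c₁ γ`. -/
theorem c1_eq_of_qpow {Φ : Additive (Delta N q) →+ A} {c₁ : Additive (Gamma0 N) →+ A}
    (hpar : IsParabolicHom (Gamma0 N) c₁)
    (hΦ : ∀ γ : Gamma0 N, Φ (Additive.ofMul ⟨iota (γ : SL(2, ℤ)), iota_mem_Delta γ⟩)
      = c₁ (Additive.ofMul γ)) (hq : q ≠ 0) (n : ℕ) (hn : (N : ℤ) ∣ (q : ℤ) ^ (2 * n) - 1)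
    (γ γ' : Gamma0 N)
    (h00 : (γ' : SL(2, ℤ)) 0 0 = (q : ℤ) ^ (2 * n) * (γ : SL(2, ℤ)) 0 0)
    (h10 : (γ' : SL(2, ℤ)) 1 0 = (γ : SL(2, ℤ)) 1 0) :
    c₁ (Additive.ofMul γ') = c₁ (Additive.ofMul γ) := by
  have hh : hd q hq n ∈ Delta N q := hd_mem hq n
  have hi : ∀ γ : Gamma0 N, iota (γ : SL(2, ℤ)) ∈ Delta N q := fun γ => iota_mem_Delta γ
  have key := congrArg (PhiX Φ) (iota_mul_conj_eq hq n γ γ' h00 h10)
  rw [PhiX_mul Φ (hi _) (mul_mem (mul_mem (inv_mem hh) (hi _)) hh), PhiX_conj Φ (hi _) hh,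
    PhiX_iota hΦ, PhiX_iota hΦ, c1_Tz hpar, add_zero] at key
  have h2 : hd q hq n * iota (γ : SL(2, ℤ)) * hd q hq n
      = (hd q hq n * hd q hq n) * ((hd q hq n)⁻¹ * iota (γ : SL(2, ℤ)) * hd q hq n) := by
    group
  rw [h2, PhiX_mul Φ (mul_mem hh hh) (mul_mem (mul_mem (inv_mem hh) (hi _)) hh),
    PhiX_hd_sq hpar hΦ hq n hn, PhiX_conj Φ (hi _) hh, PhiX_iota hΦ, zero_add] at key
  exact key

/-- **(Q)**: `S c₁ (q ^ (2 n) a) c = S c₁ a c` if `q ^ (2 n) ≡ 1 mod N` and `q` is prime to `c`,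
for a parabolic `c₁` which extends to a homomorphism `Φ` on `Γ₀(N)[1/q]`. -/
theorem S_qpow {Φ : Additive (Delta N q) →+ A} {c₁ : Additive (Gamma0 N) →+ A}
    (hpar : IsParabolicHom (Gamma0 N) c₁)
    (hΦ : ∀ γ : Gamma0 N, Φ (Additive.ofMul ⟨iota (γ : SL(2, ℤ)), iota_mem_Delta γ⟩)
      = c₁ (Additive.ofMul γ)) (hq : q ≠ 0) (n : ℕ) (hn : (N : ℤ) ∣ (q : ℤ) ^ (2 * n) - 1)
    (a c : ℤ) (hqc : IsCoprime (q : ℤ) c) :
    S c₁ ((q : ℤ) ^ (2 * n) * a) c = S c₁ a c := by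
  by_cases h : IsCoprime a c ∧ (N : ℤ) ∣ c
  · obtain ⟨γ, ha, hc⟩ := exists_col h.1 h.2
    have h' : IsCoprime ((q : ℤ) ^ (2 * n) * a) c := IsCoprime.mul_left hqc.pow_left h.1
    obtain ⟨γ', ha', hc'⟩ := exists_col (N := N) h' h.2
    rw [S_eq' hpar γ ha hc, S_eq' hpar γ' ha' hc']
    exact c1_eq_of_qpow hpar hΦ hq n hn γ γ' (by rw [ha', ha]) (by rw [hc', hc])
  · rw [S_eq_zero_of_not c₁ h, S_eq_zero_of_not]
    rintro ⟨h1, h2⟩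
    exact h ⟨IsCoprime.of_mul_left_right h1, h2⟩

/-- **(Q), congruence form** (lead's statement): if `a' ≡ q ^ (2 n) a mod c` then
`S c₁ a' c = S c₁ a c`. -/
theorem S_qpow_congr {Φ : Additive (Delta N q) →+ A} {c₁ : Additive (Gamma0 N) →+ A}
    (hpar : IsParabolicHom (Gamma0 N) c₁)
    (hΦ : ∀ γ : Gamma0 N, Φ (Additive.ofMul ⟨iota (γ : SL(2, ℤ)), iota_mem_Delta γ⟩)
      = c₁ (Additive.ofMul γ)) (hq : q ≠ 0) (n : ℕ) (hn : (N : ℤ) ∣ (q : ℤ) ^ (2 * n) - 1)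
    {a a' c : ℤ} (hqc : IsCoprime (q : ℤ) c) (h : c ∣ a' - (q : ℤ) ^ (2 * n) * a) :
    S c₁ a' c = S c₁ a c := by
  rw [S_congr_left hpar h, S_qpow hpar hΦ hq n hn a c hqc]

/-! ## The second component -/

/-- conjugation by `δ = diag(q, 1)` preserves `Γ₀(N)[1/q]` -/
theorem conjD_mem_Delta (hq : q ≠ 0) {g : SL(2, ℚ)} (hg : g ∈ Delta N q) :
    conjD q hq g ∈ Delta N q := by
  obtain ⟨k, M, hM, hN⟩ := hg
  refine ⟨k + 1, !![(q : ℤ) * M 0 0, M 0 1; (q : ℤ) ^ 2 * M 1 0, (q : ℤ) * M 1 1], ?_, ?_⟩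
  · have h := fun i j => congrFun (congrFun hM i) j
    simp only [cst_apply, Matrix.smul_apply, smul_eq_mul] at h
    have hq0 : (q : ℚ) ≠ 0 := by exact_mod_cast hq
    ext i j
    fin_cases i <;> fin_cases j
    · show ((((q : ℤ) * M 0 0 : ℤ)) : ℚ) = (q : ℚ) ^ (k + 1) * (conjD q hq g) 0 0
      rw [conjD_00]
      push_cast
      rw [h 0 0]
      ring
    · show (((M 0 1 : ℤ)) : ℚ) = (q : ℚ) ^ (k + 1) * (conjD q hq g) 0 1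
      rw [conjD_01, h 0 1]
      field_simp
      ring
    · show ((((q : ℤ) ^ 2 * M 1 0 : ℤ)) : ℚ) = (q : ℚ) ^ (k + 1) * (conjD q hq g) 1 0
      rw [conjD_10]
      push_cast
      rw [h 1 0]
      ring
    · show ((((q : ℤ) * M 1 1 : ℤ)) : ℚ) = (q : ℚ) ^ (k + 1) * (conjD q hq g) 1 1
      rw [conjD_11]
      push_cast
      rw [h 1 1]
      ring
  · show (N : ℤ) ∣ (q : ℤ) ^ 2 * M 1 0
    exact Dvd.dvd.mul_left hN _

/-- conjugation by `δ` as an endomorphism of `Γ₀(N)[1/q]` -/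
def conjDelta (N : ℕ) (q : ℕ) (hq : q ≠ 0) : Delta N q →* Delta N q :=
  MonoidHom.codRestrict ((conjD q hq).comp (Delta N q).subtype) (Delta N q)
    (fun g => conjD_mem_Delta hq g.2)

theorem conjDelta_coe (hq : q ≠ 0) (g : Delta N q) :
    ((conjDelta N q hq g : Delta N q) : SL(2, ℚ)) = conjD q hq (g : SL(2, ℚ)) := rfl

/-- **the homomorphisms for both components**: a pair `(c₁, c₂)` with the kernel condition
(`α* c₁ + β* c₂ = 0`) gives homomorphisms `Φ₁`, `Φ₂` on `Γ₀(N)[1/q]` extending `c₁`, `c₂`. -/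
theorem exists_hom_pair (hq : q.Prime) (hqN : Nat.Coprime N q)
    (c₁ c₂ : Additive (Gamma0 N) →+ A) (hker : KerCond q c₁ c₂ hq.ne_zero) :
    ∃ Φ₁ Φ₂ : Additive (Delta N q) →+ A,
      (∀ γ : Gamma0 N, Φ₁ (Additive.ofMul ⟨iota (γ : SL(2, ℤ)), iota_mem_Delta γ⟩)
        = c₁ (Additive.ofMul γ)) ∧
      (∀ γ : Gamma0 N, Φ₂ (Additive.ofMul ⟨iota (γ : SL(2, ℤ)), iota_mem_Delta γ⟩)
        = c₂ (Additive.ofMul γ)) := by
  obtain ⟨Φ, h1, h2⟩ := exists_hom hq hqN c₁ c₂ hker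
  refine ⟨Φ, - (Φ.comp (MonoidHom.toAdditive (conjDelta N q hq.ne_zero))), h1, ?_⟩
  intro γ
  rw [AddMonoidHom.neg_apply, AddMonoidHom.comp_apply]
  have : (MonoidHom.toAdditive (conjDelta N q hq.ne_zero))
      (Additive.ofMul ⟨iota (γ : SL(2, ℤ)), iota_mem_Delta γ⟩)
      = Additive.ofMul ⟨conjD q hq.ne_zero (iota (γ : SL(2, ℤ))),
          conjD_iota_mem_Delta hq.ne_zero γ⟩ := rfl
  rw [this, h2, neg_neg]

/-- the second component of a pair with the kernel condition extends to `Γ₀(N)[1/q]` -/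
theorem exists_hom_snd (hq : q.Prime) (hqN : Nat.Coprime N q)
    (c₁ c₂ : Additive (Gamma0 N) →+ A) (hker : KerCond q c₁ c₂ hq.ne_zero) :
    ∃ Φ₂ : Additive (Delta N q) →+ A,
      ∀ γ : Gamma0 N, Φ₂ (Additive.ofMul ⟨iota (γ : SL(2, ℤ)), iota_mem_Delta γ⟩)
        = c₂ (Additive.ofMul γ) := by
  obtain ⟨_, Φ₂, _, h2⟩ := exists_hom_pair hq hqN c₁ c₂ hker
  exact ⟨Φ₂, h2⟩

/-- **(Q) for both components** of a pair in the kernel of `α* + β*` -/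
theorem S_qpow_of_kerCond (hq : q.Prime) (hqN : Nat.Coprime N q)
    {c₁ c₂ : Additive (Gamma0 N) →+ A} (hpar₁ : IsParabolicHom (Gamma0 N) c₁)
    (hpar₂ : IsParabolicHom (Gamma0 N) c₂) (hker : KerCond q c₁ c₂ hq.ne_zero)
    (n : ℕ) (hn : (N : ℤ) ∣ (q : ℤ) ^ (2 * n) - 1) (a c : ℤ) (hqc : IsCoprime (q : ℤ) c) :
    S c₁ ((q : ℤ) ^ (2 * n) * a) c = S c₁ a c ∧ S c₂ ((q : ℤ) ^ (2 * n) * a) c = S c₂ a c := by
  obtain ⟨Φ₁, Φ₂, h1, h2⟩ := exists_hom_pair hq hqN c₁ c₂ hker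
  exact ⟨S_qpow hpar₁ h1 hq.ne_zero n hn a c hqc, S_qpow hpar₂ h2 hq.ne_zero n hn a c hqc⟩

end Fermat.Agent.S41.RH
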