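import Mathlib
import Fermat.Agent.S41.RHSymQ
import Fermat.Agent.S41.RHCoreAbs
import Fermat.Agent.S41.RHHecke

/-!
# S41, Route H, piece H1c: the final statement `RH.apply_eq_zero`

A parabolic hom on `Γ₀(N)` which extends to `Γ₀(N)[1/q]` and is a `T_ℓ`-eigenvector with
eigenvalue `lam`, `lam - 1 - ℓ` injective, vanishes at every `γ` with `γ₀₀ ∣ ℓ - 1`.
Inputs: (M1), (M2) (`RHSym`), (Q) (`RHSymQ`), (HE) (`RHHecke`), the arithmetic (`RHCoreAbs`).
-/

set_option autoImplicit false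

noncomputable section

open Matrix Matrix.SpecialLinearGroup CongruenceSubgroup
open scoped MatrixGroups
open ModularCurve.Period
open Fermat.Agent.S29.D1

namespace Fermat.Agent.S41.RH

open Fermat.Agent.S41.P1a

/-- **Route H, piece H1 (final statement)**: a parabolic homomorphism `c` on `Γ₀(N)` which extends
to `Γ₀(N)[1/q]` and is an eigenvector of `T_ℓ` with an eigenvalue `lam` such that `lam - 1 - ℓ`
acts injectively, vanishes at every `γ` whose upper left entry divides `ℓ - 1`. -/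
theorem apply_eq_zero {N q : ℕ} (hq : q.Prime) (hqN : Nat.Coprime N q) {A : Type*}
    [AddCommGroup A]
    (c : Additive (Gamma0 N) →+ A) (hpar : IsParabolicHom (Gamma0 N) c)
    (Φ : Additive (Delta N q) →+ A)
    (hΦ : ∀ γ : Gamma0 N, Φ (Additive.ofMul ⟨iota (γ : SL(2, ℤ)), iota_mem_Delta γ⟩)
      = c (Additive.ofMul γ))
    {ℓ : ℕ} [Fact ℓ.Prime] (hℓN : ¬ ℓ ∣ N) (hℓq : ℓ ≠ q) (lam : ℤ)
    (hT : heckeHom A hℓN c = lam • c)
    (hunit : ∀ x : A, (lam - 1 - (ℓ : ℤ)) • x = 0 → x = 0)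
    (γ : Gamma0 N) (ha : ((γ : SL(2, ℤ)) 0 0) ∣ (ℓ : ℤ) - 1) : c (Additive.ofMul γ) = 0 := by
  rw [← S_eq hpar γ]
  refine core_eq_zero hq hqN hℓN hℓq (S c) lam (fun a a' c' h => S_congr_left hpar h)
    (fun a c' c'' h => S_congr_right hpar h)
    (fun n hn a c' hqc => S_qpow hpar hΦ hq.ne_zero n hn a c' hqc) ?_ hunit _ _
    (isCoprime_col γ) (dvd_col γ) ha
  intro a c' hac hNc hℓc
  obtain ⟨γ', rfl, rfl⟩ := exists_col hac hNc
  refine ⟨fun j => (j.val : ℤ), ?_⟩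
  rw [← heckeHom_eq_S hℓN hpar γ' hℓc, hT, S_eq hpar γ']
  rfl

end Fermat.Agent.S41.RH
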