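import Fermat.Agent.S41.NonEisGroup

/-!
# S41 (campaign 81), Route H, piece H2b: the group lemma for a normal subgroup

`V` a plane over `ZMod p` (`Nat.card V = p ^ 2`), `G` a group acting additively on `V`, `H` a
normal subgroup of `G` such that every `h ∈ H` fixes a nonzero vector.  Then `G` has a stable
line, or `H` acts trivially on `V`.

Proof.  `Fix(H)` is a `G`-stable subspace (`H` is normal).  If it is `V`, `H` acts trivially; if
it is a line, we are done.  If `Fix(H) = 0`: by P4G the group `H` has a common eigenvector `v`.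
For `g ∈ G` the vector `w = g v` is again a common eigenvector of `H`.  If `w ∉ span v`, then every
`h ∈ H` fixes `v` or fixes `w` (decompose a fixed vector of `h` in the basis `(v, w)`), so `H` is
the union of the stabilisers of `v` and of `w`; hence one of them is `H`, i.e. `v` or `w` lies in
`Fix(H) = 0`, which is absurd.  So `span v` is `G`-stable.
-/

set_option autoImplicit false
set_option linter.unusedSectionVars false
set_option linter.unusedVariables false
set_option linter.style.haveILetI false

namespace Fermat.Agent.S41.RH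

open Module

section H2b

variable {p : ℕ} [Fact p.Prime] {V : Type*} [AddCommGroup V] [Module (ZMod p) V]
  {G : Type*} [Group G] [DistribMulAction G V]

/-- the action of `g` is `ZMod p`-linear -/
lemma h2b_smul_zmod_smul (g : G) (c : ZMod p) (v : V) : g • (c • v) = c • (g • v) :=
  ((DistribSMul.toAddMonoidHom V g).toZModLinearMap p).map_smul c v

/-- the subspace of vectors fixed by all elements of `H` -/
def h2bFix (H : Subgroup G) : Submodule (ZMod p) V where
  carrier := {v | ∀ h ∈ H, h • v = v}
  add_mem' := by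
    intro a b ha hb h hh
    rw [smul_add, ha h hh, hb h hh]
  zero_mem' := by
    intro h hh
    exact smul_zero h
  smul_mem' := by
    intro c v hv h hh
    show h • (c • v) = c • v
    rw [h2b_smul_zmod_smul, hv h hh]

lemma mem_h2bFix {H : Subgroup G} {v : V} :
    v ∈ (h2bFix (p := p) H : Submodule (ZMod p) V) ↔ ∀ h ∈ H, h • v = v := Iff.rfl

/-- `Fix(H)` is stable under `G` when `H` is normal -/
lemma h2bFix_stable (H : Subgroup G) [H.Normal] (g : G) (v : V)
    (hv : v ∈ (h2bFix (p := p) H : Submodule (ZMod p) V)) :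
    g • v ∈ (h2bFix (p := p) H : Submodule (ZMod p) V) := by
  intro h hh
  have h1 : g⁻¹ * h * g ∈ H := by
    have := Subgroup.Normal.conj_mem (inferInstance : H.Normal) h hh g⁻¹
    simpa using this
  have h2 := hv _ h1
  calc h • g • v = g • ((g⁻¹ * h * g) • v) := by
        rw [← mul_smul, ← mul_smul]
        congr 1
        group
    _ = g • v := by rw [h2]

/-- the conjugation formula `h • g • v = g • (g⁻¹ h g) • v` -/
lemma h2b_conj_smul (g h : G) (v : V) : h • g • v = g • ((g⁻¹ * h * g) • v) := by
  rw [← mul_smul, ← mul_smul]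
  congr 1
  group

/-- **H2b.**  `H ⊲ G` acting on a plane over `𝔽_p`, every `h ∈ H` fixes a nonzero vector: then
`G` has a stable line or `H` acts trivially. -/
theorem exists_stable_line_or_trivial (hV : Nat.card V = p ^ 2) (H : Subgroup G) [H.Normal]
    (hfix : ∀ h ∈ H, ∃ v : V, v ≠ 0 ∧ h • v = v) :
    (∃ N : Submodule (ZMod p) V, N ≠ ⊥ ∧ N ≠ ⊤ ∧ ∀ g : G, ∀ v ∈ N, g • v ∈ N) ∨
      (∀ h ∈ H, ∀ v : V, h • v = v) := by
  have hp : p.Prime := Fact.out
  haveI : Finite V := Nat.finite_of_card_ne_zero (by rw [hV]; exact pow_ne_zero _ hp.ne_zero)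
  haveI : Module.Finite (ZMod p) V := Module.Finite.of_finite
  have hrank : finrank (ZMod p) V = 2 := by
    have h1 := Module.natCard_eq_pow_finrank (K := ZMod p) (V := V)
    rw [hV, Nat.card_zmod] at h1
    exact (Nat.pow_right_injective hp.two_le h1).symm
  by_cases htop : (h2bFix (p := p) H : Submodule (ZMod p) V) = ⊤
  · right
    intro h hh v
    have : v ∈ (h2bFix (p := p) H : Submodule (ZMod p) V) := by rw [htop]; trivial
    exact this h hh
  by_cases hbot : (h2bFix (p := p) H : Submodule (ZMod p) V) = ⊥
  swap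
  · left
    exact ⟨h2bFix H, hbot, htop, fun g v hv => h2bFix_stable H g v hv⟩
  left
  -- `Fix(H) = 0`: a common eigenvector of `H`
  let ρ : H →* Module.End (ZMod p) V :=
    { toFun := fun g => (DistribSMul.toAddMonoidHom V (g : G)).toZModLinearMap p
      map_one' := by
        ext v
        show (1 : G) • v = v
        exact one_smul G v
      map_mul' := fun g h => by
        ext v
        show ((g : G) * (h : G)) • v = (g : G) • (h : G) • v
        exact mul_smul (g : G) (h : G) v }
  have hρ : ∀ (g : H) v, ρ g v = (g : G) • v := fun g v => rfl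
  obtain ⟨v, hv, hstab⟩ := Fermat.Agent.S41.P4G.exists_common_eigenvector hrank ρ (fun g => by
    obtain ⟨v, hv, hgv⟩ := hfix (g : G) g.2
    exact ⟨v, hv, hgv⟩)
  have hstab' : ∀ h ∈ H, ∃ c : ZMod p, h • v = c • v := fun h hh => hstab ⟨h, hh⟩
  have hnofix : ∀ x : V, x ≠ 0 → ∃ h ∈ H, h • x ≠ x := by
    intro x hx
    by_contra hcon
    have : x ∈ (h2bFix (p := p) H : Submodule (ZMod p) V) := by
      intro h hh
      by_contra hne
      exact hcon ⟨h, hh, hne⟩
    rw [hbot, Submodule.mem_bot] at this
    exact hx this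
  -- the line spanned by `v` is stable under `G`
  have hkey : ∀ g : G, g • v ∈ Submodule.span (ZMod p) {v} := by
    intro g
    by_contra hg
    set w : V := g • v with hw
    have hw0 : w ≠ 0 := by
      intro h0
      apply hg
      rw [h0]
      exact Submodule.zero_mem _
    have hwstab : ∀ h ∈ H, ∃ c : ZMod p, h • w = c • w := by
      intro h hh
      have h1 : g⁻¹ * h * g ∈ H := by
        have := Subgroup.Normal.conj_mem (inferInstance : H.Normal) h hh g⁻¹
        simpa using this
      obtain ⟨c, hc⟩ := hstab' _ h1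
      refine ⟨c, ?_⟩
      rw [hw, h2b_conj_smul, hc, h2b_smul_zmod_smul]
    have hli : LinearIndependent (ZMod p) ![v, w] := by
      rw [LinearIndependent.pair_iff' hv]
      intro c hc
      exact hg (Submodule.mem_span_singleton.2 ⟨c, hc⟩)
    let b : Basis (Fin 2) (ZMod p) V := basisOfLinearIndependentOfCardEqFinrank hli (by simp [hrank])
    have hb0 : b 0 = v := by simp [b]
    have hb1 : b 1 = w := by simp [b]
    -- every `h ∈ H` fixes `v` or `w`
    have hor : ∀ h ∈ H, h • v = v ∨ h • w = w := by
      intro h hh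
      obtain ⟨x, hx0, hx⟩ := hfix h hh
      obtain ⟨c, hc⟩ := hstab' h hh
      obtain ⟨c', hc'⟩ := hwstab h hh
      have hxe := Fermat.Agent.S41.P4G.eq_pair b x
      rw [hb0, hb1] at hxe
      set s := b.repr x 0 with hs
      set t := b.repr x 1 with ht
      have hhx : h • x = (s * c) • v + (t * c') • w := by
        conv_lhs => rw [hxe]
        rw [smul_add, h2b_smul_zmod_smul, h2b_smul_zmod_smul, hc, hc', smul_smul, smul_smul]
      rw [hx] at hhx
      have e0 : s = s * c := by
        have h5 : b.repr x 0 = b.repr ((s * c) • b 0 + (t * c') • b 1) 0 := by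
          rw [hb0, hb1, ← hhx]
        rw [(Fermat.Agent.S41.P4G.repr_pair b (s * c) (t * c')).1] at h5
        exact h5
      have e1 : t = t * c' := by
        have h5 : b.repr x 1 = b.repr ((s * c) • b 0 + (t * c') • b 1) 1 := by
          rw [hb0, hb1, ← hhx]
        rw [(Fermat.Agent.S41.P4G.repr_pair b (s * c) (t * c')).2] at h5
        exact h5
      by_cases hs0 : s = 0
      · have ht0 : t ≠ 0 := by
          intro ht0
          apply hx0
          rw [hxe, hs0, ht0, zero_smul, zero_smul, add_zero]
        right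
        have : c' = 1 := by
          have h3 : t * c' = t * 1 := by rw [mul_one]; exact e1.symm
          exact mul_left_cancel₀ ht0 h3
        rw [hc', this, one_smul]
      · left
        have : c = 1 := by
          have h3 : s * c = s * 1 := by rw [mul_one]; exact e0.symm
          exact mul_left_cancel₀ hs0 h3
        rw [hc, this, one_smul]
    obtain ⟨h₁, hh₁, hne₁⟩ := hnofix v hv
    obtain ⟨h₂, hh₂, hne₂⟩ := hnofix w hw0
    have hf₁ : h₁ • w = w := (hor h₁ hh₁).resolve_left hne₁
    have hf₂ : h₂ • v = v := (hor h₂ hh₂).resolve_right hne₂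
    rcases hor (h₁ * h₂) (H.mul_mem hh₁ hh₂) with h3 | h3
    · rw [mul_smul, hf₂] at h3
      exact hne₁ h3
    · rw [mul_smul] at h3
      apply hne₂
      have h4 : h₁⁻¹ • (h₁ • h₂ • w) = h₁⁻¹ • w := by rw [h3]
      rw [inv_smul_smul] at h4
      calc h₂ • w = h₁⁻¹ • w := h4
        _ = h₁⁻¹ • (h₁ • w) := by rw [hf₁]
        _ = w := inv_smul_smul _ _
  refine ⟨Submodule.span (ZMod p) {v}, ?_, ?_, ?_⟩
  · intro h
    have : v ∈ Submodule.span (ZMod p) {v} := Submodule.mem_span_singleton_self v
    rw [h, Submodule.mem_bot] at this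
    exact hv this
  · intro h
    have h1 := finrank_span_singleton (K := ZMod p) hv
    rw [h, finrank_top, hrank] at h1
    omega
  · intro g x hx
    rw [Submodule.mem_span_singleton] at hx
    obtain ⟨t, rfl⟩ := hx
    rw [h2b_smul_zmod_smul]
    exact Submodule.smul_mem _ t (hkey g)

/-- **H2b, contrapositive form.**  If `G` has no stable line, then a normal subgroup `H` acts
trivially on `V` or contains an element without nonzero fixed vector. -/
theorem exists_no_fixed_or_trivial (hV : Nat.card V = p ^ 2) (H : Subgroup G) [H.Normal]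
    (hirr : ¬ ∃ N : Submodule (ZMod p) V, N ≠ ⊥ ∧ N ≠ ⊤ ∧ ∀ g : G, ∀ v ∈ N, g • v ∈ N) :
    (∃ h ∈ H, ∀ v : V, h • v = v → v = 0) ∨ (∀ h ∈ H, ∀ v : V, h • v = v) := by
  by_cases hex : ∃ h ∈ H, ∀ v : V, h • v = v → v = 0
  · exact Or.inl hex
  · right
    have hfix : ∀ h ∈ H, ∃ v : V, v ≠ 0 ∧ h • v = v := by
      intro h hh
      by_contra hcon
      apply hex
      refine ⟨h, hh, fun v hv => ?_⟩
      by_contra hv0
      exact hcon ⟨v, hv0, hv⟩
    exact (exists_stable_line_or_trivial hV H hfix).resolve_left hirr

/-- **H2b for two normal subgroups generating `G`.**  If `G` has no stable line and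
`H₁ ⊔ H₂ = ⊤` with `H₁, H₂` normal, then `H₁` or `H₂` contains an element without nonzero fixed
vector (`V ≠ 0` has a line, so `G` cannot act trivially). -/
theorem exists_no_fixed_of_sup_eq_top (hV : Nat.card V = p ^ 2) (H₁ H₂ : Subgroup G)
    [H₁.Normal] [H₂.Normal] (hsup : H₁ ⊔ H₂ = ⊤)
    (hirr : ¬ ∃ N : Submodule (ZMod p) V, N ≠ ⊥ ∧ N ≠ ⊤ ∧ ∀ g : G, ∀ v ∈ N, g • v ∈ N) :
    (∃ h ∈ H₁, ∀ v : V, h • v = v → v = 0) ∨ (∃ h ∈ H₂, ∀ v : V, h • v = v → v = 0) := by
  have hp : p.Prime := Fact.out
  rcases exists_no_fixed_or_trivial hV H₁ hirr with h1 | h1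
  · exact Or.inl h1
  rcases exists_no_fixed_or_trivial hV H₂ hirr with h2 | h2
  · exact Or.inr h2
  exfalso
  -- `G` acts trivially
  have htriv : ∀ g : G, ∀ v : V, g • v = v := by
    intro g
    have hg : g ∈ H₁ ⊔ H₂ := by rw [hsup]; trivial
    let K : Subgroup G :=
      { carrier := {g | ∀ v : V, g • v = v}
        one_mem' := fun v => one_smul G v
        mul_mem' := by
          intro a b ha hb v
          rw [mul_smul, hb v, ha v]
        inv_mem' := by
          intro a ha v
          conv_lhs => rw [← ha v]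
          rw [inv_smul_smul] }
    have hle : H₁ ⊔ H₂ ≤ K := sup_le (fun h hh => h1 h hh) (fun h hh => h2 h hh)
    exact hle hg
  -- then every line is stable
  haveI : Finite V := Nat.finite_of_card_ne_zero (by rw [hV]; exact pow_ne_zero _ hp.ne_zero)
  haveI : Module.Finite (ZMod p) V := Module.Finite.of_finite
  have hrank : finrank (ZMod p) V = 2 := by
    have h1 := Module.natCard_eq_pow_finrank (K := ZMod p) (V := V)
    rw [hV, Nat.card_zmod] at h1
    exact (Nat.pow_right_injective hp.two_le h1).symm
  haveI : Nontrivial V := Module.nontrivial_of_finrank_pos (R := ZMod p) (by omega)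
  obtain ⟨v, hv⟩ := exists_ne (0 : V)
  apply hirr
  refine ⟨Submodule.span (ZMod p) {v}, ?_, ?_, ?_⟩
  · intro h
    have : v ∈ Submodule.span (ZMod p) {v} := Submodule.mem_span_singleton_self v
    rw [h, Submodule.mem_bot] at this
    exact hv this
  · intro h
    have h1 := finrank_span_singleton (K := ZMod p) hv
    rw [h, finrank_top, hrank] at h1
    omega
  · intro g x hx
    rw [htriv g x]
    exact hx

end H2b

end Fermat.Agent.S41.RH
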