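import Fermat.Agent.S41.RHDens
import Fermat.Agent.S41.RHGroup

/-!
# S41 (campaign 81), Route H, piece H2: good primes `ℓ ≡ 1 mod a` at which the system
`a_ℓ(W) mod p` of a curve with irreducible `E[p]` is not Eisenstein

For an integral model `W` of an elliptic curve `E` over `ℚ` with irreducible `E[p]` (`p` an odd
prime), every finite set `S` of primes and coprime nonzero integers `a'`, `a''` there is a prime
`ℓ ∉ S`, `ℓ ≠ p`, of good reduction with `a_ℓ(W) ≢ 1 + ℓ mod p` and `ℓ ≡ 1` modulo `a'` or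
modulo `a''`.
-/

set_option autoImplicit false
set_option linter.style.haveILetI false

namespace Fermat.Agent.S41.RH

open WeierstrassCurve WeierstrassCurve.Affine.Point

theorem normalLine {p : ℕ} (hp : p.Prime) : NormalLine p := by
  intro V _ _ hV G _ _ H _ hfix
  haveI : Fact p.Prime := ⟨hp⟩
  exact exists_stable_line_or_trivial hV H hfix

/-- **H2** (prime supply of Route H). -/
theorem exists_prime_dvd_sub_one (E : WeierstrassCurve ℚ) [E.IsElliptic]
    {W : WeierstrassCurve ℤ} (hW : W.IsIntegralModelOf E) {p : ℕ} (hp : p.Prime) (hp2 : p ≠ 2)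
    (hirr : GaloisRepIsIrreducible (K := AlgebraicClosure ℚ) ℚ E p)
    (S : Finset ℕ) (a' a'' : ℤ) (ha' : a' ≠ 0) (ha'' : a'' ≠ 0) (hcop : IsCoprime a' a'') :
    ∃ ℓ : ℕ, ℓ.Prime ∧ ℓ ∉ S ∧ ℓ ≠ p ∧ W.IsGoodPrimeFor ℓ ∧
      ¬ (p : ℤ) ∣ W.apOfModel ℓ - (1 + ℓ) ∧ (a' ∣ (ℓ : ℤ) - 1 ∨ a'' ∣ (ℓ : ℤ) - 1) :=
  exists_prime_dvd_sub_one_of E hW hp hp2 (normalLine hp) hirr S a' a'' ha' ha'' hcop

end Fermat.Agent.S41.RH
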