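import Mathlib

/-!
# S41, piece P1b (congruence subgroup property, abelianised): the abstract symbol

`Sym N q A` is the abstract form of a homomorphism `Φ : Γ₀(N)[1/q] → A` that vanishes on the
elements of trace `2` of `Γ₀(N)`: `S a c` is the value of `Φ` on an element of `Γ₀(N)` with first
column `(a, c)`.  The hard part of P1b only uses the four rules below.
-/

set_option autoImplicit false

namespace Fermat.Agent.S41.P1b

/-- the abstract symbol of a homomorphism on `Γ₀(N)[1/q]` that kills the trace `2` elements of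
`Γ₀(N)` -/
structure Sym (N q : ℕ) (A : Type*) [AddCommGroup A] where
  /-- the value on a matrix with first column `(a, c)` -/
  S : ℤ → ℤ → A
  /-- twice the value on `diag(q, q⁻¹)` -/
  τ : A
  /-- multiplicativity -/
  hH : ∀ a₁ b₁ c₁ d₁ a₂ c₂ : ℤ, a₁ * d₁ - b₁ * c₁ = 1 → (N : ℤ) ∣ c₁ → (N : ℤ) ∣ c₂ →
    IsCoprime a₂ c₂ → S (a₁ * a₂ + b₁ * c₂) (c₁ * a₂ + d₁ * c₂) = S a₁ c₁ + S a₂ c₂
  /-- the matrices of trace `2` -/
  hU : ∀ a c : ℤ, (N : ℤ) ∣ c → IsCoprime a c → c ∣ (a - 1) ^ 2 → S a c = 0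
  /-- conjugation by `diag(q, q⁻¹)` -/
  hC : ∀ a c : ℤ, (N : ℤ) ∣ c → IsCoprime a ((q : ℤ) * c) → S a ((q : ℤ) ^ 2 * c) = S a c
  /-- multiplication by `diag(q, q⁻¹)` on both sides -/
  hD : ∀ a c : ℤ, (N : ℤ) ∣ c → IsCoprime ((q : ℤ) * a) c → S ((q : ℤ) ^ 2 * a) c = S a c + τ

namespace Sym

variable {N q : ℕ} {A : Type*} [AddCommGroup A]

theorem S_one_zero (T : Sym N q A) : T.S 1 0 = 0 :=
  T.hU 1 0 (dvd_zero _) isCoprime_one_left (by simp)

theorem S_one (T : Sym N q A) (c : ℤ) (hc : (N : ℤ) ∣ c) : T.S 1 c = 0 :=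
  T.hU 1 c hc isCoprime_one_left (by simp)

/-- (M1) -/
theorem M1 (T : Sym N q A) (a c z : ℤ) (hc : (N : ℤ) ∣ c) (hac : IsCoprime a c) :
    T.S (a + z * c) c = T.S a c := by
  have h := T.hH 1 z 0 1 a c (by ring) (dvd_zero _) hc hac
  rw [T.S_one_zero, zero_add] at h
  rw [← h]
  congr 1 <;> ring

/-- (M2) -/
theorem M2 (T : Sym N q A) (a c y : ℤ) (hc : (N : ℤ) ∣ c) (hac : IsCoprime a c) :
    T.S a (c + y * N * a) = T.S a c := by
  have h := T.hH 1 0 (y * N) 1 a c (by ring) (Dvd.intro_left y rfl) hc hac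
  rw [T.S_one (y * N) (Dvd.intro_left y rfl), zero_add] at h
  rw [← h]
  congr 1 <;> ring

/-- the symbol only depends on `a` modulo `c` -/
theorem congr_left (T : Sym N q A) {a a' c : ℤ} (hc : (N : ℤ) ∣ c) (hac : IsCoprime a c)
    (h : a' ≡ a [ZMOD c]) : T.S a' c = T.S a c := by
  obtain ⟨z, hz⟩ := h.symm.dvd
  have : a' = a + z * c := by linarith
  rw [this]
  exact T.M1 a c z hc hac

/-- the symbol only depends on `c` modulo `N a` -/
theorem congr_right (T : Sym N q A) {a c c' : ℤ} (hc : (N : ℤ) ∣ c) (hac : IsCoprime a c)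
    (h : c' ≡ c [ZMOD (N * a)]) : T.S a c' = T.S a c := by
  obtain ⟨y, hy⟩ := h.symm.dvd
  have : c' = c + y * N * a := by linarith
  rw [this]
  exact T.M2 a c y hc hac

theorem two_nsmul_S_neg_one (T : Sym N q A) : (2 : ℕ) • T.S (-1) 0 = 0 := by
  have h := T.hH (-1) 0 0 (-1) (-1) 0 (by ring) (dvd_zero _) (dvd_zero _)
    (isCoprime_one_left (x := (0 : ℤ))).neg_left
  have e1 : (-1 : ℤ) * -1 + 0 * 0 = 1 := by ring
  have e2 : (0 : ℤ) * -1 + -1 * 0 = 0 := by ring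
  rw [e1, e2, T.S_one_zero] at h
  rw [two_nsmul]
  exact h.symm

/-- the torsion hypothesis used everywhere: `A` is killed by an odd number -/
theorem eq_zero_of_two_nsmul {p : ℕ} (hp : Odd p) (hA : ∀ x : A, p • x = 0) {x : A}
    (h : (2 : ℕ) • x = 0) : x = 0 := by
  obtain ⟨m, hm⟩ := hp
  have h1 := hA x
  rw [hm, add_nsmul, mul_nsmul, one_nsmul, h, nsmul_zero, zero_add] at h1
  exact h1

theorem S_neg_one (T : Sym N q A) {p : ℕ} (hp : Odd p) (hA : ∀ x : A, p • x = 0) :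
    T.S (-1) 0 = 0 :=
  eq_zero_of_two_nsmul hp hA T.two_nsmul_S_neg_one

/-- (neg) -/
theorem neg_neg (T : Sym N q A) {p : ℕ} (hp : Odd p) (hA : ∀ x : A, p • x = 0) (a c : ℤ)
    (hc : (N : ℤ) ∣ c) (hac : IsCoprime a c) : T.S (-a) (-c) = T.S a c := by
  have h := T.hH (-1) 0 0 (-1) a c (by ring) (dvd_zero _) hc hac
  rw [T.S_neg_one hp hA, zero_add] at h
  rw [← h]
  congr 1 <;> ring

/-- (I): the inverse matrix -/
theorem inv (T : Sym N q A) (a b c d : ℤ) (hdet : a * d - b * c = 1) (hc : (N : ℤ) ∣ c) :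
    T.S d (-c) = - T.S a c := by
  have hac : IsCoprime a c := ⟨d, -b, by linarith⟩
  have h := T.hH d (-b) (-c) a a c (by linarith) (by simpa using hc) hc hac
  have e1 : d * a + -b * c = 1 := by linarith
  have e2 : -c * a + a * c = 0 := by ring
  rw [e1, e2, T.S_one_zero] at h
  exact eq_neg_of_add_eq_zero_left h.symm

/-- (I'): `F_c(-X⁻¹) = - F_c(X)` -/
theorem inv' (T : Sym N q A) {p : ℕ} (hp : Odd p) (hA : ∀ x : A, p • x = 0) (a c d : ℤ)
    (hc : (N : ℤ) ∣ c) (had : a * d ≡ 1 [ZMOD c]) : T.S (-d) c = - T.S a c := by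
  obtain ⟨b, hb⟩ := had.symm.dvd
  have hdet : a * d - b * c = 1 := by linarith
  have hdc : IsCoprime d (-c) := ⟨a, b, by linarith⟩
  have h := T.neg_neg hp hA d (-c) (by simpa using hc) hdc
  rw [_root_.neg_neg] at h
  rw [h]
  exact T.inv a b c d hdet hc

/-! ### the twist by `J = diag(1, -1)` and the even and odd parts -/

/-- the twist by `J = diag(1, -1)` -/
def twist (T : Sym N q A) : Sym N q A where
  S a c := T.S a (-c)
  τ := T.τ
  hH a₁ b₁ c₁ d₁ a₂ c₂ hdet h1 h2 hco := by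
    have h := T.hH a₁ (-b₁) (-c₁) d₁ a₂ (-c₂) (by linarith) (by simpa using h1)
      (by simpa using h2) hco.neg_right
    have e1 : a₁ * a₂ + -b₁ * -c₂ = a₁ * a₂ + b₁ * c₂ := by ring
    have e2 : -c₁ * a₂ + d₁ * -c₂ = -(c₁ * a₂ + d₁ * c₂) := by ring
    rw [e1, e2] at h
    exact h
  hU a c hc hac hdvd := T.hU a (-c) (by simpa using hc) hac.neg_right (by simpa using hdvd)
  hC a c hc hac := by
    have h := T.hC a (-c) (by simpa using hc) (by simpa using hac.neg_right)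
    have e : (q : ℤ) ^ 2 * -c = -((q : ℤ) ^ 2 * c) := by ring
    rw [e] at h
    exact h
  hD a c hc hac := T.hD a (-c) (by simpa using hc) hac.neg_right

/-- the sum of two symbols -/
def add (T T' : Sym N q A) : Sym N q A where
  S a c := T.S a c + T'.S a c
  τ := T.τ + T'.τ
  hH a₁ b₁ c₁ d₁ a₂ c₂ hdet h1 h2 hco := by
    rw [T.hH a₁ b₁ c₁ d₁ a₂ c₂ hdet h1 h2 hco, T'.hH a₁ b₁ c₁ d₁ a₂ c₂ hdet h1 h2 hco]
    abel
  hU a c hc hac hdvd := by rw [T.hU a c hc hac hdvd, T'.hU a c hc hac hdvd, add_zero]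
  hC a c hc hac := by rw [T.hC a c hc hac, T'.hC a c hc hac]
  hD a c hc hac := by
    rw [T.hD a c hc hac, T'.hD a c hc hac]
    abel

/-- the negative of a symbol -/
def neg (T : Sym N q A) : Sym N q A where
  S a c := - T.S a c
  τ := - T.τ
  hH a₁ b₁ c₁ d₁ a₂ c₂ hdet h1 h2 hco := by
    rw [T.hH a₁ b₁ c₁ d₁ a₂ c₂ hdet h1 h2 hco]
    abel
  hU a c hc hac hdvd := by rw [T.hU a c hc hac hdvd, neg_zero]
  hC a c hc hac := by rw [T.hC a c hc hac]
  hD a c hc hac := by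
    rw [T.hD a c hc hac]
    abel

/-- the even part (times `2`) -/
def evenPart (T : Sym N q A) : Sym N q A := T.add T.twist

/-- the odd part (times `2`) -/
def oddPart (T : Sym N q A) : Sym N q A := T.add T.twist.neg

theorem evenPart_S (T : Sym N q A) (a c : ℤ) : T.evenPart.S a c = T.S a c + T.S a (-c) := rfl

theorem oddPart_S (T : Sym N q A) (a c : ℤ) : T.oddPart.S a c = T.S a c + - T.S a (-c) := rfl

theorem evenPart_even (T : Sym N q A) (a c : ℤ) : T.evenPart.S a (-c) = T.evenPart.S a c := by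
  rw [evenPart_S, evenPart_S, _root_.neg_neg, add_comm]

theorem oddPart_odd (T : Sym N q A) (a c : ℤ) : T.oddPart.S a (-c) = - T.oddPart.S a c := by
  rw [oddPart_S, oddPart_S, _root_.neg_neg]
  abel

theorem oddPart_τ (T : Sym N q A) : T.oddPart.τ = 0 := by
  show T.τ + - T.τ = 0
  abel

theorem two_nsmul_S (T : Sym N q A) (a c : ℤ) :
    (2 : ℕ) • T.S a c = T.evenPart.S a c + T.oddPart.S a c := by
  rw [evenPart_S, oddPart_S, two_nsmul]
  abel

/-- the conclusion of P1b for one symbol -/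
def KillsOne (T : Sym N q A) : Prop :=
  ∀ a c : ℤ, (N : ℤ) ∣ c → IsCoprime a c → a ≡ 1 [ZMOD N] → T.S a c = 0

/-- it suffices to treat the even and the odd symbols -/
theorem killsOne_of_parts {p : ℕ} (hp : Odd p) (hA : ∀ x : A, p • x = 0) (T : Sym N q A)
    (he : T.evenPart.KillsOne) (ho : T.oddPart.KillsOne) : T.KillsOne := by
  intro a c hc hac ha
  apply eq_zero_of_two_nsmul hp hA
  rw [T.two_nsmul_S, he a c hc hac ha, ho a c hc hac ha, add_zero]

end Sym

end Fermat.Agent.S41.P1b
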