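import Fermat.Agent.S41.CspSep

/-!
# S41, piece P1b: powers

`luc t k` is the Lucas sequence `s₀ = 0`, `s₁ = 1`, `s_{k+2} = t s_{k+1} - s_k`; for
`x = [a b; c d] ∈ SL₂`, `t = a + d`, the first column of `x ^ (k+1)` is
`(s_{k+1} a - s_k, s_{k+1} c)`.
-/

set_option autoImplicit false

namespace Fermat.Agent.S41.P1b

/-- the Lucas sequence -/
def luc (t : ℤ) : ℕ → ℤ
  | 0 => 0
  | 1 => 1
  | (k + 2) => t * luc t (k + 1) - luc t k

@[simp] theorem luc_zero (t : ℤ) : luc t 0 = 0 := rfl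

@[simp] theorem luc_one (t : ℤ) : luc t 1 = 1 := rfl

theorem luc_succ_succ (t : ℤ) (k : ℕ) : luc t (k + 2) = t * luc t (k + 1) - luc t k := rfl

/-- the invariant (the determinant of `x ^ k`) -/
theorem luc_inv (t : ℤ) (k : ℕ) :
    luc t (k + 1) ^ 2 - t * luc t (k + 1) * luc t k + luc t k ^ 2 = 1 := by
  induction k with
  | zero => simp
  | succ k ih =>
    rw [luc_succ_succ]
    linear_combination ih

theorem luc_sq_modEq (t : ℤ) (k : ℕ) : luc t k ^ 2 ≡ 1 [ZMOD luc t (k + 1)] := by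
  rw [Int.modEq_iff_dvd]
  exact ⟨luc t (k + 1) - t * luc t k, by linear_combination (-1 : ℤ) * luc_inv t k⟩

/-- modulo a divisor of `t` -/
theorem luc_modEq_of_dvd {t m : ℤ} (h : m ∣ t) (j : ℕ) :
    luc t (2 * j) ≡ 0 [ZMOD m] ∧ luc t (2 * j + 1) ≡ (-1) ^ j [ZMOD m] := by
  have ht : t ≡ 0 [ZMOD m] := (Int.modEq_zero_iff_dvd).mpr h
  induction j with
  | zero => simp
  | succ j ih =>
    have e1 : 2 * (j + 1) = 2 * j + 2 := by ring
    have h1 : luc t (2 * (j + 1)) ≡ 0 [ZMOD m] := by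
      rw [e1, luc_succ_succ]
      have := (ht.mul ih.2).sub ih.1
      simpa using this
    refine ⟨h1, ?_⟩
    have e2 : 2 * (j + 1) + 1 = (2 * j + 1) + 2 := by ring
    rw [e2, luc_succ_succ]
    have e3 : 2 * j + 1 + 1 = 2 * (j + 1) := by ring
    rw [e3]
    have := (ht.mul h1).sub ih.2
    have e4 : (0 : ℤ) * 0 - (-1) ^ j = (-1) ^ (j + 1) := by ring
    rw [e4] at this
    exact this

theorem luc_isCoprime_of_dvd {t m : ℤ} (h : m ∣ t) (j : ℕ) : IsCoprime (luc t (2 * j + 1)) m := by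
  apply isCoprime_of_modEq (luc_modEq_of_dvd h j).2
  exact (isCoprime_one_left (x := m)).neg_left.pow_left

/-- the first column of `x ^ (k + 1)` modulo `c` -/
theorem luc_col_modEq {a b c d : ℤ} (hdet : a * d - b * c = 1) (k : ℕ) :
    luc (a + d) (k + 1) * a - luc (a + d) k ≡ a ^ (k + 1) [ZMOD c] := by
  induction k with
  | zero => simp
  | succ k ih =>
    have e : luc (a + d) (k + 1 + 1) * a - luc (a + d) (k + 1)
        = a * (luc (a + d) (k + 1) * a - luc (a + d) k) + c * (b * luc (a + d) (k + 1)) := by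
      rw [luc_succ_succ]
      linear_combination (luc (a + d) (k + 1)) * hdet
    rw [e, pow_succ' a (k + 1)]
    have h1 := ih.mul_left a
    have h2 : c * (b * luc (a + d) (k + 1)) ≡ 0 [ZMOD c] :=
      (Int.modEq_zero_iff_dvd).mpr (Dvd.intro _ rfl)
    simpa using h1.add h2

/-- the lower right entry of `x ^ (k + 1)` modulo `c` -/
theorem luc_col_modEq' {a b c d : ℤ} (hdet : a * d - b * c = 1) (k : ℕ) :
    luc (a + d) (k + 1) * d - luc (a + d) k ≡ d ^ (k + 1) [ZMOD c] := by
  induction k with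
  | zero => simp
  | succ k ih =>
    have e : luc (a + d) (k + 1 + 1) * d - luc (a + d) (k + 1)
        = d * (luc (a + d) (k + 1) * d - luc (a + d) k) + c * (b * luc (a + d) (k + 1)) := by
      rw [luc_succ_succ]
      linear_combination (luc (a + d) (k + 1)) * hdet
    rw [e, pow_succ' d (k + 1)]
    have h1 := ih.mul_left d
    have h2 : c * (b * luc (a + d) (k + 1)) ≡ 0 [ZMOD c] :=
      (Int.modEq_zero_iff_dvd).mpr (Dvd.intro _ rfl)
    simpa using h1.add h2

theorem luc_mul_sub_modEq {a b c d : ℤ} (hdet : a * d - b * c = 1) (k : ℕ) :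
    luc (a + d) (k + 1) * (a - d) ≡ a ^ (k + 1) - d ^ (k + 1) [ZMOD c] := by
  have h := (luc_col_modEq hdet k).sub (luc_col_modEq' hdet k)
  have e : luc (a + d) (k + 1) * a - luc (a + d) k - (luc (a + d) (k + 1) * d - luc (a + d) k)
      = luc (a + d) (k + 1) * (a - d) := by ring
  rw [e] at h
  exact h

namespace Sym

variable {N q : ℕ} {A : Type*} [AddCommGroup A]

/-- the power rule -/
theorem pow_rule (T : Sym N q A) {a b c d : ℤ} (hdet : a * d - b * c = 1) (hc : (N : ℤ) ∣ c)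
    (k : ℕ) :
    IsCoprime (luc (a + d) (k + 1) * a - luc (a + d) k) (luc (a + d) (k + 1) * c) ∧
      T.S (luc (a + d) (k + 1) * a - luc (a + d) k) (luc (a + d) (k + 1) * c)
        = (k + 1) • T.S a c := by
  have hac : IsCoprime a c := ⟨d, -b, by linarith⟩
  induction k with
  | zero =>
    simp only [luc_one, luc_zero, one_mul, sub_zero, zero_add, one_smul]
    exact ⟨hac, trivial⟩
  | succ k ih =>
    have e1 : luc (a + d) (k + 1 + 1) * a - luc (a + d) (k + 1)
        = a * (luc (a + d) (k + 1) * a - luc (a + d) k) + b * (luc (a + d) (k + 1) * c) := by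
      rw [luc_succ_succ]
      linear_combination (luc (a + d) (k + 1)) * hdet
    have e2 : luc (a + d) (k + 1 + 1) * c
        = c * (luc (a + d) (k + 1) * a - luc (a + d) k) + d * (luc (a + d) (k + 1) * c) := by
      rw [luc_succ_succ]
      ring
    rw [e1, e2]
    refine ⟨isCoprime_mul_col hdet ih.1, ?_⟩
    rw [T.hH a b c d _ _ hdet hc (Dvd.dvd.mul_left hc _) ih.1, ih.2]
    rw [add_nsmul _ (k + 1) 1, one_nsmul, add_comm]

end Sym

end Fermat.Agent.S41.P1b
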