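import Fermat.Agent.S41.CspSep

/-!
# S41, piece P1b: reduction to `S(a, N r)` with `a`, `r` primes (Dirichlet), and small tools
-/

set_option autoImplicit false

namespace Fermat.Agent.S41.P1b

/-- a prime representative of a unit class -/
theorem exists_prime_rep (B : ℕ) {a₀ c₀ : ℤ} (hc₀ : c₀ ≠ 0) (hco : IsCoprime a₀ c₀) :
    ∃ a : ℕ, a.Prime ∧ B < a ∧ (a : ℤ) ≡ a₀ [ZMOD c₀] := by
  have h1 : IsCoprime a₀ ((c₀.natAbs : ℕ) : ℤ) := by
    rcases Int.natAbs_eq c₀ with h | h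
    · rw [← h]
      exact hco
    · have : ((c₀.natAbs : ℕ) : ℤ) = -c₀ := by omega
      rw [this]
      exact hco.neg_right
  obtain ⟨a, hB, ha, hmod⟩ := Nat.forall_exists_prime_gt_and_zmodEq B (q := c₀.natAbs) (a := a₀)
    (Int.natAbs_ne_zero.mpr hc₀) h1
  refine ⟨a, ha, hB, ?_⟩
  rw [Int.modEq_iff_dvd] at hmod ⊢
  exact Int.natAbs_dvd.mp hmod

/-- `x = 0` if `k • x = 0`, `p • x = 0` and `k`, `p` are coprime -/
theorem eq_zero_of_nsmul_of_coprime {A : Type*} [AddCommGroup A] {k p : ℕ} {x : A}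
    (hkp : IsCoprime (k : ℤ) (p : ℤ)) (hk : k • x = 0) (hp : p • x = 0) : x = 0 := by
  obtain ⟨u, v, huv⟩ := hkp
  have h : (u * k + v * p) • x = 0 := by
    rw [add_smul, mul_smul, mul_smul, natCast_zsmul, natCast_zsmul, hk, hp, smul_zero, smul_zero,
      add_zero]
  rw [huv, one_smul] at h
  exact h

/-- a matrix with first column `(a, c)` whose trace is divisible by `2` and by `q` -/
theorem exists_trace_zero {a c : ℤ} (hac : IsCoprime a c) {q : ℕ} (hcq : IsCoprime c (q : ℤ)) :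
    ∃ b d : ℤ, a * d - b * c = 1 ∧ (2 : ℤ) ∣ a + d ∧ (q : ℤ) ∣ a + d := by
  obtain ⟨d₀, b₀, hdet₀⟩ := exists_inv_mod hac
  obtain ⟨d₁, hd₁c, hd₁q⟩ := exists_crt hcq d₀ (-a)
  obtain ⟨z, hz⟩ := hd₁c.symm.dvd
  have hdet₁ : a * d₁ - (b₀ + z * a) * c = 1 := by
    linear_combination hdet₀ + a * hz
  have hq1 : (q : ℤ) ∣ a + d₁ := by
    have := hd₁q.symm.dvd
    simpa [add_comm] using this
  by_cases hpar : (2 : ℤ) ∣ a + d₁
  · exact ⟨b₀ + z * a, d₁, hdet₁, hpar, hq1⟩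
  · -- then `c` and `q` are odd
    have hodd : ¬ Even (a + d₁) := fun h => hpar (even_iff_two_dvd.mp h)
    have h1 : Odd (a * d₁ - (b₀ + z * a) * c) := by
      rw [hdet₁]
      exact odd_one
    have hc : Odd c := by
      by_contra hc
      rw [Int.not_odd_iff_even] at hc
      have h2 : Odd (a * d₁) := by
        have h3 : Even ((b₀ + z * a) * c) := Even.mul_left hc _
        have h4 : a * d₁ = (a * d₁ - (b₀ + z * a) * c) + (b₀ + z * a) * c := by ring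
        rw [h4]
        exact h1.add_even h3
      rw [Int.odd_mul] at h2
      exact hodd (h2.1.add_odd h2.2)
    have hq : Odd (q : ℤ) := by
      by_contra hq
      rw [Int.not_odd_iff_even] at hq
      obtain ⟨y, hy⟩ := hq1
      apply hodd
      rw [hy]
      exact Even.mul_right hq _
    refine ⟨(b₀ + z * a) + q * a, d₁ + q * c, by linear_combination hdet₁, ?_, ?_⟩
    · rw [← even_iff_two_dvd]
      have h5 : Odd (a + d₁) := Int.not_even_iff_odd.mp hodd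
      have h6 : a + (d₁ + q * c) = (a + d₁) + q * c := by ring
      rw [h6]
      exact h5.add_odd (hq.mul hc)
    · have h6 : a + (d₁ + q * c) = (a + d₁) + q * c := by ring
      rw [h6]
      exact dvd_add hq1 (Dvd.intro _ rfl)

/-- Euler: `a ^ ((r - 1) / 2) ≡ ± 1` -/
theorem exists_sign_pow {r : ℕ} (hr : r.Prime) {a : ℤ} (har : IsCoprime a (r : ℤ)) {j : ℕ}
    (hj : 2 * (2 * j + 1) = r - 1) :
    ∃ η : ℤ, (η = 1 ∨ η = -1) ∧ (η * a) ^ (2 * j + 1) ≡ 1 [ZMOD r] := by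
  have hfer := Int.ModEq.pow_card_sub_one_eq_one hr har
  rw [← hj, mul_comm, pow_mul] at hfer
  have hd : (r : ℤ) ∣ (a ^ (2 * j + 1) - 1) * (a ^ (2 * j + 1) + 1) := by
    have := hfer.symm.dvd
    have e : (a ^ (2 * j + 1) - 1) * (a ^ (2 * j + 1) + 1) = (a ^ (2 * j + 1)) ^ 2 - 1 := by ring
    rw [e]
    exact this
  rcases (Nat.prime_iff_prime_int.mp hr).dvd_or_dvd hd with h | h
  · refine ⟨1, Or.inl rfl, ?_⟩
    rw [one_mul, Int.modEq_iff_dvd]
    have e : 1 - a ^ (2 * j + 1) = -(a ^ (2 * j + 1) - 1) := by ring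
    rw [e]
    exact Dvd.dvd.neg_right h
  · refine ⟨-1, Or.inr rfl, ?_⟩
    rw [Int.modEq_iff_dvd]
    have e : 1 - (-1 * a) ^ (2 * j + 1) = a ^ (2 * j + 1) + 1 := by
      rw [mul_pow, Odd.neg_one_pow ⟨j, rfl⟩]
      ring
    rw [e]
    exact h

namespace Sym

variable {N q : ℕ} {A : Type*} [AddCommGroup A]

/-- reduction to a symbol `S(a, N r)` with `a`, `r` primes, `r` in a prescribed class -/
theorem reduce (T : Sym N q A) (B : ℕ) {M : ℕ} (hM : M ≠ 0) {ρ : ℤ}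
    (hρ : IsCoprime ρ (M : ℤ)) {a₀ c₀ : ℤ} (hc₀ : c₀ ≠ 0) (hNc : (N : ℤ) ∣ c₀)
    (hco : IsCoprime a₀ c₀) :
    ∃ a r : ℕ, a.Prime ∧ r.Prime ∧ B < a ∧ a + 1 < r ∧ (a : ℤ) ≡ a₀ [ZMOD c₀] ∧
      (r : ℤ) ≡ ρ [ZMOD M] ∧ IsCoprime (a : ℤ) ((N : ℤ) * r) ∧ T.S a₀ c₀ = T.S a ((N : ℤ) * r) := by
  obtain ⟨a, ha, haB, hamod⟩ := exists_prime_rep (max B M) hc₀ hco
  have haB' : B < a := lt_of_le_of_lt (le_max_left _ _) haB
  have haM : M < a := lt_of_le_of_lt (le_max_right _ _) haB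
  have hac₀ : IsCoprime (a : ℤ) c₀ := isCoprime_of_modEq hamod hco
  obtain ⟨c₁, hc₁⟩ := hNc
  have hac₁ : IsCoprime (a : ℤ) c₁ := by
    rw [hc₁] at hac₀
    exact hac₀.of_mul_right_right
  have haN : IsCoprime (a : ℤ) (N : ℤ) := by
    rw [hc₁] at hac₀
    exact hac₀.of_mul_right_left
  have hcoaM : Nat.Coprime a M := by
    rw [Nat.Prime.coprime_iff_not_dvd ha]
    intro h
    have := Nat.le_of_dvd (Nat.pos_of_ne_zero hM) h
    omega
  obtain ⟨r, hrB, hr, hr1, hr2⟩ := exists_prime_crt (a + 1) hcoaM ha.ne_zero hM hac₁.symm hρ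
  have har : IsCoprime (a : ℤ) (r : ℤ) := by
    rw [Nat.isCoprime_iff_coprime, Nat.coprime_primes ha hr]
    omega
  refine ⟨a, r, ha, hr, haB', hrB, hamod, hr2, IsCoprime.mul_right haN har, ?_⟩
  rw [← T.congr_left ⟨c₁, hc₁⟩ hco hamod]
  symm
  apply T.congr_right ⟨c₁, hc₁⟩ hac₀
  rw [Int.modEq_iff_dvd]
  obtain ⟨y, hy⟩ := hr1.dvd
  exact ⟨y, by rw [hc₁]; linear_combination (N : ℤ) * hy⟩

end Sym

end Fermat.Agent.S41.P1b
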