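import Fermat.Agent.S41.CspSQ
import Fermat.Agent.S41.CspPow
import Fermat.Agent.S41.CspRed

/-!
# S41, piece P1b: the even symbols vanish on `a ≡ 1 mod N`
-/

set_option autoImplicit false

namespace Fermat.Agent.S41.P1b

theorem isCoprime_signs {e₁ e₂ x y : ℤ} (h₁ : e₁ = 1 ∨ e₁ = -1) (h₂ : e₂ = 1 ∨ e₂ = -1)
    (h : IsCoprime x y) : IsCoprime (e₁ * x) (e₂ * y) := by
  rcases h₁ with rfl | rfl <;> rcases h₂ with rfl | rfl
  · simpa using h
  · simpa using h.neg_right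
  · simpa using h.neg_left
  · simpa using h.neg_left.neg_right

theorem sign_mul_sign {e₁ e₂ : ℤ} (h₁ : e₁ = 1 ∨ e₁ = -1) (h₂ : e₂ = 1 ∨ e₂ = -1) :
    e₁ * e₂ = 1 ∨ e₁ * e₂ = -1 := by
  rcases h₁ with rfl | rfl <;> rcases h₂ with rfl | rfl <;> simp

theorem sign_sq {e : ℤ} (h : e = 1 ∨ e = -1) : e * e = 1 := by
  rcases h with rfl | rfl <;> simp

namespace Sym

variable {N q : ℕ} {A : Type*} [AddCommGroup A]

/-- signs for an even symbol -/
theorem even_signs (T : Sym N q A) (heven : ∀ a c : ℤ, T.S a (-c) = T.S a c) {p : ℕ}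
    (hp : Odd p) (hA : ∀ x : A, p • x = 0) {e₁ e₂ : ℤ} (h₁ : e₁ = 1 ∨ e₁ = -1)
    (h₂ : e₂ = 1 ∨ e₂ = -1) (a c : ℤ) (hc : (N : ℤ) ∣ c) (hac : IsCoprime a c) :
    T.S (e₁ * a) (e₂ * c) = T.S a c := by
  rcases h₁ with rfl | rfl <;> rcases h₂ with rfl | rfl
  · simp
  · simp [heven]
  · simpa using T.even_neg_left heven hp hA a c hc hac
  · simpa using T.neg_neg hp hA a c hc hac

/-- signs for any symbol -/
theorem sign_both (T : Sym N q A) {p : ℕ} (hp : Odd p) (hA : ∀ x : A, p • x = 0) {e : ℤ}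
    (h : e = 1 ∨ e = -1) (a c : ℤ) (hc : (N : ℤ) ∣ c) (hac : IsCoprime a c) :
    T.S (e * a) (e * c) = T.S a c := by
  rcases h with rfl | rfl
  · simp
  · simpa using T.neg_neg hp hA a c hc hac

/-- **Step 3**: an even symbol vanishes on `a ≡ 1 mod N` -/
theorem even_killsOne (T : Sym N q A) (heven : ∀ a c : ℤ, T.S a (-c) = T.S a c) (hq : q.Prime)
    (hN0 : 0 < N) (hqN : Nat.Coprime q N) {p : ℕ} (hp : p.Prime) (hp2 : p ≠ 2)
    (hA : ∀ x : A, p • x = 0) : T.KillsOne := by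
  have hpodd : Odd p := hp.odd_of_ne_two hp2
  intro a₀ c₀ hNc hco ha₀
  by_cases hc₀ : c₀ = 0
  · subst hc₀
    have hu : IsUnit a₀ := isCoprime_zero_right.mp hco
    rcases Int.isUnit_iff.mp hu with h | h
    · rw [h]
      exact T.S_one_zero
    · rw [h]
      exact T.S_neg_one hpodd hA
  have hρ : IsCoprime (-1 : ℤ) ((4 * p : ℕ) : ℤ) := isCoprime_one_left.neg_left
  obtain ⟨a, r, ha, hr, haB, har1, hamod, hrmod, hacr, hS⟩ :=
    T.reduce (2 + q + p + N) (M := 4 * p) (by have := hp.pos; omega) hρ hc₀ hNc hco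
  rw [hS]
  have haN : (a : ℤ) ≡ 1 [ZMOD N] := (hamod.of_dvd hNc).trans ha₀
  -- the exponent `k = 2 j + 1 = (r - 1) / 2`
  obtain ⟨w, hw⟩ := hrmod.dvd
  push_cast at hw
  obtain ⟨v, hv⟩ : ∃ v : ℤ, v = p * w := ⟨_, rfl⟩
  have hw' : (-1 : ℤ) - r = 4 * v := by rw [hv, hw]; ring
  obtain ⟨j, hj⟩ : ∃ j : ℕ, (j : ℤ) = -1 - v := by
    refine ⟨(-1 - v).toNat, Int.toNat_of_nonneg ?_⟩
    have : (3 : ℤ) ≤ r := by
      have := ha.two_le
      omega
    omega
  have hjr : 2 * (2 * j + 1) = r - 1 := by omega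
  have hkp : IsCoprime ((2 * j + 1 : ℕ) : ℤ) (p : ℤ) := by
    refine ⟨-1, -(2 * w), ?_⟩
    push_cast
    rw [hj, hv]
    ring
  -- Euler
  have har : IsCoprime (a : ℤ) (r : ℤ) := hacr.of_mul_right_right
  obtain ⟨η, hη, hηk⟩ := exists_sign_pow hr har hjr
  have hη2 : η * η = 1 := sign_sq hη
  -- the matrix
  have hrq : r ≠ q := by omega
  have hcq : IsCoprime ((N : ℤ) * r) (q : ℤ) := by
    apply IsCoprime.mul_left
    · exact Nat.isCoprime_iff_coprime.mpr hqN.symm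
    · rw [Nat.isCoprime_iff_coprime, Nat.coprime_primes hr hq]
      exact hrq
  obtain ⟨b, d, hdet, h2t, hqt⟩ := exists_trace_zero hacr hcq
  have hdet' : (η * a) * (η * d) - (η * b) * (η * ((N : ℤ) * r)) = 1 := by
    linear_combination (η * η) * hdet + hη2
  have hNc' : (N : ℤ) ∣ η * ((N : ℤ) * r) := ⟨η * r, by ring⟩
  have htr : η * a + η * d = η * (a + d) := by ring
  have h2t' : (2 : ℤ) ∣ η * a + η * d := by
    rw [htr]
    exact Dvd.dvd.mul_left h2t η
  have hqt' : (q : ℤ) ∣ η * a + η * d := by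
    rw [htr]
    exact Dvd.dvd.mul_left hqt η
  obtain ⟨hcol, hpow⟩ := T.pow_rule hdet' hNc' (2 * j)
  obtain ⟨s, hs⟩ : ∃ s, s = luc (η * a + η * d) (2 * j + 1) := ⟨_, rfl⟩
  obtain ⟨s₀, hs₀⟩ : ∃ s₀, s₀ = luc (η * a + η * d) (2 * j) := ⟨_, rfl⟩
  rw [← hs, ← hs₀] at hcol hpow
  have hs2 : IsCoprime s 2 := hs ▸ luc_isCoprime_of_dvd h2t' j
  have hsq : IsCoprime s (q : ℤ) := hs ▸ luc_isCoprime_of_dvd hqt' j
  have hrc : (r : ℤ) ∣ η * ((N : ℤ) * r) := ⟨η * N, by ring⟩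
  -- `r ∣ s`
  have hrs : (r : ℤ) ∣ s := by
    have h1 := luc_mul_sub_modEq hdet' (2 * j)
    rw [← hs] at h1
    have h2 := h1.of_dvd hrc
    have had : (η * a) * (η * d) ≡ 1 [ZMOD r] := by
      rw [Int.modEq_iff_dvd]
      exact ⟨-(η * b) * (η * N), by linear_combination (-1 : ℤ) * hdet'⟩
    have hdk : (η * d) ^ (2 * j + 1) ≡ 1 [ZMOD r] := by
      have h3 := had.pow (2 * j + 1)
      rw [mul_pow, one_pow] at h3
      have h4 := hηk.mul_right ((η * d) ^ (2 * j + 1))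
      rw [one_mul] at h4
      exact h4.symm.trans h3
    have h3 : s * (η * a - η * d) ≡ 0 [ZMOD r] := by
      refine h2.trans ?_
      have := hηk.sub hdk
      simpa using this
    have h4 : (r : ℤ) ∣ s * (η * a - η * d) := Int.modEq_zero_iff_dvd.mp h3
    rcases (Nat.prime_iff_prime_int.mp hr).dvd_or_dvd h4 with h | h
    · exact h
    · exfalso
      have h5 : (r : ℤ) ∣ a - d := by
        have e : (a : ℤ) - d = η * (η * a - η * d) := by linear_combination (-((a : ℤ) - d)) * hη2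
        rw [e]
        exact Dvd.dvd.mul_left h η
      have h6 : (r : ℤ) ∣ ((a : ℤ) - 1) * (a + 1) := by
        have e : ((a : ℤ) - 1) * (a + 1) = a * (a - d) + r * (b * N) := by
          linear_combination hdet
        rw [e]
        exact dvd_add (Dvd.dvd.mul_left h5 _) (Dvd.intro _ rfl)
      have ha2 := ha.two_le
      rcases (Nat.prime_iff_prime_int.mp hr).dvd_or_dvd h6 with h7 | h7
      · have := Int.le_of_dvd (by omega) h7
        omega
      · have := Int.le_of_dvd (by omega) h7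
        omega
  -- the first column of the power
  obtain ⟨A₀, hA₀⟩ : ∃ A₀, A₀ = s * (η * a) - s₀ := ⟨_, rfl⟩
  rw [← hA₀] at hcol hpow
  have hAmodN : η * A₀ ≡ 1 [ZMOD N] := by
    have h1 := luc_col_modEq hdet' (2 * j)
    rw [← hs, ← hs₀, ← hA₀] at h1
    have h2 := h1.of_dvd hNc'
    have h3 : η * a ≡ η [ZMOD N] := by simpa using haN.mul_left η
    have h4 : (η * a) ^ (2 * j + 1) ≡ η [ZMOD N] := by
      have h5 := h3.pow (2 * j + 1)
      have e : η ^ (2 * j + 1) = η := by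
        rcases hη with rfl | rfl
        · simp
        · exact Odd.neg_one_pow ⟨j, rfl⟩
      rwa [e] at h5
    have h6 := (h2.trans h4).mul_left η
    rwa [hη2] at h6
  have hAsq : (η * A₀) ^ 2 ≡ 1 [ZMOD s] := by
    have e : (η * A₀) ^ 2 = A₀ ^ 2 := by linear_combination A₀ ^ 2 * hη2
    rw [e]
    have h1 : A₀ ≡ -s₀ [ZMOD s] := by
      rw [Int.modEq_iff_dvd]
      exact ⟨-(η * a), by rw [hA₀]; ring⟩
    have h2 := h1.pow 2
    have h3 := luc_sq_modEq (η * a + η * d) (2 * j)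
    rw [← hs, ← hs₀] at h3
    refine h2.trans ?_
    have e2 : (-s₀) ^ 2 = s₀ ^ 2 := by ring
    rw [e2]
    exact h3
  -- the absolute value of `s`
  obtain ⟨sn, hsn⟩ : ∃ sn : ℕ, sn = s.natAbs := ⟨_, rfl⟩
  have hsn' : ∃ e : ℤ, (e = 1 ∨ e = -1) ∧ (sn : ℤ) = e * s := by
    rcases Int.natAbs_eq s with h | h
    · exact ⟨1, Or.inl rfl, by rw [hsn, one_mul]; exact h.symm⟩
    · exact ⟨-1, Or.inr rfl, by rw [hsn]; omega⟩
  obtain ⟨e, he, hes⟩ := hsn'
  have hoddsn : Odd sn := by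
    rw [hsn, Int.natAbs_odd, ← Int.not_even_iff_odd]
    intro h
    obtain ⟨u, v', huv⟩ := hs2
    obtain ⟨y, hy⟩ := even_iff_two_dvd.mp h
    have : (2 : ℤ) ∣ 1 := ⟨u * y + v', by rw [← huv, hy]; ring⟩
    omega
  have hqsn : Nat.Coprime q sn := by
    have h := Int.isCoprime_iff_gcd_eq_one.mp hsq.symm
    rw [hsn]
    simpa [Int.gcd] using h
  have hrsn : r ∣ sn := by
    rw [hsn]
    exact Int.natCast_dvd.mp hrs
  have hrN : Nat.Coprime r N := by
    rw [Nat.Prime.coprime_iff_not_dvd hr]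
    intro h
    have := Nat.le_of_dvd hN0 h
    omega
  have hηe : η * e = 1 ∨ η * e = -1 := sign_mul_sign hη he
  have hC : (sn : ℤ) * N * r = (η * e) * (s * (η * ((N : ℤ) * r))) := by
    rw [hes]
    linear_combination (-(e * s * N * r)) * hη2 + (e * e * s * N * r - e * e * s * N * r) * hη2
  have hco' : IsCoprime (η * A₀) ((sn : ℤ) * N * r) := by
    rw [hC]
    exact isCoprime_signs hη hηe hcol
  have hzero := T.sqplus heven hq hpodd hA hoddsn hqsn hr hrN hrq hrsn hN0 hqN hco' hAmodN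
    (by rw [hes]
        have h := hAsq
        rw [Int.modEq_iff_dvd] at h ⊢
        rcases he with rfl | rfl
        · simpa using h
        · simpa using h)
  -- conclusion
  have h1 : T.S A₀ (s * (η * ((N : ℤ) * r))) = T.S (η * A₀) ((sn : ℤ) * N * r) := by
    have h2 := T.even_signs heven hpodd hA hη hηe (η * A₀) ((sn : ℤ) * N * r)
      ⟨sn * r, by ring⟩ hco'
    rw [← h2]
    congr 1
    · linear_combination (-A₀) * hη2
    · rw [hC]
      have h3 : (η * e) * (η * e) = 1 := sign_sq hηe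
      linear_combination (-(s * (η * ((N : ℤ) * r)))) * h3
  rw [h1, hzero, T.sign_both hpodd hA hη a _ (Dvd.intro _ rfl) hacr] at hpow
  have hpow' : (2 * j + 1) • T.S (a : ℤ) ((N : ℤ) * r) = 0 := hpow.symm
  exact eq_zero_of_nsmul_of_coprime hkp hpow' (hA _)

end Sym

end Fermat.Agent.S41.P1b
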