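import Fermat.Agent.S41.CspRed

/-!
# S41, piece P1b: the odd symbols (with `τ = 0`) vanish on `a ≡ 1 mod N`
-/

set_option autoImplicit false

namespace Fermat.Agent.S41.P1b

/-- a non-square modulo a prime `r ≡ 1 mod 4` has `x ^ ((r - 1) / 2) = -1` -/
theorem neg_one_of_nonsquare {r : ℕ} [Fact r.Prime] (hr4 : r % 4 = 1) {x : ℤ}
    (hx : ¬ IsSquare ((x : ℤ) : ZMod r)) : x ^ (2 * (r / 4)) ≡ -1 [ZMOD r] := by
  have hx0 : ((x : ℤ) : ZMod r) ≠ 0 := by
    intro h
    rw [h] at hx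
    exact hx (IsSquare.zero)
  have h2 : r / 2 = 2 * (r / 4) := by omega
  have h1 : ((x : ℤ) : ZMod r) ^ (r / 2) = -1 := by
    rcases ZMod.pow_div_two_eq_neg_one_or_one r hx0 with h | h
    · exact absurd ((ZMod.euler_criterion r hx0).mpr h) hx
    · exact h
  rw [h2] at h1
  rw [← ZMod.intCast_eq_intCast_iff]
  push_cast
  exact h1

/-- a class `ρ mod M` such that `-1` is a power of `q²` modulo every prime `r ≡ ρ mod M` -/
theorem exists_class_neg_one {q : ℕ} (hq : q.Prime) :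
    ∃ (M : ℕ) (ρ : ℤ), M ≠ 0 ∧ IsCoprime ρ (M : ℤ) ∧ ∀ r : ℕ, r.Prime → (r : ℤ) ≡ ρ [ZMOD M] →
      Odd r ∧ ∃ m : ℕ, (q : ℤ) ^ (2 * m) ≡ -1 [ZMOD r] := by
  by_cases hq2 : q = 2
  · subst hq2
    refine ⟨8, 5, by norm_num, ⟨-3, 2, by norm_num⟩, ?_⟩
    intro r hr hmod
    have hr8 : r % 8 = 5 := by
      have := hmod
      unfold Int.ModEq at this
      omega
    haveI : Fact r.Prime := ⟨hr⟩
    have hr2 : r ≠ 2 := by
      intro h
      rw [h] at hr8
      norm_num at hr8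
    refine ⟨Nat.odd_iff.mpr (by omega), r / 4, ?_⟩
    have hns : ¬ IsSquare (((2 : ℕ) : ℤ) : ZMod r) := by
      have := ZMod.exists_sq_eq_two_iff hr2
      push_cast
      rw [this]
      omega
    exact neg_one_of_nonsquare (by omega) hns
  · haveI : Fact q.Prime := ⟨hq⟩
    obtain ⟨n₀, hn₀⟩ := FiniteField.exists_nonsquare (F := ZMod q) (by
      rw [ZMod.ringChar_zmod_n]
      exact hq2)
    have hn₀0 : n₀ ≠ 0 := by
      intro h
      rw [h] at hn₀
      exact hn₀ IsSquare.zero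
    have hco8 : IsCoprime (8 : ℤ) (q : ℤ) := by
      have h : Nat.Coprime 8 q := by
        have h2 : Nat.Coprime 2 q := (Nat.coprime_primes Nat.prime_two hq).mpr (Ne.symm hq2)
        exact Nat.Coprime.pow_left 3 h2
      exact_mod_cast Nat.isCoprime_iff_coprime.mpr h
    obtain ⟨ρ, hρ8, hρq⟩ := exists_crt hco8 5 (n₀.val : ℤ)
    have hρZ : ((ρ : ℤ) : ZMod q) = n₀ := by
      have := (ZMod.intCast_eq_intCast_iff ρ (n₀.val : ℤ) q).mpr hρq
      rw [this]
      push_cast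
      exact ZMod.natCast_zmod_val n₀
    refine ⟨8 * q, ρ, by have := hq.pos; omega, ?_, ?_⟩
    · push_cast
      apply IsCoprime.mul_right
      · exact isCoprime_of_modEq hρ8 ⟨-3, 2, by norm_num⟩
      · have hu : IsUnit ((ρ : ℤ) : ZMod q) := by
          rw [hρZ]
          exact isUnit_iff_ne_zero.mpr hn₀0
        exact ((ZMod.coe_int_isUnit_iff_isCoprime ρ q).mp hu).symm
    · intro r hr hmod
      push_cast at hmod
      have hmod8 : (r : ℤ) ≡ 5 [ZMOD 8] := (hmod.of_mul_right _).trans hρ8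
      have hmodq : (r : ℤ) ≡ ρ [ZMOD q] := hmod.of_mul_left _
      have hr8 : r % 8 = 5 := by
        have := hmod8
        unfold Int.ModEq at this
        omega
      haveI : Fact r.Prime := ⟨hr⟩
      refine ⟨Nat.odd_iff.mpr (by omega), r / 4, ?_⟩
      have hrq : ((r : ℕ) : ZMod q) = n₀ := by
        rw [← hρZ]
        have := (ZMod.intCast_eq_intCast_iff (r : ℤ) ρ q).mpr hmodq
        rw [← this]
        push_cast
        rfl
      have hns : ¬ IsSquare (((q : ℕ) : ℤ) : ZMod r) := by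
        push_cast
        rw [ZMod.exists_sq_eq_prime_iff_of_mod_four_eq_one (p := r) (q := q) (by omega) hq2, hrq]
        exact hn₀
      exact neg_one_of_nonsquare (by omega) hns

namespace Sym

variable {N q : ℕ} {A : Type*} [AddCommGroup A]

/-- iterated multiplication by `diag(q, q⁻¹)` on both sides, for `τ = 0` -/
theorem hD_pow (T : Sym N q A) (hτ : T.τ = 0) (a c : ℤ) (hc : (N : ℤ) ∣ c)
    (hqc : IsCoprime (q : ℤ) c) (hac : IsCoprime a c) (m : ℕ) :
    T.S ((q : ℤ) ^ (2 * m) * a) c = T.S a c := by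
  induction m with
  | zero => simp
  | succ m ih =>
    have e : (q : ℤ) ^ (2 * (m + 1)) * a = (q : ℤ) ^ 2 * ((q : ℤ) ^ (2 * m) * a) := by ring
    rw [e, T.hD _ c hc (IsCoprime.mul_left hqc (IsCoprime.mul_left hqc.pow_left hac)), hτ,
      add_zero, ih]

/-- for an odd symbol `S(-a, c) = - S(a, c)` -/
theorem odd_neg_left (T : Sym N q A) (hodd : ∀ a c : ℤ, T.S a (-c) = - T.S a c) {p : ℕ}
    (hp : Odd p) (hA : ∀ x : A, p • x = 0) (a c : ℤ) (hc : (N : ℤ) ∣ c) (hac : IsCoprime a c) :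
    T.S (-a) c = - T.S a c := by
  have h := T.neg_neg hp hA a (-c) (by simpa using hc) hac.neg_right
  rw [_root_.neg_neg] at h
  rw [h, hodd]

/-- **Step 2**: an odd symbol with `τ = 0` vanishes on `a ≡ 1 mod N` -/
theorem odd_killsOne (T : Sym N q A) (hodd : ∀ a c : ℤ, T.S a (-c) = - T.S a c) (hτ : T.τ = 0)
    (hq : q.Prime) (hN0 : 0 < N) (hqN : Nat.Coprime q N) {p : ℕ} (hp : Odd p)
    (hA : ∀ x : A, p • x = 0) : T.KillsOne := by
  intro a₀ c₀ hNc hco ha₀
  by_cases hc₀ : c₀ = 0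
  · subst hc₀
    have hu : IsUnit a₀ := isCoprime_zero_right.mp hco
    rcases Int.isUnit_iff.mp hu with h | h
    · rw [h]
      exact T.S_one_zero
    · rw [h]
      exact T.S_neg_one hp hA
  obtain ⟨M, ρ, hM, hρ, hclass⟩ := exists_class_neg_one hq
  obtain ⟨a, r, ha, hr, haB, har1, hamod, hrmod, hacr, hS⟩ :=
    T.reduce (2 + q + N) hM hρ hc₀ hNc hco
  rw [hS]
  obtain ⟨hrodd, m, hm⟩ := hclass r hr hrmod
  have haN : (a : ℤ) ≡ 1 [ZMOD N] := (hamod.of_dvd hNc).trans ha₀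
  have hrN : Nat.Coprime N r := by
    rw [Nat.coprime_comm, Nat.Prime.coprime_iff_not_dvd hr]
    intro h
    have := Nat.le_of_dvd hN0 h
    omega
  have hqr : Nat.Coprime q r := by
    rw [Nat.coprime_primes hq hr]
    omega
  have hNrZ : IsCoprime (N : ℤ) (r : ℤ) := Nat.isCoprime_iff_coprime.mpr hrN
  have hNdvd : (N : ℤ) ∣ (N : ℤ) * r := Dvd.intro _ rfl
  have hqc : IsCoprime (q : ℤ) ((N : ℤ) * r) :=
    IsCoprime.mul_right (Nat.isCoprime_iff_coprime.mpr hqN) (Nat.isCoprime_iff_coprime.mpr hqr)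
  -- `r ∤ a - 1`
  have ha1r : IsCoprime ((a : ℤ) - 1) (r : ℤ) := by
    have hpr := Nat.prime_iff_prime_int.mp hr
    rw [isCoprime_comm, Prime.coprime_iff_not_dvd hpr]
    intro h
    have h2 := ha.two_le
    have := Int.le_of_dvd (by omega) h
    omega
  -- the representatives
  obtain ⟨u, hu⟩ : ∃ u : ℤ, u = (q : ℤ) ^ (2 * m) := ⟨_, rfl⟩
  rw [← hu] at hm
  have huc : IsCoprime u ((N : ℤ) * r) := by
    rw [hu]
    exact hqc.pow_left
  obtain ⟨Y₁, hY₁N, hY₁r⟩ := exists_crt hNrZ 1 (-(a : ℤ))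
  obtain ⟨Y₂, hY₂N, hY₂r⟩ := exists_crt hNrZ 1 (-1)
  have hone : IsCoprime (1 : ℤ) (N : ℤ) := isCoprime_one_left
  have hY₁ : IsCoprime Y₁ ((N : ℤ) * r) :=
    IsCoprime.mul_right (isCoprime_of_modEq hY₁N hone)
      (isCoprime_of_modEq hY₁r hacr.of_mul_right_right.neg_left)
  have hY₂ : IsCoprime Y₂ ((N : ℤ) * r) :=
    IsCoprime.mul_right (isCoprime_of_modEq hY₂N hone)
      (isCoprime_of_modEq hY₂r (isCoprime_one_left (x := (r : ℤ))).neg_left)
  have hSu : T.S (u * a) ((N : ℤ) * r) = T.S a ((N : ℤ) * r) := by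
    rw [hu]
    exact T.hD_pow hτ a _ hNdvd hqc hacr m
  have hSu1 : T.S u ((N : ℤ) * r) = 0 := by
    have := T.hD_pow hτ 1 _ hNdvd hqc isCoprime_one_left m
    rw [mul_one, ← hu] at this
    rw [this]
    exact T.S_one _ hNdvd
  -- first use of (SEP)
  have E1 := T.sep hq hp hA hN0 hr.pos hrN hqN hqr hrodd hNdvd (a := u * a) (a' := u)
    (b := Y₁) (b' := Y₂) (IsCoprime.mul_left huc hacr) huc hY₁ hY₂
    (by simpa using haN.mul_left u) (hY₁N.trans hY₂N.symm)
    ((by simpa using hm.mul_right (a : ℤ) : u * a ≡ -(a : ℤ) [ZMOD r]).trans hY₁r.symm)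
    (hm.trans hY₂r.symm)
    (by
      have e : u * a - u = u * ((a : ℤ) - 1) := by ring
      rw [e]
      exact IsCoprime.mul_left huc.of_mul_right_right ha1r)
  rw [hSu, hSu1, sub_zero] at E1
  -- second use of (SEP)
  have E2 := T.sep hq hp hA hN0 hr.pos hrN hqN hqr hrodd hNdvd (a := -Y₁) (a' := -Y₂)
    (b := a) (b' := 1) hY₁.neg_left hY₂.neg_left hacr isCoprime_one_left
    ((hY₁N.trans hY₂N.symm).neg) haN
    (by simpa using hY₁r.neg) (by simpa using hY₂r.neg)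
    (by
      have h : -Y₁ - -Y₂ ≡ (a : ℤ) - 1 [ZMOD r] := by
        have := hY₁r.neg.sub hY₂r.neg
        simpa using this
      exact isCoprime_of_modEq h ha1r)
  rw [T.odd_neg_left hodd hp hA Y₁ _ hNdvd hY₁, T.odd_neg_left hodd hp hA Y₂ _ hNdvd hY₂,
    T.S_one _ hNdvd, sub_zero] at E2
  apply eq_zero_of_two_nsmul hp hA
  rw [two_nsmul]
  nth_rewrite 1 [E1]
  rw [← E2]
  abel

end Sym

end Fermat.Agent.S41.P1b
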