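import Fermat.Agent.S41.CspEven
import Fermat.Agent.S41.CspOdd

/-!
# S41, piece P1b (hedge route): the abelianised congruence subgroup property, abstract form

Every symbol `S` of a homomorphism on `Γ₀(N)[1/q]` with values in a group killed by an odd prime
`p` that vanishes on the trace `2` elements of `Γ₀(N)` vanishes on the first columns `(a, c)` with
`a ≡ 1 mod N`.
-/

set_option autoImplicit false

namespace Fermat.Agent.S41.P1b

namespace Sym

variable {N q : ℕ} {A : Type*} [AddCommGroup A]

/-- **(CSP-ab)**, abstract form -/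
theorem killsOne (T : Sym N q A) (hq : q.Prime) (hN0 : 0 < N) (hqN : Nat.Coprime q N) {p : ℕ}
    (hp : p.Prime) (hp2 : p ≠ 2) (hA : ∀ x : A, p • x = 0) : T.KillsOne :=
  killsOne_of_parts (hp.odd_of_ne_two hp2) hA T
    (T.evenPart.even_killsOne T.evenPart_even hq hN0 hqN hp hp2 hA)
    (T.oddPart.odd_killsOne T.oddPart_odd T.oddPart_τ hq hN0 hqN (hp.odd_of_ne_two hp2) hA)

end Sym

end Fermat.Agent.S41.P1b
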