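import Mathlib

/-!
# S41, piece P1b: number theoretic tools

* `exists_crt`, `exists_prime_crt` : the Chinese remainder theorem and Dirichlet's theorem for two
  coprime moduli;
* `exists_primary_part` : the `c`-primary part of a positive integer;
* `geom_sum_modEq` : `1 + X + ... + X ^ (n - 1) ≡ n` modulo `X - 1`;
* `exists_factorization` (EF) : for coprime `c₊`, `c₋` prime to `q`, `c₋` odd, a unit `s₁` modulo
  `c₋` and any `s₂` there are `σ₁`, `σ₂`, `k` with `σ₁ σ₂ = 1 - q ^ (2 k)`,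
  `σ₁ ≡ (0, s₁)` and `σ₂ ≡ (s₂, 0)` modulo `(c₊, c₋)`.
-/

set_option autoImplicit false

namespace Fermat.Agent.S41.P1b

open Finset

theorem isCoprime_of_modEq {x a m : ℤ} (h : x ≡ a [ZMOD m]) (ha : IsCoprime a m) :
    IsCoprime x m := by
  obtain ⟨t, ht⟩ := h.dvd
  have e : x = a + m * (-t) := by linarith
  rw [e]
  exact IsCoprime.add_mul_left_left ha (-t)

/-- the Chinese remainder theorem for integers -/
theorem exists_crt {m n : ℤ} (h : IsCoprime m n) (a b : ℤ) :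
    ∃ x : ℤ, x ≡ a [ZMOD m] ∧ x ≡ b [ZMOD n] := by
  obtain ⟨u, v, huv⟩ := h
  refine ⟨a * (v * n) + b * (u * m), ?_, ?_⟩
  · rw [Int.modEq_iff_dvd]
    exact ⟨u * (a - b), by linear_combination (-a) * huv⟩
  · rw [Int.modEq_iff_dvd]
    exact ⟨v * (b - a), by linear_combination (-b) * huv⟩

/-- Dirichlet's theorem for two coprime moduli -/
theorem exists_prime_crt (n : ℕ) {m₁ m₂ : ℕ} (h : Nat.Coprime m₁ m₂) (hm₁ : m₁ ≠ 0)
    (hm₂ : m₂ ≠ 0) {a₁ a₂ : ℤ} (h₁ : IsCoprime a₁ (m₁ : ℤ)) (h₂ : IsCoprime a₂ (m₂ : ℤ)) :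
    ∃ p > n, p.Prime ∧ (p : ℤ) ≡ a₁ [ZMOD m₁] ∧ (p : ℤ) ≡ a₂ [ZMOD m₂] := by
  obtain ⟨x, hx₁, hx₂⟩ := exists_crt (Nat.isCoprime_iff_coprime.mpr h) a₁ a₂
  have hx : IsCoprime x ((m₁ * m₂ : ℕ) : ℤ) := by
    push_cast
    exact IsCoprime.mul_right (isCoprime_of_modEq hx₁ h₁) (isCoprime_of_modEq hx₂ h₂)
  obtain ⟨p, hp, hpp, hpx⟩ := Nat.forall_exists_prime_gt_and_zmodEq n (q := m₁ * m₂) (a := x)
    (Nat.mul_ne_zero hm₁ hm₂) hx
  push_cast at hpx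
  exact ⟨p, hp, hpp, (hpx.of_mul_right _).trans hx₁, (hpx.of_mul_left _).trans hx₂⟩

/-- the `c`-primary part of a positive integer -/
theorem exists_primary_part (c : ℕ) : ∀ n : ℕ, 0 < n →
    ∃ u v : ℕ, n = u * v ∧ (∀ π : ℕ, π.Prime → π ∣ u → π ∣ c) ∧ Nat.Coprime v c := by
  intro n
  induction n using Nat.strong_induction_on with
  | _ n ih =>
    intro hn
    by_cases hco : Nat.Coprime n c
    · exact ⟨1, n, by simp, fun π hπ h => absurd (Nat.dvd_one.mp h) hπ.ne_one, hco⟩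
    · have hg0 : 0 < Nat.gcd n c := Nat.gcd_pos_of_pos_left c hn
      have hg2 : 2 ≤ Nat.gcd n c := by
        have : Nat.gcd n c ≠ 1 := hco
        omega
      obtain ⟨n', hn'⟩ := Nat.gcd_dvd_left n c
      have hn'0 : 0 < n' := by
        rcases Nat.eq_zero_or_pos n' with h | h
        · rw [h, mul_zero] at hn'
          omega
        · exact h
      have hlt : n' < n := by
        calc n' < Nat.gcd n c * n' := by nlinarith
          _ = n := hn'.symm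
      obtain ⟨u, v, huv, hu, hv⟩ := ih n' hlt hn'0
      refine ⟨Nat.gcd n c * u, v, ?_, ?_, hv⟩
      · rw [mul_assoc, ← huv]
        exact hn'
      · intro π hπ hd
        rcases (Nat.Prime.dvd_mul hπ).mp hd with h | h
        · exact h.trans (Nat.gcd_dvd_right n c)
        · exact hu π hπ h

/-- a number all of whose prime factors divide `c` is coprime to every number coprime to `c` -/
theorem coprime_of_primary {u c m : ℕ} (hu : ∀ π : ℕ, π.Prime → π ∣ u → π ∣ c)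
    (hcm : Nat.Coprime c m) : Nat.Coprime u m := by
  apply Nat.coprime_of_dvd
  intro π hπ h1 h2
  have h3 : π ∣ Nat.gcd c m := Nat.dvd_gcd (hu π hπ h1) h2
  rw [hcm] at h3
  exact hπ.ne_one (Nat.dvd_one.mp h3)

theorem geom_sum_modEq (X : ℤ) (n : ℕ) : (∑ i ∈ range n, X ^ i) ≡ n [ZMOD (X - 1)] := by
  have hX : X ≡ 1 [ZMOD (X - 1)] := by
    rw [Int.modEq_iff_dvd]
    exact ⟨-1, by ring⟩
  induction n with
  | zero => simp
  | succ n ih =>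
    rw [sum_range_succ]
    push_cast
    have h1 := hX.pow n
    rw [one_pow] at h1
    exact ih.add h1

/-- **(EF)** the exact factorization lemma -/
theorem exists_factorization {q cp cm : ℕ} (hq : 2 ≤ q) (hcp : 0 < cp) (hcm : 0 < cm)
    (hco : Nat.Coprime cp cm) (hqp : Nat.Coprime q cp) (hqm : Nat.Coprime q cm) (hodd : Odd cm)
    (s₁ s₂ : ℤ) (hs₁ : IsCoprime s₁ (cm : ℤ)) :
    ∃ (σ₁ σ₂ : ℤ) (k : ℕ), σ₁ * σ₂ = 1 - (q : ℤ) ^ (2 * k) ∧ (cp : ℤ) ∣ σ₁ ∧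
      σ₁ ≡ s₁ [ZMOD cm] ∧ σ₂ ≡ s₂ [ZMOD cp] ∧ (cm : ℤ) ∣ σ₂ := by
  have hqc : Nat.Coprime q (cp * cm) := Nat.Coprime.mul_right hqp hqm
  have hK₀ : 0 < Nat.totient (cp * cm) := Nat.totient_pos.mpr (Nat.mul_pos hcp hcm)
  obtain ⟨K₀, hK₀def⟩ : ∃ K₀, K₀ = Nat.totient (cp * cm) := ⟨_, rfl⟩
  rw [← hK₀def] at hK₀
  have h1 : q ^ K₀ ≡ 1 [MOD (cp * cm)] := by
    rw [hK₀def]
    exact Nat.ModEq.pow_totient hqc
  have h2 : q ^ (2 * K₀) ≡ 1 [MOD (cp * cm)] := by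
    have := h1.pow 2
    rw [← pow_mul, one_pow] at this
    rw [mul_comm 2 K₀]
    exact this
  have hge : 1 ≤ q ^ (2 * K₀) := Nat.one_le_pow _ _ (by omega)
  have hgt : 1 < q ^ (2 * K₀) := Nat.one_lt_pow (by omega) (by omega)
  obtain ⟨E₀, hE₀⟩ : ∃ E₀, E₀ = q ^ (2 * K₀) - 1 := ⟨_, rfl⟩
  have hE₀pos : 0 < E₀ := by omega
  have hcE₀ : cp * cm ∣ E₀ := by
    rw [hE₀]
    exact (Nat.modEq_iff_dvd' hge).mp h2.symm
  have hE₀Z : (E₀ : ℤ) = (q : ℤ) ^ (2 * K₀) - 1 := by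
    rw [hE₀, Nat.cast_sub hge]
    push_cast
    ring
  obtain ⟨Ep, E', hEE, hEp, hE'⟩ := exists_primary_part cp E₀ hE₀pos
  have hcpEp : cp ∣ Ep := by
    have : cp ∣ Ep * E' := by
      rw [← hEE]
      exact (Dvd.intro _ rfl).trans hcE₀
    exact Nat.Coprime.dvd_of_dvd_mul_right hE'.symm this
  have hEpcm : Nat.Coprime Ep cm := coprime_of_primary hEp hco
  -- the class of the prime
  obtain ⟨u, v, huv⟩ := Nat.isCoprime_iff_coprime.mpr hEpcm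
  have htco : IsCoprime (s₁ * u) (cm : ℤ) := IsCoprime.mul_left hs₁ ⟨Ep, v, by linarith⟩
  have h4 : Nat.Coprime (4 * cp) cm := by
    apply Nat.Coprime.mul_left _ hco
    have : Nat.Coprime 2 cm := by
      rw [Nat.coprime_two_left]
      exact hodd
    exact Nat.Coprime.pow_left 2 this
  have hm1 : IsCoprime (-1 : ℤ) ((4 * cp : ℕ) : ℤ) := isCoprime_one_left.neg_left
  obtain ⟨ℓ, hℓq, hℓ, hℓ1, hℓ2⟩ := exists_prime_crt q h4 (by omega) (by omega) hm1 htco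
  -- `ℓ = 4 cp w - 1`
  obtain ⟨w, hw⟩ := hℓ1.dvd
  push_cast at hw
  have hℓcp : IsCoprime (ℓ : ℤ) (cp : ℤ) := ⟨-1, -(4 * w), by linarith⟩
  have hℓcpN : Nat.Coprime ℓ cp := Nat.isCoprime_iff_coprime.mp hℓcp
  have hℓEp : Nat.Coprime ℓ Ep := (coprime_of_primary hEp hℓcpN.symm).symm
  have hℓcm : IsCoprime (ℓ : ℤ) (cm : ℤ) := isCoprime_of_modEq hℓ2 htco
  have hℓ2' : (ℓ : ℤ) * Ep ≡ s₁ [ZMOD cm] := by
    have := hℓ2.mul_right (Ep : ℤ)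
    refine this.trans ?_
    rw [Int.modEq_iff_dvd]
    exact ⟨s₁ * v, by linear_combination (-s₁) * huv⟩
  -- `j' = (ℓ - 1) / 2`
  have hℓpos : 2 ≤ ℓ := hℓ.two_le
  obtain ⟨j', hj'⟩ : ∃ j' : ℕ, (j' : ℤ) = -1 - 2 * cp * w := by
    refine ⟨(-1 - 2 * cp * w : ℤ).toNat, Int.toNat_of_nonneg ?_⟩
    have : (2 : ℤ) ≤ ℓ := by exact_mod_cast hℓpos
    nlinarith
  have hj'ℓ : 2 * j' = ℓ - 1 := by
    have : (2 * j' : ℤ) = ℓ - 1 := by rw [hj']; linarith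
    omega
  have hj'cp : IsCoprime (j' : ℤ) (cp : ℤ) := ⟨-1, -(2 * w), by rw [hj']; ring⟩
  -- the first exponent
  obtain ⟨X₀, hX₀⟩ : ∃ X₀ : ℤ, X₀ = (q : ℤ) ^ (2 * K₀) := ⟨_, rfl⟩
  have hE₀X : (E₀ : ℤ) = X₀ - 1 := by rw [hX₀]; exact hE₀Z
  obtain ⟨Sg, hSg⟩ : ∃ Sg : ℤ, Sg = ∑ i ∈ range j', X₀ ^ i := ⟨_, rfl⟩
  have hgeo : Sg * (E₀ : ℤ) = (q : ℤ) ^ (2 * (K₀ * j')) - 1 := by
    rw [hSg, hE₀X, geom_sum_mul, hX₀, ← pow_mul, mul_assoc]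
  have hSgmod : Sg ≡ j' [ZMOD (cp : ℤ)] := by
    have h := geom_sum_modEq X₀ j'
    rw [← hSg, ← hE₀X] at h
    have hd : (cp : ℤ) ∣ (E₀ : ℤ) := by
      exact_mod_cast (Dvd.intro _ rfl : cp ∣ cp * cm).trans hcE₀
    exact h.of_dvd hd
  have hSgcp : IsCoprime Sg (cp : ℤ) := isCoprime_of_modEq hSgmod hj'cp
  -- `ℓ` divides `q ^ (2 K) - 1`
  have hℓq' : IsCoprime ((q : ℤ) ^ K₀) (ℓ : ℤ) := by
    apply IsCoprime.pow_left
    rw [Nat.isCoprime_iff_coprime]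
    exact (Nat.coprime_of_lt_prime (by omega) hℓq hℓ).symm
  have hfer : ((q : ℤ) ^ K₀) ^ (ℓ - 1) ≡ 1 [ZMOD ℓ] := Int.ModEq.pow_card_sub_one_eq_one hℓ hℓq'
  have hℓdvd : (ℓ : ℤ) ∣ Sg * (E₀ : ℤ) := by
    rw [hgeo]
    have e : (q : ℤ) ^ (2 * (K₀ * j')) = ((q : ℤ) ^ K₀) ^ (ℓ - 1) := by
      rw [← pow_mul, ← hj'ℓ]
      congr 1
      ring
    rw [e]
    exact (Int.modEq_iff_dvd.mp hfer.symm)
  have hℓdvd' : (ℓ : ℤ) ∣ Sg * (E' : ℤ) := by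
    have e : Sg * (E₀ : ℤ) = (Ep : ℤ) * (Sg * (E' : ℤ)) := by
      rw [hEE]
      push_cast
      ring
    rw [e] at hℓdvd
    exact (Nat.isCoprime_iff_coprime.mpr hℓEp).dvd_of_dvd_mul_left hℓdvd
  obtain ⟨m, hm⟩ := hℓdvd'
  have hprod : (Ep : ℤ) * ℓ * m = (q : ℤ) ^ (2 * (K₀ * j')) - 1 := by
    rw [← hgeo, hEE]
    push_cast
    linear_combination (Ep : ℤ) * (-hm)
  have hmcp : IsCoprime m (cp : ℤ) := by
    have h : IsCoprime (Sg * (E' : ℤ)) (cp : ℤ) :=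
      IsCoprime.mul_left hSgcp (Nat.isCoprime_iff_coprime.mpr hE')
    rw [hm] at h
    exact h.of_mul_left_right
  have hcmm : (cm : ℤ) ∣ m := by
    have hd : (cm : ℤ) ∣ (Ep : ℤ) * ℓ * m := by
      rw [hprod, ← hgeo]
      apply Dvd.dvd.mul_left
      exact_mod_cast (Dvd.intro_left _ rfl : cm ∣ cp * cm).trans hcE₀
    have hco' : IsCoprime (cm : ℤ) ((Ep : ℤ) * ℓ) :=
      IsCoprime.mul_right (Nat.isCoprime_iff_coprime.mpr hEpcm.symm) hℓcm.symm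
    exact hco'.dvd_of_dvd_mul_left hd
  -- the second exponent
  obtain ⟨u', v', huv'⟩ := hmcp
  obtain ⟨j, hj⟩ : ∃ j : ℕ, (j : ℤ) ≡ -s₂ * u' [ZMOD cp] := by
    refine ⟨((-s₂ * u') % (cp : ℤ)).toNat, ?_⟩
    rw [Int.toNat_of_nonneg (Int.emod_nonneg _ (by exact_mod_cast hcp.ne'))]
    exact Int.mod_modEq _ _
  obtain ⟨X, hX⟩ : ∃ X : ℤ, X = (q : ℤ) ^ (2 * (K₀ * j')) := ⟨_, rfl⟩
  obtain ⟨Sg', hSg'⟩ : ∃ Sg' : ℤ, Sg' = ∑ i ∈ range j, X ^ i := ⟨_, rfl⟩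
  have hgeo' : Sg' * (X - 1) = (q : ℤ) ^ (2 * (K₀ * j' * j)) - 1 := by
    rw [hSg', geom_sum_mul, hX, ← pow_mul]
    congr 2
    ring
  have hcpX : (cp : ℤ) ∣ X - 1 := by
    rw [hX, ← hgeo]
    apply Dvd.dvd.mul_left
    exact_mod_cast (Dvd.intro _ rfl : cp ∣ cp * cm).trans hcE₀
  have hSg'mod : Sg' ≡ j [ZMOD (cp : ℤ)] := by
    have h := geom_sum_modEq X j
    rw [← hSg'] at h
    exact h.of_dvd hcpX
  refine ⟨(Ep : ℤ) * ℓ, -m * Sg', K₀ * j' * j, ?_, ?_, ?_, ?_, ?_⟩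
  · rw [← hX] at hprod
    have : (q : ℤ) ^ (2 * (K₀ * j' * j)) = Sg' * (X - 1) + 1 := by rw [hgeo']; ring
    rw [this, ← hprod]
    ring
  · exact Dvd.dvd.mul_right (by exact_mod_cast hcpEp) _
  · rw [mul_comm]
    exact hℓ2'
  · have h := (hSg'mod.trans hj).mul_left (-m)
    refine h.trans ?_
    rw [Int.modEq_iff_dvd]
    exact ⟨s₂ * v', by linear_combination (-s₂) * huv'⟩
  · exact Dvd.dvd.mul_right (Dvd.dvd.neg_right hcmm |> fun h => by simpa using h) _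

end Fermat.Agent.S41.P1b
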