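import Fermat.Agent.S41.CspSR

/-!
# S41, piece P1b: the square lemma (SQ+) for even symbols

If `a ≡ 1 mod N`, `a² ≡ 1 mod s`, `s` odd and prime to `q`, `r ∣ s` a prime not dividing `N q`,
then `S(a, s N r) = 0`.
-/

set_option autoImplicit false

namespace Fermat.Agent.S41.P1b

theorem natCast_gcd_dvd_left (s : ℕ) (x : ℤ) : ((Nat.gcd s x.natAbs : ℕ) : ℤ) ∣ (s : ℤ) :=
  Int.natCast_dvd_natCast.mpr (Nat.gcd_dvd_left _ _)

theorem natCast_gcd_dvd_right (s : ℕ) (x : ℤ) : ((Nat.gcd s x.natAbs : ℕ) : ℤ) ∣ x :=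
  Int.natCast_dvd.mpr (Nat.gcd_dvd_right _ _)

/-- a natural number dividing an odd number and `2` is `1` -/
theorem eq_one_of_dvd_odd_of_dvd_two {g s : ℕ} (hs : Odd s) (h1 : g ∣ s) (h2 : (g : ℤ) ∣ 2) :
    g = 1 := by
  have h2' : g ∣ 2 := by exact_mod_cast h2
  have hg : g = 1 ∨ g = 2 := (Nat.dvd_prime Nat.prime_two).mp h2'
  rcases hg with h | h
  · exact h
  · exfalso
    rw [h] at h1
    exact (Nat.not_even_iff_odd.mpr hs) (even_iff_two_dvd.mpr h1)

namespace Sym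

variable {N q : ℕ} {A : Type*} [AddCommGroup A]

/-- **(SQ+)** -/
theorem sqplus (T : Sym N q A) (heven : ∀ a c : ℤ, T.S a (-c) = T.S a c) (hq : q.Prime) {p : ℕ}
    (hp : Odd p) (hA : ∀ x : A, p • x = 0) {s r : ℕ} (hs : Odd s) (hqs : Nat.Coprime q s)
    (hr : r.Prime) (hrN : Nat.Coprime r N) (hrq : r ≠ q) (hrs : r ∣ s) (hN0 : 0 < N)
    (hqN : Nat.Coprime q N) {a : ℤ} (hco : IsCoprime a ((s : ℤ) * N * r))
    (h1 : a ≡ 1 [ZMOD N]) (h2 : a ^ 2 ≡ 1 [ZMOD s]) : T.S a ((s : ℤ) * N * r) = 0 := by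
  have hs0 : 0 < s := hs.pos
  obtain ⟨sp, hsp⟩ : ∃ sp, sp = Nat.gcd s (a - 1).natAbs := ⟨_, rfl⟩
  obtain ⟨sm, hsm⟩ : ∃ sm, sm = Nat.gcd s (a + 1).natAbs := ⟨_, rfl⟩
  have hsps : sp ∣ s := hsp ▸ Nat.gcd_dvd_left _ _
  have hsms : sm ∣ s := hsm ▸ Nat.gcd_dvd_left _ _
  have hspa : (sp : ℤ) ∣ a - 1 := hsp ▸ natCast_gcd_dvd_right s (a - 1)
  have hsma : (sm : ℤ) ∣ a + 1 := hsm ▸ natCast_gcd_dvd_right s (a + 1)
  have hsp0 : 0 < sp := Nat.pos_of_dvd_of_pos hsps hs0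
  have hsm0 : 0 < sm := Nat.pos_of_dvd_of_pos hsms hs0
  have hNa : (N : ℤ) ∣ a - 1 := h1.symm.dvd
  -- coprimality
  have hcopm : Nat.Coprime sp sm := by
    apply eq_one_of_dvd_odd_of_dvd_two hs ((Nat.gcd_dvd_left sp sm).trans hsps)
    have e : (2 : ℤ) = (a + 1) - (a - 1) := by ring
    rw [e]
    exact dvd_sub ((Int.natCast_dvd_natCast.mpr (Nat.gcd_dvd_right sp sm)).trans hsma)
      ((Int.natCast_dvd_natCast.mpr (Nat.gcd_dvd_left sp sm)).trans hspa)
  have hcoNm : Nat.Coprime N sm := by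
    apply eq_one_of_dvd_odd_of_dvd_two hs ((Nat.gcd_dvd_right N sm).trans hsms)
    have e : (2 : ℤ) = (a + 1) - (a - 1) := by ring
    rw [e]
    exact dvd_sub ((Int.natCast_dvd_natCast.mpr (Nat.gcd_dvd_right N sm)).trans hsma)
      ((Int.natCast_dvd_natCast.mpr (Nat.gcd_dvd_left N sm)).trans hNa)
  -- `s = sp * sm`
  have hprod : s = sp * sm := by
    apply Nat.dvd_antisymm
    · have hd : (s : ℤ) ∣ (a - 1) * (a + 1) := by
        have := h2.symm.dvd
        have e : (a - 1) * (a + 1) = a ^ 2 - 1 := by ring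
        rw [e]
        exact this
      have hd' : s ∣ (a - 1).natAbs * (a + 1).natAbs := by
        rw [← Int.natAbs_mul]
        exact Int.natCast_dvd.mp hd
      have h3 := Nat.gcd_mul_right_dvd_mul_gcd s (a - 1).natAbs (a + 1).natAbs
      rw [Nat.gcd_eq_left hd', ← hsp, ← hsm] at h3
      exact h3
    · exact Nat.Coprime.mul_dvd_of_dvd_of_dvd hcopm hsps hsms
  have hqsp : Nat.Coprime q sp := Nat.Coprime.coprime_dvd_right hsps hqs
  have hqsm : Nat.Coprime q sm := Nat.Coprime.coprime_dvd_right hsms hqs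
  have hqr : Nat.Coprime q r := (Nat.coprime_primes hq hr).mpr (Ne.symm hrq)
  have hoddsm : Odd sm := Odd.of_dvd_nat hs hsms
  have hoddr : Odd r := Odd.of_dvd_nat hs hrs
  have hrdvd : r ∣ sp ∨ r ∣ sm := by
    rw [hprod] at hrs
    exact (Nat.Prime.dvd_mul hr).mp hrs
  have hNdvd : ∀ x y : ℤ, (N : ℤ) ∣ x * N * y := fun x y => ⟨x * y, by ring⟩
  rcases hrdvd with hrsp | hrsm
  · -- `c₋ = sm`, `c₊ = sp N r`
    have hrsm' : Nat.Coprime r sm := Nat.Coprime.coprime_dvd_left hrsp hcopm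
    have hco' : Nat.Coprime (sp * N * r) sm :=
      Nat.Coprime.mul_left (Nat.Coprime.mul_left hcopm hcoNm) hrsm'
    have e : (s : ℤ) * N * r = ((sp * N * r : ℕ) : ℤ) * (sm : ℕ) := by
      rw [hprod]
      push_cast
      ring
    rw [e] at hco ⊢
    apply T.sq_core heven hq hp hA (Nat.mul_pos (Nat.mul_pos hsp0 hN0) hr.pos) hsm0 hco'
      (Nat.Coprime.mul_right (Nat.Coprime.mul_right hqsp hqN) hqr) hqsm hoddsm
      (by push_cast; exact Dvd.dvd.mul_right (hNdvd _ _) _) hco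
    · push_cast
      have hNr : (N : ℤ) * r ∣ a - 1 := by
        apply (Nat.isCoprime_iff_coprime.mpr hrN.symm).mul_dvd hNa
        exact (Int.natCast_dvd_natCast.mpr hrsp).trans hspa
      have e2 : (a - 1) ^ 2 = (a - 1) * (a - 1) := by ring
      have e3 : (sp : ℤ) * N * r = sp * (N * r) := by ring
      rw [e2, e3]
      exact mul_dvd_mul hspa hNr
    · exact Dvd.dvd.trans hsma (Dvd.intro_left _ (by ring : (a + 1) * (a + 1) = (a + 1) ^ 2))
  · -- `c₋ = sm r`, `c₊ = sp N`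
    have hrsp' : Nat.Coprime sp r := Nat.Coprime.coprime_dvd_right hrsm hcopm
    have hco' : Nat.Coprime (sp * N) (sm * r) :=
      Nat.Coprime.mul_left (Nat.Coprime.mul_right hcopm hrsp')
        (Nat.Coprime.mul_right hcoNm hrN.symm)
    have e : (s : ℤ) * N * r = ((sp * N : ℕ) : ℤ) * ((sm * r : ℕ) : ℤ) := by
      rw [hprod]
      push_cast
      ring
    rw [e] at hco ⊢
    apply T.sq_core heven hq hp hA (Nat.mul_pos hsp0 hN0) (Nat.mul_pos hsm0 hr.pos) hco'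
      (Nat.Coprime.mul_right hqsp hqN) (Nat.Coprime.mul_right hqsm hqr) (hoddsm.mul hoddr)
      (by push_cast; exact Dvd.dvd.mul_right (Dvd.intro_left _ rfl) _) hco
    · push_cast
      have e2 : (a - 1) ^ 2 = (a - 1) * (a - 1) := by ring
      rw [e2]
      exact mul_dvd_mul hspa hNa
    · push_cast
      have e2 : (a + 1) ^ 2 = (a + 1) * (a + 1) := by ring
      rw [e2]
      exact mul_dvd_mul hsma ((Int.natCast_dvd_natCast.mpr hrsm).trans hsma)

end Sym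

end Fermat.Agent.S41.P1b
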