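import Fermat.Agent.S41.CspSep

/-!
# S41, piece P1b: even symbols — sign reversal (SR) and the square lemma (SQ+)
-/

set_option autoImplicit false

namespace Fermat.Agent.S41.P1b

namespace Sym

variable {N q : ℕ} {A : Type*} [AddCommGroup A]

/-- for an even symbol `S(-a, c) = S(a, c)` -/
theorem even_neg_left (T : Sym N q A) (heven : ∀ a c : ℤ, T.S a (-c) = T.S a c) {p : ℕ}
    (hp : Odd p) (hA : ∀ x : A, p • x = 0) (a c : ℤ) (hc : (N : ℤ) ∣ c) (hac : IsCoprime a c) :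
    T.S (-a) c = T.S a c := by
  have h := T.neg_neg hp hA a (-c) (by simpa using hc) hac.neg_right
  rw [_root_.neg_neg] at h
  rw [h, heven]

/-- **(SR)** sign reversal on an odd factor -/
theorem sr (T : Sym N q A) (heven : ∀ a c : ℤ, T.S a (-c) = T.S a c) (hq : q.Prime) {p : ℕ}
    (hp : Odd p) (hA : ∀ x : A, p • x = 0)
    {cp cm : ℕ} (hcp : 0 < cp) (hcm : 0 < cm) (hco : Nat.Coprime cp cm)
    (hqp : Nat.Coprime q cp) (hqm : Nat.Coprime q cm) (hodd : Odd cm)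
    (hN : (N : ℤ) ∣ (cp : ℤ) * cm) {a a' : ℤ}
    (ha : IsCoprime a ((cp : ℤ) * cm)) (ha' : IsCoprime a' ((cp : ℤ) * cm))
    (h1 : a' ≡ a [ZMOD cp]) (h2 : a' ≡ -a [ZMOD cm]) :
    T.S a' ((cp : ℤ) * cm) = T.S a ((cp : ℤ) * cm) := by
  have h5 : IsCoprime (a - a') (cm : ℤ) := by
    have h : a - a' ≡ 2 * a [ZMOD cm] := by
      have := (Int.ModEq.refl a).sub h2
      refine this.trans ?_
      have e : a - -a = 2 * a := by ring
      rw [e]
    apply isCoprime_of_modEq h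
    apply IsCoprime.mul_left
    · have : Nat.Coprime 2 cm := by
        rw [Nat.coprime_two_left]
        exact hodd
      exact_mod_cast Nat.isCoprime_iff_coprime.mpr this
    · exact ha.of_mul_right_right
  have h := T.sep hq hp hA hcp hcm hco hqp hqm hodd hN ha ha' ha'.neg_left ha.neg_left
    h1.symm h1.neg (by simpa using h2.neg.symm) h2 h5
  rw [T.even_neg_left heven hp hA a' _ hN ha', T.even_neg_left heven hp hA a _ hN ha] at h
  have h2' : (2 : ℕ) • (T.S a ((cp : ℤ) * cm) - T.S a' ((cp : ℤ) * cm)) = 0 := by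
    rw [two_nsmul]
    nth_rewrite 2 [h]
    abel
  have := eq_zero_of_two_nsmul hp hA h2'
  exact (sub_eq_zero.mp this).symm

end Sym

end Fermat.Agent.S41.P1b

namespace Fermat.Agent.S41.P1b

namespace Sym

variable {N q : ℕ} {A : Type*} [AddCommGroup A]

/-- the core of (SQ+): `c₊ ∣ (a - 1)²` and `c₋ ∣ (a + 1)²`, `c₋` odd -/
theorem sq_core (T : Sym N q A) (heven : ∀ a c : ℤ, T.S a (-c) = T.S a c) (hq : q.Prime) {p : ℕ}
    (hp : Odd p) (hA : ∀ x : A, p • x = 0)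
    {cp cm : ℕ} (hcp : 0 < cp) (hcm : 0 < cm) (hco : Nat.Coprime cp cm)
    (hqp : Nat.Coprime q cp) (hqm : Nat.Coprime q cm) (hodd : Odd cm)
    (hN : (N : ℤ) ∣ (cp : ℤ) * cm) {a : ℤ} (ha : IsCoprime a ((cp : ℤ) * cm))
    (h1 : (cp : ℤ) ∣ (a - 1) ^ 2) (h2 : (cm : ℤ) ∣ (a + 1) ^ 2) :
    T.S a ((cp : ℤ) * cm) = 0 := by
  have hcoZ : IsCoprime (cp : ℤ) (cm : ℤ) := Nat.isCoprime_iff_coprime.mpr hco
  obtain ⟨a', ha'1, ha'2⟩ := exists_crt hcoZ a (-a)
  have ha' : IsCoprime a' ((cp : ℤ) * cm) :=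
    IsCoprime.mul_right (isCoprime_of_modEq ha'1 ha.of_mul_right_left)
      (isCoprime_of_modEq ha'2 ha.of_mul_right_right.neg_left)
  rw [← T.sr heven hq hp hA hcp hcm hco hqp hqm hodd hN ha ha' ha'1 ha'2]
  apply T.hU a' _ hN ha'
  apply hcoZ.mul_dvd
  · have h : (a' - 1) ^ 2 ≡ (a - 1) ^ 2 [ZMOD cp] := (ha'1.sub_right 1).pow 2
    exact (Int.ModEq.dvd_iff h.symm).mp h1 |> fun h' => by
      have := h.symm.dvd
      have e : (a' - 1) ^ 2 = (a - 1) ^ 2 + ((a' - 1) ^ 2 - (a - 1) ^ 2) := by ring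
      rw [e]
      exact dvd_add h1 this
  · have h : (a' - 1) ^ 2 ≡ (-a - 1) ^ 2 [ZMOD cm] := (ha'2.sub_right 1).pow 2
    have := h.symm.dvd
    have e : (a' - 1) ^ 2 = (a + 1) ^ 2 + ((a' - 1) ^ 2 - (-a - 1) ^ 2) := by ring
    rw [e]
    exact dvd_add h2 this

end Sym

end Fermat.Agent.S41.P1b
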