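import Fermat.Agent.S41.CspDefs
import Fermat.Agent.S41.CspNT

/-!
# S41, piece P1b: separability (SEP)

For `c = c₊ c₋` (coprime, prime to `q`, `c₋` odd, `N ∣ c`) the function `F_c = S(·, c)` on
`(ℤ/c)ˣ = (ℤ/c₊)ˣ × (ℤ/c₋)ˣ` satisfies `F(α, β) - F(α, β') = F(α₃, β) - F(α₃, β')` whenever
`β - β'` is a unit.  Proof: triple product + exact factorization.
-/

set_option autoImplicit false

namespace Fermat.Agent.S41.P1b

theorem exists_inv_mod {a c : ℤ} (h : IsCoprime a c) : ∃ d b : ℤ, a * d - b * c = 1 := by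
  obtain ⟨u, v, huv⟩ := h
  exact ⟨u, -v, by linarith⟩

theorem isCoprime_mul_col {a b c d v₁ v₂ : ℤ} (hdet : a * d - b * c = 1)
    (hv : IsCoprime v₁ v₂) : IsCoprime (a * v₁ + b * v₂) (c * v₁ + d * v₂) := by
  obtain ⟨u, w, huw⟩ := hv
  refine ⟨u * d - w * c, w * a - u * b, ?_⟩
  linear_combination (u * v₁ + w * v₂) * hdet + huw

namespace Sym

variable {N q : ℕ} {A : Type*} [AddCommGroup A]

/-- iterated conjugation by `diag(q, q⁻¹)` -/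
theorem hC_pow (T : Sym N q A) (a c : ℤ) (hc : (N : ℤ) ∣ c) (k : ℕ)
    (hac : IsCoprime a ((q : ℤ) ^ (2 * k) * c)) : T.S a ((q : ℤ) ^ (2 * k) * c) = T.S a c := by
  induction k with
  | zero => simp
  | succ k ih =>
    have hq' : IsCoprime a (q : ℤ) := by
      have h : IsCoprime a ((q : ℤ) ^ (2 * (k + 1))) := hac.of_mul_right_left
      exact (IsCoprime.pow_right_iff (by omega)).mp h
    have hc' : IsCoprime a c := hac.of_mul_right_right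
    have e : (q : ℤ) ^ (2 * (k + 1)) * c = (q : ℤ) ^ 2 * ((q : ℤ) ^ (2 * k) * c) := by ring
    rw [e, T.hC a _ (Dvd.dvd.mul_left hc _)
      (IsCoprime.mul_right hq' (IsCoprime.mul_right hq'.pow_right hc'))]
    exact ih (IsCoprime.mul_right hq'.pow_right hc')

/-- **(SEP)** separability -/
theorem sep (T : Sym N q A) (hq : q.Prime) {p : ℕ} (hp : Odd p) (hA : ∀ x : A, p • x = 0)
    {cp cm : ℕ} (hcp : 0 < cp) (hcm : 0 < cm) (hco : Nat.Coprime cp cm)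
    (hqp : Nat.Coprime q cp) (hqm : Nat.Coprime q cm) (hodd : Odd cm)
    (hN : (N : ℤ) ∣ (cp : ℤ) * cm) {a a' b b' : ℤ}
    (ha : IsCoprime a ((cp : ℤ) * cm)) (ha' : IsCoprime a' ((cp : ℤ) * cm))
    (hb : IsCoprime b ((cp : ℤ) * cm)) (hb' : IsCoprime b' ((cp : ℤ) * cm))
    (h1 : a ≡ a' [ZMOD cp]) (h2 : b ≡ b' [ZMOD cp]) (h3 : a ≡ b [ZMOD cm])
    (h4 : a' ≡ b' [ZMOD cm]) (h5 : IsCoprime (a - a') (cm : ℤ)) :
    T.S a ((cp : ℤ) * cm) - T.S a' ((cp : ℤ) * cm)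
      = T.S b ((cp : ℤ) * cm) - T.S b' ((cp : ℤ) * cm) := by
  have hcoZ : IsCoprime (cp : ℤ) (cm : ℤ) := Nat.isCoprime_iff_coprime.mpr hco
  obtain ⟨c, hcdef⟩ : ∃ c : ℤ, c = (cp : ℤ) * cm := ⟨_, rfl⟩
  rw [← hcdef] at hN ha ha' hb hb' ⊢
  have hcpc : (cp : ℤ) ∣ c := ⟨cm, hcdef⟩
  have hcmc : (cm : ℤ) ∣ c := ⟨cp, by rw [hcdef]; ring⟩
  have hdvdc : ∀ x : ℤ, (cp : ℤ) ∣ x → (cm : ℤ) ∣ x → c ∣ x := by
    intro x hx hy
    rw [hcdef]
    exact hcoZ.mul_dvd hx hy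
  obtain ⟨d₁, b₁, hdet₁⟩ := exists_inv_mod ha
  obtain ⟨e', f', hdet'⟩ := exists_inv_mod ha'
  obtain ⟨t1, ht1⟩ := h1.symm.dvd
  obtain ⟨t2, ht2⟩ := h2.symm.dvd
  obtain ⟨t3, ht3⟩ := h3.dvd
  obtain ⟨t4, ht4⟩ := h4.symm.dvd
  -- `s₁ = d₁ - e'`
  have hs₁cp : (cp : ℤ) ∣ d₁ - e' := by
    have h : (cp : ℤ) ∣ a * (d₁ - e') := by
      refine ⟨cm * b₁ - cm * f' - t1 * e', ?_⟩
      rw [hcdef] at hdet₁ hdet'
      linear_combination hdet₁ - hdet' - e' * ht1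
    have hacp : IsCoprime a (cp : ℤ) := by
      have h' := ha
      rw [hcdef] at h'
      exact h'.of_mul_right_left
    exact hacp.symm.dvd_of_dvd_mul_left h
  have hs₁cm : IsCoprime (d₁ - e') (cm : ℤ) := by
    have h : a * a' * (d₁ - e') ≡ -(a - a') [ZMOD cm] := by
      rw [Int.modEq_iff_dvd]
      refine ⟨cp * (a * f' - a' * b₁), ?_⟩
      rw [hcdef] at hdet₁ hdet'
      linear_combination a * hdet' - a' * hdet₁
    exact (isCoprime_of_modEq h h5.neg_left).of_mul_left_right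
  obtain ⟨σ₁, σ₂, k, hσ, hσ₁cp, hσ₁cm, hσ₂cp, hσ₂cm⟩ :=
    exists_factorization hq.two_le hcp hcm hco hqp hqm hodd (d₁ - e') (b - a) hs₁cm
  have hcσ : c ∣ (q : ℤ) ^ (2 * k) - 1 := by
    have : (q : ℤ) ^ (2 * k) - 1 = -(σ₁ * σ₂) := by linarith
    rw [this, hcdef]
    exact Dvd.dvd.neg_right (mul_dvd_mul hσ₁cp hσ₂cm)
  -- the second matrix
  have ha₂e : c ∣ (σ₁ - d₁) + e' := by
    apply hdvdc
    · have : σ₁ - d₁ + e' = σ₁ - (d₁ - e') := by ring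
      rw [this]
      exact dvd_sub hσ₁cp hs₁cp
    · have : σ₁ - d₁ + e' = σ₁ - (d₁ - e') := by ring
      rw [this]
      exact hσ₁cm.symm.dvd
  have he'c : IsCoprime e' c := ⟨a', -f', by linarith⟩
  have ha₂mod : σ₁ - d₁ ≡ -e' [ZMOD c] := by
    rw [Int.modEq_iff_dvd]
    have : -e' - (σ₁ - d₁) = -((σ₁ - d₁) + e') := by ring
    rw [this]
    exact Dvd.dvd.neg_right ha₂e
  have ha₂ : IsCoprime (σ₁ - d₁) c := isCoprime_of_modEq ha₂mod he'c.neg_left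
  obtain ⟨d₂, b₂, hdet₂⟩ := exists_inv_mod ha₂
  have hd₂a' : c ∣ d₂ + a' := by
    obtain ⟨z, hz⟩ := ha₂e
    refine ⟨a' * d₂ * z - d₂ * f' - a' * b₂, ?_⟩
    linear_combination (-d₂) * hdet' - a' * hdet₂ + a' * d₂ * hz
  -- the third matrix
  have ha₃mod : σ₂ - d₂ ≡ b' [ZMOD c] := by
    rw [Int.modEq_iff_dvd]
    have e : b' - (σ₂ - d₂) = -(σ₂ - (b - a)) + (d₂ + a') - (b - a + a' - b') := by ring
    rw [e]
    apply dvd_sub (dvd_add (Dvd.dvd.neg_right _) hd₂a')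
    · apply hdvdc
      · exact ⟨t2 - t1, by linear_combination ht2 - ht1⟩
      · exact ⟨t3 + t4, by linear_combination ht3 + ht4⟩
    · apply hdvdc
      · exact hσ₂cp.symm.dvd
      · exact dvd_sub hσ₂cm ⟨t3, ht3⟩
  have ha₃ : IsCoprime (σ₂ - d₂) c := isCoprime_of_modEq ha₃mod hb'
  -- the products
  have H1 := T.hH (σ₁ - d₁) b₂ c d₂ (σ₂ - d₂) c hdet₂ hN hN ha₃
  have hv : IsCoprime ((σ₁ - d₁) * (σ₂ - d₂) + b₂ * c) (c * (σ₂ - d₂) + d₂ * c) :=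
    isCoprime_mul_col hdet₂ ha₃
  have hNv : (N : ℤ) ∣ c * (σ₂ - d₂) + d₂ * c :=
    dvd_add (Dvd.dvd.mul_right hN _) (Dvd.dvd.mul_left hN _)
  have H2 := T.hH a b₁ c d₁ _ _ hdet₁ hN hNv hv
  have hcol := isCoprime_mul_col hdet₁ hv
  have e1 : a * ((σ₁ - d₁) * (σ₂ - d₂) + b₂ * c) + b₁ * (c * (σ₂ - d₂) + d₂ * c)
      = -((q : ℤ) ^ (2 * k) * a + σ₂) := by
    linear_combination a * hσ - a * hdet₂ - σ₂ * hdet₁
  have e2 : c * ((σ₁ - d₁) * (σ₂ - d₂) + b₂ * c) + d₁ * (c * (σ₂ - d₂) + d₂ * c)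
      = -((q : ℤ) ^ (2 * k) * c) := by
    linear_combination c * hσ - c * hdet₂
  rw [e1, e2] at H2 hcol
  have hcol' : IsCoprime ((q : ℤ) ^ (2 * k) * a + σ₂) ((q : ℤ) ^ (2 * k) * c) := by
    have := hcol.neg_left.neg_right
    simpa using this
  rw [T.neg_neg hp hA _ _ (Dvd.dvd.mul_left hN _) hcol',
    T.hC_pow _ c hN k hcol'] at H2
  have hAb : (q : ℤ) ^ (2 * k) * a + σ₂ ≡ b [ZMOD c] := by
    rw [Int.modEq_iff_dvd]
    have e : b - ((q : ℤ) ^ (2 * k) * a + σ₂) = -(((q : ℤ) ^ (2 * k) - 1) * a) - (σ₂ - (b - a)) := by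
      ring
    rw [e]
    apply dvd_sub (Dvd.dvd.neg_right (Dvd.dvd.mul_right hcσ _))
    apply hdvdc
    · exact hσ₂cp.symm.dvd
    · exact dvd_sub hσ₂cm ⟨t3, ht3⟩
  rw [T.congr_left hN hb hAb, H1, T.congr_left hN he'c.neg_left ha₂mod,
    T.congr_left hN hb' ha₃mod] at H2
  have hinv : T.S (-e') c = - T.S a' c := by
    apply T.inv' hp hA a' c e' hN
    rw [Int.modEq_iff_dvd]
    exact ⟨-f', by linear_combination (-1 : ℤ) * hdet'⟩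
  rw [hinv] at H2
  rw [H2]
  abel

end Sym

end Fermat.Agent.S41.P1b
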