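import Mathlib
import Fermat.Agent.S29.ParHecke

/-!
# S41, piece P1c: homomorphisms that factor through `d mod N` are Eisenstein

Let `c : Γ₀(N) → A` be a homomorphism that vanishes on `{γ ∈ Γ₀(N) : d ≡ 1 mod N}` (equivalently on
`{γ : a ≡ 1 mod N}`), i.e. `c = χ ∘ (d mod N)` for a character `χ` of `(ℤ/N)ˣ`. Then
`T_ℓ c = (ℓ + 1) • c` for **every** prime `ℓ ∤ N`.

Proof: `α_x γ = κ(γ, x) α_{x·γ}` with all `α_x` upper triangular, so
`d(α_x) d(γ) ≡ d(κ(γ, x)) d(α_{x·γ}) mod N`; the contributions of the `α`'s cancel in the sum over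
`x` because `x ↦ x·γ` is a permutation.
-/

set_option autoImplicit false
set_option linter.unusedSectionVars false
set_option linter.unusedVariables false

noncomputable section

open Matrix.SpecialLinearGroup CongruenceSubgroup
open scoped MatrixGroups
open P2MW.S_ModularForm_heckeT_slash_eq_self_of_mem_Gamma0.ModularForm.HeckeSlashInvariance

namespace Fermat.Agent.S41.P1c

open Fermat.Agent.S29.D1

variable {N : ℕ} {ℓ : ℕ} [Fact ℓ.Prime]

/-! ### the character `d mod N` on `Γ₀(N)` -/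

/-- the lower right entry of `γ ∈ Γ₀(N)` modulo `N` -/
def dmod (γ : Gamma0 N) : ZMod N := (((γ : SL(2, ℤ)) 1 1 : ℤ) : ZMod N)

theorem dmod_mul (γ δ : Gamma0 N) : dmod (γ * δ) = dmod γ * dmod δ := by
  unfold dmod
  have h : ((((γ : SL(2, ℤ)) 1 0 : ℤ)) : ZMod N) = 0 := Gamma0_mem.mp γ.2
  rw [Subgroup.coe_mul, Matrix.SpecialLinearGroup.coe_mul, Matrix.mul_apply, Fin.sum_univ_two]
  push_cast
  rw [h, zero_mul, zero_add]

@[simp] theorem dmod_one : dmod (1 : Gamma0 N) = 1 := by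
  unfold dmod
  simp

theorem dmod_mul_inv (γ : Gamma0 N) : dmod γ * dmod γ⁻¹ = 1 := by
  rw [← dmod_mul, mul_inv_cancel, dmod_one]

/-- the upper left entry is the inverse of the lower right entry modulo `N` -/
theorem amod_mul_dmod (γ : Gamma0 N) :
    ((((γ : SL(2, ℤ)) 0 0 : ℤ)) : ZMod N) * dmod γ = 1 := by
  unfold dmod
  have h : ((((γ : SL(2, ℤ)) 1 0 : ℤ)) : ZMod N) = 0 := Gamma0_mem.mp γ.2
  have hdet := congrArg (Int.cast : ℤ → ZMod N) (det_eq (γ : SL(2, ℤ)))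
  push_cast at hdet
  rw [h, mul_zero, sub_zero] at hdet
  exact hdet

/-- `d ≡ 1` iff `a ≡ 1` modulo `N` -/
theorem dmod_eq_one_iff (γ : Gamma0 N) :
    dmod γ = 1 ↔ ((((γ : SL(2, ℤ)) 0 0 : ℤ)) : ZMod N) = 1 := by
  have h := amod_mul_dmod γ
  constructor
  · intro e
    rw [e, mul_one] at h
    exact h
  · intro e
    rw [e, one_mul] at h
    exact h

/-- `c` vanishes on the elements of `Γ₀(N)` with `d ≡ 1 mod N` -/
def KillsGamma1 {A : Type*} [AddCommGroup A] (c : Additive (Gamma0 N) →+ A) : Prop :=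
  ∀ γ : Gamma0 N, dmod γ = 1 → c (Additive.ofMul γ) = 0

theorem killsGamma1_iff_a {A : Type*} [AddCommGroup A] (c : Additive (Gamma0 N) →+ A) :
    KillsGamma1 c ↔ ∀ γ : Gamma0 N, ((((γ : SL(2, ℤ)) 0 0 : ℤ)) : ZMod N) = 1 →
      c (Additive.ofMul γ) = 0 := by
  constructor
  · intro h γ hγ
    exact h γ ((dmod_eq_one_iff γ).mpr hγ)
  · intro h γ hγ
    exact h γ ((dmod_eq_one_iff γ).mp hγ)

/-- a homomorphism killing `{d ≡ 1}` only depends on `d mod N` -/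
theorem KillsGamma1.eq_of_dmod_eq {A : Type*} [AddCommGroup A]
    {c : Additive (Gamma0 N) →+ A} (hc : KillsGamma1 c) {γ δ : Gamma0 N}
    (h : dmod γ = dmod δ) : c (Additive.ofMul γ) = c (Additive.ofMul δ) := by
  have h1 : dmod (γ * δ⁻¹) = 1 := by
    rw [dmod_mul, h, dmod_mul_inv]
  have h2 := hc _ h1
  rw [ofMul_mul, map_add, ofMul_inv, map_neg] at h2
  exact sub_eq_zero.mp (by rw [sub_eq_add_neg]; exact h2)

/-! ### the lower right entries of the representatives -/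

/-- the lower right entry of `heckeRep ℓ x` -/
def botR (ℓ : ℕ) (x : OnePoint (ZMod ℓ)) : ℤ := x.elim 1 (fun _ => (ℓ : ℤ))

/-- the upper right entry of `heckeRep ℓ x` -/
def topR (ℓ : ℕ) (x : OnePoint (ZMod ℓ)) : ℤ := x.elim 0 (fun j => (j.val : ℤ))

theorem heckeRep_one_zero (x : OnePoint (ZMod ℓ)) :
    ((heckeRep ℓ x : GL (Fin 2) ℝ) : Matrix (Fin 2) (Fin 2) ℝ) 1 0 = 0 := by
  have hℓ : ℓ ≠ 0 := (Fact.out : ℓ.Prime).ne_zero
  induction x using OnePoint.rec with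
  | infty => rw [heckeRep_infty]; simp [ModularForm.val_heckeDiagMatrix hℓ]
  | coe j => rw [heckeRep_coe]; simp [ModularForm.val_heckeMatrix hℓ]

theorem heckeRep_one_one (x : OnePoint (ZMod ℓ)) :
    ((heckeRep ℓ x : GL (Fin 2) ℝ) : Matrix (Fin 2) (Fin 2) ℝ) 1 1 = ((botR ℓ x : ℤ) : ℝ) := by
  have hℓ : ℓ ≠ 0 := (Fact.out : ℓ.Prime).ne_zero
  induction x using OnePoint.rec with
  | infty => rw [heckeRep_infty]; simp [ModularForm.val_heckeDiagMatrix hℓ, botR]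
  | coe j => rw [heckeRep_coe]; simp [ModularForm.val_heckeMatrix hℓ, botR]

theorem heckeRep_zero_one (x : OnePoint (ZMod ℓ)) :
    ((heckeRep ℓ x : GL (Fin 2) ℝ) : Matrix (Fin 2) (Fin 2) ℝ) 0 1 = ((topR ℓ x : ℤ) : ℝ) := by
  have hℓ : ℓ ≠ 0 := (Fact.out : ℓ.Prime).ne_zero
  induction x using OnePoint.rec with
  | infty => rw [heckeRep_infty]; simp [ModularForm.val_heckeDiagMatrix hℓ, topR]
  | coe j => rw [heckeRep_coe]; simp [ModularForm.val_heckeMatrix hℓ, topR]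

/-- **the key congruence** `d(α_x) d(γ) ≡ d(κ(γ, x)) d(α_{x·γ}) mod N` -/
theorem botR_mul_dmod (hℓN : ¬ ℓ ∣ N) (γ : Gamma0 N) (x : OnePoint (ZMod ℓ)) :
    ((botR ℓ x : ℤ) : ZMod N) * dmod γ
      = dmod (kap hℓN γ x) * ((botR ℓ (perm (γ : SL(2, ℤ)) x) : ℤ) : ZMod N) := by
  have h := kap_spec hℓN γ x
  have h11 := congrArg (fun M : GL (Fin 2) ℝ => (M : Matrix (Fin 2) (Fin 2) ℝ) 1 1) h
  simp only [Matrix.GeneralLinearGroup.coe_mul, Matrix.mul_apply, Fin.sum_univ_two,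
    heckeRep_one_zero, heckeRep_one_one, heckeRep_zero_one, mapGL_apply, zero_mul, zero_add]
    at h11
  have h11' : botR ℓ x * (γ : SL(2, ℤ)) 1 1
      = ((kap hℓN γ x : Gamma0 N) : SL(2, ℤ)) 1 0 * topR ℓ (perm (γ : SL(2, ℤ)) x)
        + ((kap hℓN γ x : Gamma0 N) : SL(2, ℤ)) 1 1 * botR ℓ (perm (γ : SL(2, ℤ)) x) := by
    exact_mod_cast h11
  have h0 : (((((kap hℓN γ x : Gamma0 N) : SL(2, ℤ)) 1 0 : ℤ)) : ZMod N) = 0 :=
    Gamma0_mem.mp (kap hℓN γ x).2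
  have h2 := congrArg (Int.cast : ℤ → ZMod N) h11'
  push_cast at h2
  rw [h0, zero_mul, zero_add] at h2
  exact h2

/-! ### an element of `Γ₀(N)` with `d = ℓ` -/

theorem exists_dmod_eq (hℓN : ¬ ℓ ∣ N) : ∃ h : Gamma0 N, dmod h = (ℓ : ZMod N) := by
  have hcop : IsCoprime (ℓ : ℤ) (N : ℤ) := by
    rw [Int.isCoprime_iff_gcd_eq_one, Int.gcd_natCast_natCast]
    exact (Nat.Prime.coprime_iff_not_dvd Fact.out).mpr hℓN
  obtain ⟨a, b, hab⟩ := hcop
  -- a * ℓ + b * N = 1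
  refine ⟨⟨⟨!![a, -b; (N : ℤ), (ℓ : ℤ)], ?_⟩, ?_⟩, ?_⟩
  · rw [Matrix.det_fin_two_of]
    linear_combination hab
  · rw [Gamma0_mem]
    simp
  · unfold dmod
    simp

/-- the correcting elements: `g_x ∈ Γ₀(N)` with `d(g_x) ≡ d(α_x) mod N` -/
theorem exists_corr (hℓN : ¬ ℓ ∣ N) :
    ∃ g : OnePoint (ZMod ℓ) → Gamma0 N, ∀ x, dmod (g x) = ((botR ℓ x : ℤ) : ZMod N) := by
  obtain ⟨h, hh⟩ := exists_dmod_eq (N := N) hℓN
  refine ⟨fun x => x.elim 1 (fun _ => h), fun x => ?_⟩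
  induction x using OnePoint.rec with
  | infty => simp [botR]
  | coe j => simpa [botR] using hh

/-! ### the theorem -/

variable {A : Type*} [AddCommGroup A]

/-- **P1c**: a homomorphism `Γ₀(N) → A` that vanishes on `{d ≡ 1 mod N}` satisfies
`T_ℓ c = (ℓ + 1) • c` for every prime `ℓ ∤ N` -/
theorem heckeHom_eq_of_killsGamma1 (hℓN : ¬ ℓ ∣ N) {c : Additive (Gamma0 N) →+ A}
    (hc : KillsGamma1 c) : heckeHom A hℓN c = (ℓ + 1) • c := by
  classical
  obtain ⟨g, hg⟩ := exists_corr (N := N) hℓN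
  refine AddMonoidHom.ext fun γ' => ?_
  obtain ⟨γ, rfl⟩ : ∃ γ : Gamma0 N, Additive.ofMul γ = γ' := ⟨Additive.toMul γ', rfl⟩
  rw [heckeHom_apply]
  have key : ∀ x : OnePoint (ZMod ℓ), c (Additive.ofMul (kap hℓN γ x))
      = c (Additive.ofMul γ) + c (Additive.ofMul (g x))
        - c (Additive.ofMul (g (perm (γ : SL(2, ℤ)) x))) := by
    intro x
    have h1 : dmod (g x * γ) = dmod (kap hℓN γ x * g (perm (γ : SL(2, ℤ)) x)) := by
      rw [dmod_mul, dmod_mul, hg, hg]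
      exact botR_mul_dmod hℓN γ x
    have h2 := hc.eq_of_dmod_eq h1
    rw [ofMul_mul, map_add, ofMul_mul, map_add] at h2
    rw [eq_sub_iff_add_eq, ← h2]
    abel
  rw [Finset.sum_congr rfl (fun x _ => key x), Finset.sum_sub_distrib, Finset.sum_add_distrib]
  have hperm : ∑ x : OnePoint (ZMod ℓ), c (Additive.ofMul (g (perm (γ : SL(2, ℤ)) x)))
      = ∑ x : OnePoint (ZMod ℓ), c (Additive.ofMul (g x)) :=
    Equiv.sum_comp (permEquiv (γ : SL(2, ℤ))) (fun x => c (Additive.ofMul (g x)))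
  rw [hperm, add_sub_cancel_right, Finset.sum_const, Finset.card_univ]
  have hcard : Fintype.card (OnePoint (ZMod ℓ)) = ℓ + 1 := by
    rw [show Fintype.card (OnePoint (ZMod ℓ)) = Fintype.card (Option (ZMod ℓ)) from rfl,
      Fintype.card_option, ZMod.card]
  rw [hcard]
  rfl

/-- the same, for homomorphisms vanishing on `{a ≡ 1 mod N}` -/
theorem heckeHom_eq_of_kills_a (hℓN : ¬ ℓ ∣ N) {c : Additive (Gamma0 N) →+ A}
    (hc : ∀ γ : Gamma0 N, ((((γ : SL(2, ℤ)) 0 0 : ℤ)) : ZMod N) = 1 →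
      c (Additive.ofMul γ) = 0) : heckeHom A hℓN c = (ℓ + 1) • c :=
  heckeHom_eq_of_killsGamma1 hℓN ((killsGamma1_iff_a c).mpr hc)

end Fermat.Agent.S41.P1c
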