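import Mathlib

/-!
# C81 (S41), piece P4G: eigenvalue `1` for every element gives a stable line

`V` a plane over `ZMod p` (`Nat.card V = p ^ 2`), `G` a monoid acting additively on `V` such that
every `g` fixes a nonzero vector.  Then some line of `V` is stable under `G`.

Proof: if some `g₀` acts nontrivially, choose a basis `(e₁, e₂)` with `g₀ e₁ = e₁` in which `g₀` is
`[[1, a], [0, d]]` with `a = 0 ≠ d - 1` or `d = 1, a ≠ 0`.  The condition `det (A - 1) = 0` for
`A = g` and `A = g₀ g` gives `(α - 1)(d - 1) = a γ` for all `g = [[α, β], [γ, δ]]`; so either all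
`γ` vanish, or all `α = 1` and `β γ = 0`, and then products show that all `γ = 0` or all `β = 0`.
-/

set_option autoImplicit false
set_option linter.unusedSectionVars false
set_option linter.unusedVariables false
set_option linter.style.haveILetI false

namespace Fermat.Agent.S41.P4G

open Matrix Module

section Mat

variable {F : Type*} [Field F]

lemma det_sub_one_eq (A : Matrix (Fin 2) (Fin 2) F) :
    (A - 1).det = (A 0 0 - 1) * (A 1 1 - 1) - A 0 1 * A 1 0 := by
  rw [Matrix.det_fin_two]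
  simp [Matrix.sub_apply]

/-- the matrix form of the lemma, in an adapted basis -/
lemma mat_key {G : Type*} [Monoid G] (ρ : G →* Matrix (Fin 2) (Fin 2) F)
    (hS : ∀ g, (ρ g - 1).det = 0) (g₀ : G) (h00 : ρ g₀ 0 0 = 1) (h10 : ρ g₀ 1 0 = 0)
    (hshape : (ρ g₀ 0 1 = 0 ∧ ρ g₀ 1 1 ≠ 1) ∨ (ρ g₀ 1 1 = 1 ∧ ρ g₀ 0 1 ≠ 0)) :
    (∀ g, ρ g 1 0 = 0) ∨ (∀ g, ρ g 0 1 = 0) := by
  have hC : ∀ g, (ρ g 0 0 - 1) * (ρ g 1 1 - 1) = ρ g 0 1 * ρ g 1 0 := fun g => by
    have := hS g
    rw [det_sub_one_eq] at this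
    exact sub_eq_zero.1 this
  have hmul : ∀ g h (i j : Fin 2), ρ (g * h) i j = ρ g i 0 * ρ h 0 j + ρ g i 1 * ρ h 1 j := by
    intro g h i j
    rw [map_mul, Matrix.mul_apply, Fin.sum_univ_two]
  have hstar : ∀ g, (ρ g 0 0 - 1) * (ρ g₀ 1 1 - 1) = ρ g₀ 0 1 * ρ g 1 0 := by
    intro g
    have h1 := hC g
    have h2 := hC (g₀ * g)
    rw [hmul, hmul, hmul, hmul, h00, h10] at h2
    linear_combination h2 - ρ g₀ 1 1 * h1
  rcases hshape with ⟨ha, hd⟩ | ⟨hd, ha⟩
  · have hα : ∀ g, ρ g 0 0 = 1 := by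
      intro g
      have := hstar g
      rw [ha, zero_mul] at this
      rcases mul_eq_zero.1 this with h | h
      · exact sub_eq_zero.1 h
      · exact absurd (sub_eq_zero.1 h) hd
    have hβγ : ∀ g, ρ g 0 1 * ρ g 1 0 = 0 := by
      intro g
      rw [← hC g, hα g, sub_self, zero_mul]
    by_cases hall : ∀ g, ρ g 1 0 = 0
    · exact Or.inl hall
    · right
      rw [not_forall] at hall
      obtain ⟨g₁, hγ₁⟩ := hall
      intro g
      by_contra hβ
      have hβ₁ : ρ g₁ 0 1 = 0 := (mul_eq_zero.1 (hβγ g₁)).resolve_right hγ₁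
      have hγ : ρ g 1 0 = 0 := (mul_eq_zero.1 (hβγ g)).resolve_left hβ
      have := hβγ (g₁ * g)
      rw [hmul, hmul, hα g₁, hα g, hβ₁, hγ] at this
      simp only [one_mul, zero_mul, add_zero, mul_one, mul_zero] at this
      rcases mul_eq_zero.1 this with h | h
      · exact hβ h
      · exact hγ₁ h
  · left
    intro g
    have := hstar g
    rw [hd, sub_self, mul_zero] at this
    exact (mul_eq_zero.1 this.symm).resolve_left ha

end Mat

section Vec

variable {F : Type*} [Field F] {V : Type*} [AddCommGroup V] [Module F V]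

/-- coordinates in a basis indexed by `Fin 2` -/
lemma repr_pair (b : Basis (Fin 2) F V) (s t : F) :
    b.repr (s • b 0 + t • b 1) 0 = s ∧ b.repr (s • b 0 + t • b 1) 1 = t := by
  constructor <;> simp

lemma eq_pair (b : Basis (Fin 2) F V) (x : V) :
    x = b.repr x 0 • b 0 + b.repr x 1 • b 1 := by
  conv_lhs => rw [← b.sum_repr x]
  rw [Fin.sum_univ_two]

/-- an adapted second basis vector -/
lemma exists_adapted (hV : finrank F V = 2) (A₀ : Module.End F V) (hne : A₀ ≠ 1) {e₁ : V}
    (he₁ : e₁ ≠ 0) (hfix : A₀ e₁ = e₁) :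
    ∃ (e₂ : V) (a d : F), LinearIndependent F ![e₁, e₂] ∧ A₀ e₂ = a • e₁ + d • e₂ ∧
      ((a = 0 ∧ d ≠ 1) ∨ (d = 1 ∧ a ≠ 0)) := by
  haveI : FiniteDimensional F V := FiniteDimensional.of_finrank_pos (by omega)
  -- a vector outside the line
  have hlt : Submodule.span F {e₁} ≠ ⊤ := by
    intro h
    have h1 := finrank_span_singleton (K := F) he₁
    rw [h, finrank_top, hV] at h1
    omega
  obtain ⟨e₀, he₀⟩ : ∃ e₀ : V, e₀ ∉ Submodule.span F {e₁} := by
    by_contra hcon
    rw [not_exists] at hcon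
    exact hlt (Submodule.eq_top_iff'.2 fun x => not_not.1 (hcon x))
  have hli₀ : LinearIndependent F ![e₁, e₀] := by
    rw [LinearIndependent.pair_iff' he₁]
    intro c hc
    exact he₀ (Submodule.mem_span_singleton.2 ⟨c, hc⟩)
  let b₀ : Basis (Fin 2) F V := basisOfLinearIndependentOfCardEqFinrank hli₀ (by simp [hV])
  have hb0 : b₀ 0 = e₁ := by simp [b₀]
  have hb1 : b₀ 1 = e₀ := by simp [b₀]
  have hA := eq_pair b₀ (A₀ e₀)
  rw [hb0, hb1] at hA
  set a := b₀.repr (A₀ e₀) 0 with ha
  set d := b₀.repr (A₀ e₀) 1 with hd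
  by_cases hd1 : d = 1
  · refine ⟨e₀, a, d, hli₀, hA, Or.inr ⟨hd1, ?_⟩⟩
    intro ha0
    apply hne
    apply b₀.ext
    intro i
    fin_cases i
    · show A₀ (b₀ 0) = (1 : Module.End F V) (b₀ 0)
      rw [hb0, hfix]
      rfl
    · show A₀ (b₀ 1) = (1 : Module.End F V) (b₀ 1)
      rw [hb1, hA, ha0, hd1, zero_smul, zero_add, one_smul]
      rfl
  · have hd1' : d - 1 ≠ 0 := sub_ne_zero.2 hd1
    refine ⟨e₀ + (a / (d - 1)) • e₁, 0, d, ?_, ?_, Or.inl ⟨rfl, hd1⟩⟩
    · rw [LinearIndependent.pair_iff' he₁]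
      intro c hc
      apply he₀
      rw [Submodule.mem_span_singleton]
      refine ⟨c - a / (d - 1), ?_⟩
      rw [sub_smul, hc]
      abel
    · rw [map_add, map_smul, hfix, hA, zero_smul, zero_add, smul_add, smul_smul]
      have : a • e₁ + d • e₀ + (a / (d - 1)) • e₁ = d • e₀ + (a + a / (d - 1)) • e₁ := by
        rw [add_smul]
        abel
      rw [this]
      congr 2
      field_simp
      ring

/-- **core**: a monoid of endomorphisms of a plane, each fixing a nonzero vector, has a common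
eigenvector -/
theorem exists_common_eigenvector (hV : finrank F V = 2) {G : Type*} [Monoid G]
    (ρ : G →* Module.End F V) (hfix : ∀ g, ∃ v : V, v ≠ 0 ∧ ρ g v = v) :
    ∃ v : V, v ≠ 0 ∧ ∀ g, ∃ c : F, ρ g v = c • v := by
  haveI : FiniteDimensional F V := FiniteDimensional.of_finrank_pos (by omega)
  by_cases htriv : ∀ g, ρ g = 1
  · haveI : Nontrivial V := Module.nontrivial_of_finrank_pos (R := F) (by omega)
    obtain ⟨v, hv⟩ := exists_ne (0 : V)
    refine ⟨v, hv, fun g => ⟨1, ?_⟩⟩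
    rw [htriv g, one_smul]
    rfl
  · rw [not_forall] at htriv
    obtain ⟨g₀, hg₀⟩ := htriv
    obtain ⟨e₁, he₁, hfix₁⟩ := hfix g₀
    obtain ⟨e₂, a, d, hli, hA, hshape⟩ := exists_adapted hV (ρ g₀) hg₀ he₁ hfix₁
    let b : Basis (Fin 2) F V := basisOfLinearIndependentOfCardEqFinrank hli (by simp [hV])
    have hb0 : b 0 = e₁ := by simp [b]
    have hb1 : b 1 = e₂ := by simp [b]
    let M : G →* Matrix (Fin 2) (Fin 2) F :=
      { toFun := fun g => LinearMap.toMatrix b b (ρ g)
        map_one' := by rw [map_one, LinearMap.toMatrix_one]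
        map_mul' := fun g h => by rw [map_mul, LinearMap.toMatrix_mul] }
    have hM : ∀ g i j, M g i j = b.repr (ρ g (b j)) i := fun g i j =>
      LinearMap.toMatrix_apply b b (ρ g) i j
    have hdet : ∀ g, (M g - 1).det = 0 := by
      intro g
      obtain ⟨v, hv, hgv⟩ := hfix g
      rw [← Matrix.exists_mulVec_eq_zero_iff]
      refine ⟨b.repr v, ?_, ?_⟩
      · intro h0
        apply hv
        apply b.repr.injective
        rw [map_zero]
        exact DFunLike.coe_injective h0
      · rw [Matrix.sub_mulVec, Matrix.one_mulVec]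
        have := LinearMap.toMatrix_mulVec_repr b b (ρ g) v
        rw [hgv] at this
        show LinearMap.toMatrix b b (ρ g) *ᵥ ⇑(b.repr v) - ⇑(b.repr v) = 0
        rw [this, sub_self]
    have hg₀0 : ρ g₀ (b 0) = (1 : F) • b 0 + (0 : F) • b 1 := by
      rw [hb0, hfix₁, one_smul, zero_smul, add_zero]
    have hg₀1 : ρ g₀ (b 1) = a • b 0 + d • b 1 := by
      rw [hb0, hb1, hA]
    have h00 : M g₀ 0 0 = 1 := by rw [hM, hg₀0]; exact (repr_pair b 1 0).1
    have h10 : M g₀ 1 0 = 0 := by rw [hM, hg₀0]; exact (repr_pair b 1 0).2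
    have h01 : M g₀ 0 1 = a := by rw [hM, hg₀1]; exact (repr_pair b a d).1
    have h11 : M g₀ 1 1 = d := by rw [hM, hg₀1]; exact (repr_pair b a d).2
    rcases mat_key M hdet g₀ h00 h10 (by rw [h01, h11]; exact hshape) with h | h
    · refine ⟨b 0, b.ne_zero 0, fun g => ⟨M g 0 0, ?_⟩⟩
      have := eq_pair b (ρ g (b 0))
      rw [← hM, ← hM, h g, zero_smul, add_zero] at this
      exact this
    · refine ⟨b 1, b.ne_zero 1, fun g => ⟨M g 1 1, ?_⟩⟩
      have := eq_pair b (ρ g (b 1))
      rw [← hM, ← hM, h g, zero_smul, zero_add] at this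
      exact this

end Vec

section Main

/-- **P4G**: every element has eigenvalue `1` ⇒ there is a stable line -/
theorem exists_stable_line {p : ℕ} [Fact p.Prime] {V : Type*} [AddCommGroup V]
    [Module (ZMod p) V] (hV : Nat.card V = p ^ 2) {G : Type*} [Monoid G] [DistribMulAction G V]
    (hfix : ∀ g : G, ∃ v : V, v ≠ 0 ∧ g • v = v) :
    ∃ N : Submodule (ZMod p) V, N ≠ ⊥ ∧ N ≠ ⊤ ∧ ∀ g : G, ∀ v ∈ N, g • v ∈ N := by
  have hp : p.Prime := Fact.out
  haveI : Finite V := Nat.finite_of_card_ne_zero (by rw [hV]; exact pow_ne_zero _ hp.ne_zero)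
  haveI : Module.Finite (ZMod p) V := Module.Finite.of_finite
  have hrank : finrank (ZMod p) V = 2 := by
    have h1 := Module.natCard_eq_pow_finrank (K := ZMod p) (V := V)
    rw [hV, Nat.card_zmod] at h1
    exact (Nat.pow_right_injective hp.two_le h1).symm
  let ρ : G →* Module.End (ZMod p) V :=
    { toFun := fun g => (DistribSMul.toAddMonoidHom V g).toZModLinearMap p
      map_one' := by
        ext v
        show (1 : G) • v = v
        exact one_smul G v
      map_mul' := fun g h => by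
        ext v
        show (g * h) • v = g • h • v
        exact mul_smul g h v }
  have hρ : ∀ g v, ρ g v = g • v := fun g v => rfl
  obtain ⟨v, hv, hstab⟩ := exists_common_eigenvector hrank ρ (fun g => by
    obtain ⟨v, hv, hgv⟩ := hfix g
    exact ⟨v, hv, hgv⟩)
  refine ⟨Submodule.span (ZMod p) {v}, ?_, ?_, ?_⟩
  · intro h
    have : v ∈ Submodule.span (ZMod p) {v} := Submodule.mem_span_singleton_self v
    rw [h, Submodule.mem_bot] at this
    exact hv this
  · intro h
    have h1 := finrank_span_singleton (K := ZMod p) hv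
    rw [h, finrank_top, hrank] at h1
    omega
  · intro g x hx
    rw [Submodule.mem_span_singleton] at hx ⊢
    obtain ⟨t, rfl⟩ := hx
    obtain ⟨c, hc⟩ := hstab g
    refine ⟨t * c, ?_⟩
    rw [← hρ, map_smul, hc, smul_smul]

end Main

end Fermat.Agent.S41.P4G
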