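import Fermat.Agent.S41.NonEisAsm
import Fermat.Agent.S41.NonEisGroup

/-!
# S41 (P4 + P6): the system `a_ℓ(W) mod p` of a curve with irreducible `E[p]` is not Eisenstein

For an integral model `W` of an elliptic curve `E` over `ℚ` with irreducible `E[p]` (`p` an odd
prime) and every finite set `S` of primes there is a prime `ℓ ∉ S`, `ℓ ≠ p`, of good reduction
with `a_ℓ(W) ≢ 1 + ℓ mod p`.
-/

set_option autoImplicit false
set_option linter.style.haveILetI false

namespace Fermat.Agent.S41.P4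

open WeierstrassCurve WeierstrassCurve.Affine.Point

theorem stableLine {p : ℕ} (hp : p.Prime) : Fermat.Agent.S41.P4A.StableLine p := by
  intro V _ _ hV G _ _ hfix
  haveI : Fact p.Prime := ⟨hp⟩
  exact Fermat.Agent.S41.P4G.exists_stable_line hV hfix

/-- **Non-Eisenstein** (P4 + P6). -/
theorem exists_prime_not_eisenstein (E : WeierstrassCurve ℚ) [E.IsElliptic]
    {W : WeierstrassCurve ℤ} (hW : W.IsIntegralModelOf E) {p : ℕ} (hp : p.Prime) (hp2 : p ≠ 2)
    (hirr : GaloisRepIsIrreducible (K := AlgebraicClosure ℚ) ℚ E p) (S : Finset ℕ) :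
    ∃ ℓ : ℕ, ℓ.Prime ∧ ℓ ∉ S ∧ ℓ ≠ p ∧ W.IsGoodPrimeFor ℓ ∧
      ¬ (p : ℤ) ∣ W.apOfModel ℓ - (1 + ℓ) :=
  Fermat.Agent.S41.P4A.exists_prime_not_eisenstein_of E hW hp hp2 (stableLine hp) hirr S

end Fermat.Agent.S41.P4
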