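import Fermat.Agent.S41.NonEisDensity
import Fermat.Prelude.Def_FLTPrelim_Modularity

/-!
# S41 (P4): the system `a_ℓ(W) mod p` of a curve with irreducible `E[p]` is not Eisenstein

Assembly, modulo the linear algebra lemma (P4G): a group acting on a two dimensional
`𝔽_p`-vector space all of whose elements fix a nonzero vector has a stable line.
-/

set_option autoImplicit false
set_option linter.unusedSectionVars false
set_option linter.unusedVariables false
set_option linter.style.haveILetI false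

namespace Fermat.Agent.S41.P4A

open WeierstrassCurve WeierstrassCurve.Affine.Point
open Fermat.Agent.S41.VC Fermat.Agent.S41.P4D

local notation "Qb" => AlgebraicClosure ℚ
local notation "Gal" => (AlgebraicClosure ℚ ≃ₐ[ℚ] AlgebraicClosure ℚ)

/-- the statement of the linear algebra lemma (P4G) -/
def StableLine (p : ℕ) : Prop :=
  ∀ (V : Type) [AddCommGroup V] [Module (ZMod p) V] (_ : Nat.card V = p ^ 2)
    (G : Type) [Group G] [DistribMulAction G V],
    (∀ g : G, ∃ v : V, v ≠ 0 ∧ g • v = v) →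
      ∃ N : Submodule (ZMod p) V, N ≠ ⊥ ∧ N ≠ ⊤ ∧ ∀ g : G, ∀ v ∈ N, g • v ∈ N

/-- the discriminant of an integral model of an elliptic curve is nonzero -/
lemma Δ_ne_zero_of_model {E : WeierstrassCurve ℚ} [E.IsElliptic] {W : WeierstrassCurve ℤ}
    {C : VariableChange ℚ} (h : C • E = W.map (Int.castRingHom ℚ)) : W.Δ ≠ 0 := by
  intro h0
  have h1 : (C • E).Δ = 0 := by
    rw [h, WeierstrassCurve.map_Δ, h0, _root_.map_zero]
  rw [variableChange_Δ] at h1
  rcases mul_eq_zero.1 h1 with h2 | h2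
  · exact (pow_ne_zero _ (Units.ne_zero _)) h2
  · exact E.isUnit_Δ.ne_zero h2

/-- **Non-Eisenstein.** -/
theorem exists_prime_not_eisenstein_of (E : WeierstrassCurve ℚ) [E.IsElliptic]
    {W : WeierstrassCurve ℤ} (hW : W.IsIntegralModelOf E) {p : ℕ} (hp : p.Prime) (hp2 : p ≠ 2)
    (hgrp : StableLine p)
    (hirr : GaloisRepIsIrreducible (K := AlgebraicClosure ℚ) ℚ E p) (S : Finset ℕ) :
    ∃ ℓ : ℕ, ℓ.Prime ∧ ℓ ∉ S ∧ ℓ ≠ p ∧ W.IsGoodPrimeFor ℓ ∧
      ¬ (p : ℤ) ∣ W.apOfModel ℓ - (1 + ℓ) := by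
  classical
  by_contra hcon
  have hE : ∀ ℓ : ℕ, ℓ.Prime → ℓ ∉ S → ℓ ≠ p → W.IsGoodPrimeFor ℓ →
      (p : ℤ) ∣ W.apOfModel ℓ - (1 + ℓ) := by
    intro ℓ h1 h2 h3 h4
    by_contra h5
    exact hcon ⟨ℓ, h1, h2, h3, h4, h5⟩
  obtain ⟨C, hC⟩ := hW
  have hΔ := Δ_ne_zero_of_model hC
  have hV := Fermat.Agent.S41.P6a.natCard_torsionBy_rat E hp hp2
  have hfix : ∀ τ : Gal, ∃ v : Submodule.torsionBy ℤ (E⁄Qb).toAffine.Point (p : ℤ),
      v ≠ 0 ∧ τ • v = v := by
    intro τ
    obtain ⟨P, hP0, hPp, hτ⟩ := exists_fixed_of_eisenstein W hΔ hp hp2 S hE τ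
    have hnP : p • modelEquiv (L := Qb) hC P = 0 := by
      have h1 := map_nsmul (modelEquiv (L := Qb) hC) p P
      have h2 : modelEquiv (L := Qb) hC (p • P) = 0 :=
        (congrArg _ hPp).trans (_root_.map_zero _)
      exact h1.symm.trans h2
    have hmem : modelEquiv (L := Qb) hC P ∈
        Submodule.torsionBy ℤ (E⁄Qb).toAffine.Point (p : ℤ) := by
      rw [Submodule.mem_torsionBy_iff, natCast_zsmul]
      exact hnP
    refine ⟨⟨_, hmem⟩, ?_, ?_⟩
    · intro h0
      apply hP0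
      have := congrArg Subtype.val h0
      exact (modelEquiv (L := Qb) hC).map_eq_zero_iff.1 this
    · apply Subtype.ext
      show τ • modelEquiv (L := Qb) hC P = modelEquiv (L := Qb) hC P
      exact (modelEquiv_smul (L := Qb) hC τ P).symm.trans (congrArg _ hτ)
  obtain ⟨N, hN0, hN1, hNs⟩ := hgrp _ hV Gal hfix
  rcases hirr.2 N hNs with h | h
  · exact hN0 h
  · exact hN1 h

end Fermat.Agent.S41.P4A
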