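import Mathlib
import Fermat.Prelude.Def_FLTPrelim_GaloisRep

/-!
# S41 (P6c): a change of variables induces an isomorphism of the groups of points

For `C : VariableChange F` and `h : C • W = W'` the map `(x, y) ↦ (u²x + r, u³y + u²sx + t)`
is an additive isomorphism `W'.Point ≃+ W.Point`; for curves coming from a subfield it commutes
with the Galois action.
-/

set_option autoImplicit false
set_option linter.unusedSectionVars false
set_option linter.unusedVariables false

namespace Fermat.Agent.S41.VC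

open WeierstrassCurve

variable {F : Type*} [Field F]

/-- the new `x`-coordinate -/
def vx (C : VariableChange F) (x : F) : F := (C.u : F) ^ 2 * x + C.r

/-- the new `y`-coordinate -/
def vy (C : VariableChange F) (x y : F) : F := (C.u : F) ^ 3 * y + (C.u : F) ^ 2 * C.s * x + C.t

lemma u_ne_zero (C : VariableChange F) : (C.u : F) ≠ 0 := C.u.ne_zero

lemma vx_injective (C : VariableChange F) : Function.Injective (vx C) := by
  intro a b h
  have hu := u_ne_zero C
  have : (C.u : F) ^ 2 * (a - b) = 0 := by unfold vx at h; linear_combination h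
  exact sub_eq_zero.1 ((mul_eq_zero.1 this).resolve_left (pow_ne_zero _ hu))

lemma vy_injective (C : VariableChange F) (x : F) : Function.Injective (vy C x) := by
  intro a b h
  have hu := u_ne_zero C
  have : (C.u : F) ^ 3 * (a - b) = 0 := by unfold vy at h; linear_combination h
  exact sub_eq_zero.1 ((mul_eq_zero.1 this).resolve_left (pow_ne_zero _ hu))

section identities

variable (C : VariableChange F) (W : WeierstrassCurve F)

lemma poly_identity (x y : F) :
    (vy C x y) ^ 2 + W.a₁ * vx C x * vy C x y + W.a₃ * vy C x y -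
        ((vx C x) ^ 3 + W.a₂ * (vx C x) ^ 2 + W.a₄ * vx C x + W.a₆) =
      (C.u : F) ^ 6 * (y ^ 2 + (C • W).a₁ * x * y + (C • W).a₃ * y -
        (x ^ 3 + (C • W).a₂ * x ^ 2 + (C • W).a₄ * x + (C • W).a₆)) := by
  have hu := u_ne_zero C
  simp only [variableChange_a₁, variableChange_a₂, variableChange_a₃, variableChange_a₄,
    variableChange_a₆, Units.val_inv_eq_inv_val, vx, vy]
  field_simp
  ring

lemma polyY_identity (x y : F) :
    2 * vy C x y + W.a₁ * vx C x + W.a₃ =
      (C.u : F) ^ 3 * (2 * y + (C • W).a₁ * x + (C • W).a₃) := by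
  have hu := u_ne_zero C
  simp only [variableChange_a₁, variableChange_a₃, Units.val_inv_eq_inv_val, vx, vy]
  field_simp
  ring

lemma polyX_identity (x y : F) :
    W.a₁ * vy C x y - (3 * (vx C x) ^ 2 + 2 * W.a₂ * vx C x + W.a₄) =
      (C.u : F) ^ 4 * ((C • W).a₁ * y - (3 * x ^ 2 + 2 * (C • W).a₂ * x + (C • W).a₄)) -
        C.s * ((C.u : F) ^ 3 * (2 * y + (C • W).a₁ * x + (C • W).a₃)) := by
  have hu := u_ne_zero C
  simp only [variableChange_a₁, variableChange_a₂, variableChange_a₃, variableChange_a₄,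
    Units.val_inv_eq_inv_val, vx, vy]
  field_simp
  ring

lemma equation_vc (x y : F) :
    (C • W).toAffine.Equation x y ↔ W.toAffine.Equation (vx C x) (vy C x y) := by
  rw [Affine.equation_iff', Affine.equation_iff', poly_identity]
  have hu := pow_ne_zero 6 (u_ne_zero C)
  constructor
  · intro h; rw [h, mul_zero]
  · intro h; exact (mul_eq_zero.1 h).resolve_left hu

lemma nonsingular_vc (x y : F) :
    (C • W).toAffine.Nonsingular x y ↔ W.toAffine.Nonsingular (vx C x) (vy C x y) := by
  rw [Affine.nonsingular_iff', Affine.nonsingular_iff', ← equation_vc, polyX_identity,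
    polyY_identity]
  have hu := u_ne_zero C
  have h3 := pow_ne_zero 3 hu
  have h4 := pow_ne_zero 4 hu
  refine and_congr_right fun _ => ?_
  constructor
  · rintro (h | h)
    · by_cases hY : 2 * y + (C • W).a₁ * x + (C • W).a₃ = 0
      · left
        rw [hY, mul_zero, mul_zero, sub_zero]
        exact mul_ne_zero h4 h
      · right
        exact mul_ne_zero h3 hY
    · right
      exact mul_ne_zero h3 h
  · rintro (h | h)
    · by_cases hY : 2 * y + (C • W).a₁ * x + (C • W).a₃ = 0
      · left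
        rw [hY, mul_zero, mul_zero, sub_zero] at h
        exact right_ne_zero_of_mul h
      · right
        exact hY
    · right
      exact right_ne_zero_of_mul h

lemma negY_vc (x y : F) :
    vy C x ((C • W).toAffine.negY x y) = W.toAffine.negY (vx C x) (vy C x y) := by
  have hu := u_ne_zero C
  simp only [Affine.negY, variableChange_a₁, variableChange_a₃, Units.val_inv_eq_inv_val, vx, vy]
  field_simp
  ring

end identities


section pmap

variable [DecidableEq F] (C : VariableChange F) {W W' : WeierstrassCurve F} (h : C • W = W')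

include h in
lemma nonsingular_of_eq {x y : F} (hxy : W'.toAffine.Nonsingular x y) :
    W.toAffine.Nonsingular (vx C x) (vy C x y) := by
  subst h
  exact (nonsingular_vc C W x y).1 hxy

/-- the map on points induced by the change of variables -/
noncomputable def pmap : W'.toAffine.Point → W.toAffine.Point
  | .zero => 0
  | .some _ _ hxy => .some _ _ (nonsingular_of_eq C h hxy)

@[simp] lemma pmap_zero : pmap C h 0 = 0 := rfl

@[simp] lemma pmap_some {x y : F} (hxy : W'.toAffine.Nonsingular x y) :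
    pmap C h (.some x y hxy) = .some (vx C x) (vy C x y) (nonsingular_of_eq C h hxy) := rfl

lemma pmap_injective : Function.Injective (pmap C h) := by
  rintro (_ | ⟨x₁, y₁, h₁⟩) (_ | ⟨x₂, y₂, h₂⟩) e
  · rfl
  · exact absurd e (by simp [pmap])
  · exact absurd e (by simp [pmap])
  · simp only [pmap_some, Affine.Point.some.injEq] at e
    obtain ⟨e₁, e₂⟩ := e
    have hx : x₁ = x₂ := vx_injective C e₁
    subst hx
    have hy : y₁ = y₂ := vy_injective C x₁ e₂
    subst hy
    rfl

lemma pmap_surjective : Function.Surjective (pmap C h) := by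
  subst h
  have hu := u_ne_zero C
  rintro (_ | ⟨X, Y, hXY⟩)
  · exact ⟨0, rfl⟩
  · have ex : vx C ((X - C.r) / (C.u : F) ^ 2) = X := by
      unfold vx; field_simp; ring
    have ey : vy C ((X - C.r) / (C.u : F) ^ 2)
        ((Y - C.t - C.s * (X - C.r)) / (C.u : F) ^ 3) = Y := by
      unfold vy; field_simp; ring
    have hns : (C • W).toAffine.Nonsingular ((X - C.r) / (C.u : F) ^ 2)
        ((Y - C.t - C.s * (X - C.r)) / (C.u : F) ^ 3) := by
      rw [nonsingular_vc, ex, ey]
      exact hXY
    refine ⟨.some _ _ hns, ?_⟩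
    rw [pmap_some]
    congr 1

lemma slope_vc (W : WeierstrassCurve F) {x₁ x₂ y₁ y₂ : F}
    (h₁ : (C • W).toAffine.Equation x₁ y₁) (h₂ : (C • W).toAffine.Equation x₂ y₂)
    (hxy : ¬(x₁ = x₂ ∧ y₁ = (C • W).toAffine.negY x₂ y₂)) :
    W.toAffine.slope (vx C x₁) (vx C x₂) (vy C x₁ y₁) (vy C x₂ y₂) =
      (C.u : F) * (C • W).toAffine.slope x₁ x₂ y₁ y₂ + C.s := by
  have hu := u_ne_zero C
  by_cases hx : x₁ = x₂
  · have hy : y₁ ≠ (C • W).toAffine.negY x₂ y₂ := fun hy => hxy ⟨hx, hy⟩
    have hy' : vy C x₁ y₁ ≠ W.toAffine.negY (vx C x₂) (vy C x₂ y₂) := by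
      rw [← negY_vc, hx]
      exact fun e => hy (vy_injective C x₂ e)
    rw [Affine.slope_of_Y_ne hx hy, Affine.slope_of_Y_ne (by rw [hx]) hy']
    subst hx
    have hyy : y₁ = y₂ := by
      rw [Affine.equation_iff] at h₁ h₂
      have h0 : (y₁ - y₂) * (y₁ - (C • W).toAffine.negY x₁ y₂) = 0 := by
        simp only [Affine.negY]
        linear_combination h₁ - h₂
      rcases mul_eq_zero.1 h0 with h0 | h0
      · exact sub_eq_zero.1 h0
      · exact absurd (sub_eq_zero.1 h0) hy
    subst hyy
    have hd : y₁ - (C • W).toAffine.negY x₁ y₁ ≠ 0 := sub_ne_zero.2 hy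
    have hd' : vy C x₁ y₁ - W.toAffine.negY (vx C x₁) (vy C x₁ y₁) ≠ 0 := sub_ne_zero.2 hy'
    have e1 : vy C x₁ y₁ - W.toAffine.negY (vx C x₁) (vy C x₁ y₁) =
        (C.u : F) ^ 3 * (y₁ - (C • W).toAffine.negY x₁ y₁) := by
      rw [← negY_vc]
      unfold vy
      ring
    rw [e1]
    have e2 : 3 * vx C x₁ ^ 2 + 2 * W.a₂ * vx C x₁ + W.a₄ - W.a₁ * vy C x₁ y₁ =
        (C.u : F) ^ 4 * (3 * x₁ ^ 2 + 2 * (C • W).a₂ * x₁ + (C • W).a₄ - (C • W).a₁ * y₁) +
          C.s * ((C.u : F) ^ 3 * (y₁ - (C • W).toAffine.negY x₁ y₁)) := by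
      have := polyX_identity C W x₁ y₁
      simp only [Affine.negY]
      linear_combination -this
    rw [e2]
    field_simp
  · have hx' : vx C x₁ ≠ vx C x₂ := fun e => hx (vx_injective C e)
    rw [Affine.slope_of_X_ne hx, Affine.slope_of_X_ne hx']
    have hd : x₁ - x₂ ≠ 0 := sub_ne_zero.2 hx
    have hd' : vx C x₁ - vx C x₂ ≠ 0 := sub_ne_zero.2 hx'
    have e1 : vx C x₁ - vx C x₂ = (C.u : F) ^ 2 * (x₁ - x₂) := by unfold vx; ring
    have e2 : vy C x₁ y₁ - vy C x₂ y₂ =
        (C.u : F) ^ 3 * (y₁ - y₂) + (C.u : F) ^ 2 * C.s * (x₁ - x₂) := by unfold vy; ring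
    rw [e1, e2]
    field_simp

lemma addX_vc (W : WeierstrassCurve F) (x₁ x₂ L : F) :
    W.toAffine.addX (vx C x₁) (vx C x₂) ((C.u : F) * L + C.s) =
      vx C ((C • W).toAffine.addX x₁ x₂ L) := by
  have hu := u_ne_zero C
  simp only [Affine.addX, variableChange_a₁, variableChange_a₂, Units.val_inv_eq_inv_val, vx]
  field_simp
  ring

lemma addY_vc (W : WeierstrassCurve F) (x₁ x₂ y₁ L : F) :
    W.toAffine.addY (vx C x₁) (vx C x₂) (vy C x₁ y₁) ((C.u : F) * L + C.s) =
      vy C ((C • W).toAffine.addX x₁ x₂ L) ((C • W).toAffine.addY x₁ x₂ y₁ L) := by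
  have hu := u_ne_zero C
  rw [Affine.addY, Affine.addY, negY_vc, ← addX_vc]
  congr 1
  simp only [Affine.negAddY, Affine.addX, variableChange_a₁, variableChange_a₂,
    Units.val_inv_eq_inv_val, vx, vy]
  field_simp
  ring

lemma pmap_add (P Q : W'.toAffine.Point) : pmap C h (P + Q) = pmap C h P + pmap C h Q := by
  subst h
  rcases P with _ | ⟨x₁, y₁, h₁⟩
  · change pmap C rfl (0 + Q) = 0 + pmap C rfl Q
    rw [zero_add, zero_add]
  rcases Q with _ | ⟨x₂, y₂, h₂⟩
  · change pmap C rfl (_ + 0) = _ + 0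
    rw [add_zero, add_zero]
  by_cases hxy : x₁ = x₂ ∧ y₁ = (C • W).toAffine.negY x₂ y₂
  · obtain ⟨hx, hy⟩ := hxy
    rw [Affine.Point.add_of_Y_eq hx hy, pmap_zero, pmap_some, pmap_some,
      Affine.Point.add_of_Y_eq (by rw [hx]) (by rw [← negY_vc, hy, hx])]
  · have hxy' : ¬(vx C x₁ = vx C x₂ ∧ vy C x₁ y₁ = W.toAffine.negY (vx C x₂) (vy C x₂ y₂)) := by
      rintro ⟨e₁, e₂⟩
      apply hxy
      have hx : x₁ = x₂ := vx_injective C e₁
      refine ⟨hx, ?_⟩
      rw [← negY_vc, hx] at e₂
      exact vy_injective C x₂ e₂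
    rw [Affine.Point.add_some hxy, pmap_some, pmap_some, pmap_some, Affine.Point.add_some hxy']
    have hsl := slope_vc C W h₁.1 h₂.1 hxy
    congr 1
    · rw [hsl, addX_vc]
    · rw [hsl, addY_vc]

/-- the additive homomorphism induced by the change of variables -/
noncomputable def pmapHom : W'.toAffine.Point →+ W.toAffine.Point where
  toFun := pmap C h
  map_zero' := rfl
  map_add' := pmap_add C h

/-- the additive isomorphism induced by the change of variables -/
noncomputable def pequiv : W'.toAffine.Point ≃+ W.toAffine.Point :=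
  AddEquiv.ofBijective (pmapHom C h) ⟨pmap_injective C h, pmap_surjective C h⟩

@[simp] lemma pequiv_apply (P : W'.toAffine.Point) : pequiv C h P = pmap C h P := rfl

end pmap


section Galois

open WeierstrassCurve.Affine.Point

variable {R₁ R₂ S L : Type*} [CommRing R₁] [CommRing R₂] [Field S] [Field L] [DecidableEq L]
  [Algebra R₁ S] [Algebra R₁ L] [Algebra R₂ S] [Algebra R₂ L] [Algebra S L]
  [IsScalarTower R₁ S L] [IsScalarTower R₂ S L]
  {E₁ : WeierstrassCurve R₁} {E₂ : WeierstrassCurve R₂}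

lemma smul_some' {R : Type*} [CommRing R] [Algebra R S] [Algebra R L] [IsScalarTower R S L]
    {E : WeierstrassCurve R} (σ : L ≃ₐ[S] L) {x y : L} (h : (E⁄L).toAffine.Nonsingular x y) :
    ∃ h' : (E⁄L).toAffine.Nonsingular (σ x) (σ y),
      σ • (Affine.Point.some x y h : (E⁄L).toAffine.Point) = Affine.Point.some (σ x) (σ y) h' :=
  ⟨_, rfl⟩

/-- The change of variables commutes with the Galois action when its coefficients are fixed. -/
lemma pmap_smul (C : VariableChange L) (h : C • (E₂⁄L) = E₁⁄L) (σ : L ≃ₐ[S] L)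
    (hu : σ (C.u : L) = C.u) (hr : σ C.r = C.r) (hs : σ C.s = C.s) (ht : σ C.t = C.t)
    (P : (E₁⁄L).toAffine.Point) :
    pmap C h (σ • P) = σ • pmap C h P := by
  rcases P with _ | ⟨x, y, hxy⟩
  · rfl
  · obtain ⟨h₁, e₁⟩ := smul_some' (E := E₁) σ hxy
    obtain ⟨h₂, e₂⟩ := smul_some' (E := E₂) σ (nonsingular_of_eq C h hxy)
    rw [e₁, pmap_some, pmap_some, e₂]
    congr 1
    · unfold vx
      rw [map_add, map_mul, map_pow, hu, hr]
    · unfold vy
      rw [map_add, map_add, map_mul, map_mul, map_mul, map_pow, map_pow, hu, hs, ht]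

lemma pequiv_smul (C : VariableChange L) (h : C • (E₂⁄L) = E₁⁄L) (σ : L ≃ₐ[S] L)
    (hu : σ (C.u : L) = C.u) (hr : σ C.r = C.r) (hs : σ C.s = C.s) (ht : σ C.t = C.t)
    (P : (E₁⁄L).toAffine.Point) :
    pequiv C h (σ • P) = σ • pequiv C h P :=
  pmap_smul C h σ hu hr hs ht P

end Galois

section IntegralModel

open WeierstrassCurve.Affine.Point

variable {L : Type*} [Field L] [DecidableEq L] [Algebra ℚ L]

/-- the change of variables over `L` attached to one over `ℚ` -/
noncomputable def mapC (C : VariableChange ℚ) : VariableChange L := C.map (algebraMap ℚ L)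

lemma mapC_smul_eq {E : WeierstrassCurve ℚ} {W : WeierstrassCurve ℤ} {C : VariableChange ℚ}
    (h : C • E = W.map (Int.castRingHom ℚ)) : (mapC (L := L) C) • (E⁄L) = W⁄L := by
  unfold mapC
  show C.map (algebraMap ℚ L) • E.map (algebraMap ℚ L) = W.map (algebraMap ℤ L)
  rw [WeierstrassCurve.map_variableChange, h, WeierstrassCurve.map_map]
  congr 1
  exact RingHom.ext_int _ _

/-- The Galois-equivariant isomorphism `W(L) ≃ E(L)` for an integral model `W` of `E`. -/
noncomputable def modelEquiv {E : WeierstrassCurve ℚ} {W : WeierstrassCurve ℤ}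
    {C : VariableChange ℚ} (h : C • E = W.map (Int.castRingHom ℚ)) :
    (W⁄L).toAffine.Point ≃+ (E⁄L).toAffine.Point :=
  pequiv (mapC C) (mapC_smul_eq h)

lemma modelEquiv_smul {E : WeierstrassCurve ℚ} {W : WeierstrassCurve ℤ}
    {C : VariableChange ℚ} (h : C • E = W.map (Int.castRingHom ℚ)) (σ : L ≃ₐ[ℚ] L)
    (P : (W⁄L).toAffine.Point) :
    modelEquiv (L := L) h (σ • P) = σ • modelEquiv (L := L) h P := by
  apply pequiv_smul
  · show σ (algebraMap ℚ L C.u) = algebraMap ℚ L C.u
    exact σ.commutes _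
  · exact σ.commutes _
  · exact σ.commutes _
  · exact σ.commutes _

end IntegralModel

end Fermat.Agent.S41.VC
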