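import Fermat.Agent.S41.TorsLadderCount
import Fermat.Agent.S41.VarChange

/-!
# S41, piece P6a, (T4): `|E[p]| = p²` for every elliptic curve over an algebraically closed field
of characteristic `0`

Every Weierstrass curve over an algebraically closed field with `2 ≠ 0` is, after a change of
variables, a model curve `Y² = X³ + a₂X² + a₄X`; the change of variables induces an isomorphism of
the groups of points (`VC.pequiv`), so `card_torsion_eq` transfers.
-/

set_option autoImplicit false
set_option linter.unusedSectionVars false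
set_option linter.unusedVariables false

namespace Fermat.Agent.S41.P6a

open WeierstrassCurve Polynomial Fermat.Agent.S05 Fermat.Agent.S13

variable {K : Type*} [Field K] [DecidableEq K]

/-- a change of variables to a model curve -/
lemma exists_variableChange_isModel [IsAlgClosed K] (h2 : (2 : K) ≠ 0) (E : WeierstrassCurve K) :
    ∃ C : VariableChange K, IsModel (C • E) := by
  obtain ⟨r, hr⟩ := IsAlgClosed.exists_root
    (X ^ 3 + C E.a₂ * X ^ 2 + C E.a₄ * X + C E.a₆ + C (1 / 4) * (C E.a₃ + C E.a₁ * X) ^ 2 : K[X])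
    (by
      have hd : (X ^ 3 + C E.a₂ * X ^ 2 + C E.a₄ * X + C E.a₆ +
          C (1 / 4) * (C E.a₃ + C E.a₁ * X) ^ 2 : K[X]).degree = 3 := by
        compute_degree!
      rw [hd]
      norm_num)
  have h4 : (4 : K) ≠ 0 := by
    have : (4 : K) = 2 * 2 := by norm_num
    rw [this]
    exact mul_ne_zero h2 h2
  have hr' : r ^ 3 + E.a₂ * r ^ 2 + E.a₄ * r + E.a₆ + 1 / 4 * (E.a₃ + E.a₁ * r) ^ 2 = 0 := by
    simpa using hr
  refine ⟨⟨1, r, -E.a₁ / 2, -(E.a₃ + r * E.a₁) / 2⟩, ?_, ?_, ?_⟩
  · rw [variableChange_a₁]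
    simp only [inv_one, Units.val_one, one_mul]
    field_simp
    ring
  · rw [variableChange_a₃]
    simp only [inv_one, Units.val_one, one_pow, one_mul]
    field_simp
    ring
  · rw [variableChange_a₆]
    simp only [inv_one, Units.val_one, one_pow, one_mul]
    field_simp
    field_simp at hr'
    linear_combination hr'

/-- **(T4)**: an elliptic curve over an algebraically closed field of characteristic `0` has
exactly `p²` points killed by the odd prime `p` -/
theorem card_torsion_eq_general [IsAlgClosed K] [CharZero K] (E : WeierstrassCurve K)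
    (hΔ : E.Δ ≠ 0) {p : ℕ} (hp : p.Prime) (hp2 : p ≠ 2) :
    Set.Finite {Q : E.toAffine.Point | p • Q = 0} ∧
      Set.ncard {Q : E.toAffine.Point | p • Q = 0} = p ^ 2 := by
  obtain ⟨C, hC⟩ := exists_variableChange_isModel (two_ne_zero) E
  have hΔ' : (C • E).Δ ≠ 0 := by
    rw [variableChange_Δ]
    exact mul_ne_zero (pow_ne_zero _ (Units.ne_zero _)) hΔ
  obtain ⟨hfin, hcard⟩ := card_torsion_eq hC hΔ' hp hp2
  set e : (C • E).toAffine.Point ≃+ E.toAffine.Point := VC.pequiv C rfl with he
  have himg : {Q : E.toAffine.Point | p • Q = 0} =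
      e '' {Q : (C • E).toAffine.Point | p • Q = 0} := by
    ext Q
    constructor
    · intro hQ
      refine ⟨e.symm Q, ?_, e.apply_symm_apply Q⟩
      show p • e.symm Q = 0
      rw [← map_nsmul, show p • Q = 0 from hQ, map_zero]
    · rintro ⟨Q', hQ', rfl⟩
      show p • e Q' = 0
      rw [← map_nsmul, show p • Q' = 0 from hQ', map_zero]
  rw [himg]
  exact ⟨hfin.image _, by rw [Set.ncard_image_of_injective _ e.injective, hcard]⟩

/-- **(T4)** in the form used by `GaloisRepIsIrreducible` -/
theorem natCard_torsionBy [IsAlgClosed K] [CharZero K] (E : WeierstrassCurve K)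
    (hΔ : E.Δ ≠ 0) {p : ℕ} (hp : p.Prime) (hp2 : p ≠ 2) :
    Nat.card (Submodule.torsionBy ℤ E.toAffine.Point (p : ℤ)) = p ^ 2 := by
  obtain ⟨hfin, hcard⟩ := card_torsion_eq_general E hΔ hp hp2
  have : ((Submodule.torsionBy ℤ E.toAffine.Point (p : ℤ) : Submodule ℤ E.toAffine.Point) :
      Set E.toAffine.Point) = {Q : E.toAffine.Point | p • Q = 0} := by
    ext Q
    rw [SetLike.mem_coe, Submodule.mem_torsionBy_iff, natCast_zsmul]
    rfl
  rw [← hcard, ← this]
  rfl

/-- finiteness of the `p`-torsion -/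
theorem finite_torsionBy [IsAlgClosed K] [CharZero K] (E : WeierstrassCurve K)
    (hΔ : E.Δ ≠ 0) {p : ℕ} (hp : p.Prime) (hp2 : p ≠ 2) :
    Finite (Submodule.torsionBy ℤ E.toAffine.Point (p : ℤ)) := by
  have hpos : 0 < Nat.card (Submodule.torsionBy ℤ E.toAffine.Point (p : ℤ)) := by
    rw [natCard_torsionBy E hΔ hp hp2]
    exact pow_pos hp.pos 2
  exact (Nat.card_pos_iff.1 hpos).2

/-- **(T4)** for an elliptic curve over `ℚ` and its points over `ℚ̄` -/
theorem natCard_torsionBy_rat (E : WeierstrassCurve ℚ) [E.IsElliptic] {p : ℕ} (hp : p.Prime)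
    (hp2 : p ≠ 2) :
    Nat.card (Submodule.torsionBy ℤ (E⁄(AlgebraicClosure ℚ)).toAffine.Point (p : ℤ)) = p ^ 2 := by
  apply natCard_torsionBy _ _ hp hp2
  show (E.map (algebraMap ℚ (AlgebraicClosure ℚ))).Δ ≠ 0
  rw [WeierstrassCurve.map_Δ]
  exact (map_ne_zero_iff _ (algebraMap ℚ (AlgebraicClosure ℚ)).injective).2 (E.isUnit_Δ.ne_zero)

end Fermat.Agent.S41.P6a
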