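import Fermat.Agent.S41.NonEisFrob
import Fermat.Agent.S41.TorsLadderTransfer
import Fermat.Agent.Lib.FrobDensity.Generates

/-!
# S41 (P4): if `a_ℓ(W) ≡ 1 + ℓ mod p` for almost all `ℓ`, every element of the Galois group fixes a
nonzero point of order `p`
-/

set_option autoImplicit false
set_option linter.unusedSectionVars false
set_option linter.unusedVariables false
set_option linter.style.haveILetI false

namespace Fermat.Agent.S41.P4D

open WeierstrassCurve
open Fermat.Agent.S41.VC Fermat.Agent.S41.P4F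

local notation "Qb" => AlgebraicClosure ℚ
local notation "Gal" => (AlgebraicClosure ℚ ≃ₐ[ℚ] AlgebraicClosure ℚ)

section coords

variable {F : Type*} [Field F] {W : WeierstrassCurve F}

/-- the `x`-coordinate (`0` at the origin) -/
def xC : W.toAffine.Point → F
  | .zero => 0
  | .some x _ _ => x

/-- the `y`-coordinate (`0` at the origin) -/
def yC : W.toAffine.Point → F
  | .zero => 0
  | .some _ y _ => y

end coords

/-- the set of coordinates of the points killed by `p` -/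
def coordSet (W : WeierstrassCurve ℤ) (p : ℕ) : Set Qb :=
  (xC '' {Q : (W⁄Qb).toAffine.Point | p • Q = 0}) ∪ (yC '' {Q : (W⁄Qb).toAffine.Point | p • Q = 0})

lemma coordSet_finite {W : WeierstrassCurve ℤ} {p : ℕ}
    (hfin : {Q : (W⁄Qb).toAffine.Point | p • Q = 0}.Finite) : (coordSet W p).Finite :=
  (hfin.image _).union (hfin.image _)

lemma x_mem_coordSet {W : WeierstrassCurve ℤ} {p : ℕ} {x y : Qb}
    (h : (W⁄Qb).toAffine.Nonsingular x y)
    (hp : p • (Affine.Point.some x y h : (W⁄Qb).toAffine.Point) = 0) : x ∈ coordSet W p :=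
  Or.inl ⟨_, hp, rfl⟩

lemma y_mem_coordSet {W : WeierstrassCurve ℤ} {p : ℕ} {x y : Qb}
    (h : (W⁄Qb).toAffine.Nonsingular x y)
    (hp : p • (Affine.Point.some x y h : (W⁄Qb).toAffine.Point) = 0) : y ∈ coordSet W p :=
  Or.inr ⟨_, hp, rfl⟩

/-- the field of definition of the points killed by `p` -/
noncomputable def defField (W : WeierstrassCurve ℤ) (p : ℕ) : IntermediateField ℚ Qb :=
  IntermediateField.adjoin ℚ (coordSet W p)

lemma finiteDimensional_defField {W : WeierstrassCurve ℤ} {p : ℕ}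
    (hfin : {Q : (W⁄Qb).toAffine.Point | p • Q = 0}.Finite) :
    FiniteDimensional ℚ (defField W p) := by
  haveI : Finite (coordSet W p) := (coordSet_finite hfin).to_subtype
  haveI : Algebra.IsAlgebraic ℚ Qb := AlgebraicClosure.isAlgebraic ℚ
  exact IntermediateField.finiteDimensional_adjoin
    (fun x _ => (Algebra.IsAlgebraic.isAlgebraic x).isIntegral)

/-- `p ∣ a_ℓ - (1 + ℓ)` means `p ∣ #W(𝔽_ℓ)` -/
lemma dvd_card_of_dvd {W : WeierstrassCurve ℤ} {p ℓ : ℕ} (hℓ : ℓ.Prime)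
    (h : (p : ℤ) ∣ W.apOfModel ℓ - (1 + ℓ)) : p ∣ (W.reductionMod ℓ).card := by
  have e : ((W.reductionMod ℓ).card : ℤ) = -(W.apOfModel ℓ - (1 + ℓ)) := by
    unfold WeierstrassCurve.apOfModel WeierstrassCurve.traceOfFrobenius
    rw [Nat.card_zmod]
    ring
  have h2 : (p : ℤ) ∣ ((W.reductionMod ℓ).card : ℤ) := by
    rw [e]
    exact (dvd_neg).2 h
  exact Int.natCast_dvd_natCast.1 h2


lemma smul_pow_eq {W : WeierstrassCurve ℤ} (σ : Gal) {P : (W⁄Qb).toAffine.Point}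
    (h : σ • P = P) (m : ℕ) : (σ ^ m) • P = P := by
  induction m with
  | zero => rw [pow_zero, one_smul]
  | succ m ih => rw [pow_succ, mul_smul, h, ih]

open WeierstrassCurve.Affine.Point in
/-- **Every element of the Galois group fixes a nonzero point of order `p`**, if
`a_ℓ(W) ≡ 1 + ℓ mod p` for all good primes `ℓ ≠ p` outside a finite set. -/
theorem exists_fixed_of_eisenstein (W : WeierstrassCurve ℤ) (hΔ : W.Δ ≠ 0) {p : ℕ}
    (hp : p.Prime) (hp2 : p ≠ 2) (S : Finset ℕ)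
    (hE : ∀ ℓ : ℕ, ℓ.Prime → ℓ ∉ S → ℓ ≠ p → W.IsGoodPrimeFor ℓ →
      (p : ℤ) ∣ W.apOfModel ℓ - (1 + ℓ))
    (τ : Gal) :
    ∃ P : (W⁄Qb).toAffine.Point, P ≠ 0 ∧ p • P = 0 ∧ τ • P = P := by
  classical
  have hΔQ : (W⁄Qb).Δ ≠ 0 := by
    show (W.map (algebraMap ℤ Qb)).Δ ≠ 0
    rw [WeierstrassCurve.map_Δ]
    simpa using hΔ
  obtain ⟨hfin, -⟩ := Fermat.Agent.S41.P6a.card_torsion_eq_general (W⁄Qb) hΔQ hp hp2
  have hfd : FiniteDimensional ℚ (defField W p) := finiteDimensional_defField hfin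
  obtain ⟨ℓ, A, σ', m, hℓ, hℓS, hA, hF, hagree⟩ :=
    Fermat.Agent.Lib.FrobDensity.frobeniusGenerates (defField W p) hfd
      (S ∪ {2, p} ∪ W.Δ.natAbs.primeFactors) τ
  simp only [Finset.mem_union, Finset.mem_insert, Finset.mem_singleton, not_or] at hℓS
  obtain ⟨⟨hℓS, hℓ2, hℓp⟩, hℓΔ⟩ := hℓS
  have hgood : ¬ (ℓ : ℤ) ∣ W.Δ := by
    intro hdvd
    apply hℓΔ
    rw [Nat.mem_primeFactors]
    refine ⟨hℓ, ?_, Int.natAbs_ne_zero.2 hΔ⟩
    exact Int.natCast_dvd.1 hdvd
  have hcard := dvd_card_of_dvd hℓ (hE ℓ hℓ hℓS hℓp hgood)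
  obtain ⟨P, hP0, hPp, hfix⟩ :=
    exists_fixed_point A W hℓ hℓ2 hp hp2 (fun h => hℓp h.symm) hgood hcard hA
  refine ⟨P, hP0, hPp, ?_⟩
  have hpow := smul_pow_eq σ' (hfix σ' hF.mem_decompositionSubgroup) m
  rcases P with _ | ⟨x, y, h⟩
  · rfl
  · have hx := hagree x (IntermediateField.subset_adjoin ℚ _ (x_mem_coordSet h hPp))
    have hy := hagree y (IntermediateField.subset_adjoin ℚ _ (y_mem_coordSet h hPp))
    obtain ⟨h1, e1⟩ := smul_some' (E := W) τ h
    obtain ⟨h2, e2⟩ := smul_some' (E := W) (σ' ^ m) h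
    rw [e1]
    rw [e2] at hpow
    rw [← hpow]
    simp only [Affine.Point.some.injEq]
    exact ⟨hx, hy⟩

end Fermat.Agent.S41.P4D
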