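import Fermat.Agent.S41.NonEisLocal
import Fermat.Agent.S05.Arith
import Fermat.Agent.S05.Inertia
import Fermat.Prelude.Def_FLTPrelim_Modularity

/-!
# S41 (P4): at a good prime `ℓ` with `p ∣ #W(𝔽_ℓ)` the decomposition group fixes a point of
order `p`
-/

set_option autoImplicit false
set_option linter.unusedSectionVars false
set_option linter.unusedVariables false
set_option linter.style.haveILetI false

namespace Fermat.Agent.S41.P4F

open WeierstrassCurve Polynomial
open Fermat.Agent.S05 Fermat.Agent.S41.VC Fermat.Agent.S41.P4L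

local notation "Qb" => AlgebraicClosure ℚ

variable (A : ValuationSubring Qb) {ℓ : ℕ}

/-- the residue field has characteristic `ℓ` -/
theorem charP_residue (hℓ : ℓ.Prime) (hA : A.LiesOverPrime ℓ) :
    CharP (IsLocalRing.ResidueField A) ℓ := by
  rw [CharP.charP_iff_prime_eq_zero hℓ]
  have h1 : ((ℓ : A) : Qb) ∈ A.nonunits := by
    have : ((ℓ : A) : Qb) = (ℓ : Qb) := by norm_cast
    rw [this]
    exact hA
  have h2 : (ℓ : A) ∈ IsLocalRing.maximalIdeal A := ValuationSubring.coe_mem_nonunits_iff.1 h1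
  have h3 := (IsLocalRing.residue_eq_zero_iff (ℓ : A)).2 h2
  rw [map_natCast] at h3
  exact h3

/-- the decomposition group preserves the maximal ideal -/
lemma decomposition_nonunits {σ : Qb ≃ₐ[ℚ] Qb} (hσ : σ ∈ A.decompositionSubgroup ℚ) {z : Qb}
    (hz : z ∈ A.nonunits) : σ z ∈ A.nonunits := by
  rw [ValuationSubring.mem_nonunits_iff_or] at hz ⊢
  rcases hz with rfl | hz
  · left
    exact map_zero σ
  · right
    intro hmem
    apply hz
    have hinv : σ⁻¹ ∈ A.decompositionSubgroup ℚ := inv_mem hσ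
    have := mem_of_mem_decomposition A hinv hmem
    rw [← map_inv₀] at this
    simpa using this


/-- congruence to an integer is preserved by the decomposition group -/
lemma decomposition_sub_mem {σ : Qb ≃ₐ[ℚ] Qb} (hσ : σ ∈ A.decompositionSubgroup ℚ) {z : Qb}
    {n : ℕ} (hz : z - (n : Qb) ∈ A.nonunits) : σ z - z ∈ A.nonunits := by
  have h1 := decomposition_nonunits A hσ hz
  rw [map_sub, map_natCast] at h1
  have : σ z - z = (σ z - (n : Qb)) - (z - (n : Qb)) := by ring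
  rw [this]
  exact A.nonunits.sub_mem h1 hz

/-- the residue of an element of `A` equals the image of `c : ZMod ℓ` iff it is congruent to the
integer `c.val` -/
lemma sub_val_mem_nonunits (hℓ : ℓ.Prime) (hA : A.LiesOverPrime ℓ)
    [CharP (IsLocalRing.ResidueField A) ℓ] (x : A) (c : ZMod ℓ)
    (hx : IsLocalRing.residue A x = ZMod.castHom (dvd_refl ℓ) (IsLocalRing.ResidueField A) c) :
    (x : Qb) - ((c.val : ℕ) : Qb) ∈ A.nonunits := by
  haveI : NeZero ℓ := ⟨hℓ.ne_zero⟩
  have h1 : IsLocalRing.residue A (x - ((c.val : ℕ) : A)) = 0 := by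
    rw [map_sub, hx, map_natCast, sub_eq_zero]
    conv_lhs => rw [← ZMod.natCast_zmod_val c]
    rw [map_natCast]
  have h2 : x - ((c.val : ℕ) : A) ∈ IsLocalRing.maximalIdeal A :=
    (IsLocalRing.residue_eq_zero_iff _).1 h1
  have h3 := ValuationSubring.coe_mem_nonunits_iff.2 h2
  have e : ((x - ((c.val : ℕ) : A) : A) : Qb) = (x : Qb) - ((c.val : ℕ) : Qb) := by
    push_cast
    rfl
  rw [e] at h3
  exact h3

open WeierstrassCurve.Affine.Point in
/-- **The decomposition group at a good prime `ℓ` with `p ∣ #W(𝔽_ℓ)` fixes a point of order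
`p`.** -/
theorem exists_fixed_point (W : WeierstrassCurve ℤ) {p : ℕ} (hℓ : ℓ.Prime) (hℓ2 : ℓ ≠ 2)
    (hp : p.Prime) (hp2 : p ≠ 2) (hpℓ : p ≠ ℓ) (hgood : ¬ (ℓ : ℤ) ∣ W.Δ)
    (hcard : p ∣ (W.reductionMod ℓ).card) (hA : A.LiesOverPrime ℓ) :
    ∃ P : (W⁄Qb).toAffine.Point, P ≠ 0 ∧ p • P = 0 ∧
      ∀ σ : Qb ≃ₐ[ℚ] Qb, σ ∈ A.decompositionSubgroup ℚ → σ • P = P := by
  classical
  haveI : Fact ℓ.Prime := ⟨hℓ⟩
  haveI : Fact p.Prime := ⟨hp⟩
  haveI hchar : CharP (IsLocalRing.ResidueField A) ℓ := charP_residue A hℓ hA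
  obtain ⟨m, hm, rfl⟩ : ∃ m, 1 ≤ m ∧ p = 2 * m + 1 := by
    rcases hp.eq_two_or_odd' with h | h
    · exact absurd h hp2
    · obtain ⟨m, rfl⟩ := h
      refine ⟨m, ?_, rfl⟩
      rcases Nat.eq_zero_or_pos m with rfl | h
      · exact absurd hp (by norm_num)
      · exact h
  -- the curve over `A`
  have hL : (W.map (algebraMap ℤ A)).map (algebraMap A Qb) = W⁄Qb := by
    show (W.map (algebraMap ℤ A)).map (algebraMap A Qb) = W.map (algebraMap ℤ Qb)
    rw [WeierstrassCurve.map_map]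
    congr 1
  have hk : (W.map (algebraMap ℤ A)).map (IsLocalRing.residue A) =
      W⁄(IsLocalRing.ResidueField A) := by
    show (W.map (algebraMap ℤ A)).map (IsLocalRing.residue A) =
      W.map (algebraMap ℤ (IsLocalRing.ResidueField A))
    rw [WeierstrassCurve.map_map]
    congr 1
  -- `1/2`
  have hv2 : A.valuation (2 : Qb) = 1 := by
    have := val_natCast_eq_one A hℓ hA (n := 2)
      (fun h => hℓ2 ((Nat.prime_dvd_prime_iff_eq hℓ Nat.prime_two).1 h))
    simpa using this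
  have h2mem : (2 : Qb)⁻¹ ∈ A := (A.valuation_le_one_iff _).1 (by rw [map_inv₀, hv2, inv_one])
  have hh : (2 : A) * ⟨(2 : Qb)⁻¹, h2mem⟩ = 1 := by
    apply Subtype.ext
    show (2 : Qb) * (2 : Qb)⁻¹ = 1
    exact mul_inv_cancel₀ two_ne_zero
  have h4u : IsUnit (4 : A) := by
    refine IsUnit.of_mul_eq_one (⟨(2 : Qb)⁻¹, h2mem⟩ ^ 2) ?_
    linear_combination (2 * (⟨(2 : Qb)⁻¹, h2mem⟩ : A) + 1) * hh
  -- the root of the `2`-division cubic
  obtain ⟨e, he⟩ : ∃ e : A, 4 * e ^ 3 + (W.map (algebraMap ℤ A)).b₂ * e ^ 2 +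
      2 * (W.map (algebraMap ℤ A)).b₄ * e + (W.map (algebraMap ℤ A)).b₆ = 0 := by
    set H : A[X] := C 4 * X ^ 3 + C (W.map (algebraMap ℤ A)).b₂ * X ^ 2 +
      C (2 * (W.map (algebraMap ℤ A)).b₄) * X + C (W.map (algebraMap ℤ A)).b₆ with hH
    have h40 : (4 : A) ≠ 0 := h4u.ne_zero
    have hdeg : H.natDegree = 3 := by
      rw [hH]
      exact natDegree_cubic h40
    have hlc : H.leadingCoeff = 4 := by
      rw [hH]
      exact leadingCoeff_cubic h40
    have hinj : Function.Injective (algebraMap A Qb) := Subtype.val_injective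
    have hdeg' : (H.map (algebraMap A Qb)).degree ≠ 0 := by
      rw [degree_map_eq_of_injective hinj, degree_eq_natDegree (by
        intro h0; rw [h0] at hdeg; simp at hdeg), hdeg]
      norm_num
    obtain ⟨ρ, hρ⟩ := IsAlgClosed.exists_root _ hdeg'
    have hρA : ρ ∈ A := Fermat.Agent.S41.P4R.mem_of_root A (hlc ▸ h4u) (by rw [hdeg]; norm_num) hρ
    refine ⟨⟨ρ, hρA⟩, ?_⟩
    have hev : H.eval ⟨ρ, hρA⟩ = 0 := by
      apply hinj
      rw [_root_.map_zero, ← eval₂_hom, ← eval_map]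
      exact hρ
    rw [hH] at hev
    simpa using hev
  -- the discriminant and `p` are units
  have hΔ : IsUnit (W.map (algebraMap ℤ A)).Δ := by
    rw [WeierstrassCurve.map_Δ, A.valuation_eq_one_iff]
    have := val_intCast_eq_one A hℓ hA hgood
    simpa using this
  have hpu : IsUnit (((2 * m + 1 : ℕ) : A)) := by
    rw [A.valuation_eq_one_iff]
    have := val_natCast_eq_one A hℓ hA (n := 2 * m + 1)
      (fun h => hpℓ ((Nat.prime_dvd_prime_iff_eq hℓ hp).1 h).symm)
    have e2 : ((((2 * m + 1 : ℕ) : A)) : Qb) = (((2 * m + 1 : ℕ)) : Qb) := by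
      norm_cast
    rw [e2]
    exact this
  -- a point of order `p` over `𝔽_ℓ`
  have hcard' : 2 * m + 1 ∣ Nat.card (W⁄(ZMod ℓ)).toAffine.Point := hcard
  obtain ⟨Pb, hPb⟩ := exists_prime_addOrderOf_dvd_card'
    (G := (W⁄(ZMod ℓ)).toAffine.Point) (2 * m + 1) hcard'
  have hPb0 : Pb ≠ 0 := by
    rintro rfl
    rw [addOrderOf_zero] at hPb
    omega
  have hPbp : (2 * m + 1) • Pb = 0 := by
    rw [← hPb]
    exact addOrderOf_nsmul_eq_zero Pb
  -- base change to the residue field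
  let f : ZMod ℓ →ₐ[ℤ] IsLocalRing.ResidueField A :=
    (ZMod.castHom (dvd_refl ℓ) (IsLocalRing.ResidueField A)).toIntAlgHom
  have hQbp : (2 * m + 1) • Affine.Point.map (W' := W) f Pb = 0 := by
    have := map_nsmul (Affine.Point.map (W' := W) f) (2 * m + 1) Pb
    rw [hPbp, _root_.map_zero] at this
    exact this.symm
  rcases Pb with _ | ⟨xb, yb, hb⟩
  · exact absurd rfl hPb0
  rw [Affine.Point.map_some] at hQbp
  obtain ⟨x, y, hxy, hx, hy, h3, hrig⟩ :=
    exists_lift_rigid A (W.map (algebraMap ℤ A)) e ⟨(2 : Qb)⁻¹, h2mem⟩ hh he hΔ hL hk hm hpu _ hQbp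
  refine ⟨Affine.Point.some (x : Qb) (y : Qb) hxy, Affine.Point.some_ne_zero _, h3, ?_⟩
  intro σ hσ
  obtain ⟨h', e'⟩ := smul_some' (E := W) σ hxy
  rw [e']
  apply hrig
  · rw [← e', algEquiv_smul_def]
    have := map_nsmul (Affine.Point.map (W' := W) σ.toAlgHom) (2 * m + 1)
      (Affine.Point.some (x : Qb) (y : Qb) hxy)
    rw [h3, _root_.map_zero] at this
    exact this.symm
  · exact decomposition_sub_mem A hσ (sub_val_mem_nonunits A hℓ hA x xb hx)
  · exact decomposition_sub_mem A hσ (sub_val_mem_nonunits A hℓ hA y yb hy)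

end Fermat.Agent.S41.P4F
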