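import Mathlib

/-!
# S41 (P4): lifting roots from the residue field of a valuation ring of an algebraically
closed field
-/

set_option autoImplicit false
set_option linter.unusedSectionVars false
set_option linter.unusedVariables false

namespace Fermat.Agent.S41.P4R

open Polynomial

variable {L : Type*} [Field L] [IsAlgClosed L] (A : ValuationSubring L)

/-- an element of `L` that is a root of a polynomial over `A` with unit leading coefficient
lies in `A` -/
theorem mem_of_root {H : A[X]} (hu : IsUnit H.leadingCoeff) (hd : H.natDegree ≠ 0) {ρ : L}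
    (hρ : (H.map (algebraMap A L)).eval ρ = 0) : ρ ∈ A := by
  obtain ⟨u, hu'⟩ := hu
  have hmonic : (C ((u⁻¹ : Aˣ) : A) * H).Monic := by
    rw [Monic, leadingCoeff_mul, leadingCoeff_C, ← hu', Units.inv_mul]
  have hint : IsIntegral A ρ := by
    refine ⟨_, hmonic, ?_⟩
    rw [eval₂_mul, eval₂_C, ← eval_map, hρ, mul_zero]
  obtain ⟨y, hy⟩ := IsIntegrallyClosed.algebraMap_eq_of_integral hint
  rw [← hy]
  exact y.2

/-- **Root lifting.** -/
theorem exists_root_lift : ∀ (n : ℕ) (H : A[X]), H.natDegree = n → IsUnit H.leadingCoeff →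
    ∀ r : IsLocalRing.ResidueField A, (H.map (IsLocalRing.residue A)).eval r = 0 →
      ∃ a : A, H.eval a = 0 ∧ IsLocalRing.residue A a = r := by
  intro n
  induction n with
  | zero =>
    intro H hH hu r hr
    exfalso
    rw [eq_C_of_natDegree_eq_zero hH, Polynomial.map_C, eval_C] at hr
    have hlc : H.leadingCoeff = H.coeff 0 := by rw [leadingCoeff, hH]
    rw [hlc] at hu
    exact (hu.map (IsLocalRing.residue A)).ne_zero hr
  | succ n ih =>
    intro H hH hu r hr
    have hlc0 : H.leadingCoeff ≠ 0 := hu.ne_zero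
    have hinj : Function.Injective (algebraMap A L) := Subtype.val_injective
    have hdeg : (H.map (algebraMap A L)).degree ≠ 0 := by
      rw [degree_map_eq_of_injective hinj, degree_eq_natDegree (leadingCoeff_ne_zero.1 hlc0), hH]
      exact_mod_cast Nat.succ_ne_zero n
    obtain ⟨ρ, hρ⟩ := IsAlgClosed.exists_root _ hdeg
    have hρA : ρ ∈ A := mem_of_root A hu (by rw [hH]; exact Nat.succ_ne_zero n) hρ
    set a₀ : A := ⟨ρ, hρA⟩ with ha₀
    have hroot : H.eval a₀ = 0 := by
      apply hinj
      rw [map_zero, ← eval₂_hom, ← eval_map]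
      exact hρ
    obtain ⟨H₁, hH₁⟩ := dvd_iff_isRoot.2 hroot
    have hH₁0 : H₁ ≠ 0 := by
      rintro rfl
      rw [mul_zero] at hH₁
      rw [hH₁] at hlc0
      simp at hlc0
    have hlc : H.leadingCoeff = H₁.leadingCoeff := by
      rw [hH₁, leadingCoeff_mul, leadingCoeff_X_sub_C, one_mul]
    have hd₁ : H₁.natDegree = n := by
      have := congrArg natDegree hH₁
      rw [natDegree_mul (X_sub_C_ne_zero a₀) hH₁0, natDegree_X_sub_C, hH] at this
      omega
    rw [hH₁, Polynomial.map_mul, eval_mul, Polynomial.map_sub, Polynomial.map_X,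
      Polynomial.map_C, eval_sub, eval_X, eval_C] at hr
    rcases mul_eq_zero.1 hr with h | h
    · exact ⟨a₀, hroot, (sub_eq_zero.1 h).symm⟩
    · obtain ⟨a, ha, har⟩ := ih H₁ hd₁ (hlc ▸ hu) r h
      refine ⟨a, ?_, har⟩
      rw [hH₁, eval_mul, ha, mul_zero]

end Fermat.Agent.S41.P4R
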