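import Fermat.Agent.S13.LadderCorrect

/-!
# S41, piece P6a, (T2): full correctness of the ladder

On the model curve `Y² = X³ + a₂X² + a₄X` with `Δ ≠ 0` over a field with `2 ≠ 0`, for EVERY affine
point `P = (x₀, y₀)` and every `n ≥ 1` the pair `(Xₙ(x₀), Zₙ(x₀))` is a projective `x`-coordinate
of `n • P`: it is never `(0, 0)`, `Zₙ(x₀) = 0` iff `n • P = 0`, and otherwise
`x(n • P) · Zₙ(x₀) = Xₙ(x₀)`.
-/

set_option autoImplicit false
set_option linter.unusedSectionVars false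
set_option linter.unusedVariables false

namespace Fermat.Agent.S41.P6a

open WeierstrassCurve Polynomial Fermat.Agent.S05 Fermat.Agent.S13

variable {K : Type*} [Field K] [DecidableEq K] {W : WeierstrassCurve K}

/-- `(X, Z)` is a projective `x`-coordinate of the point `Q` -/
def Rep (W : WeierstrassCurve K) : W.toAffine.Point → K → K → Prop
  | .zero, X, Z => Z = 0 ∧ X ≠ 0
  | .some x _ _, X, Z => Z ≠ 0 ∧ x * Z = X

lemma rep_zero_iff {X Z : K} : Rep W (0 : W.toAffine.Point) X Z ↔ Z = 0 ∧ X ≠ 0 := Iff.rfl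

lemma rep_some_iff {x y : K} (h : W.toAffine.Nonsingular x y) {X Z : K} :
    Rep W (Affine.Point.some x y h) X Z ↔ Z ≠ 0 ∧ x * Z = X := Iff.rfl

lemma Rep.ne_zero {Q : W.toAffine.Point} {X Z : K} (h : Rep W Q X Z) : ¬ (X = 0 ∧ Z = 0) := by
  cases Q with
  | zero => exact fun h' => h.2 h'.1
  | some x y hxy => exact fun h' => h.1 h'.2

lemma Rep.eq_zero_iff {Q : W.toAffine.Point} {X Z : K} (h : Rep W Q X Z) : Z = 0 ↔ Q = 0 := by
  cases Q with
  | zero => exact ⟨fun _ => rfl, fun _ => h.1⟩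
  | some x y hxy => exact ⟨fun h' => absurd h' h.1, fun h' => absurd h' (Affine.Point.some_ne_zero _)⟩

/-- `a₄ ≠ 0` and `a₂² ≠ 4 a₄` from `Δ ≠ 0` -/
lemma model_ne (hW : IsModel W) (hΔ : W.Δ ≠ 0) : W.a₄ ≠ 0 ∧ W.a₂ ^ 2 - 4 * W.a₄ ≠ 0 := by
  rw [hW.Δ_eq] at hΔ
  refine ⟨?_, right_ne_zero_of_mul hΔ⟩
  rintro h0
  apply hΔ
  rw [h0]
  ring

/-- on the model curve, `y = 0` forces `x² ≠ a₄` -/
lemma x_sq_ne_of_y_eq_zero (hW : IsModel W) (hΔ : W.Δ ≠ 0) {x : K}
    (h : W.toAffine.Nonsingular x 0) : x ^ 2 - W.a₄ ≠ 0 := by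
  obtain ⟨h4, hd⟩ := model_ne hW hΔ
  have e := hW.eq_of_nonsingular h
  intro hx
  have hx2 : x ^ 2 = W.a₄ := sub_eq_zero.1 hx
  have hx0 : x ≠ 0 := by
    rintro rfl
    apply h4
    rw [← hx2]
    ring
  have e1 : x * (2 * W.a₄ + W.a₂ * x) = 0 := by
    linear_combination -e - x * hx2
  have e2 : 2 * W.a₄ + W.a₂ * x = 0 := by
    rcases mul_eq_zero.1 e1 with h' | h'
    · exact absurd h' hx0
    · exact h'
  apply hd
  have e3 : W.a₄ * (W.a₂ ^ 2 - 4 * W.a₄) = 0 := by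
    linear_combination (W.a₂ * x - 2 * W.a₄) * e2 - W.a₂ ^ 2 * hx2
  rcases mul_eq_zero.1 e3 with h' | h'
  · exact absurd h' h4
  · exact h'

/-- a point with `y = 0` is killed by `2` -/
lemma two_nsmul_of_y_eq_zero (hW : IsModel W) {x : K} (h : W.toAffine.Nonsingular x 0) :
    2 • (Affine.Point.some x 0 h : W.toAffine.Point) = 0 := by
  rw [two_nsmul]
  exact Affine.Point.add_of_Y_eq rfl (by rw [hW.negY_eq]; simp)

/-- **doubling step** -/
theorem rep_dbl (hW : IsModel W) (hΔ : W.Δ ≠ 0) (h2 : (2 : K) ≠ 0) {Q : W.toAffine.Point}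
    {X Z : K} (h : Rep W Q X Z) :
    Rep W (2 • Q) ((X ^ 2 - W.a₄ * Z ^ 2) ^ 2)
      (4 * X * Z * (X ^ 2 + W.a₂ * X * Z + W.a₄ * Z ^ 2)) := by
  obtain ⟨h4, hd⟩ := model_ne hW hΔ
  cases Q with
  | zero =>
    obtain ⟨rfl, hX⟩ := h
    have e0 : 2 • (Affine.Point.zero : W.toAffine.Point) = 0 := smul_zero 2
    rw [e0]
    refine rep_zero_iff.2 ⟨by ring, ?_⟩
    have : (X ^ 2 - W.a₄ * (0 : K) ^ 2) ^ 2 = X ^ 4 := by ring
    rw [this]
    exact pow_ne_zero _ hX
  | some x y hxy =>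
    obtain ⟨hZ, rfl⟩ := h
    have e := hW.eq_of_nonsingular hxy
    have eX : ((x * Z) ^ 2 - W.a₄ * Z ^ 2) ^ 2 = Z ^ 4 * (x ^ 2 - W.a₄) ^ 2 := by ring
    have eZ : 4 * (x * Z) * Z * ((x * Z) ^ 2 + W.a₂ * (x * Z) * Z + W.a₄ * Z ^ 2) =
        Z ^ 4 * (4 * x * (x ^ 2 + W.a₂ * x + W.a₄)) := by ring
    rw [eX, eZ]
    by_cases hy : y = 0
    · subst hy
      rw [two_nsmul_of_y_eq_zero hW hxy]
      refine rep_zero_iff.2 ⟨?_, mul_ne_zero (pow_ne_zero _ hZ)
        (pow_ne_zero _ (x_sq_ne_of_y_eq_zero hW hΔ hxy))⟩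
      have : 4 * x * (x ^ 2 + W.a₂ * x + W.a₄) = 0 := by linear_combination (-4 : K) * e
      rw [this, mul_zero]
    · obtain ⟨y', h', e', hD⟩ := x_two_nsmul hW hxy hy h2
      rw [two_nsmul, e']
      refine (rep_some_iff h').2 ⟨mul_ne_zero (pow_ne_zero _ hZ) hD, ?_⟩
      rw [div_mul_eq_mul_div, div_eq_iff hD]
      ring

/-- the point `T₀ = (0, 0)` is the only point with `x = 0` -/
lemma y_eq_zero_of_x_eq_zero (hW : IsModel W) {y : K} (h : W.toAffine.Nonsingular 0 y) :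
    y = 0 := by
  have e := hW.eq_of_nonsingular h
  have : y ^ 2 = 0 := by rw [e]; ring
  exact pow_eq_zero_iff (by norm_num) |>.1 this

/-- `x(Q + T₀) = a₄ / x(Q)` for `x(Q) ≠ 0` -/
lemma x_add_T0 (hW : IsModel W) (h4 : W.a₄ ≠ 0) {x y : K} (h : W.toAffine.Nonsingular x y)
    (hx : x ≠ 0) {x' y' : K} (h' : W.toAffine.Nonsingular x' y') {y₀ : K}
    (hT : W.toAffine.Nonsingular 0 y₀)
    (e : Affine.Point.some x y h + Affine.Point.some 0 y₀ hT = Affine.Point.some x' y' h') :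
    x' * x = W.a₄ := by
  have hy₀ := y_eq_zero_of_x_eq_zero hW hT
  subst hy₀
  obtain ⟨h'', e''⟩ := hW.add_T0 h4 h hx
  rw [e''] at e
  simp only [Affine.Point.some.injEq] at e
  rw [← e.1]
  field_simp

/-- **differential addition step** -/
theorem rep_add (hW : IsModel W) (hΔ : W.Δ ≠ 0) (h2 : (2 : K) ≠ 0) {x₀ y₀ : K}
    (h₀ : W.toAffine.Nonsingular x₀ y₀) {A B : W.toAffine.Point}
    (hAB : A = B + Affine.Point.some x₀ y₀ h₀) {XA ZA XB ZB F : K}
    (hA : Rep W A XA ZA) (hB : Rep W B XB ZB)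
    (hF : x₀ * F = (XB * XA - W.a₄ * ZB * ZA) ^ 2) (hF0 : x₀ = 0 → F = 0)
    (h0 : x₀ = 0 → A = 0 ∨ B = 0) :
    Rep W (A + B) F ((XB * ZA - XA * ZB) ^ 2) := by
  obtain ⟨h4, hd⟩ := model_ne hW hΔ
  cases B with
  | zero =>
    obtain ⟨rfl, hXB⟩ := hB
    have eA : A = Affine.Point.some x₀ y₀ h₀ := by
      rw [hAB]
      exact zero_add _
    subst eA
    obtain ⟨hZA, rfl⟩ := (rep_some_iff h₀).1 hA
    have e1 : Affine.Point.some x₀ y₀ h₀ + (Affine.Point.zero : W.toAffine.Point) =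
        Affine.Point.some x₀ y₀ h₀ := add_zero _
    rw [e1]
    refine (rep_some_iff h₀).2 ⟨pow_ne_zero _ ?_, ?_⟩
    · rw [mul_zero, sub_zero]
      exact mul_ne_zero hXB hZA
    · by_cases hx : x₀ = 0
      · rw [hF0 hx, hx, zero_mul]
      · apply mul_left_cancel₀ hx
        rw [hF]
        ring
  | some xB yB hB' =>
    obtain ⟨hZB, rfl⟩ := (rep_some_iff hB').1 hB
    cases A with
    | zero =>
      obtain ⟨rfl, hXA⟩ := hA
      -- `B = -P`
      have eB : Affine.Point.some xB yB hB' = -Affine.Point.some x₀ y₀ h₀ := by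
        rw [eq_neg_iff_add_eq_zero]
        exact hAB.symm
      obtain ⟨hn, en⟩ := hW.neg_some h₀
      rw [en] at eB
      simp only [Affine.Point.some.injEq] at eB
      obtain ⟨rfl, -⟩ := eB
      have e1 : (Affine.Point.zero : W.toAffine.Point) + Affine.Point.some xB yB hB' =
          Affine.Point.some xB yB hB' := zero_add _
      rw [e1]
      refine (rep_some_iff hB').2 ⟨pow_ne_zero _ ?_, ?_⟩
      · rw [mul_zero, zero_sub]
        exact neg_ne_zero.2 (mul_ne_zero hXA hZB)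
      · by_cases hx : xB = 0
        · rw [hF0 hx, hx, zero_mul]
        · apply mul_left_cancel₀ hx
          rw [hF]
          ring
    | some xA yA hA' =>
      obtain ⟨hZA, rfl⟩ := (rep_some_iff hA').1 hA
      have hx₀ : x₀ ≠ 0 := by
        intro hx
        rcases h0 hx with h | h
        · exact Affine.Point.some_ne_zero _ h
        · exact Affine.Point.some_ne_zero _ h
      have hP : Affine.Point.some xA yA hA' - Affine.Point.some xB yB hB' =
          Affine.Point.some x₀ y₀ h₀ := by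
        rw [hAB]
        abel
      have eU : xB * ZB * (xA * ZA) - W.a₄ * ZB * ZA = ZA * ZB * (xA * xB - W.a₄) := by ring
      have eV : xB * ZB * ZA - xA * ZA * ZB = ZA * ZB * (xB - xA) := by ring
      rw [eU] at hF
      rw [eV]
      have hZ : ZA * ZB ≠ 0 := mul_ne_zero hZA hZB
      by_cases hx : xA = xB
      · subst hx
        rcases eq_or_eq_neg_of_x_eq hW hA' hB' with h | h
        · exfalso
          rw [h, sub_self] at hP
          exact Affine.Point.some_ne_zero _ hP.symm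
        · rw [h, neg_add_cancel]
          refine rep_zero_iff.2 ⟨by ring, ?_⟩
          -- `P = 2 A`
          have hP2 : Affine.Point.some xA yA hA' + Affine.Point.some xA yA hA' =
              Affine.Point.some x₀ y₀ h₀ := by
            rw [← hP, sub_eq_add_neg, ← h]
          have hyA : yA ≠ 0 := by
            rintro rfl
            have := two_nsmul_of_y_eq_zero hW hA'
            rw [two_nsmul, hP2] at this
            exact Affine.Point.some_ne_zero _ this
          obtain ⟨y', h', e', hD⟩ := x_two_nsmul hW hA' hyA h2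
          rw [e'] at hP2
          simp only [Affine.Point.some.injEq] at hP2
          have hne : xA ^ 2 - W.a₄ ≠ 0 := by
            intro hz
            apply hx₀
            rw [← hP2.1, hz]
            simp
          intro hF'
          rw [hF', mul_zero] at hF
          have := pow_eq_zero_iff (two_ne_zero) |>.1 hF.symm
          rcases mul_eq_zero.1 this with h'' | h''
          · exact hZ h''
          · apply hne
            rw [← h'']
            ring
      · have hV : ZA * ZB * (xB - xA) ≠ 0 :=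
          mul_ne_zero hZ (sub_ne_zero.2 (Ne.symm hx))
        by_cases hxA : xA = 0
        · subst hxA
          have hyA := y_eq_zero_of_x_eq_zero hW hA'
          subst hyA
          have hxB : xB ≠ 0 := Ne.symm hx
          -- `A = T₀`, `B = T₀ - P`, `A + B = -P`
          obtain ⟨hn, en⟩ := hW.neg_some h₀
          have eB : Affine.Point.some xB yB hB' =
              Affine.Point.some x₀ (-y₀) hn + Affine.Point.some 0 0 hA' := by
            rw [← en, ← hP]
            abel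
          have hxB' : xB * x₀ = W.a₄ := x_add_T0 hW h4 hn hx₀ hB' hA' eB.symm
          have eS : Affine.Point.some 0 0 hA' + Affine.Point.some xB yB hB' =
              Affine.Point.some x₀ (-y₀) hn := by
            have hT : Affine.Point.some 0 0 hA' + Affine.Point.some 0 0 hA' = 0 := by
              rw [← two_nsmul]
              exact two_nsmul_of_y_eq_zero hW hA'
            rw [eB, add_comm (Affine.Point.some x₀ (-y₀) hn), ← add_assoc, hT, zero_add]
          rw [eS]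
          refine (rep_some_iff hn).2 ⟨pow_ne_zero _ hV, ?_⟩
          apply mul_left_cancel₀ hx₀
          rw [hF]
          linear_combination (ZA * ZB) ^ 2 * (xB * x₀ + W.a₄) * hxB'
        · by_cases hxB : xB = 0
          · subst hxB
            have hyB := y_eq_zero_of_x_eq_zero hW hB'
            subst hyB
            -- `B = T₀`, `A = P + T₀`, `A + B = P`
            have eA : Affine.Point.some x₀ y₀ h₀ + Affine.Point.some 0 0 hB' =
                Affine.Point.some xA yA hA' := by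
              rw [hAB, add_comm]
            have hxA' : xA * x₀ = W.a₄ := x_add_T0 hW h4 h₀ hx₀ hA' hB' eA
            have eS : Affine.Point.some xA yA hA' + Affine.Point.some 0 0 hB' =
                Affine.Point.some x₀ y₀ h₀ := by
              have hT : Affine.Point.some 0 0 hB' + Affine.Point.some 0 0 hB' = 0 := by
                rw [← two_nsmul]
                exact two_nsmul_of_y_eq_zero hW hB'
              rw [← eA, add_assoc, hT, add_zero]
            rw [eS]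
            refine (rep_some_iff h₀).2 ⟨pow_ne_zero _ hV, ?_⟩
            apply mul_left_cancel₀ hx₀
            rw [hF]
            linear_combination (ZA * ZB) ^ 2 * (xA * x₀ + W.a₄) * hxA'
          · obtain ⟨Xp, Yp, Xm, Ym, hp, hm, ep, em, hprod⟩ :=
              x_add_mul_x_sub hW hA' hB' hxA hxB hx
            rw [hP] at em
            simp only [Affine.Point.some.injEq] at em
            obtain ⟨rfl, -⟩ := em
            rw [ep]
            refine (rep_some_iff hp).2 ⟨pow_ne_zero _ hV, ?_⟩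
            apply mul_left_cancel₀ hx₀
            rw [hF]
            linear_combination (ZA * ZB) ^ 2 * hprod

/-- multiples of a point with `x = 0` -/
lemma nsmul_x_zero (hW : IsModel W) {y₀ : K} (h₀ : W.toAffine.Nonsingular 0 y₀) (k : ℕ) :
    (k + 1) • (Affine.Point.some 0 y₀ h₀ : W.toAffine.Point) = 0 ∨
      k • (Affine.Point.some 0 y₀ h₀ : W.toAffine.Point) = 0 := by
  have hy := y_eq_zero_of_x_eq_zero hW h₀
  subst hy
  have h2 := two_nsmul_of_y_eq_zero hW h₀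
  rcases Nat.even_or_odd' k with ⟨j, rfl | rfl⟩
  · right
    rw [mul_comm, mul_nsmul', h2, smul_zero]
  · left
    have : 2 * j + 1 + 1 = (j + 1) * 2 := by ring
    rw [this, mul_nsmul', h2, smul_zero]

/-- **(T2) full correctness of the ladder** -/
theorem ladder_rep (hW : IsModel W) (hΔ : W.Δ ≠ 0) (h2 : (2 : K) ≠ 0) {x₀ y₀ : K}
    (h₀ : W.toAffine.Nonsingular x₀ y₀) (n : ℕ) (hn : 1 ≤ n) :
    Rep W (n • Affine.Point.some x₀ y₀ h₀) ((ladder W.a₂ W.a₄ n).1.eval x₀)
      ((ladder W.a₂ W.a₄ n).2.eval x₀) := by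
  induction n using Nat.strong_induction_on with
  | _ n ih =>
    rcases Nat.even_or_odd' n with ⟨k, rfl | rfl⟩
    · have hk : 1 ≤ k := by omega
      have hk' := ih k (by omega) hk
      have := rep_dbl hW hΔ h2 hk'
      rw [ladder_two_mul _ _ hk, (eval_ladderDbl _ _ _ _).1, (eval_ladderDbl _ _ _ _).2,
        mul_nsmul']
      exact this
    · rcases Nat.eq_zero_or_pos k with rfl | hk
      · rw [Nat.mul_zero, Nat.zero_add, one_nsmul, ladder_one]
        refine (rep_some_iff h₀).2 ⟨?_, ?_⟩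
        · simp
        · simp
      · have hB := ih k (by omega) hk
        have hA := ih (k + 1) (by omega) (by omega)
        have hc := ladder_cross_coeff_zero W.a₂ W.a₄ hk
        obtain ⟨E1, E2⟩ := eval_ladderAdd W.a₄ x₀ _ _ hc
        have hAB : (k + 1) • Affine.Point.some x₀ y₀ h₀ =
            k • Affine.Point.some x₀ y₀ h₀ + Affine.Point.some x₀ y₀ h₀ := succ_nsmul _ _
        have hF0 : x₀ = 0 → (ladderAdd W.a₄ (ladder W.a₂ W.a₄ k)
            (ladder W.a₂ W.a₄ (k + 1))).1.eval x₀ = 0 := by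
          intro hx
          simp [ladderAdd, hx]
        have h0 : x₀ = 0 → (k + 1) • Affine.Point.some x₀ y₀ h₀ = 0 ∨
            k • Affine.Point.some x₀ y₀ h₀ = 0 := by
          intro hx
          subst hx
          exact nsmul_x_zero hW h₀ k
        have := rep_add hW hΔ h2 h₀ hAB hA hB E1 hF0 h0
        rw [ladder_two_mul_add_one _ _ hk, E2]
        have e : 2 * k + 1 = (k + 1) + k := by ring
        rw [e, add_nsmul]
        exact this

/-- the ladder polynomials never vanish simultaneously -/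
theorem ladder_eval_ne_zero (hW : IsModel W) (hΔ : W.Δ ≠ 0) (h2 : (2 : K) ≠ 0) {x₀ y₀ : K}
    (h₀ : W.toAffine.Nonsingular x₀ y₀) (n : ℕ) (hn : 1 ≤ n) :
    ¬ ((ladder W.a₂ W.a₄ n).1.eval x₀ = 0 ∧ (ladder W.a₂ W.a₄ n).2.eval x₀ = 0) :=
  (ladder_rep hW hΔ h2 h₀ n hn).ne_zero

/-- `Zₙ(x₀) = 0` iff `n • P = 0` -/
theorem ladder_eval_eq_zero_iff (hW : IsModel W) (hΔ : W.Δ ≠ 0) (h2 : (2 : K) ≠ 0) {x₀ y₀ : K}
    (h₀ : W.toAffine.Nonsingular x₀ y₀) (n : ℕ) (hn : 1 ≤ n) :
    (ladder W.a₂ W.a₄ n).2.eval x₀ = 0 ↔ n • Affine.Point.some x₀ y₀ h₀ = 0 :=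
  (ladder_rep hW hΔ h2 h₀ n hn).eq_zero_iff

/-- `x(n • P) Zₙ(x₀) = Xₙ(x₀)` -/
theorem ladder_eval_of_some (hW : IsModel W) (hΔ : W.Δ ≠ 0) (h2 : (2 : K) ≠ 0) {x₀ y₀ : K}
    (h₀ : W.toAffine.Nonsingular x₀ y₀) (n : ℕ) (hn : 1 ≤ n) {x y : K}
    (h : W.toAffine.Nonsingular x y)
    (e : n • Affine.Point.some x₀ y₀ h₀ = Affine.Point.some x y h) :
    (ladder W.a₂ W.a₄ n).2.eval x₀ ≠ 0 ∧
      x * (ladder W.a₂ W.a₄ n).2.eval x₀ = (ladder W.a₂ W.a₄ n).1.eval x₀ := by
  have := ladder_rep hW hΔ h2 h₀ n hn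
  rw [e] at this
  exact (rep_some_iff h).1 this

/-- `n • P = 0` gives `Zₙ(x₀) = 0` and `Xₙ(x₀) ≠ 0` -/
theorem ladder_eval_of_zero (hW : IsModel W) (hΔ : W.Δ ≠ 0) (h2 : (2 : K) ≠ 0) {x₀ y₀ : K}
    (h₀ : W.toAffine.Nonsingular x₀ y₀) (n : ℕ) (hn : 1 ≤ n)
    (e : n • Affine.Point.some x₀ y₀ h₀ = 0) :
    (ladder W.a₂ W.a₄ n).2.eval x₀ = 0 ∧ (ladder W.a₂ W.a₄ n).1.eval x₀ ≠ 0 := by
  have := ladder_rep hW hΔ h2 h₀ n hn
  rw [e] at this
  exact rep_zero_iff.1 this

/-- `(2m+1) • P = 0` iff `x₀` is a root of `ladderH m` -/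
theorem nsmul_eq_zero_iff_ladderH (hW : IsModel W) (hΔ : W.Δ ≠ 0) (h2 : (2 : K) ≠ 0) {x₀ y₀ : K}
    (h₀ : W.toAffine.Nonsingular x₀ y₀) {m : ℕ} (hm : 1 ≤ m) :
    (2 * m + 1) • Affine.Point.some x₀ y₀ h₀ = 0 ↔ (ladderH W.a₂ W.a₄ m).eval x₀ = 0 := by
  rw [← ladder_eval_eq_zero_iff hW hΔ h2 h₀ (2 * m + 1) (by omega), ladder_two_mul_add_one _ _ hm]
  simp only [ladderAdd, ladderH, eval_pow]
  constructor
  · intro h
    exact pow_eq_zero_iff (two_ne_zero (α := ℕ)) |>.1 h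
  · intro h
    rw [h]
    ring

/-- the model curve with given coefficients -/
def modelCurve (a₂ a₄ : K) : WeierstrassCurve K := ⟨0, a₂, 0, a₄, 0⟩

lemma modelCurve_isModel (a₂ a₄ : K) : IsModel (modelCurve a₂ a₄) := ⟨rfl, rfl, rfl⟩

lemma modelCurve_Δ_ne_zero {a₂ a₄ : K} (h2 : (2 : K) ≠ 0) (h4 : a₄ ≠ 0)
    (hd : a₂ ^ 2 - 4 * a₄ ≠ 0) : (modelCurve a₂ a₄).Δ ≠ 0 := by
  rw [(modelCurve_isModel a₂ a₄).Δ_eq]
  have h16 : (16 : K) ≠ 0 := by
    have : (16 : K) = 2 ^ 4 := by norm_num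
    rw [this]
    exact pow_ne_zero _ h2
  exact mul_ne_zero (mul_ne_zero h16 (pow_ne_zero _ h4)) hd

/-- over an algebraically closed field every `x₀` is the `x`-coordinate of a point -/
lemma exists_point_of_x [IsAlgClosed K] (hW : IsModel W) (hΔ : W.Δ ≠ 0) (x₀ : K) :
    ∃ y₀ : K, W.toAffine.Nonsingular x₀ y₀ := by
  obtain ⟨y₀, hy⟩ := IsAlgClosed.exists_pow_nat_eq (x₀ ^ 3 + W.a₂ * x₀ ^ 2 + W.a₄ * x₀)
    (n := 2) (by norm_num)
  refine ⟨y₀, (Affine.equation_iff_nonsingular_of_Δ_ne_zero hΔ).1 ?_⟩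
  exact (hW.equation_iff x₀ y₀).2 hy

/-- over an algebraically closed field, `Xₙ` and `Zₙ` have no common root -/
lemma ladder_no_common_root [IsAlgClosed K] {a₂ a₄ : K} (h2 : (2 : K) ≠ 0) (h4 : a₄ ≠ 0)
    (hd : a₂ ^ 2 - 4 * a₄ ≠ 0) {n : ℕ} (hn : 1 ≤ n) (t : K) :
    ¬ ((ladder a₂ a₄ n).1.eval t = 0 ∧ (ladder a₂ a₄ n).2.eval t = 0) := by
  have hW := modelCurve_isModel a₂ a₄
  have hΔ := modelCurve_Δ_ne_zero h2 h4 hd
  obtain ⟨y₀, h₀⟩ := exists_point_of_x hW hΔ t
  exact ladder_eval_ne_zero hW hΔ h2 h₀ n hn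

omit [DecidableEq K] in
/-- **coprimality of the ladder polynomials** -/
theorem ladder_isCoprime {a₂ a₄ : K} (h2 : (2 : K) ≠ 0) (h4 : a₄ ≠ 0)
    (hd : a₂ ^ 2 - 4 * a₄ ≠ 0) {n : ℕ} (hn : 1 ≤ n) :
    IsCoprime (ladder a₂ a₄ n).1 (ladder a₂ a₄ n).2 := by
  classical
  set L := AlgebraicClosure K
  set f : K →+* L := algebraMap K L
  have hf : Function.Injective f := f.injective
  rw [← Polynomial.isCoprime_map f]
  have e := ladder_map f a₂ a₄ n hn
  have e1 : (ladder a₂ a₄ n).1.map f = (ladder (f a₂) (f a₄) n).1 := by rw [e]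
  have e2 : (ladder a₂ a₄ n).2.map f = (ladder (f a₂) (f a₄) n).2 := by rw [e]
  rw [e1, e2]
  have h2' : (2 : L) ≠ 0 := by
    have : (2 : L) = f 2 := (map_ofNat f 2).symm
    rw [this]
    exact (map_ne_zero_iff f hf).2 h2
  have h4' : f a₄ ≠ 0 := (map_ne_zero_iff f hf).2 h4
  have hd' : f a₂ ^ 2 - 4 * f a₄ ≠ 0 := by
    have : f a₂ ^ 2 - 4 * f a₄ = f (a₂ ^ 2 - 4 * a₄) := by
      rw [map_sub, map_mul, map_pow, map_ofNat]
    rw [this]
    exact (map_ne_zero_iff f hf).2 hd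
  rw [← EuclideanDomain.gcd_isUnit_iff]
  by_contra hu
  obtain ⟨t, ht⟩ := IsAlgClosed.exists_root
    (EuclideanDomain.gcd (ladder (f a₂) (f a₄) n).1 (ladder (f a₂) (f a₄) n).2)
    (fun h => hu (Polynomial.isUnit_iff_degree_eq_zero.2 h))
  have r1 : (ladder (f a₂) (f a₄) n).1.IsRoot t :=
    IsRoot.dvd ht (EuclideanDomain.gcd_dvd_left _ _)
  have r2 : (ladder (f a₂) (f a₄) n).2.IsRoot t :=
    IsRoot.dvd ht (EuclideanDomain.gcd_dvd_right _ _)
  exact ladder_no_common_root h2' h4' hd' hn t ⟨r1, r2⟩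

end Fermat.Agent.S41.P6a
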