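import Fermat.Agent.S41.VarChange
import Fermat.Agent.S41.TorsLadderFull
import Fermat.Agent.S41.NonEisRoot
import Fermat.Agent.S05.Kernel
import Fermat.Agent.S05.Congr

/-!
# S41 (P4): lifting a point of order `p` from the residue field, and rigidity

`A` is a valuation subring of an algebraically closed field `L` with residue field `k`, `W_A` a
Weierstrass curve over `A` with unit discriminant, `2` and `p` units of `A`.  Every point of order
`p` of the reduced curve lifts to a point of order `p` over `L`, and two points of order `p` over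
`L` with congruent coordinates are equal.
-/

set_option autoImplicit false
set_option linter.unusedSectionVars false
set_option linter.unusedVariables false
set_option linter.style.haveILetI false

namespace Fermat.Agent.S41.P4L

open WeierstrassCurve Polynomial
open Fermat.Agent.S05 Fermat.Agent.S13 Fermat.Agent.S41.VC Fermat.Agent.S41.P6a

section ringLevel

variable {R : Type*} [CommRing R]

/-- the change of variables to the model form attached to a root `e` of the `2`-division cubic
and to `h = 1/2` -/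
def modelCR (W : WeierstrassCurve R) (e h : R) : VariableChange R :=
  ⟨1, e, -(h * W.a₁), -(h * (W.a₃ + e * W.a₁))⟩

variable (W : WeierstrassCurve R) (e h : R)

@[simp] lemma modelCR_u : ((modelCR W e h).u : R) = 1 := rfl
@[simp] lemma modelCR_r : (modelCR W e h).r = e := rfl
@[simp] lemma modelCR_s : (modelCR W e h).s = -(h * W.a₁) := rfl
@[simp] lemma modelCR_t : (modelCR W e h).t = -(h * (W.a₃ + e * W.a₁)) := rfl

lemma modelCR_uinv : (((modelCR W e h).u⁻¹ : Rˣ) : R) = 1 := by
  show ((1 : Rˣ)⁻¹ : Rˣ).val = 1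
  simp

lemma modelCR_a₁ (hh : 2 * h = 1) : (modelCR W e h • W).a₁ = 0 := by
  rw [variableChange_a₁, modelCR_uinv, modelCR_s]
  linear_combination (-W.a₁) * hh

lemma modelCR_a₃ (hh : 2 * h = 1) : (modelCR W e h • W).a₃ = 0 := by
  rw [variableChange_a₃, modelCR_uinv, modelCR_r, modelCR_t]
  linear_combination (-(W.a₃ + e * W.a₁)) * hh

lemma modelCR_a₆ (hh : 2 * h = 1)
    (he : 4 * e ^ 3 + W.b₂ * e ^ 2 + 2 * W.b₄ * e + W.b₆ = 0) :
    (modelCR W e h • W).a₆ = 0 := by
  rw [variableChange_a₆, modelCR_uinv, modelCR_r, modelCR_t]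
  simp only [b₂, b₄, b₆] at he
  have h4 : 4 * h ^ 2 = 1 := by linear_combination (2 * h + 1) * hh
  linear_combination (h ^ 2) * he +
    (-(W.a₆ + e * W.a₄ + e ^ 2 * W.a₂ + e ^ 3)) * h4 +
    (h * (W.a₃ + e * W.a₁) ^ 2) * hh - ((W.a₃ + e * W.a₁) ^ 2) * h4 +
    ((W.a₃ + e * W.a₁) ^ 2) * hh

lemma modelCR_Δ : (modelCR W e h • W).Δ = W.Δ := by
  rw [variableChange_Δ, modelCR_uinv, one_pow, one_mul]

end ringLevel


section mapLevel

variable {R : Type*} [CommRing R] (WA : WeierstrassCurve R) (e h : R)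
  {F : Type*} [Field F] (f : R →+* F)

/-- the model curve over the base ring -/
def MA : WeierstrassCurve R := modelCR WA e h • WA

lemma MA_map_eq : ((modelCR WA e h).map f) • (WA.map f) = (MA WA e h).map f :=
  map_variableChange _ _ _

lemma vx_map (t : F) : vx ((modelCR WA e h).map f) t = t + f e := by
  unfold vx
  simp

lemma vy_map (t s : F) :
    vy ((modelCR WA e h).map f) t s = s - f h * f WA.a₁ * t - f h * (f WA.a₃ + f e * f WA.a₁) := by
  unfold vy
  simp
  ring

variable (hh : 2 * h = 1) (he : 4 * e ^ 3 + WA.b₂ * e ^ 2 + 2 * WA.b₄ * e + WA.b₆ = 0)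

include hh f in
lemma two_ne_zero_map : (2 : F) ≠ 0 := by
  intro h0
  have := congrArg f hh
  rw [map_mul, map_ofNat, h0, zero_mul, map_one] at this
  exact zero_ne_one this

include hh he in
lemma isModel_map [DecidableEq F] : IsModel ((MA WA e h).map f) :=
  ⟨by simp [MA, modelCR_a₁ WA e h hh], by simp [MA, modelCR_a₃ WA e h hh],
    by simp [MA, modelCR_a₆ WA e h hh he]⟩

lemma MA_map_Δ : ((MA WA e h).map f).Δ = f WA.Δ := by
  rw [map_Δ, MA, modelCR_Δ]

end mapLevel


section generic

variable {L : Type*} [Field L] [IsAlgClosed L] [DecidableEq L] (A : ValuationSubring L)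
  [DecidableEq (IsLocalRing.ResidueField A)]
  (WA : WeierstrassCurve A) (e h : A) (hh : 2 * h = 1)
  (he : 4 * e ^ 3 + WA.b₂ * e ^ 2 + 2 * WA.b₄ * e + WA.b₆ = 0)
  (hΔ : IsUnit WA.Δ)

local notation "fk" => IsLocalRing.residue A
local notation "fL" => algebraMap A L

lemma mem_of_sq_mem' {y : L} (hy : y ^ 2 ∈ A) : y ∈ A := by
  rw [← A.valuation_le_one_iff] at hy ⊢
  rw [map_pow] at hy
  by_contra hy'
  push Not at hy'
  have : 1 < A.valuation y ^ 2 := one_lt_pow₀ hy' (by norm_num)
  exact absurd hy (not_le.2 this)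

lemma residue_ne_zero_iff (a : A) : IsLocalRing.residue A a ≠ 0 ↔ A.valuation (a : L) = 1 := by
  rw [Ne, IsLocalRing.residue_eq_zero_iff, ← A.valuation_eq_one_iff, IsLocalRing.mem_maximalIdeal,
    mem_nonunits_iff, not_not]

lemma residue_eq_zero_iff' (a : A) : IsLocalRing.residue A a = 0 ↔ (a : L) ∈ A.nonunits := by
  rw [IsLocalRing.residue_eq_zero_iff, ValuationSubring.coe_mem_nonunits_iff]

include hh he hΔ in
/-- **Lifting.** A point of order `p` of the reduced curve lifts to a point of order `p`. -/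
theorem exists_lift {m : ℕ} (hm : 1 ≤ m) (hpu : IsUnit (((2 * m + 1 : ℕ) : A)))
    {xb yb : IsLocalRing.ResidueField A}
    (hQ : (WA.map (IsLocalRing.residue A)).toAffine.Nonsingular xb yb)
    (hQp : (2 * m + 1) • (Affine.Point.some xb yb hQ :
      (WA.map (IsLocalRing.residue A)).toAffine.Point) = 0)
    (hodd : ¬ 2 ∣ 2 * m + 1 := by omega) :
    ∃ (x y : A) (hxy : (WA.map (algebraMap A L)).toAffine.Nonsingular (x : L) (y : L)),
      IsLocalRing.residue A x = xb ∧ IsLocalRing.residue A y = yb ∧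
      (2 * m + 1) • (Affine.Point.some (x : L) (y : L) hxy :
        (WA.map (algebraMap A L)).toAffine.Point) = 0 ∧
      IsLocalRing.residue A (x - e) ≠ 0 := by
  classical
  -- the model over `k`
  have hMk : IsModel ((MA WA e h).map fk) := isModel_map WA e h fk hh he
  have h2k : (2 : IsLocalRing.ResidueField A) ≠ 0 := two_ne_zero_map h fk hh
  have hΔk : ((MA WA e h).map fk).Δ ≠ 0 := by
    rw [MA_map_Δ]
    exact (hΔ.map fk).ne_zero
  have hCk := MA_map_eq WA e h fk
  -- the point on the model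
  obtain ⟨Q', hQ'⟩ := pmap_surjective ((modelCR WA e h).map fk) hCk (Affine.Point.some xb yb hQ)
  have hQ'p : (2 * m + 1) • Q' = 0 := by
    apply pmap_injective ((modelCR WA e h).map fk) hCk
    have := map_nsmul (pmapHom ((modelCR WA e h).map fk) hCk) (2 * m + 1) Q'
    change pmap _ hCk ((2 * m + 1) • Q') = (2 * m + 1) • pmap _ hCk Q' at this
    rw [this, hQ', hQp]
    rfl
  rcases Q' with _ | ⟨tb, sb, hts⟩
  · exact absurd hQ' (by simp [pmap])
  rw [pmap_some] at hQ'
  simp only [Affine.Point.some.injEq] at hQ'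
  obtain ⟨hxb, hyb⟩ := hQ'
  rw [vx_map] at hxb
  rw [vy_map] at hyb
  -- `tb ≠ 0`
  have htb : tb ≠ 0 := by
    rintro rfl
    have hs0 := y_eq_zero_of_x_eq_zero hMk hts
    subst hs0
    have h2 := two_nsmul_of_y_eq_zero hMk hts
    have h1 : (1 : ℕ) • (Affine.Point.some 0 0 hts :
        ((MA WA e h).map fk).toAffine.Point) = 0 := by
      have e1 : (1 : ℕ) = (2 * m + 1) - m * 2 := by omega
      have h3 : (m * 2) • (Affine.Point.some 0 0 hts :
          ((MA WA e h).map fk).toAffine.Point) = 0 := by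
        rw [mul_nsmul', h2]
        exact nsmul_zero m
      have h4 : (2 * m + 1) • (Affine.Point.some 0 0 hts :
          ((MA WA e h).map fk).toAffine.Point) =
          (m * 2) • Affine.Point.some 0 0 hts + 1 • Affine.Point.some 0 0 hts := by
        rw [← add_nsmul]
        congr 1
        omega
      rw [h4, h3, zero_add] at hQ'p
      exact hQ'p
    rw [one_nsmul] at h1
    exact Affine.Point.some_ne_zero _ h1
  -- the root of `ladderH`
  have hroot := (nsmul_eq_zero_iff_ladderH hMk hΔk h2k hts hm).1 hQ'p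
  rw [map_a₂, map_a₄, ladderH_map fk _ _ hm] at hroot
  have hpA0 : (((2 * m + 1 : ℕ) : A)) ≠ 0 := hpu.ne_zero
  obtain ⟨hlc, hdeg⟩ := ladderH_leadingCoeff (MA WA e h).a₂ (MA WA e h).a₄ hm hpA0
  obtain ⟨tA, htA, htAres⟩ := Fermat.Agent.S41.P4R.exists_root_lift A _ _ rfl (hlc ▸ hpu) tb hroot
  -- the model over `L`
  have hML : IsModel ((MA WA e h).map fL) := isModel_map WA e h fL hh he
  have h2L : (2 : L) ≠ 0 := two_ne_zero_map h fL hh
  have hΔL : ((MA WA e h).map fL).Δ ≠ 0 := by
    rw [MA_map_Δ]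
    exact (hΔ.map fL).ne_zero
  have hCL := MA_map_eq WA e h fL
  -- the `y`-coordinate
  obtain ⟨s, hs⟩ : ∃ s : L, s ^ 2 = ((tA ^ 3 + (MA WA e h).a₂ * tA ^ 2 + (MA WA e h).a₄ * tA : A) : L) :=
    IsAlgClosed.exists_pow_nat_eq _ (by norm_num)
  have hsA : s ∈ A := mem_of_sq_mem' A (by rw [hs]; exact SetLike.coe_mem _)
  have hsq : (⟨s, hsA⟩ : A) ^ 2 = tA ^ 3 + (MA WA e h).a₂ * tA ^ 2 + (MA WA e h).a₄ * tA := by
    apply Subtype.ext
    rw [← hs]
    rfl
  have hsb := hMk.eq_of_nonsingular hts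
  rw [map_a₂, map_a₄] at hsb
  have hres : fk ⟨s, hsA⟩ ^ 2 = sb ^ 2 := by
    rw [← map_pow, hsq, hsb]
    simp only [map_add, map_mul, map_pow, htAres]
  obtain ⟨s', hs'sq, hs'res⟩ : ∃ s' : A, s' ^ 2 = tA ^ 3 + (MA WA e h).a₂ * tA ^ 2 +
      (MA WA e h).a₄ * tA ∧ fk s' = sb := by
    have hfac : (fk ⟨s, hsA⟩ - sb) * (fk ⟨s, hsA⟩ + sb) = 0 := by
      linear_combination hres
    rcases mul_eq_zero.1 hfac with h1 | h1
    · exact ⟨⟨s, hsA⟩, hsq, sub_eq_zero.1 h1⟩
    · refine ⟨-⟨s, hsA⟩, by rw [neg_sq, hsq], ?_⟩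
      rw [map_neg]
      linear_combination -h1
  have hTeq : ((MA WA e h).map fL).toAffine.Equation (tA : L) (s' : L) := by
    rw [hML.equation_iff, map_a₂, map_a₄]
    have := congrArg (fun z : A => (z : L)) hs'sq
    simpa using this
  have hT : ((MA WA e h).map fL).toAffine.Nonsingular (tA : L) (s' : L) :=
    (Affine.equation_iff_nonsingular_of_Δ_ne_zero hΔL).1 hTeq
  have hTp : (2 * m + 1) • (Affine.Point.some (tA : L) (s' : L) hT :
      ((MA WA e h).map fL).toAffine.Point) = 0 := by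
    rw [nsmul_eq_zero_iff_ladderH hML hΔL h2L hT hm, map_a₂, map_a₄, ladderH_map fL _ _ hm,
      eval_map]
    have := congrArg fL htA
    rw [map_zero] at this
    rw [← this]
    exact (eval₂_at_apply fL tA).symm ▸ rfl
  -- back to `W`
  have hP := nonsingular_of_eq ((modelCR WA e h).map fL) hCL hT
  have hPp : (2 * m + 1) • (Affine.Point.some _ _ hP :
      (WA.map fL).toAffine.Point) = 0 := by
    have := map_nsmul (pmapHom ((modelCR WA e h).map fL) hCL) (2 * m + 1)
      (Affine.Point.some (tA : L) (s' : L) hT)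
    rw [hTp, map_zero] at this
    exact this.symm
  have ex : vx ((modelCR WA e h).map fL) (tA : L) = ((tA + e : A) : L) := by
    rw [vx_map]
    rfl
  have ey : vy ((modelCR WA e h).map fL) (tA : L) (s' : L) =
      ((s' - h * WA.a₁ * tA - h * (WA.a₃ + e * WA.a₁) : A) : L) := by
    rw [vy_map]
    rfl
  have hxy : (WA.map fL).toAffine.Nonsingular ((tA + e : A) : L)
      ((s' - h * WA.a₁ * tA - h * (WA.a₃ + e * WA.a₁) : A) : L) := by
    rw [← ex, ← ey]
    exact hP
  have hPt : (Affine.Point.some _ _ hxy : (WA.map fL).toAffine.Point) =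
      Affine.Point.some _ _ hP := by
    simp only [Affine.Point.some.injEq]
    exact ⟨ex.symm, ey.symm⟩
  refine ⟨tA + e, s' - h * WA.a₁ * tA - h * (WA.a₃ + e * WA.a₁), hxy, ?_, ?_, ?_, ?_⟩
  · rw [map_add, htAres, hxb]
  · rw [← hyb]
    simp only [map_sub, map_mul, map_add, htAres, hs'res]
  · rw [hPt]
    exact hPp
  · rw [add_sub_cancel_right, htAres]
    exact htb


lemma nonsingular_of_eq' {F : Type*} [Field F] (C : VariableChange F) {W W' : WeierstrassCurve F}
    (hC : C • W = W') {x y : F} (hxy : W.toAffine.Nonsingular (vx C x) (vy C x y)) :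
    W'.toAffine.Nonsingular x y := by
  subst hC
  exact (nonsingular_vc C W x y).2 hxy

include hh he hΔ in
/-- **Rigidity.** Two points of order `p` with congruent coordinates are equal. -/
theorem eq_of_congr {m : ℕ} (hm : 1 ≤ m) (hpu : IsUnit (((2 * m + 1 : ℕ) : A)))
    (x y : A) (hxy : (WA.map (algebraMap A L)).toAffine.Nonsingular (x : L) (y : L))
    (hp : (2 * m + 1) • (Affine.Point.some (x : L) (y : L) hxy :
        (WA.map (algebraMap A L)).toAffine.Point) = 0)
    (hxe : IsLocalRing.residue A (x - e) ≠ 0)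
    {x' y' : L} (hxy' : (WA.map (algebraMap A L)).toAffine.Nonsingular x' y')
    (hp' : (2 * m + 1) • (Affine.Point.some x' y' hxy' :
        (WA.map (algebraMap A L)).toAffine.Point) = 0)
    (hx : x' - (x : L) ∈ A.nonunits) (hy : y' - (y : L) ∈ A.nonunits) :
    (Affine.Point.some x' y' hxy' : (WA.map (algebraMap A L)).toAffine.Point) =
      Affine.Point.some (x : L) (y : L) hxy := by
  classical
  have hML : IsModel ((MA WA e h).map fL) := isModel_map WA e h fL hh he
  have h2L : (2 : L) ≠ 0 := two_ne_zero_map h fL hh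
  have hΔL : ((MA WA e h).map fL).Δ ≠ 0 := by
    rw [MA_map_Δ]
    exact (hΔ.map fL).ne_zero
  have hCL := MA_map_eq WA e h fL
  -- the coordinates on the model
  set c₁ : L := ((h * WA.a₁ : A) : L) with hc₁
  set c₂ : L := ((h * (WA.a₃ + e * WA.a₁) : A) : L) with hc₂
  have hc₁A : c₁ ∈ A := SetLike.coe_mem _
  have hvx : ∀ t : L, vx ((modelCR WA e h).map fL) t = t + (e : L) := fun t => by
    rw [vx_map]; rfl
  have hvy : ∀ t s : L, vy ((modelCR WA e h).map fL) t s = s - c₁ * t - c₂ := fun t s => by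
    rw [vy_map]; rfl
  have ex : vx ((modelCR WA e h).map fL) ((x : L) - e) = x := by rw [hvx]; ring
  have ey : vy ((modelCR WA e h).map fL) ((x : L) - e)
      ((y : L) + c₁ * ((x : L) - e) + c₂) = y := by rw [hvy]; ring
  have ex' : vx ((modelCR WA e h).map fL) (x' - e) = x' := by rw [hvx]; ring
  have ey' : vy ((modelCR WA e h).map fL) (x' - e) (y' + c₁ * (x' - e) + c₂) = y' := by
    rw [hvy]; ring
  have hT : ((MA WA e h).map fL).toAffine.Nonsingular ((x : L) - e)
      ((y : L) + c₁ * ((x : L) - e) + c₂) :=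
    nonsingular_of_eq' _ hCL (by rw [ex, ey]; exact hxy)
  have hT' : ((MA WA e h).map fL).toAffine.Nonsingular (x' - e) (y' + c₁ * (x' - e) + c₂) :=
    nonsingular_of_eq' _ hCL (by rw [ex', ey']; exact hxy')
  have hPT : pmap ((modelCR WA e h).map fL) hCL (Affine.Point.some _ _ hT) =
      Affine.Point.some (x : L) (y : L) hxy := by
    rw [pmap_some]
    simp only [Affine.Point.some.injEq]
    exact ⟨ex, ey⟩
  have hPT' : pmap ((modelCR WA e h).map fL) hCL (Affine.Point.some _ _ hT') =
      Affine.Point.some x' y' hxy' := by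
    rw [pmap_some]
    simp only [Affine.Point.some.injEq]
    exact ⟨ex', ey'⟩
  have hnT : ∀ (Q : ((MA WA e h).map fL).toAffine.Point),
      (2 * m + 1) • pmap ((modelCR WA e h).map fL) hCL Q = 0 → (2 * m + 1) • Q = 0 := by
    intro Q hQ
    apply pmap_injective ((modelCR WA e h).map fL) hCL
    have := map_nsmul (pmapHom ((modelCR WA e h).map fL) hCL) (2 * m + 1) Q
    exact this.trans (hQ.trans rfl)
  have hTp := hnT _ (by rw [hPT]; exact hp)
  have hTp' := hnT _ (by rw [hPT']; exact hp')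
  -- valuations
  have h2A : ((MA WA e h).map fL).a₂ ∈ A := by rw [map_a₂]; exact SetLike.coe_mem _
  have h4A : ((MA WA e h).map fL).a₄ ∈ A := by rw [map_a₄]; exact SetLike.coe_mem _
  have htwo : A.valuation (2 : L) = 1 := by
    have h2u : IsUnit (2 : A) := IsUnit.of_mul_eq_one h hh
    have := (A.valuation_eq_one_iff (2 : A)).1 h2u
    have e2 : ((2 : A) : L) = 2 := rfl
    rw [e2] at this
    exact this
  have hdv : A.valuation (((MA WA e h).map fL).a₂ ^ 2 - 4 * ((MA WA e h).map fL).a₄) = 1 := by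
    have hΔv : A.valuation (((MA WA e h).map fL).Δ) = 1 := by
      rw [MA_map_Δ]
      exact (A.valuation_eq_one_iff WA.Δ).1 hΔ
    rw [hML.Δ_eq] at hΔv
    have hd1 : A.valuation (((MA WA e h).map fL).a₂ ^ 2 - 4 * ((MA WA e h).map fL).a₄) ≤ 1 := by
      rw [A.valuation_le_one_iff]
      exact sub_mem (pow_mem h2A 2) (mul_mem (ofNat_mem A 4) h4A)
    have hd2 : A.valuation ((16 : L) * ((MA WA e h).map fL).a₄ ^ 2) ≤ 1 := by
      rw [A.valuation_le_one_iff]
      exact mul_mem (ofNat_mem A 16) (pow_mem h4A 2)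
    rcases lt_or_eq_of_le hd1 with hlt | heq
    · exfalso
      have : A.valuation ((16 : L) * ((MA WA e h).map fL).a₄ ^ 2) *
          A.valuation (((MA WA e h).map fL).a₂ ^ 2 - 4 * ((MA WA e h).map fL).a₄) < 1 := by
        calc _ ≤ 1 * A.valuation (((MA WA e h).map fL).a₂ ^ 2 - 4 * ((MA WA e h).map fL).a₄) :=
              mul_le_mul_left hd2 _
          _ = A.valuation (((MA WA e h).map fL).a₂ ^ 2 - 4 * ((MA WA e h).map fL).a₄) :=
              one_mul _
          _ < 1 := hlt
      rw [← map_mul, hΔv] at this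
      exact lt_irrefl _ this
    · exact heq
  have hvt : A.valuation ((x : L) - e) = 1 := (residue_ne_zero_iff A (x - e)).1 hxe
  have hxx : ((x : L) - e) - (x' - e) ∈ A.nonunits := by
    have : ((x : L) - e) - (x' - e) = -(x' - x) := by ring
    rw [this]
    exact A.nonunits.neg_mem hx
  have hyy : ((y : L) + c₁ * ((x : L) - e) + c₂) - (y' + c₁ * (x' - e) + c₂) ∈ A.nonunits := by
    have : ((y : L) + c₁ * ((x : L) - e) + c₂) - (y' + c₁ * (x' - e) + c₂) =
        -(y' - y) + c₁ * (-(x' - x)) := by ring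
    rw [this]
    refine A.nonunits.add_mem (A.nonunits.neg_mem hy) ?_
    rw [ValuationSubring.mem_nonunits_iff, map_mul]
    calc A.valuation c₁ * A.valuation (-(x' - (x : L))) ≤ 1 * A.valuation (-(x' - (x : L))) :=
          mul_le_mul_left ((A.valuation_le_one_iff _).2 hc₁A) _
      _ = A.valuation (-(x' - (x : L))) := one_mul _
      _ < 1 := by rw [Valuation.map_neg]; exact (ValuationSubring.mem_nonunits_iff A).1 hx
  have hE1 := InE1_sub_of_congr A hML h2A h4A hdv htwo hT hT' hvt hxx hyy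
  have hpv : A.valuation (((2 * m + 1 : ℕ) : L)) = 1 := by
    have := (A.valuation_eq_one_iff (((2 * m + 1 : ℕ) : A))).1 hpu
    have e2 : ((((2 * m + 1 : ℕ) : A)) : L) = (((2 * m + 1 : ℕ)) : L) := by
      norm_cast
    rw [e2] at this
    exact this
  have hsub : (2 * m + 1) • ((Affine.Point.some _ _ hT : ((MA WA e h).map fL).toAffine.Point) -
      Affine.Point.some _ _ hT') = 0 := by
    rw [nsmul_sub, hTp, hTp', sub_zero]
  have h0 := InE1_torsion_free A hML h2A h4A (2 * m + 1) hpv hE1 hsub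
  have hTT : (Affine.Point.some _ _ hT : ((MA WA e h).map fL).toAffine.Point) =
      Affine.Point.some _ _ hT' := sub_eq_zero.1 h0
  rw [← hPT, ← hPT', hTT]


include hh he hΔ in
/-- **Lifting with rigidity**, for curves given up to equality. -/
theorem exists_lift_rigid {WL : WeierstrassCurve L} (hL : WA.map (algebraMap A L) = WL)
    {Wk : WeierstrassCurve (IsLocalRing.ResidueField A)}
    (hk : WA.map (IsLocalRing.residue A) = Wk)
    {m : ℕ} (hm : 1 ≤ m) (hpu : IsUnit (((2 * m + 1 : ℕ) : A)))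
    {xb yb : IsLocalRing.ResidueField A} (hQ : Wk.toAffine.Nonsingular xb yb)
    (hQp : (2 * m + 1) • (Affine.Point.some xb yb hQ : Wk.toAffine.Point) = 0) :
    ∃ (x y : A) (hxy : WL.toAffine.Nonsingular (x : L) (y : L)),
      IsLocalRing.residue A x = xb ∧ IsLocalRing.residue A y = yb ∧
      (2 * m + 1) • (Affine.Point.some (x : L) (y : L) hxy : WL.toAffine.Point) = 0 ∧
      ∀ (x' y' : L) (hxy' : WL.toAffine.Nonsingular x' y'),
        (2 * m + 1) • (Affine.Point.some x' y' hxy' : WL.toAffine.Point) = 0 →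
        x' - (x : L) ∈ A.nonunits → y' - (y : L) ∈ A.nonunits →
        (Affine.Point.some x' y' hxy' : WL.toAffine.Point) =
          Affine.Point.some (x : L) (y : L) hxy := by
  subst hL
  subst hk
  obtain ⟨x, y, hxy, h1, h2, h3, h4⟩ := exists_lift A WA e h hh he hΔ hm hpu hQ hQp
  exact ⟨x, y, hxy, h1, h2, h3, fun x' y' hxy' hp' hx hy =>
    eq_of_congr A WA e h hh he hΔ hm hpu x y hxy h3 h4 hxy' hp' hx hy⟩

end generic

end Fermat.Agent.S41.P4L
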