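import Mathlib

/-!
# S41 (campaign 81), Route H, piece H2c: the cyclotomic product decomposition

For coprime `a', a'' ≥ 1` every `σ ∈ Gal(ℚ̄/ℚ)` is a product `σ = σ' * σ''` where `σ'` fixes all
`a'`-th roots of unity and `σ''` fixes all `a''`-th roots of unity.  Consequently a group
homomorphism on `Gal(ℚ̄/ℚ)` that is trivial on both fixators is trivial.
-/

set_option autoImplicit false
set_option linter.style.haveILetI false

noncomputable section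

namespace Fermat.Agent.S41.RH

local notation "Qb" => AlgebraicClosure ℚ

/-- An automorphism acts on the `m`-th roots of unity as a power map as soon as it does so
on one primitive `m`-th root. -/
theorem cyc_pow_of_primitive {m : ℕ} {ζ : Qb} (hζ : IsPrimitiveRoot ζ m) (hm : 0 < m)
    (τ : Qb ≃ₐ[ℚ] Qb) (k : ℕ) (hk : τ ζ = ζ ^ k) (z : Qb) (hz : z ^ m = 1) : τ z = z ^ k := by
  haveI : NeZero m := ⟨hm.ne'⟩
  obtain ⟨i, -, rfl⟩ := hζ.eq_pow_of_pow_eq_one hz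
  rw [map_pow, hk, ← pow_mul, ← pow_mul, mul_comm]

/-- `z ^ k = z ^ k'` if `z ^ a = 1` and `k ≡ k' [MOD a]`. -/
theorem cyc_pow_eq_pow_of_modEq {a : ℕ} {z : Qb} (hz : z ^ a = 1) {k k' : ℕ}
    (h : k ≡ k' [MOD a]) : z ^ k = z ^ k' := by
  rw [pow_eq_pow_mod k hz, pow_eq_pow_mod k' hz]
  exact congrArg _ h

/-- Existence of an automorphism of `ℚ̄` raising a primitive `m`-th root of unity to a given
power prime to `m`. -/
theorem cyc_exists_aut_pow {m : ℕ} (hm : 0 < m) {ζ : Qb} (hζ : IsPrimitiveRoot ζ m) (k : ℕ)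
    (hk : k.Coprime m) : ∃ τ : Qb ≃ₐ[ℚ] Qb, τ ζ = ζ ^ k := by
  have hk' : IsPrimitiveRoot (ζ ^ k) m := hζ.pow_of_coprime k hk
  have hmin : minpoly ℚ ζ = Polynomial.cyclotomic m ℚ :=
    (Polynomial.cyclotomic_eq_minpoly_rat hζ hm).symm
  have hroot : Polynomial.aeval (ζ ^ k) (minpoly ℚ ζ) = 0 := by
    rw [hmin, Polynomial.aeval_def, Polynomial.eval₂_eq_eval_map, Polynomial.map_cyclotomic]
    exact (Polynomial.isRoot_cyclotomic_iff_charZero hm).2 hk'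
  haveI : Algebra.IsAlgebraic ℚ Qb := AlgebraicClosure.isAlgebraic ℚ
  haveI : IsAlgClosure ℚ Qb := ⟨inferInstance, inferInstance⟩
  haveI : Normal ℚ Qb := IsAlgClosure.normal ℚ Qb
  exact minpoly.exists_algEquiv_of_root' (Algebra.IsAlgebraic.isAlgebraic ζ) hroot

/-- **H2c.** For coprime `a', a''` every element of `Gal(ℚ̄/ℚ)` is a product of an element fixing
the `a'`-th roots of unity and an element fixing the `a''`-th roots of unity. -/
theorem exists_mul_fix_roots {a' a'' : ℕ} (ha' : 0 < a') (ha'' : 0 < a'')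
    (hcop : Nat.Coprime a' a'') (σ : Qb ≃ₐ[ℚ] Qb) :
    ∃ σ' σ'' : Qb ≃ₐ[ℚ] Qb, σ = σ' * σ'' ∧
      (∀ z : Qb, z ^ a' = 1 → σ' z = z) ∧ (∀ z : Qb, z ^ a'' = 1 → σ'' z = z) := by
  have hm : 0 < a' * a'' := Nat.mul_pos ha' ha''
  haveI : NeZero (a' * a'') := ⟨hm.ne'⟩
  obtain ⟨ζ, hζ⟩ := HasEnoughRootsOfUnity.exists_primitiveRoot Qb (a' * a'')
  -- the exponent of `σ`
  have hσζ : IsPrimitiveRoot (σ ζ) (a' * a'') := hζ.map_of_injective σ.injective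
  obtain ⟨k, -, hkcop, hk⟩ := hζ.isPrimitiveRoot_iff.1 hσζ
  -- CRT
  obtain ⟨k', hk'1, hk'2⟩ := Nat.chineseRemainder hcop 1 k
  have hk'cop : k'.Coprime (a' * a'') := by
    refine Nat.Coprime.mul_right ?_ ?_
    · have : Nat.gcd k' a' = Nat.gcd 1 a' := hk'1.gcd_eq
      rw [Nat.Coprime, this, Nat.gcd_one_left]
    · have : Nat.gcd k' a'' = Nat.gcd k a'' := hk'2.gcd_eq
      rw [Nat.Coprime, this]
      exact Nat.Coprime.coprime_mul_left_right hkcop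
  obtain ⟨σ', hσ'⟩ := cyc_exists_aut_pow hm hζ k' hk'cop
  have hpowσ : ∀ z : Qb, z ^ (a' * a'') = 1 → σ z = z ^ k :=
    cyc_pow_of_primitive hζ hm σ k hk.symm
  have hpowσ' : ∀ z : Qb, z ^ (a' * a'') = 1 → σ' z = z ^ k' :=
    cyc_pow_of_primitive hζ hm σ' k' hσ'
  have h1 : ∀ z : Qb, z ^ a' = 1 → σ' z = z := by
    intro z hz
    have hzm : z ^ (a' * a'') = 1 := by rw [pow_mul, hz, one_pow]
    rw [hpowσ' z hzm, cyc_pow_eq_pow_of_modEq hz hk'1, pow_one]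
  have h2 : ∀ z : Qb, z ^ a'' = 1 → σ' z = σ z := by
    intro z hz
    have hzm : z ^ (a' * a'') = 1 := by rw [mul_comm, pow_mul, hz, one_pow]
    rw [hpowσ' z hzm, hpowσ z hzm, cyc_pow_eq_pow_of_modEq hz hk'2]
  refine ⟨σ', σ'⁻¹ * σ, by group, h1, fun z hz => ?_⟩
  change σ'⁻¹ (σ z) = z
  rw [← h2 z hz]
  exact σ'.symm_apply_apply z

/-- Consequence: a subgroup of `Gal(ℚ̄/ℚ)` containing the fixators of the `a'`-th and of the
`a''`-th roots of unity (`a', a''` coprime) is everything. -/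
theorem mem_of_fixators {a' a'' : ℕ} (ha' : 0 < a') (ha'' : 0 < a'')
    (hcop : Nat.Coprime a' a'') (K : Subgroup (Qb ≃ₐ[ℚ] Qb))
    (h' : ∀ τ : Qb ≃ₐ[ℚ] Qb, (∀ z : Qb, z ^ a' = 1 → τ z = z) → τ ∈ K)
    (h'' : ∀ τ : Qb ≃ₐ[ℚ] Qb, (∀ z : Qb, z ^ a'' = 1 → τ z = z) → τ ∈ K)
    (σ : Qb ≃ₐ[ℚ] Qb) : σ ∈ K := by
  obtain ⟨σ', σ'', rfl, hσ', hσ''⟩ := exists_mul_fix_roots ha' ha'' hcop σ
  exact K.mul_mem (h' σ' hσ') (h'' σ'' hσ'')

/-- The fixator of the `a`-th roots of unity, as a subgroup of `Gal(ℚ̄/ℚ)`. -/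
def rootsFixator (a : ℕ) : Subgroup (Qb ≃ₐ[ℚ] Qb) where
  carrier := {τ | ∀ z : Qb, z ^ a = 1 → τ z = z}
  one_mem' := fun _ _ => rfl
  mul_mem' := by
    intro τ τ' hτ hτ' z hz
    change τ (τ' z) = z
    rw [hτ' z hz, hτ z hz]
  inv_mem' := by
    intro τ hτ z hz
    change τ.symm z = z
    conv_lhs => rw [← hτ z hz]
    exact τ.symm_apply_apply z

theorem mem_rootsFixator {a : ℕ} {τ : Qb ≃ₐ[ℚ] Qb} :
    τ ∈ rootsFixator a ↔ ∀ z : Qb, z ^ a = 1 → τ z = z := Iff.rfl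

/-- The fixator of the `a`-th roots of unity is a normal subgroup. -/
instance rootsFixator_normal (a : ℕ) : (rootsFixator a).Normal := by
  constructor
  intro τ hτ g z hz
  change g (τ (g.symm z)) = z
  have : (g.symm z) ^ a = 1 := by rw [← map_pow, hz, map_one]
  rw [hτ _ this]
  exact g.apply_symm_apply z

/-- `rootsFixator a' ⊔ rootsFixator a'' = ⊤` for coprime `a', a''`. -/
theorem rootsFixator_sup_eq_top {a' a'' : ℕ} (ha' : 0 < a') (ha'' : 0 < a'')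
    (hcop : Nat.Coprime a' a'') : rootsFixator a' ⊔ rootsFixator a'' = ⊤ := by
  rw [eq_top_iff]
  intro σ _
  exact mem_of_fixators ha' ha'' hcop _
    (fun τ hτ => Subgroup.mem_sup_left (show τ ∈ rootsFixator a' from hτ))
    (fun τ hτ => Subgroup.mem_sup_right (show τ ∈ rootsFixator a'' from hτ)) σ

/-- A monoid homomorphism on `Gal(ℚ̄/ℚ)` which is trivial on the fixators of the `a'`-th and
`a''`-th roots of unity (`a', a''` coprime) is trivial. -/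
theorem hom_eq_one_of_fixators {G : Type*} [Group G] {a' a'' : ℕ} (ha' : 0 < a')
    (ha'' : 0 < a'') (hcop : Nat.Coprime a' a'') (ρ : (Qb ≃ₐ[ℚ] Qb) →* G)
    (h' : ∀ τ : Qb ≃ₐ[ℚ] Qb, (∀ z : Qb, z ^ a' = 1 → τ z = z) → ρ τ = 1)
    (h'' : ∀ τ : Qb ≃ₐ[ℚ] Qb, (∀ z : Qb, z ^ a'' = 1 → τ z = z) → ρ τ = 1)
    (σ : Qb ≃ₐ[ℚ] Qb) : ρ σ = 1 :=
  mem_of_fixators ha' ha'' hcop ρ.ker h' h'' σ

end Fermat.Agent.S41.RH
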