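import Mathlib
import Fermat.Agent.Lib.FrobDensity.Final
import Fermat.Agent.Lib.FrobDensity.Bridge

/-!
# Route H, piece H2a: the strong Frobenius density theorem

Every element `g` of the Galois group of a finite Galois extension `L/ℚ` generates the same
cyclic subgroup as a Frobenius element at a prime over some rational prime `p ∉ S`.
-/

set_option autoImplicit false
set_option linter.unusedSectionVars false
set_option linter.unusedVariables false
set_option linter.style.haveILetI false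
set_option linter.unusedSimpArgs false

noncomputable section

namespace Fermat.Agent.S41.RH

open NumberField Filter Topology ArithmeticFunction
open Fermat.Agent.Lib.FrobDensity

section group

variable {G : Type*} [Group G] [Finite G]

open Classical in
/-- **Möbius indicator identity, strong form**: if `x` and `g` do not generate the same
cyclic subgroup, then `∑_{d ∣ n} μ(d) [x ∈ ⟨g^d⟩] = 0`. -/
theorem sum_moebius_indicator_strong (g x : G)
    (hx : ¬ (g ∈ Subgroup.zpowers x ∧ x ∈ Subgroup.zpowers g)) :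
    ∑ d ∈ (orderOf g).divisors,
      (moebius d : ℤ) * (if x ∈ Subgroup.zpowers (g ^ d) then 1 else 0) = 0 := by
  by_cases hg : g ∈ Subgroup.zpowers x
  · have hxg : x ∉ Subgroup.zpowers g := fun h => hx ⟨hg, h⟩
    refine Finset.sum_eq_zero fun d hd => ?_
    have : x ∉ Subgroup.zpowers (g ^ d) := fun h =>
      hxg ((Subgroup.zpowers_le.mpr (Subgroup.pow_mem _ (Subgroup.mem_zpowers g) d)) h)
    rw [if_neg this, mul_zero]
  · exact sum_moebius_indicator g x hg

end group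

variable {L : Type*} [Field L] [NumberField L] [IsGalois ℚ L]

open Classical in
theorem sum_moebius_card_frobIn_strong {p : ℕ} (hp : p.Prime)
    (hdisc : ¬ (p : ℤ) ∣ NumberField.discr L) (g : L ≃ₐ[ℚ] L)
    (hneg : ∀ 𝔓 : Ideal (𝓞 L), 𝔓.IsPrime → (p : 𝓞 L) ∈ 𝔓 →
      ∀ φ : L ≃ₐ[ℚ] L, IsArithFrobAt ℤ φ 𝔓 →
        ¬ (g ∈ Subgroup.zpowers φ ∧ φ ∈ Subgroup.zpowers g)) :
    ∑ d ∈ (orderOf g).divisors,
      (moebius d : ℤ) * (Nat.card (FrobIn L p (Subgroup.zpowers (g ^ d))) : ℤ) = 0 := by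
  haveI : NeZero p := ⟨hp.ne_zero⟩
  haveI : Fintype (PrimesAbove L p) := Fintype.ofFinite _
  choose frob hfrob using fun 𝔓 : PrimesAbove L p => exists_frob hp 𝔓.1 𝔓.2.1 𝔓.2.2
  simp_rw [card_frobIn_eq_sum hp hdisc frob hfrob, Finset.mul_sum]
  rw [Finset.sum_comm]
  refine Finset.sum_eq_zero fun 𝔓 _ => ?_
  exact sum_moebius_indicator_strong g (frob 𝔓) (hneg 𝔓.1 𝔓.2.1 𝔓.2.2 _ (hfrob 𝔓))

theorem sum_moebius_idealCount_strong {p : ℕ} (hp : p.Prime)
    (hdisc : ¬ (p : ℤ) ∣ NumberField.discr L) (g : L ≃ₐ[ℚ] L)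
    (hneg : ∀ 𝔓 : Ideal (𝓞 L), 𝔓.IsPrime → (p : 𝓞 L) ∈ 𝔓 →
      ∀ φ : L ≃ₐ[ℚ] L, IsArithFrobAt ℤ φ 𝔓 →
        ¬ (g ∈ Subgroup.zpowers φ ∧ φ ∈ Subgroup.zpowers g)) :
    ∑ d ∈ (orderOf g).divisors,
      (moebius d : ℤ) * (((orderOf g / d : ℕ) : ℤ) *
        (idealCount (IntermediateField.fixedField (Subgroup.zpowers (g ^ d))) p : ℤ)) = 0 := by
  have h := sum_moebius_card_frobIn_strong hp hdisc g hneg
  have h2 : ∑ d ∈ (orderOf g).divisors,
      (moebius d : ℤ) * (((orderOf g / d : ℕ) : ℤ) *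
        (idealCount (IntermediateField.fixedField (Subgroup.zpowers (g ^ d))) p : ℤ)) =
      (fdeg L p : ℤ) * ∑ d ∈ (orderOf g).divisors,
      (moebius d : ℤ) * (Nat.card (FrobIn L p (Subgroup.zpowers (g ^ d))) : ℤ) := by
    rw [Finset.mul_sum]
    refine Finset.sum_congr rfl fun d hd => ?_
    have h3 := card_mul_idealCount (Subgroup.zpowers (g ^ d)) hp hdisc
    rw [card_zpowers_pow hd] at h3
    have h4 : ((orderOf g / d : ℕ) : ℤ) *
        (idealCount (IntermediateField.fixedField (Subgroup.zpowers (g ^ d))) p : ℤ) =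
        (fdeg L p : ℤ) * (Nat.card (FrobIn L p (Subgroup.zpowers (g ^ d))) : ℤ) := by
      exact_mod_cast h3
    rw [h4]
    ring
  rw [h2, h, mul_zero]

/-- **Frobenius density, strong form**: every element `g` of the Galois group of a finite
Galois extension `L/ℚ` generates the same cyclic group as a Frobenius at a prime over some
rational prime `p ∉ S` not dividing the discriminant. -/
theorem exists_frob_generating_strong (g : L ≃ₐ[ℚ] L) (S : Finset ℕ) :
    ∃ p : ℕ, p.Prime ∧ p ∉ S ∧ ¬ (p : ℤ) ∣ NumberField.discr L ∧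
      ∃ 𝔓 : Ideal (𝓞 L), 𝔓.IsPrime ∧ (p : 𝓞 L) ∈ 𝔓 ∧
        ∃ φ : L ≃ₐ[ℚ] L, IsArithFrobAt ℤ φ 𝔓 ∧
          g ∈ Subgroup.zpowers φ ∧ φ ∈ Subgroup.zpowers g := by
  by_contra hcon
  have hneg : ∀ p : ℕ, p.Prime → p ∉ S → ¬ (p : ℤ) ∣ NumberField.discr L →
      ∀ 𝔓 : Ideal (𝓞 L), 𝔓.IsPrime → (p : 𝓞 L) ∈ 𝔓 →
      ∀ φ : L ≃ₐ[ℚ] L, IsArithFrobAt ℤ φ 𝔓 →
        ¬ (g ∈ Subgroup.zpowers φ ∧ φ ∈ Subgroup.zpowers g) := by
    intro p hp hpS hdisc 𝔓 h𝔓 hmem φ hφ hg
    exact hcon ⟨p, hp, hpS, hdisc, 𝔓, h𝔓, hmem, φ, hφ, hg⟩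
  have hn0 : 0 < orderOf g := orderOf_pos g
  -- the exceptional set
  set S' : Finset ℕ := S ∪ Finset.range ((NumberField.discr L).natAbs + 1) with hS'
  have hvanish : ∀ (s : ℝ) (m : ℕ), m ∉ S' → Tterm g s m = 0 := by
    intro s m hm
    by_cases hmp : m.Prime
    · have hmS : m ∉ S := fun h => hm (Finset.mem_union_left _ h)
      have hmd : ¬ (m : ℤ) ∣ NumberField.discr L := by
        intro hdvd
        apply hm
        refine Finset.mem_union_right _ (Finset.mem_range.mpr (Nat.lt_succ_of_le ?_))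
        have h1 : m ∣ (NumberField.discr L).natAbs := Int.natCast_dvd.mp hdvd
        exact Nat.le_of_dvd (Int.natAbs_pos.mpr (NumberField.discr_ne_zero L)) h1
      rw [Tterm_eq g s hmp, sum_moebius_idealCount_strong hmp hmd g (hneg m hmp hmS hmd)]
      simp
    · exact Tterm_of_not_prime g s hmp
  -- the uniform bound
  set B : ℝ := ∑ m ∈ S', ∑ d ∈ (orderOf g).divisors,
      |mcoef (orderOf g) d| * (idealCount (fixedPow g d) m : ℝ) with hB
  have hbound : ∀ s : ℝ, 1 < s → |Tsum g s| ≤ B := by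
    intro s hs
    rw [Tsum_eq_tsum g hs, tsum_eq_sum (s := S') (fun m hm => hvanish s m hm)]
    refine (Finset.abs_sum_le_sum_abs _ _).trans (Finset.sum_le_sum fun m _ => ?_)
    exact abs_Tterm_le g (by linarith) m
  -- the asymptotics
  choose C hC using fun d : ℕ => primeSum_sub_log_bdd (fixedPow g d)
  have hev : ∀ᶠ s in 𝓝[>] (1 : ℝ), ∀ d ∈ (orderOf g).divisors,
      |primeSum (fixedPow g d) s - Real.log (1 / (s - 1))| ≤ C d :=
    (Filter.eventually_all_finset _).mpr fun d _ => hC d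
  set C' : ℝ := ∑ d ∈ (orderOf g).divisors, |mcoef (orderOf g) d| * C d with hC'
  have hasym : ∀ᶠ s in 𝓝[>] (1 : ℝ),
      |Tsum g s - ((orderOf g).totient : ℝ) * Real.log (1 / (s - 1))| ≤ C' := by
    filter_upwards [hev] with s hs
    have h1 : Tsum g s - ((orderOf g).totient : ℝ) * Real.log (1 / (s - 1)) =
        ∑ d ∈ (orderOf g).divisors, mcoef (orderOf g) d *
          (primeSum (fixedPow g d) s - Real.log (1 / (s - 1))) := by
      rw [← sum_mcoef _ hn0, Finset.sum_mul, Tsum, ← Finset.sum_sub_distrib]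
      refine Finset.sum_congr rfl fun d _ => ?_
      ring
    rw [h1]
    refine (Finset.abs_sum_le_sum_abs _ _).trans (Finset.sum_le_sum fun d hd => ?_)
    rw [abs_mul]
    exact mul_le_mul_of_nonneg_left (hs d hd) (abs_nonneg _)
  have hlarge : ∀ᶠ s in 𝓝[>] (1 : ℝ), |B| + |C'| + 1 ≤ Real.log (1 / (s - 1)) :=
    tendsto_log_inv_sub_one.eventually_ge_atTop _
  have hgt : ∀ᶠ s in 𝓝[>] (1 : ℝ), (1 : ℝ) < s := by
    filter_upwards [self_mem_nhdsWithin] with s hs
    exact hs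
  obtain ⟨s, hs1, hs2, hs3⟩ := (hasym.and (hlarge.and hgt)).exists
  have hb := hbound s hs3
  have htot : (1 : ℝ) ≤ ((orderOf g).totient : ℝ) := by
    exact_mod_cast Nat.totient_pos.mpr hn0
  have hlog0 : 0 ≤ Real.log (1 / (s - 1)) := by
    have := abs_nonneg B
    have := abs_nonneg C'
    linarith
  have h4 : Real.log (1 / (s - 1)) ≤ ((orderOf g).totient : ℝ) * Real.log (1 / (s - 1)) := by
    nlinarith
  have h5 := abs_le.mp hs1
  have h6 := abs_le.mp hb
  have h7 := le_abs_self B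
  have h8 := le_abs_self C'
  linarith [h5.1, h5.2, h6.1, h6.2]

local notation "Qbar" => AlgebraicClosure ℚ

/-- **Strong Frobenius density (existence form)**, for a finite Galois subextension `N` of
`ℚ̄/ℚ`: every `σ` has, on `N`, the same cyclic span as a Frobenius element `σ'` at a place over
a prime `ℓ ∉ S` (`ℓ` not dividing the discriminant of `N`). -/
theorem frobeniusGenerates_galois_strong (N : IntermediateField ℚ Qbar)
    [FiniteDimensional ℚ N] [IsGalois ℚ N] (S : Finset ℕ) (σ : Qbar ≃ₐ[ℚ] Qbar) :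
    ∃ (ℓ : ℕ) (A : ValuationSubring Qbar) (σ' : Qbar ≃ₐ[ℚ] Qbar) (m m' : ℕ),
      ℓ.Prime ∧ ℓ ∉ S ∧ A.LiesOverPrime ℓ ∧ A.IsFrobeniusAt σ' ℓ ∧
        (∀ x ∈ N, σ x = (σ' ^ m) x) ∧ (∀ x ∈ N, σ' x = (σ ^ m') x) := by
  haveI : NumberField N := ⟨⟩
  obtain ⟨p, hp, hpS, hdisc, 𝔓, h𝔓, hmem, φ, hφ, hg, hg'⟩ :=
    exists_frob_generating_strong (σ.restrictNormal N) S
  haveI := h𝔓
  obtain ⟨A, σ', hA, hF, hres⟩ :=
    Bridge.exists_isFrobeniusAt_restrict_intermediateField N p hp hdisc 𝔓 hmem φ hφ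
  rw [← mem_powers_iff_mem_zpowers, Submonoid.mem_powers_iff] at hg hg'
  obtain ⟨m, hm⟩ := hg
  obtain ⟨m', hm'⟩ := hg'
  have hσres : ∀ x : N, σ (algebraMap N Qbar x) = algebraMap N Qbar (σ.restrictNormal N x) :=
    fun x => (AlgEquiv.restrictNormal_commutes σ N x).symm
  refine ⟨p, A, σ', m, m', hp, hpS, hA, hF, ?_, ?_⟩
  · intro x hx
    have h1 := Bridge.pow_restrict (K := N) hres m ⟨x, hx⟩
    rw [hm] at h1
    have h2 := AlgEquiv.restrictNormal_commutes σ N ⟨x, hx⟩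
    exact h2.symm.trans h1.symm
  · intro x hx
    have h1 := Bridge.pow_restrict (K := N) hσres m' ⟨x, hx⟩
    rw [hm'] at h1
    exact (hres ⟨x, hx⟩).trans h1.symm

/-- **Strong Frobenius density (existence form)**, for a finite subextension `L` of `ℚ̄/ℚ`
(not necessarily Galois). -/
theorem frobeniusGenerates_strong (L : IntermediateField ℚ Qbar) [FiniteDimensional ℚ L]
    (S : Finset ℕ) (σ : Qbar ≃ₐ[ℚ] Qbar) :
    ∃ (ℓ : ℕ) (A : ValuationSubring Qbar) (σ' : Qbar ≃ₐ[ℚ] Qbar) (m m' : ℕ),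
      ℓ.Prime ∧ ℓ ∉ S ∧ A.LiesOverPrime ℓ ∧ A.IsFrobeniusAt σ' ℓ ∧
        (∀ x ∈ L, σ x = (σ' ^ m) x) ∧ (∀ x ∈ L, σ' x = (σ ^ m') x) := by
  haveI : Algebra.IsAlgebraic ℚ Qbar := AlgebraicClosure.isAlgebraic ℚ
  haveI : IsAlgClosure ℚ Qbar := ⟨inferInstance, inferInstance⟩
  haveI : Normal ℚ Qbar := IsAlgClosure.normal ℚ Qbar
  haveI : FiniteDimensional ℚ (IntermediateField.normalClosure ℚ L Qbar) :=
    normalClosure.is_finiteDimensional ℚ L Qbar
  haveI : Normal ℚ (IntermediateField.normalClosure ℚ L Qbar) :=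
    normalClosure.normal ℚ L Qbar
  haveI : IsGalois ℚ (IntermediateField.normalClosure ℚ L Qbar) := ⟨⟩
  obtain ⟨ℓ, A, σ', m, m', h1, h2, h3, h4, h5, h6⟩ :=
    frobeniusGenerates_galois_strong (IntermediateField.normalClosure ℚ L Qbar) S σ
  exact ⟨ℓ, A, σ', m, m', h1, h2, h3, h4,
    fun x hx => h5 x (IntermediateField.le_normalClosure L hx),
    fun x hx => h6 x (IntermediateField.le_normalClosure L hx)⟩

end Fermat.Agent.S41.RH
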