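import Fermat.Agent.S18.CuspRoots
import Fermat.Prelude.Def_EllipticCurve_FrobeniusTrace

/-!
# S41 (campaign 81), Route H, piece H2d (first half): a Frobenius element at `ℓ` fixing the
`a`-th roots of unity forces `a ∣ ℓ - 1`
-/

set_option autoImplicit false
set_option linter.unusedSectionVars false
set_option linter.unusedVariables false
set_option linter.style.haveILetI false

noncomputable section

namespace Fermat.Agent.S41.RH

local notation "Qb" => AlgebraicClosure ℚ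
local notation "Gal" => (AlgebraicClosure ℚ ≃ₐ[ℚ] AlgebraicClosure ℚ)

/-- roots of unity lie in every valuation subring -/
lemma root_mem_valuationSubring (A : ValuationSubring Qb) {a : ℕ} (ha : 0 < a) {x : Qb}
    (hx : x ^ a = 1) : x ∈ A := by
  rcases A.mem_or_inv_mem x with h | h
  · exact h
  · have hx0 : x ≠ 0 := by
      rintro rfl
      rw [zero_pow ha.ne'] at hx
      exact zero_ne_one hx
    have h1 : x = x⁻¹ ^ (a - 1) := by
      have h2 : x ^ (a - 1) * x = 1 := by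
        rw [← pow_succ, Nat.sub_add_cancel ha, hx]
      rw [inv_pow]
      exact eq_inv_of_mul_eq_one_right h2
    rw [h1]
    exact A.pow_mem h _

/-- **H2d (cyclotomic half).** If a Frobenius element at `A ∣ ℓ` fixes the `a`-th roots of unity
and `ℓ ∤ a`, then `a ∣ ℓ - 1`. -/
theorem dvd_sub_one_of_frobenius (A : ValuationSubring Qb) {ℓ : ℕ} (hℓ : ℓ.Prime)
    (hA : A.LiesOverPrime ℓ) {a : ℕ} (ha : 0 < a) (hℓa : ¬ ℓ ∣ a) {σ : Gal}
    (hσ : A.IsFrobeniusAt σ ℓ) (hfix : ∀ z : Qb, z ^ a = 1 → σ z = z) : a ∣ ℓ - 1 := by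
  haveI : Fact ℓ.Prime := ⟨hℓ⟩
  haveI : NeZero a := ⟨ha.ne'⟩
  obtain ⟨hmem, hfrob⟩ := hσ
  obtain ⟨ζ, hζ⟩ := HasEnoughRootsOfUnity.exists_primitiveRoot Qb a
  have hζa : ζ ^ a = 1 := hζ.pow_eq_one
  have hζ0 : ζ ≠ 0 := hζ.ne_zero ha.ne'
  have hζA : ζ ∈ A := root_mem_valuationSubring A ha hζa
  have hζinvA : ζ⁻¹ ∈ A := root_mem_valuationSubring A ha (by rw [inv_pow, hζa, inv_one])
  let u : Aˣ := ⟨⟨ζ, hζA⟩, ⟨ζ⁻¹, hζinvA⟩, Subtype.ext (mul_inv_cancel₀ hζ0),
    Subtype.ext (inv_mul_cancel₀ hζ0)⟩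
  have hucoe : ∀ n : ℕ, (((u ^ n : Aˣ) : A) : Qb) = ζ ^ n := by
    intro n
    rw [Units.val_pow_eq_pow_val]
    rfl
  have hu : IsPrimitiveRoot u a := by
    refine ⟨?_, fun l hl => ?_⟩
    · apply Units.ext
      apply Subtype.ext
      rw [hucoe, hζa]
      rfl
    · apply hζ.dvd_of_pow_eq_one
      rw [← hucoe, hl]
      rfl
  have hres := Fermat.Agent.S18.Cusp.isPrimitiveRoot_residue A ℓ hA hℓa hu
  set ζb : (IsLocalRing.ResidueField A)ˣ :=
    Units.map ((IsLocalRing.residue A : A →+* IsLocalRing.ResidueField A) :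
      A →* IsLocalRing.ResidueField A) u with hζb
  have hζbcoe : (ζb : IsLocalRing.ResidueField A) = IsLocalRing.residue A (u : A) := rfl
  have hsmul : (⟨σ, hmem⟩ : A.decompositionSubgroup ℚ) • (u : A) = (u : A) := by
    apply Subtype.ext
    exact hfix ζ hζa
  have h1 : (ζb : IsLocalRing.ResidueField A) ^ ℓ = (ζb : IsLocalRing.ResidueField A) := by
    rw [← hfrob, hζbcoe, ← IsLocalRing.ResidueField.residue_smul, hsmul]
  have h2 : ζb ^ (ℓ - 1) = 1 := by
    have h3 : ζb ^ (ℓ - 1) * ζb = 1 * ζb := by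
      rw [← pow_succ, Nat.sub_add_cancel hℓ.one_le, one_mul]
      exact Units.ext (by rw [Units.val_pow_eq_pow_val]; exact h1)
    exact mul_right_cancel h3
  exact hres.dvd_of_pow_eq_one _ h2

end Fermat.Agent.S41.RH
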