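import Fermat.Agent.S41.NonEisAsm
import Fermat.Agent.S41.NonEisGroup
import Fermat.Agent.S41.RHFrob
import Fermat.Agent.S41.RHCyclo
import Fermat.Agent.S41.RHDensity

/-!
# S41 (campaign 81), Route H, piece H2 (assembly): good primes `ℓ ≡ 1 mod a` at which the system
`a_ℓ(W) mod p` of a curve with irreducible `E[p]` is not Eisenstein

Assembly, modulo the group lemma (H2b): for a normal subgroup `H` of a group `G` acting on a two
dimensional `𝔽_p`-vector space, if every element of `H` fixes a nonzero vector then `G` has a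
stable line or `H` acts trivially.
-/

set_option autoImplicit false
set_option linter.unusedSectionVars false
set_option linter.unusedVariables false
set_option linter.style.haveILetI false

namespace Fermat.Agent.S41.RH

open WeierstrassCurve WeierstrassCurve.Affine.Point
open Fermat.Agent.S41.VC Fermat.Agent.S41.P4D Fermat.Agent.S41.P4F Fermat.Agent.S41.P4A

local notation "Qb" => AlgebraicClosure ℚ
local notation "Gal" => (AlgebraicClosure ℚ ≃ₐ[ℚ] AlgebraicClosure ℚ)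

/-- the statement of the group lemma (H2b) -/
def NormalLine (p : ℕ) : Prop :=
  ∀ (V : Type) [AddCommGroup V] [Module (ZMod p) V] (_ : Nat.card V = p ^ 2)
    (G : Type) [Group G] [DistribMulAction G V] (H : Subgroup G) [H.Normal],
    (∀ h ∈ H, ∃ v : V, v ≠ 0 ∧ h • v = v) →
      (∃ N : Submodule (ZMod p) V, N ≠ ⊥ ∧ N ≠ ⊤ ∧ ∀ g : G, ∀ v ∈ N, g • v ∈ N) ∨
        (∀ h ∈ H, ∀ v : V, h • v = v)

lemma pow_apply_eq_self (τ : Gal) {z : Qb} (h : τ z = z) (m : ℕ) : (τ ^ m) z = z := by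
  induction m with
  | zero => rfl
  | succ m ih =>
    rw [pow_succ]
    show (τ ^ m) (τ z) = z
    rw [h, ih]

/-- a point killed by `p` which is fixed by a Frobenius element is fixed by every `τ` which is a
power of the Frobenius element on the field of definition of the points killed by `p` -/
theorem exists_fixed_of_frob (W : WeierstrassCurve ℤ) {p : ℕ} (hp : p.Prime) (hp2 : p ≠ 2)
    {ℓ : ℕ} (hℓ : ℓ.Prime) (hℓ2 : ℓ ≠ 2) (hℓp : ℓ ≠ p) (hgood : ¬ (ℓ : ℤ) ∣ W.Δ)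
    (hdvd : (p : ℤ) ∣ W.apOfModel ℓ - (1 + ℓ))
    (A : ValuationSubring Qb) (hA : A.LiesOverPrime ℓ) (σ' : Gal) (hF : A.IsFrobeniusAt σ' ℓ)
    (τ : Gal) (m : ℕ) (hagree : ∀ x ∈ defField W p, τ x = (σ' ^ m) x) :
    ∃ P : (W⁄Qb).toAffine.Point, P ≠ 0 ∧ p • P = 0 ∧ τ • P = P := by
  classical
  have hcard := dvd_card_of_dvd hℓ hdvd
  obtain ⟨P, hP0, hPp, hfix⟩ :=
    exists_fixed_point A W hℓ hℓ2 hp hp2 (fun h => hℓp h.symm) hgood hcard hA
  refine ⟨P, hP0, hPp, ?_⟩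
  have hpow := smul_pow_eq σ' (hfix σ' hF.mem_decompositionSubgroup) m
  rcases P with _ | ⟨x, y, h⟩
  · rfl
  · have hx := hagree x (IntermediateField.subset_adjoin ℚ _ (x_mem_coordSet h hPp))
    have hy := hagree y (IntermediateField.subset_adjoin ℚ _ (y_mem_coordSet h hPp))
    obtain ⟨h1, e1⟩ := smul_some' (E := W) τ h
    obtain ⟨h2, e2⟩ := smul_some' (E := W) (σ' ^ m) h
    rw [e1]
    rw [e2] at hpow
    rw [← hpow]
    simp only [Affine.Point.some.injEq]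
    exact ⟨hx, hy⟩

/-- transport of a fixed point of order `p` of the model to the `p`-torsion module of `E` -/
theorem exists_fixed_torsion {E : WeierstrassCurve ℚ} [E.IsElliptic] {W : WeierstrassCurve ℤ}
    {C : VariableChange ℚ} (hC : C • E = W.map (Int.castRingHom ℚ)) {p : ℕ} (τ : Gal)
    (h : ∃ P : (W⁄Qb).toAffine.Point, P ≠ 0 ∧ p • P = 0 ∧ τ • P = P) :
    ∃ v : Submodule.torsionBy ℤ (E⁄Qb).toAffine.Point (p : ℤ), v ≠ 0 ∧ τ • v = v := by
  classical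
  obtain ⟨P, hP0, hPp, hτ⟩ := h
  have hnP : p • modelEquiv (L := Qb) hC P = 0 := by
    have h1 := map_nsmul (modelEquiv (L := Qb) hC) p P
    have h2 : modelEquiv (L := Qb) hC (p • P) = 0 :=
      (congrArg _ hPp).trans (_root_.map_zero _)
    exact h1.symm.trans h2
  have hmem : modelEquiv (L := Qb) hC P ∈
      Submodule.torsionBy ℤ (E⁄Qb).toAffine.Point (p : ℤ) := by
    rw [Submodule.mem_torsionBy_iff, natCast_zsmul]
    exact hnP
  refine ⟨⟨_, hmem⟩, ?_, ?_⟩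
  · intro h0
    apply hP0
    have := congrArg Subtype.val h0
    exact (modelEquiv (L := Qb) hC).map_eq_zero_iff.1 this
  · apply Subtype.ext
    show τ • modelEquiv (L := Qb) hC P = modelEquiv (L := Qb) hC P
    exact (modelEquiv_smul (L := Qb) hC τ P).symm.trans (congrArg _ hτ)

/-- the field generated by the coordinates of the points killed by `p` and an element `ζ` -/
noncomputable def defFieldZ (W : WeierstrassCurve ℤ) (p : ℕ) (ζ : Qb) : IntermediateField ℚ Qb :=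
  IntermediateField.adjoin ℚ (coordSet W p ∪ {ζ})

lemma finiteDimensional_defFieldZ {W : WeierstrassCurve ℤ} {p : ℕ} (ζ : Qb)
    (hfin : {Q : (W⁄Qb).toAffine.Point | p • Q = 0}.Finite) :
    FiniteDimensional ℚ (defFieldZ W p ζ) := by
  haveI : Finite (coordSet W p ∪ {ζ} : Set Qb) :=
    ((coordSet_finite hfin).union (Set.finite_singleton ζ)).to_subtype
  haveI : Algebra.IsAlgebraic ℚ Qb := AlgebraicClosure.isAlgebraic ℚ
  exact IntermediateField.finiteDimensional_adjoin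
    (fun x _ => (Algebra.IsAlgebraic.isAlgebraic x).isIntegral)

lemma defField_le_defFieldZ (W : WeierstrassCurve ℤ) (p : ℕ) (ζ : Qb) :
    defField W p ≤ defFieldZ W p ζ :=
  IntermediateField.adjoin.mono ℚ _ _ Set.subset_union_left

lemma mem_defFieldZ (W : WeierstrassCurve ℤ) (p : ℕ) (ζ : Qb) : ζ ∈ defFieldZ W p ζ :=
  IntermediateField.subset_adjoin ℚ _ (Set.mem_union_right _ rfl)

/-- **H2d.** An element `τ` of the Galois group fixing the `a`-th roots of unity and without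
nonzero fixed point of order `p` produces good primes `ℓ ≡ 1 mod a` with
`a_ℓ(W) ≢ 1 + ℓ mod p`. -/
theorem exists_prime_of_no_fixed {E : WeierstrassCurve ℚ} [E.IsElliptic] {W : WeierstrassCurve ℤ}
    {C : VariableChange ℚ} (hC : C • E = W.map (Int.castRingHom ℚ)) {p : ℕ} (hp : p.Prime)
    (hp2 : p ≠ 2) (S : Finset ℕ) {a : ℕ} (ha : 0 < a) (τ : Gal)
    (hτa : ∀ z : Qb, z ^ a = 1 → τ z = z)
    (hτ : ∀ v : Submodule.torsionBy ℤ (E⁄Qb).toAffine.Point (p : ℤ), v ≠ 0 → τ • v ≠ v) :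
    ∃ ℓ : ℕ, ℓ.Prime ∧ ℓ ∉ S ∧ ℓ ≠ p ∧ W.IsGoodPrimeFor ℓ ∧
      ¬ (p : ℤ) ∣ W.apOfModel ℓ - (1 + ℓ) ∧ a ∣ ℓ - 1 := by
  classical
  haveI : NeZero a := ⟨ha.ne'⟩
  have hΔ := Δ_ne_zero_of_model hC
  have hΔQ : (W⁄Qb).Δ ≠ 0 := by
    show (W.map (algebraMap ℤ Qb)).Δ ≠ 0
    rw [WeierstrassCurve.map_Δ]
    simpa using hΔ
  obtain ⟨hfin, -⟩ := Fermat.Agent.S41.P6a.card_torsion_eq_general (W⁄Qb) hΔQ hp hp2
  obtain ⟨ζ, hζ⟩ := HasEnoughRootsOfUnity.exists_primitiveRoot Qb a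
  haveI hfd : FiniteDimensional ℚ (defFieldZ W p ζ) := finiteDimensional_defFieldZ ζ hfin
  obtain ⟨ℓ, A, σ', m, m', hℓ, hℓS, hA, hF, hagree, hagree'⟩ :=
    frobeniusGenerates_strong (defFieldZ W p ζ)
      (S ∪ {2, p} ∪ W.Δ.natAbs.primeFactors ∪ a.primeFactors) τ
  simp only [Finset.mem_union, Finset.mem_insert, Finset.mem_singleton, not_or] at hℓS
  obtain ⟨⟨⟨hℓS, hℓ2, hℓp⟩, hℓΔ⟩, hℓa⟩ := hℓS
  have hgood : ¬ (ℓ : ℤ) ∣ W.Δ := by
    intro hdvd
    apply hℓΔ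
    rw [Nat.mem_primeFactors]
    refine ⟨hℓ, ?_, Int.natAbs_ne_zero.2 hΔ⟩
    exact Int.natCast_dvd.1 hdvd
  have hℓa' : ¬ ℓ ∣ a := fun hdvd => hℓa (Nat.mem_primeFactors.2 ⟨hℓ, hdvd, ha.ne'⟩)
  refine ⟨ℓ, hℓ, hℓS, hℓp, hgood, ?_, ?_⟩
  · intro hdvd
    obtain ⟨v, hv0, hv⟩ := exists_fixed_torsion hC τ
      (exists_fixed_of_frob W hp hp2 hℓ hℓ2 hℓp hgood hdvd A hA σ' hF τ m
        (fun x hx => hagree x (defField_le_defFieldZ W p ζ hx)))
    exact hτ v hv0 hv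
  · apply dvd_sub_one_of_frobenius A hℓ hA ha hℓa' hF
    have hσζ : σ' ζ = ζ := by
      rw [hagree' ζ (mem_defFieldZ W p ζ)]
      exact pow_apply_eq_self τ (hτa ζ hζ.pow_eq_one) m'
    intro z hz
    obtain ⟨i, -, rfl⟩ := hζ.eq_pow_of_pow_eq_one hz
    rw [map_pow, hσζ]

/-- **H2 (assembly)**, modulo the group lemma (H2b). -/
theorem exists_prime_dvd_sub_one_of (E : WeierstrassCurve ℚ) [E.IsElliptic]
    {W : WeierstrassCurve ℤ} (hW : W.IsIntegralModelOf E) {p : ℕ} (hp : p.Prime) (hp2 : p ≠ 2)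
    (hgrp : NormalLine p)
    (hirr : GaloisRepIsIrreducible (K := AlgebraicClosure ℚ) ℚ E p)
    (S : Finset ℕ) (a' a'' : ℤ) (ha' : a' ≠ 0) (ha'' : a'' ≠ 0) (hcop : IsCoprime a' a'') :
    ∃ ℓ : ℕ, ℓ.Prime ∧ ℓ ∉ S ∧ ℓ ≠ p ∧ W.IsGoodPrimeFor ℓ ∧
      ¬ (p : ℤ) ∣ W.apOfModel ℓ - (1 + ℓ) ∧ (a' ∣ (ℓ : ℤ) - 1 ∨ a'' ∣ (ℓ : ℤ) - 1) := by
  classical
  haveI : Fact p.Prime := ⟨hp⟩
  obtain ⟨C, hC⟩ := hW
  have hV := Fermat.Agent.S41.P6a.natCard_torsionBy_rat E hp hp2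
  have hn' : 0 < a'.natAbs := Int.natAbs_pos.2 ha'
  have hn'' : 0 < a''.natAbs := Int.natAbs_pos.2 ha''
  have hncop : Nat.Coprime a'.natAbs a''.natAbs := Int.isCoprime_iff_gcd_eq_one.1 hcop
  -- conclusion from an element without fixed points
  have key : ∀ a : ℕ, 0 < a → ∀ τ : Gal, (∀ z : Qb, z ^ a = 1 → τ z = z) →
      (∀ v : Submodule.torsionBy ℤ (E⁄Qb).toAffine.Point (p : ℤ), v ≠ 0 → τ • v ≠ v) →
      ∃ ℓ : ℕ, ℓ.Prime ∧ ℓ ∉ S ∧ ℓ ≠ p ∧ W.IsGoodPrimeFor ℓ ∧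
        ¬ (p : ℤ) ∣ W.apOfModel ℓ - (1 + ℓ) ∧ ((a : ℤ) ∣ (ℓ : ℤ) - 1) := by
    intro a ha τ hτa hτ
    obtain ⟨ℓ, h1, h2, h3, h4, h5, h6⟩ := exists_prime_of_no_fixed hC hp hp2 S ha τ hτa hτ
    refine ⟨ℓ, h1, h2, h3, h4, h5, ?_⟩
    have := Int.natCast_dvd_natCast.2 h6
    rwa [Nat.cast_sub h1.one_le, Nat.cast_one] at this
  -- the alternative for each of the two fixators
  have alt : ∀ a : ℕ, 0 < a →
      (∃ τ : Gal, (∀ z : Qb, z ^ a = 1 → τ z = z) ∧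
        ∀ v : Submodule.torsionBy ℤ (E⁄Qb).toAffine.Point (p : ℤ), v ≠ 0 → τ • v ≠ v) ∨
      (∀ τ : Gal, (∀ z : Qb, z ^ a = 1 → τ z = z) →
        ∀ v : Submodule.torsionBy ℤ (E⁄Qb).toAffine.Point (p : ℤ), τ • v = v) := by
    intro a ha
    by_cases hex : ∃ τ : Gal, (∀ z : Qb, z ^ a = 1 → τ z = z) ∧
        ∀ v : Submodule.torsionBy ℤ (E⁄Qb).toAffine.Point (p : ℤ), v ≠ 0 → τ • v ≠ v
    · exact Or.inl hex
    · right
      have hfix : ∀ h ∈ rootsFixator a,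
          ∃ v : Submodule.torsionBy ℤ (E⁄Qb).toAffine.Point (p : ℤ), v ≠ 0 ∧ h • v = v := by
        intro h hh
        by_contra hcon
        apply hex
        refine ⟨h, hh, fun v hv0 hv => hcon ⟨v, hv0, hv⟩⟩
      rcases hgrp _ hV Gal (rootsFixator a) hfix with ⟨N, hN0, hN1, hNs⟩ | htriv
      · exfalso
        rcases hirr.2 N hNs with h | h
        · exact hN0 h
        · exact hN1 h
      · exact fun τ hτ v => htriv τ hτ v
  rcases alt a'.natAbs hn' with ⟨τ, hτa, hτ⟩ | h1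
  · obtain ⟨ℓ, h1, h2, h3, h4, h5, h6⟩ := key _ hn' τ hτa hτ
    exact ⟨ℓ, h1, h2, h3, h4, h5, Or.inl (Int.natAbs_dvd.1 h6)⟩
  rcases alt a''.natAbs hn'' with ⟨τ, hτa, hτ⟩ | h2
  · obtain ⟨ℓ, h1, h2, h3, h4, h5, h6⟩ := key _ hn'' τ hτa hτ
    exact ⟨ℓ, h1, h2, h3, h4, h5, Or.inr (Int.natAbs_dvd.1 h6)⟩
  -- both fixators act trivially: the whole group acts trivially, contradiction
  exfalso
  let K : Subgroup Gal :=
    { carrier := {τ | ∀ v : Submodule.torsionBy ℤ (E⁄Qb).toAffine.Point (p : ℤ), τ • v = v}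
      one_mem' := fun v => one_smul _ v
      mul_mem' := by
        intro σ τ hσ hτ v
        rw [mul_smul, hτ v, hσ v]
      inv_mem' := by
        intro σ hσ v
        rw [inv_smul_eq_iff, hσ v] }
  have hall : ∀ τ : Gal, τ ∈ K := mem_of_fixators hn' hn'' hncop K h1 h2
  have hne : ∃ v : Submodule.torsionBy ℤ (E⁄Qb).toAffine.Point (p : ℤ), v ≠ 0 := by
    by_contra hcon
    have hcon : ∀ v : Submodule.torsionBy ℤ (E⁄Qb).toAffine.Point (p : ℤ), v = 0 :=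
      fun v => by_contra (fun h => hcon ⟨v, h⟩)
    haveI : Subsingleton (Submodule.torsionBy ℤ (E⁄Qb).toAffine.Point (p : ℤ)) :=
      ⟨fun x y => (hcon x).trans (hcon y).symm⟩
    have h3 : Nat.card (Submodule.torsionBy ℤ (E⁄Qb).toAffine.Point (p : ℤ)) = 1 :=
      Nat.card_unique
    rw [hV] at h3
    have h4 : 1 < p ^ 2 := Nat.one_lt_pow (by norm_num) hp.one_lt
    omega
  obtain ⟨v₀, hv₀⟩ := hne
  obtain ⟨N, hN0, hN1, hNs⟩ := Fermat.Agent.S41.P4G.exists_stable_line (G := Gal) hV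
    (fun g => ⟨v₀, hv₀, hall g v₀⟩)
  rcases hirr.2 N hNs with h | h
  · exact hN0 h
  · exact hN1 h

end Fermat.Agent.S41.RH
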