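import Fermat.Agent.S41.TorsLadderFull
import Fermat.Agent.S13.LadderCard

/-!
# S41, piece P6a, (T3): exactly `p²` points killed by `p` on a model curve

Over an algebraically closed field of characteristic `0`, the model curve `Y² = X³ + a₂X² + a₄X`
with `Δ ≠ 0` has exactly `p²` points killed by the odd prime `p`.  The upper bound is
`S13.card_torsion_le`; the lower bound counts a generic fibre of `x ∘ [p]`: for all but finitely
many `c` the polynomial `X_p - c Z_p` (monic of degree `p²`) is separable, because the Wronskian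
`X_p' Z_p - X_p Z_p'` has top coefficient `p² ≠ 0`.
-/

set_option autoImplicit false
set_option linter.unusedSectionVars false
set_option linter.unusedVariables false

namespace Fermat.Agent.S41.P6a

open WeierstrassCurve Polynomial Fermat.Agent.S05 Fermat.Agent.S13

section Poly

variable {K : Type*} [Field K]

lemma hasTop_derivative {p : K[X]} {m : ℕ} {a : K} (hp : HasTop p (m + 1) a) :
    HasTop (derivative p) m (a * ((m : K) + 1)) := by
  refine ⟨(natDegree_derivative_le p).trans ?_, ?_⟩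
  · have := hp.1
    omega
  · rw [coeff_derivative, hp.2]

/-- a generic fibre of `X/Z` has `N` distinct points -/
lemma exists_fibre [IsAlgClosed K] [DecidableEq K] {X Z : K[X]} {N : ℕ} (hX : HasTop X N 1)
    (hZ : Z.natDegree < N) (hco : ∀ t, ¬ (X.eval t = 0 ∧ Z.eval t = 0))
    (hw : derivative X * Z - X * derivative Z ≠ 0) :
    ∃ c : K, ((X - C c * Z).roots.toFinset).card = N := by
  set w := derivative X * Z - X * derivative Z with hwdef
  set B : Finset K := w.roots.toFinset.image (fun t => X.eval t / Z.eval t) with hB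
  obtain ⟨c, hc⟩ := Infinite.exists_notMem_finset B
  refine ⟨c, ?_⟩
  set G := X - C c * Z with hG
  have hZ0 : HasTop (C c * Z) N 0 :=
    ⟨(natDegree_C_mul_le c Z).trans hZ.le,
      coeff_eq_zero_of_natDegree_lt (lt_of_le_of_lt (natDegree_C_mul_le c Z) hZ)⟩
  have hGtop : HasTop G N (1 - 0) := hX.sub hZ0
  have hGN : G.coeff N = 1 := by rw [hGtop.2, sub_zero]
  have hG0 : G ≠ 0 := by
    rintro h
    rw [h, coeff_zero] at hGN
    exact zero_ne_one hGN
  have hdeg : G.natDegree = N :=
    le_antisymm hGtop.1 (le_natDegree_of_ne_zero (by rw [hGN]; exact one_ne_zero))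
  have hnodup : G.roots.Nodup := by
    rw [Multiset.nodup_iff_count_le_one]
    intro t
    rw [count_roots]
    by_contra hlt
    rw [not_le] at hlt
    obtain ⟨r0, r1⟩ := (one_lt_rootMultiplicity_iff_isRoot hG0).1 hlt
    have e0 : X.eval t = c * Z.eval t := by
      have : G.eval t = 0 := r0
      rw [hG, eval_sub, eval_mul, eval_C] at this
      exact sub_eq_zero.1 this
    have e1 : (derivative X).eval t = c * (derivative Z).eval t := by
      have : (derivative G).eval t = 0 := r1
      rw [hG, derivative_sub, derivative_C_mul, eval_sub, eval_mul, eval_C] at this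
      exact sub_eq_zero.1 this
    have hZt : Z.eval t ≠ 0 := by
      intro h
      exact hco t ⟨by rw [e0, h, mul_zero], h⟩
    have hwt : w.eval t = 0 := by
      rw [hwdef, eval_sub, eval_mul, eval_mul, e0, e1]
      ring
    apply hc
    rw [hB, Finset.mem_image]
    refine ⟨t, ?_, ?_⟩
    · rw [Multiset.mem_toFinset, mem_roots hw]
      exact hwt
    · rw [e0]
      field_simp
  rw [Multiset.toFinset_card_of_nodup hnodup, IsAlgClosed.card_roots_eq_natDegree, hdeg]

/-- the Wronskian of the ladder pair is nonzero in characteristic `0` -/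
lemma ladder_wronskian_ne_zero [CharZero K] (a₂ a₄ : K) {n : ℕ} (hn : 2 ≤ n) :
    derivative (ladder a₂ a₄ n).1 * (ladder a₂ a₄ n).2 -
      (ladder a₂ a₄ n).1 * derivative (ladder a₂ a₄ n).2 ≠ 0 := by
  have sh := ladder_shape a₂ a₄ n (by omega)
  obtain ⟨M, hM⟩ : ∃ M, n ^ 2 = M + 1 + 1 := by
    refine ⟨n ^ 2 - 2, ?_⟩
    have : 2 * 2 ≤ n * n := Nat.mul_le_mul hn hn
    rw [pow_two]
    omega
  have hX : HasTop (ladder a₂ a₄ n).1 (M + 1 + 1) 1 := sh.topX.congr hM rfl
  have hZ : HasTop (ladder a₂ a₄ n).2 (M + 1) ((n : K) ^ 2) := sh.topZ.congr (by omega) rfl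
  have hX' := hasTop_derivative hX
  have hZ' := hasTop_derivative hZ
  have h1 := hX'.mul hZ
  have h2 := (hX.mul hZ').congr (by ring : M + 1 + 1 + M = M + 1 + (M + 1)) rfl
  have h3 := h1.sub h2
  intro h0
  have := h3.2
  rw [h0, coeff_zero] at this
  have hn0 : (n : K) ≠ 0 := by exact_mod_cast (by omega : n ≠ 0)
  apply pow_ne_zero 2 hn0
  push_cast at this
  linear_combination -this

end Poly

section Count

variable {K : Type*} [Field K] [DecidableEq K] {W : WeierstrassCurve K}

/-- the points above a root of `Xₙ - c Zₙ` -/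
lemma exists_point_above [IsAlgClosed K] (hW : IsModel W) (hΔ : W.Δ ≠ 0) (h2 : (2 : K) ≠ 0)
    {n : ℕ} (hn : 1 ≤ n) {c t : K}
    (ht : ((ladder W.a₂ W.a₄ n).1 - C c * (ladder W.a₂ W.a₄ n).2).eval t = 0) :
    ∃ (y : K) (h : W.toAffine.Nonsingular t y) (η : K) (h' : W.toAffine.Nonsingular c η),
      n • Affine.Point.some t y h = Affine.Point.some c η h' := by
  obtain ⟨y, h⟩ := exists_point_of_x hW hΔ t
  have e0 : (ladder W.a₂ W.a₄ n).1.eval t = c * (ladder W.a₂ W.a₄ n).2.eval t := by
    rw [eval_sub, eval_mul, eval_C] at ht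
    exact sub_eq_zero.1 ht
  have hne := ladder_eval_ne_zero hW hΔ h2 h n hn
  have hZ : (ladder W.a₂ W.a₄ n).2.eval t ≠ 0 := fun hz => hne ⟨by rw [e0, hz, mul_zero], hz⟩
  have hrep := ladder_rep hW hΔ h2 h n hn
  rcases hQ : n • Affine.Point.some t y h with _ | ⟨ξ, η, h'⟩
  · rw [hQ] at hrep
    exact absurd hrep.1 hZ
  · rw [hQ] at hrep
    obtain ⟨-, e⟩ := hrep
    have : ξ = c := mul_right_cancel₀ hZ (e.trans e0)
    subst this
    exact ⟨y, h, η, h', hQ⟩

/-- **lower bound**: at least `n²` points are killed by `n` -/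
theorem card_torsion_ge [IsAlgClosed K] [CharZero K] (hW : IsModel W) (hΔ : W.Δ ≠ 0) {n : ℕ}
    (hn : 2 ≤ n) (hfin : Set.Finite {Q : W.toAffine.Point | n • Q = 0}) :
    n ^ 2 ≤ Set.ncard {Q : W.toAffine.Point | n • Q = 0} := by
  have h2 : (2 : K) ≠ 0 := two_ne_zero
  have sh := ladder_shape W.a₂ W.a₄ n (by omega)
  have hnpos : 0 < n ^ 2 := by positivity
  have hZlt : (ladder W.a₂ W.a₄ n).2.natDegree < n ^ 2 :=
    lt_of_le_of_lt sh.topZ.1 (by omega)
  obtain ⟨c, hc⟩ := exists_fibre sh.topX hZlt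
    (fun t => by
      obtain ⟨y, h⟩ := exists_point_of_x hW hΔ t
      exact ladder_eval_ne_zero hW hΔ h2 h n (by omega))
    (ladder_wronskian_ne_zero W.a₂ W.a₄ hn)
  set G := (ladder W.a₂ W.a₄ n).1 - C c * (ladder W.a₂ W.a₄ n).2 with hG
  set A := G.roots.toFinset with hA
  have hG0 : G ≠ 0 := by
    rintro h
    rw [hA, h, roots_zero, Multiset.toFinset_zero, Finset.card_empty] at hc
    omega
  have hroot : ∀ t ∈ A, G.eval t = 0 := fun t ht =>
    (mem_roots hG0).1 (Multiset.mem_toFinset.1 ht)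
  have hAne : A.Nonempty := by
    rw [← Finset.card_pos, hc]
    exact hnpos
  obtain ⟨t₁, ht₁⟩ := hAne
  obtain ⟨y₁, h₁, d, hR, e₁⟩ := exists_point_above hW hΔ h2 (by omega : 1 ≤ n) (hroot t₁ ht₁)
  have key : ∀ t ∈ A, ∃ P : W.toAffine.Point,
      (∃ y h, P = Affine.Point.some t y h) ∧ n • P = Affine.Point.some c d hR := by
    intro t ht
    obtain ⟨y, h, η, h', e⟩ := exists_point_above hW hΔ h2 (by omega : 1 ≤ n) (hroot t ht)
    rcases eq_or_eq_neg_of_x_eq hW h' hR with h3 | h3
    · exact ⟨_, ⟨y, h, rfl⟩, e.trans h3⟩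
    · obtain ⟨hn', en⟩ := hW.neg_some h
      refine ⟨-(Affine.Point.some t y h), ⟨-y, hn', en⟩, ?_⟩
      rw [smul_neg, e, h3, neg_neg]
  choose! φ hφ1 hφ2 using key
  have hinj : Set.InjOn (fun t => φ t - φ t₁) (A : Set K) := by
    intro t ht t' ht' hEq
    have hEq' : φ t = φ t' := sub_left_injective hEq
    obtain ⟨y, h, e⟩ := hφ1 t ht
    obtain ⟨y', h', e'⟩ := hφ1 t' ht'
    rw [e, e'] at hEq'
    simp only [Affine.Point.some.injEq] at hEq'
    exact hEq'.1
  have hmaps : ∀ t ∈ A, (fun t => φ t - φ t₁) t ∈ hfin.toFinset := by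
    intro t ht
    rw [Set.Finite.mem_toFinset, Set.mem_ofPred_eq, smul_sub, hφ2 t ht, hφ2 t₁ ht₁, sub_self]
  have := Finset.card_le_card_of_injOn _ hmaps hinj
  rw [hc] at this
  rwa [Set.ncard_eq_toFinset_card _ hfin]

/-- **(T3)**: on the model curve exactly `p²` points are killed by the odd prime `p` -/
theorem card_torsion_eq [IsAlgClosed K] [CharZero K] (hW : IsModel W) (hΔ : W.Δ ≠ 0) {p : ℕ}
    (hp : p.Prime) (hp2 : p ≠ 2) :
    Set.Finite {Q : W.toAffine.Point | p • Q = 0} ∧
      Set.ncard {Q : W.toAffine.Point | p • Q = 0} = p ^ 2 := by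
  obtain ⟨hfin, hle⟩ := card_torsion_le hW hp hp2
  exact ⟨hfin, le_antisymm hle (card_torsion_ge hW hΔ hp.two_le hfin)⟩

end Count

end Fermat.Agent.S41.P6a
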